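import Mathlib
import Fermat.Agent.CFT.Herbrand

/-!
# PROJECT C, slice B5: the index of the `p`-th powers in the units of a local field

* Abstract part: for a commutative group `G`, the quotient `[G : Gⁿ] / |G[n]|` is the Herbrand
  quotient of the pair `(0, n)` on `Additive G`; it is insensitive to passing to subgroups of
  finite index and multiplicative in short exact sequences.
* Local part: `O` a complete discrete valuation ring with finite residue field `k`, `p` a prime
  number with `(p) = 𝔪 ^ e`.  For `m > e` the `p`-th power map is a bijection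
  `U^(m) → U^(m+e)` of higher unit groups, hence `[Oˣ : (Oˣ)ᵖ] = |μ_p(O)| * |k| ^ e` and, for the
  fraction field `K`, `[Kˣ : (Kˣ)ᵖ] = p * |μ_p(K)| * |k| ^ e`.
-/

set_option autoImplicit false

namespace Fermat.Agent.CFT.Local.PowIndex

open Fermat.Agent.CFT.Herbrand

/-! ### Abstract part -/

section Abstract

variable (G : Type*) [CommGroup G] (n : ℕ)

/-- `[G : Gⁿ]` (`0` if infinite). -/
noncomputable def powIdx : ℕ := (powMonoidHom n : G →* G).range.index

/-- `|G[n]|` (`0` if infinite). -/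
noncomputable def powTor : ℕ := Nat.card (powMonoidHom n : G →* G).ker

/-- Both `[G : Gⁿ]` and `|G[n]|` are finite. -/
def PowDefined : Prop := powIdx G n ≠ 0 ∧ powTor G n ≠ 0

theorem range_nsmul :
    (nsmulAddMonoidHom n : Additive G →+ Additive G).range =
      Subgroup.toAddSubgroup (powMonoidHom n : G →* G).range := by
  ext x
  constructor
  · rintro ⟨y, rfl⟩
    exact ⟨Additive.toMul y, rfl⟩
  · rintro ⟨y, hy⟩
    exact ⟨Additive.ofMul y, hy⟩

theorem ker_nsmul :
    (nsmulAddMonoidHom n : Additive G →+ Additive G).ker =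
      Subgroup.toAddSubgroup (powMonoidHom n : G →* G).ker := by
  ext x
  rfl

theorem card_toAddSubgroup (H : Subgroup G) :
    Nat.card (Subgroup.toAddSubgroup H) = Nat.card H :=
  Nat.card_congr (Equiv.subtypeEquiv Additive.toMul (fun _ => Iff.rfl))

theorem idx_zero_nsmul :
    idx (0 : Additive G →+ Additive G) (nsmulAddMonoidHom n) = powIdx G n := by
  rw [idx_zero_left, range_nsmul, Subgroup.index_toAddSubgroup]
  rfl

theorem idx_nsmul_zero :
    idx (nsmulAddMonoidHom n) (0 : Additive G →+ Additive G) = powTor G n := by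
  rw [idx_zero_right, ker_nsmul, card_toAddSubgroup]
  rfl

theorem isDefined_iff :
    IsDefined (0 : Additive G →+ Additive G) (nsmulAddMonoidHom n) ↔ PowDefined G n := by
  rw [IsDefined, idx_zero_nsmul, idx_nsmul_zero]
  rfl

theorem herbrand_eq :
    herbrand (0 : Additive G →+ Additive G) (nsmulAddMonoidHom n) =
      (powIdx G n : ℚ) / (powTor G n : ℚ) := by
  rw [herbrand, idx_zero_nsmul, idx_nsmul_zero]

variable {G n}

theorem map_nsmul_toAddSubgroup (H : Subgroup G) :
    (Subgroup.toAddSubgroup H).map (nsmulAddMonoidHom n : Additive G →+ Additive G) =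
      Subgroup.toAddSubgroup (H.map (powMonoidHom n : G →* G)) := by
  ext x
  constructor
  · rintro ⟨y, hy, rfl⟩
    exact ⟨Additive.toMul y, hy, rfl⟩
  · rintro ⟨y, hy, hyx⟩
    exact ⟨Additive.ofMul y, hy, hyx⟩

theorem idxSub_zero_nsmul (H : Subgroup G) :
    idxSub (0 : Additive G →+ Additive G) (nsmulAddMonoidHom n) (Subgroup.toAddSubgroup H) =
      (H.map (powMonoidHom n : G →* G)).relIndex H := by
  rw [idxSub, AddMonoidHom.ker_zero, top_inf_eq, map_nsmul_toAddSubgroup,
    Subgroup.relIndex_toAddSubgroup]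

theorem idxSub_nsmul_zero (H : Subgroup G) :
    idxSub (nsmulAddMonoidHom n) (0 : Additive G →+ Additive G) (Subgroup.toAddSubgroup H) =
      Nat.card ↥((powMonoidHom n : G →* G).ker ⊓ H) := by
  have h0 : (Subgroup.toAddSubgroup H).map (0 : Additive G →+ Additive G) = ⊥ := by
    ext x
    constructor
    · rintro ⟨y, -, rfl⟩
      rfl
    · intro hx
      rw [AddSubgroup.mem_bot] at hx
      exact ⟨0, (Subgroup.toAddSubgroup H).zero_mem, hx.symm⟩
  have h1 : (nsmulAddMonoidHom n : Additive G →+ Additive G).ker ⊓ Subgroup.toAddSubgroup H =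
      Subgroup.toAddSubgroup ((powMonoidHom n : G →* G).ker ⊓ H) := by
    ext x
    rfl
  rw [idxSub, h0, AddSubgroup.relIndex_bot_left, h1, card_toAddSubgroup]

/-- **Finite-index subgroups**: if `[H : Hⁿ] = a` and `|H[n]| = b` are finite and `H` has finite
index in `G`, then `[G : Gⁿ]` and `|G[n]|` are finite and `[G : Gⁿ] * b = a * |G[n]|`. -/
theorem powDefined_of_subgroup (H : Subgroup G) (hH : H.index ≠ 0) {a b : ℕ}
    (ha : (H.map (powMonoidHom n : G →* G)).relIndex H = a)
    (hb : Nat.card ↥((powMonoidHom n : G →* G).ker ⊓ H) = b) (ha0 : a ≠ 0) (hb0 : b ≠ 0) :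
    PowDefined G n ∧ powIdx G n * b = a * powTor G n := by
  have hfg : ∀ x : Additive G, (0 : Additive G →+ Additive G) (nsmulAddMonoidHom n x) = 0 :=
    fun _ => rfl
  have hgf : ∀ x : Additive G,
      (nsmulAddMonoidHom n : Additive G →+ Additive G) ((0 : Additive G →+ Additive G) x) = 0 :=
    fun _ => map_zero _
  have hf : ∀ x ∈ Subgroup.toAddSubgroup H, (0 : Additive G →+ Additive G) x ∈
      Subgroup.toAddSubgroup H := fun _ _ => (Subgroup.toAddSubgroup H).zero_mem
  have hg : ∀ x ∈ Subgroup.toAddSubgroup H,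
      (nsmulAddMonoidHom n : Additive G →+ Additive G) x ∈ Subgroup.toAddSubgroup H :=
    fun x hx => (Subgroup.toAddSubgroup H).nsmul_mem hx n
  have hidx : (Subgroup.toAddSubgroup H).index ≠ 0 := by
    rwa [Subgroup.index_toAddSubgroup]
  have hsub : IsDefinedSub (0 : Additive G →+ Additive G) (nsmulAddMonoidHom n)
      (Subgroup.toAddSubgroup H) := by
    rw [IsDefinedSub, idxSub_zero_nsmul, idxSub_nsmul_zero, ha, hb]
    exact ⟨ha0, hb0⟩
  have hdef := (isDefined_iff_isDefinedSub _ _ _ hfg hgf hf hg hidx).mpr hsub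
  have hdef' := (isDefined_iff G n).mp hdef
  refine ⟨hdef', ?_⟩
  have hh := herbrand_eq_herbrandSub _ _ _ hfg hgf hf hg hidx
  rw [herbrand_eq, herbrandSub, idxSub_zero_nsmul, idxSub_nsmul_zero, ha, hb] at hh
  have hb' : (b : ℚ) ≠ 0 := by exact_mod_cast hb0
  have ht' : (powTor G n : ℚ) ≠ 0 := by exact_mod_cast hdef'.2
  rw [div_eq_div_iff ht' hb'] at hh
  exact_mod_cast hh

theorem int_pair (hn : n ≠ 0) :
    IsDefined (0 : ℤ →+ ℤ) (nsmulAddMonoidHom n) ∧
      herbrand (0 : ℤ →+ ℤ) (nsmulAddMonoidHom n) = n := by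
  obtain ⟨-, -, hd, hh⟩ := herbrand_int n hn
  have e1 : delta (AddMonoidHom.id ℤ) = 0 := delta_id
  have e2 : nrm (AddMonoidHom.id ℤ) n = nsmulAddMonoidHom n := by
    ext
    rw [nrm_id_apply, nsmulAddMonoidHom_apply]
  rw [hcyc] at hh
  rw [e1, e2] at hd hh
  exact ⟨hd, hh⟩

/-- **Extensions by `ℤ`**: if `1 → U → G → ℤ → 0` is exact (`φ` injective, `ψ` onto,
`range φ = ker ψ`) and `[U : Uⁿ]`, `|U[n]|` are finite, then so are `[G : Gⁿ]`, `|G[n]|`, and
`[G : Gⁿ] * |U[n]| = n * [U : Uⁿ] * |G[n]|`. -/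
theorem powDefined_of_exact_int {U : Type*} [CommGroup U] (φ₀ : U →* G)
    (hφ : Function.Injective φ₀) (ψ : G →* Multiplicative ℤ) (hψ : Function.Surjective ψ)
    (hex : φ₀.range = ψ.ker) (hn : n ≠ 0) (hker : PowDefined U n) :
    PowDefined G n ∧ powIdx G n * powTor U n = n * powIdx U n * powTor G n := by
  let φ : Additive U →+ Additive G := MonoidHom.toAdditive φ₀
  let ψ' : Additive G →+ ℤ :=
    (AddEquiv.additiveMultiplicative ℤ).toAddMonoidHom.comp (MonoidHom.toAdditive ψ)
  have hψ' : ∀ x : Additive G, ψ' x = Multiplicative.toAdd (ψ (Additive.toMul x)) := fun _ => rfl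
  have hses : IsSES φ ψ' (0 : Additive U →+ Additive U) (nsmulAddMonoidHom n)
      (0 : Additive G →+ Additive G) (nsmulAddMonoidHom n)
      (0 : ℤ →+ ℤ) (nsmulAddMonoidHom n) := by
    refine ⟨?_, ?_, ?_, fun _ => rfl, fun _ => map_zero _, fun _ => ?_, fun a => ?_, fun _ => ?_,
      fun a => ?_⟩
    · intro a b hab
      exact hφ hab
    · intro k
      obtain ⟨x, hx⟩ := hψ (Multiplicative.ofAdd k)
      refine ⟨Additive.ofMul x, ?_⟩
      rw [hψ', toMul_ofMul, hx, toAdd_ofAdd]
    · ext x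
      constructor
      · rintro ⟨y, rfl⟩
        have hy : φ₀ (Additive.toMul y) ∈ ψ.ker := by
          rw [← hex]
          exact ⟨_, rfl⟩
        have hy' : ψ (φ₀ (Additive.toMul y)) = 1 := hy
        show ψ' (φ y) = 0
        rw [hψ']
        show Multiplicative.toAdd (ψ (φ₀ (Additive.toMul y))) = 0
        rw [hy']
        rfl
      · intro hx
        have hx' : Multiplicative.toAdd (ψ (Additive.toMul x)) = 0 := hx
        have hx'' : Additive.toMul x ∈ ψ.ker := by
          rw [MonoidHom.mem_ker]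
          apply Multiplicative.toAdd.injective
          rw [hx']
          rfl
        rw [← hex] at hx''
        obtain ⟨u, hu⟩ := hx''
        exact ⟨Additive.ofMul u, hu⟩
    · rw [AddMonoidHom.zero_apply, AddMonoidHom.zero_apply, map_zero]
    · rw [nsmulAddMonoidHom_apply, nsmulAddMonoidHom_apply, map_nsmul]
    · rw [AddMonoidHom.zero_apply, AddMonoidHom.zero_apply, map_zero]
    · rw [nsmulAddMonoidHom_apply, nsmulAddMonoidHom_apply, map_nsmul]
  obtain ⟨hint, hint'⟩ := int_pair (n := n) hn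
  obtain ⟨hdef, hmul⟩ := hses.isDefined_mid ((isDefined_iff U n).mpr hker) hint
  have hdef' := (isDefined_iff G n).mp hdef
  refine ⟨hdef', ?_⟩
  rw [herbrand_eq, herbrand_eq, hint'] at hmul
  have h1 : (powTor G n : ℚ) ≠ 0 := by exact_mod_cast hdef'.2
  have h2 : (powTor U n : ℚ) ≠ 0 := by exact_mod_cast hker.2
  rw [div_mul_eq_mul_div, div_eq_div_iff h1 h2] at hmul
  have : (powIdx G n : ℚ) * powTor U n = n * powIdx U n * powTor G n := by
    rw [hmul]
    ring
  exact_mod_cast this

/-- Special case `U = ker ψ`. -/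
theorem powDefined_of_surjective_int (ψ : G →* Multiplicative ℤ) (hψ : Function.Surjective ψ)
    (hn : n ≠ 0) (hker : PowDefined ψ.ker n) :
    PowDefined G n ∧ powIdx G n * powTor ψ.ker n = n * powIdx ψ.ker n * powTor G n :=
  powDefined_of_exact_int ψ.ker.subtype ψ.ker.subtype_injective ψ hψ ψ.ker.range_subtype hn hker

end Abstract

/-! ### Higher unit groups of a local ring -/

section Units

variable {O : Type*} [CommRing O] [IsLocalRing O]

open IsLocalRing

/-- The higher unit group `U^(m) = 1 + 𝔪^m` (all units for `m = 0`). -/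
def higherUnits (O : Type*) [CommRing O] [IsLocalRing O] (m : ℕ) : Subgroup Oˣ :=
  (Units.map (Ideal.Quotient.mk (maximalIdeal O ^ m) : O →* O ⧸ maximalIdeal O ^ m)).ker

theorem mem_higherUnits {m : ℕ} {x : Oˣ} :
    x ∈ higherUnits O m ↔ (x : O) - 1 ∈ maximalIdeal O ^ m := by
  rw [higherUnits, MonoidHom.mem_ker, Units.ext_iff, Units.coe_map, Units.val_one]
  show Ideal.Quotient.mk (maximalIdeal O ^ m) (x : O) = 1 ↔ _
  rw [← map_one (Ideal.Quotient.mk (maximalIdeal O ^ m)), Ideal.Quotient.eq]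

theorem higherUnits_anti {m m' : ℕ} (h : m ≤ m') : higherUnits O m' ≤ higherUnits O m := by
  intro x hx
  rw [mem_higherUnits] at hx ⊢
  exact Ideal.pow_le_pow_right h hx

/-- An element congruent to `1` modulo `𝔪` is a unit. -/
theorem isUnit_of_sub_one_mem {x : O} (hx : x - 1 ∈ maximalIdeal O) : IsUnit x := by
  by_contra h
  have hx' : x ∈ maximalIdeal O := (mem_maximalIdeal x).mpr h
  have : (1 : O) ∈ maximalIdeal O := by
    have := (maximalIdeal O).sub_mem hx' hx
    rwa [sub_sub_cancel] at this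
  exact (maximalIdeal.isMaximal O).ne_top ((Ideal.eq_top_iff_one _).mpr this)

theorem index_higherUnits_ne_zero (m : ℕ) [Finite (O ⧸ maximalIdeal O ^ m)] :
    (higherUnits O m).index ≠ 0 := by
  rw [higherUnits, Subgroup.index_ker]
  exact Nat.card_pos.ne'

end Units

/-! ### The `p`-th power map on higher unit groups -/

section PowerMap

open IsLocalRing

/-- Binomial expansion up to second order. -/
theorem exists_add_pow_succ_eq {R : Type*} [CommRing R] (a s : R) (n : ℕ) :
    ∃ c : R, (a + s) ^ (n + 1) = a ^ (n + 1) + ((n + 1 : ℕ) : R) * a ^ n * s + s ^ 2 * c := by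
  induction n with
  | zero => exact ⟨0, by simp⟩
  | succ n ih =>
    obtain ⟨c, hc⟩ := ih
    refine ⟨a * c + ((n + 1 : ℕ) : R) * a ^ n + s * c, ?_⟩
    rw [pow_succ (a + s) (n + 1), hc]
    push_cast
    ring

variable {O : Type*} [CommRing O] [IsDomain O] [IsDiscreteValuationRing O] {p e : ℕ}

theorem natCast_mem (hp : Ideal.span {(p : O)} = maximalIdeal O ^ e) :
    (p : O) ∈ maximalIdeal O ^ e := by
  rw [← hp]
  exact Ideal.mem_span_singleton_self _

theorem natCast_notMem (hp : Ideal.span {(p : O)} = maximalIdeal O ^ e) :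
    (p : O) ∉ maximalIdeal O ^ (e + 1) := by
  intro h
  have h1 : maximalIdeal O ^ e ≤ maximalIdeal O ^ (e + 1) := by
    rw [← hp, Ideal.span_singleton_le_iff_mem]
    exact h
  exact not_le_of_gt (Ideal.pow_succ_lt_pow (IsDiscreteValuationRing.not_a_field O) e) h1

theorem exists_eq_natCast_mul (hp : Ideal.span {(p : O)} = maximalIdeal O ^ e) {k : ℕ} {x : O}
    (hx : x ∈ maximalIdeal O ^ (e + k)) : ∃ r ∈ maximalIdeal O ^ k, x = (p : O) * r := by
  rw [pow_add, ← hp, Ideal.mem_span_singleton_mul] at hx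
  obtain ⟨z, hz, hzx⟩ := hx
  exact ⟨z, hz, hzx.symm⟩

/-- **Injectivity**: an element of `1 + 𝔪^(e+1)` whose `p`-th power is `1` equals `1`. -/
theorem eq_one_of_pow_eq_one (hp : Ideal.span {(p : O)} = maximalIdeal O ^ e) (hp0 : p ≠ 0)
    {x : O} (hx : x - 1 ∈ maximalIdeal O ^ (e + 1)) (hxp : x ^ p = 1) : x = 1 := by
  obtain ⟨n, rfl⟩ := Nat.exists_eq_succ_of_ne_zero hp0
  obtain ⟨c, hc⟩ := exists_add_pow_succ_eq (1 : O) (x - 1) n
  rw [add_sub_cancel, hxp, one_pow, one_pow, mul_one] at hc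
  have h0 : (x - 1) * (((n + 1 : ℕ) : O) + (x - 1) * c) = 0 := by
    linear_combination -hc
  rcases mul_eq_zero.mp h0 with h | h
  · exact sub_eq_zero.mp h
  · exfalso
    apply natCast_notMem hp
    have : ((n + 1 : ℕ) : O) = -((x - 1) * c) := by linear_combination h
    rw [Nat.succ_eq_add_one, this]
    exact (maximalIdeal O ^ (e + 1)).neg_mem (Ideal.mul_mem_right _ _ hx)

/-- The `p`-th power of an element of `1 + 𝔪^m`, `m ≥ e`, lies in `1 + 𝔪^(m+e)`. -/
theorem pow_sub_one_mem (hp : Ideal.span {(p : O)} = maximalIdeal O ^ e) (hp0 : p ≠ 0)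
    {m : ℕ} (hm : e ≤ m) {x : O} (hx : x - 1 ∈ maximalIdeal O ^ m) :
    x ^ p - 1 ∈ maximalIdeal O ^ (m + e) := by
  obtain ⟨n, rfl⟩ := Nat.exists_eq_succ_of_ne_zero hp0
  obtain ⟨c, hc⟩ := exists_add_pow_succ_eq (1 : O) (x - 1) n
  rw [add_sub_cancel, one_pow, one_pow, mul_one] at hc
  have h1 : x ^ (n + 1) - 1 = ((n + 1 : ℕ) : O) * (x - 1) + (x - 1) ^ 2 * c := by
    linear_combination hc
  rw [Nat.succ_eq_add_one, h1]
  refine Ideal.add_mem _ ?_ (Ideal.mul_mem_right _ _ ?_)
  · rw [add_comm m e, pow_add]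
    exact Ideal.mul_mem_mul (natCast_mem hp) hx
  · have : (x - 1) ^ 2 ∈ maximalIdeal O ^ (m + m) := by
      rw [pow_two, pow_add]
      exact Ideal.mul_mem_mul hx hx
    exact Ideal.pow_le_pow_right (by omega) this

/-- Newton step for the equation `x ^ p = y`. -/
theorem exists_next (hp : Ideal.span {(p : O)} = maximalIdeal O ^ e) (hp0 : p ≠ 0)
    {m : ℕ} (hm : e < m) (y : O) (n : ℕ) {x : O} (hx1 : x - 1 ∈ maximalIdeal O ^ m)
    (hx : x ^ p - y ∈ maximalIdeal O ^ (m + e + n)) :
    ∃ x' : O, x' - x ∈ maximalIdeal O ^ (m + n) ∧ x' ^ p - y ∈ maximalIdeal O ^ (m + e + (n + 1)) := by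
  obtain ⟨k, rfl⟩ := Nat.exists_eq_succ_of_ne_zero hp0
  have hxu : IsUnit x :=
    isUnit_of_sub_one_mem (Ideal.pow_le_self (by omega : m ≠ 0) hx1)
  obtain ⟨v, hv⟩ := (hxu.pow k).exists_right_inv
  have hx' : x ^ (k + 1) - y ∈ maximalIdeal O ^ (e + (m + n)) := by
    have : m + e + n = e + (m + n) := by omega
    rwa [this] at hx
  obtain ⟨r, hr, hxr⟩ := exists_eq_natCast_mul hp hx'
  obtain ⟨c, hc⟩ := exists_add_pow_succ_eq x (-(r * v)) k
  refine ⟨x + -(r * v), ?_, ?_⟩
  · rw [add_sub_cancel_left]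
    exact (maximalIdeal O ^ (m + n)).neg_mem (Ideal.mul_mem_right _ _ hr)
  · have h1 : (x + -(r * v)) ^ (k + 1) - y = (-(r * v)) ^ 2 * c := by
      rw [hc]
      have h2 : x ^ (k + 1) = y + ((k + 1 : ℕ) : O) * r := by
        rw [Nat.succ_eq_add_one] at hxr
        linear_combination hxr
      rw [h2]
      linear_combination (-(((k + 1 : ℕ) : O)) * r) * hv
    rw [Nat.succ_eq_add_one, h1]
    refine Ideal.mul_mem_right _ _ ?_
    have h3 : (-(r * v)) ^ 2 ∈ maximalIdeal O ^ ((m + n) + (m + n)) := by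
      rw [pow_two, pow_add]
      have : -(r * v) ∈ maximalIdeal O ^ (m + n) :=
        (maximalIdeal O ^ (m + n)).neg_mem (Ideal.mul_mem_right _ _ hr)
      exact Ideal.mul_mem_mul this this
    exact Ideal.pow_le_pow_right (by omega) h3

/-- **Surjectivity**: in a complete discrete valuation ring with `(p) = 𝔪^e`, every element of
`1 + 𝔪^(m+e)`, `m > e`, is the `p`-th power of an element of `1 + 𝔪^m`. -/
theorem exists_pow_eq [IsAdicComplete (maximalIdeal O) O]
    (hp : Ideal.span {(p : O)} = maximalIdeal O ^ e) (hp0 : p ≠ 0)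
    {m : ℕ} (hm : e < m) {y : O} (hy : y - 1 ∈ maximalIdeal O ^ (m + e)) :
    ∃ x : O, x - 1 ∈ maximalIdeal O ^ m ∧ x ^ p = y := by
  have step : ∀ (n : ℕ) (x : {x : O // x - 1 ∈ maximalIdeal O ^ m ∧
        x ^ p - y ∈ maximalIdeal O ^ (m + e + n)}),
      ∃ x' : {x : O // x - 1 ∈ maximalIdeal O ^ m ∧
        x ^ p - y ∈ maximalIdeal O ^ (m + e + (n + 1))},
        (x' : O) - x ∈ maximalIdeal O ^ (m + n) := by
    rintro n ⟨x, hx1, hx⟩
    obtain ⟨x', h1, h2⟩ := exists_next hp hp0 hm y n hx1 hx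
    refine ⟨⟨x', ?_, h2⟩, h1⟩
    have : x' - 1 = (x' - x) + (x - 1) := by ring
    rw [this]
    exact Ideal.add_mem _ (Ideal.pow_le_pow_right (by omega) h1) hx1
  choose next hnext using step
  have h0 : (1 : O) - 1 ∈ maximalIdeal O ^ m ∧
      (1 : O) ^ p - y ∈ maximalIdeal O ^ (m + e + 0) := by
    refine ⟨by simp, ?_⟩
    have : (1 : O) ^ p - y = -(y - 1) := by ring
    rw [this, add_zero]
    exact (maximalIdeal O ^ (m + e)).neg_mem hy
  let seq : ∀ n : ℕ, {x : O // x - 1 ∈ maximalIdeal O ^ m ∧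
      x ^ p - y ∈ maximalIdeal O ^ (m + e + n)} :=
    fun n => Nat.rec ⟨1, h0⟩ (fun n x => next n x) n
  let f : ℕ → O := fun n => (seq n).1
  have hf1 : ∀ n, f n - 1 ∈ maximalIdeal O ^ m := fun n => (seq n).2.1
  have hf2 : ∀ n, f n ^ p - y ∈ maximalIdeal O ^ (m + e + n) := fun n => (seq n).2.2
  have hseq : ∀ n, f (n + 1) - f n ∈ maximalIdeal O ^ (m + n) :=
    fun n => hnext n (seq n)
  clear_value f
  have hcauchy : ∀ a k : ℕ, f (a + k) - f a ∈ maximalIdeal O ^ a := by
    intro a k
    induction k with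
    | zero => simp
    | succ k ih =>
      have : f (a + (k + 1)) - f a = (f (a + k + 1) - f (a + k)) + (f (a + k) - f a) := by
        rw [← add_assoc]
        ring
      rw [this]
      exact Ideal.add_mem _ (Ideal.pow_le_pow_right (by omega) (hseq (a + k))) ih
  obtain ⟨L, hL⟩ := IsPrecomplete.prec' (I := maximalIdeal O) (M := O) f (by
      intro a b hab
      obtain ⟨k, rfl⟩ := Nat.exists_eq_add_of_le hab
      rw [SModEq.sub_mem, smul_eq_mul, Ideal.mul_top]
      have := hcauchy a k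
      have h' : f a - f (a + k) = -(f (a + k) - f a) := by ring
      rw [h']
      exact (maximalIdeal O ^ a).neg_mem this)
  have hL' : ∀ n, f n - L ∈ maximalIdeal O ^ n := by
    intro n
    have := hL n
    rwa [SModEq.sub_mem, smul_eq_mul, Ideal.mul_top] at this
  refine ⟨L, ?_, ?_⟩
  · have : L - 1 = -(f m - L) + (f m - 1) := by ring
    rw [this]
    exact Ideal.add_mem _ ((maximalIdeal O ^ m).neg_mem (hL' m)) (hf1 m)
  · have hz : L ^ p - y = 0 := by
      apply IsHausdorff.haus' (I := maximalIdeal O) (M := O)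
      intro n
      rw [SModEq.sub_mem, sub_zero, smul_eq_mul, Ideal.mul_top]
      have h1 : L ^ p - y = -(f n ^ p - L ^ p) + (f n ^ p - y) := by ring
      rw [h1]
      refine Ideal.add_mem _ ((maximalIdeal O ^ n).neg_mem ?_)
        (Ideal.pow_le_pow_right (by omega) (hf2 n))
      obtain ⟨d, hd⟩ := sub_dvd_pow_sub_pow (f n) L p
      rw [hd]
      exact Ideal.mul_mem_right _ _ (hL' n)
    exact sub_eq_zero.mp hz

end PowerMap

/-! ### The index `[U^(m) : U^(m+e)]` -/

section Index

open IsLocalRing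

variable {O : Type*} [CommRing O] [IsDomain O] [IsDiscreteValuationRing O]

theorem card_quot_pow (n : ℕ) :
    Nat.card (O ⧸ maximalIdeal O ^ n) = Nat.card (ResidueField O) ^ n := by
  have h := cardQuot_pow_of_prime (P := maximalIdeal O)
    (IsDiscreteValuationRing.not_a_field O) (i := n)
  rw [Submodule.cardQuot_apply, Submodule.cardQuot_apply] at h
  exact h

theorem finite_quot_pow [Finite (ResidueField O)] (n : ℕ) :
    Finite (O ⧸ maximalIdeal O ^ n) := by
  apply Nat.finite_of_card_ne_zero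
  rw [card_quot_pow]
  exact pow_ne_zero _ Nat.card_pos.ne'

/-- The homomorphism `U^(m) → (O ⧸ 𝔪^(m+e), +)`, `x ↦ x - 1`, for `e ≤ m`. -/
noncomputable def subOne (O : Type*) [CommRing O] [IsDomain O] [IsDiscreteValuationRing O]
    (m e : ℕ) (hm : e ≤ m) :
    ↥(higherUnits O m) →* Multiplicative (O ⧸ maximalIdeal O ^ (m + e)) where
  toFun x := Multiplicative.ofAdd (Ideal.Quotient.mk (maximalIdeal O ^ (m + e)) (((x : Oˣ) : O) - 1))
  map_one' := by
    simp
  map_mul' x y := by
    rw [← ofAdd_add, ← map_add]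
    congr 1
    rw [Ideal.Quotient.eq]
    have hx := mem_higherUnits.mp x.2
    have hy := mem_higherUnits.mp y.2
    have h1 : ((((x * y : ↥(higherUnits O m)) : Oˣ) : O) - 1) -
        ((((x : Oˣ) : O) - 1) + (((y : Oˣ) : O) - 1)) =
        (((x : Oˣ) : O) - 1) * (((y : Oˣ) : O) - 1) := by
      push_cast
      ring
    rw [h1]
    have h2 : (((x : Oˣ) : O) - 1) * (((y : Oˣ) : O) - 1) ∈ maximalIdeal O ^ (m + m) := by
      rw [pow_add]
      exact Ideal.mul_mem_mul hx hy
    exact Ideal.pow_le_pow_right (by omega) h2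

theorem subOne_apply (m e : ℕ) (hm : e ≤ m) (x : ↥(higherUnits O m)) :
    subOne O m e hm x =
      Multiplicative.ofAdd (Ideal.Quotient.mk (maximalIdeal O ^ (m + e)) (((x : Oˣ) : O) - 1)) :=
  rfl

theorem ker_subOne (m e : ℕ) (hm : e ≤ m) :
    (subOne O m e hm).ker = (higherUnits O (m + e)).subgroupOf (higherUnits O m) := by
  ext x
  rw [MonoidHom.mem_ker, Subgroup.mem_subgroupOf, mem_higherUnits, subOne_apply]
  rw [show (1 : Multiplicative (O ⧸ maximalIdeal O ^ (m + e))) = Multiplicative.ofAdd 0 from rfl,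
    Multiplicative.ofAdd.injective.eq_iff, Ideal.Quotient.eq_zero_iff_mem]

theorem card_range_subOne [Finite (ResidueField O)] (m e : ℕ) (hm : e ≤ m) (hm1 : 1 ≤ m) :
    Nat.card (subOne O m e hm).range = Nat.card (ResidueField O) ^ e := by
  have hcongr : Nat.card (subOne O m e hm).range =
      Nat.card (Submodule.map (maximalIdeal O ^ (m + e)).mkQ (maximalIdeal O ^ m)) := by
    refine Nat.card_congr (Equiv.subtypeEquiv Multiplicative.toAdd ?_)
    intro a
    constructor
    · rintro ⟨x, rfl⟩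
      exact ⟨((x : Oˣ) : O) - 1, mem_higherUnits.mp x.2, rfl⟩
    · rintro ⟨t, ht, hta⟩
      have hu : IsUnit (1 + t) := by
        apply isUnit_of_sub_one_mem
        rw [add_sub_cancel_left]
        exact Ideal.pow_le_self (by omega) ht
      obtain ⟨u, hu'⟩ := hu
      have hmem : u ∈ higherUnits O m := by
        rw [mem_higherUnits, hu', add_sub_cancel_left]
        exact ht
      refine ⟨⟨u, hmem⟩, ?_⟩
      rw [subOne_apply]
      apply Multiplicative.toAdd.injective
      rw [toAdd_ofAdd, ← hta]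
      show Ideal.Quotient.mk _ ((u : O) - 1) = _
      rw [hu', add_sub_cancel_left]
      rfl
  have hle : maximalIdeal O ^ (m + e) ≤ maximalIdeal O ^ m := Ideal.pow_le_pow_right (by omega)
  have h := Submodule.card_quotient_mul_card_quotient (maximalIdeal O ^ m)
    (maximalIdeal O ^ (m + e)) hle
  rw [card_quot_pow, card_quot_pow, pow_add (Nat.card (ResidueField O)) m e, mul_comm] at h
  rw [hcongr]
  have hq : Nat.card (ResidueField O) ^ m ≠ 0 := pow_ne_zero _ Nat.card_pos.ne'
  exact Nat.eq_of_mul_eq_mul_left (Nat.pos_of_ne_zero hq) h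

/-- `[U^(m) : U^(m+e)] = |k|^e` for `1 ≤ m`, `e ≤ m`. -/
theorem relIndex_higherUnits [Finite (ResidueField O)] (m e : ℕ) (hm : e ≤ m) (hm1 : 1 ≤ m) :
    (higherUnits O (m + e)).relIndex (higherUnits O m) = Nat.card (ResidueField O) ^ e := by
  rw [Subgroup.relIndex, ← ker_subOne m e hm, Subgroup.index_ker, card_range_subOne m e hm hm1]

/-- For `m > e` the `p`-th power map sends `U^(m)` onto `U^(m+e)`. -/
theorem map_pow_higherUnits [IsAdicComplete (maximalIdeal O) O] {p e : ℕ}
    (hp : Ideal.span {(p : O)} = maximalIdeal O ^ e) (hp0 : p ≠ 0) {m : ℕ} (hm : e < m) :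
    (higherUnits O m).map (powMonoidHom p : Oˣ →* Oˣ) = higherUnits O (m + e) := by
  ext y
  constructor
  · rintro ⟨x, hx, rfl⟩
    have hx' : x ∈ higherUnits O m := hx
    rw [mem_higherUnits] at hx' ⊢
    rw [powMonoidHom_apply, Units.val_pow_eq_pow_val]
    exact pow_sub_one_mem hp hp0 hm.le hx'
  · intro hy
    rw [mem_higherUnits] at hy
    obtain ⟨x, hx1, hxy⟩ := exists_pow_eq hp hp0 hm hy
    have hxu : IsUnit x := isUnit_of_sub_one_mem (Ideal.pow_le_self (by omega : m ≠ 0) hx1)
    obtain ⟨u, rfl⟩ := hxu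
    refine ⟨u, mem_higherUnits.mpr hx1, ?_⟩
    apply Units.ext
    rw [powMonoidHom_apply, Units.val_pow_eq_pow_val, hxy]

/-- The `p`-th power map is injective on `U^(e+1)`. -/
theorem ker_pow_inf_higherUnits {p e : ℕ}
    (hp : Ideal.span {(p : O)} = maximalIdeal O ^ e) (hp0 : p ≠ 0) :
    (powMonoidHom p : Oˣ →* Oˣ).ker ⊓ higherUnits O (e + 1) = ⊥ := by
  rw [eq_bot_iff]
  rintro x ⟨hx1, hx2⟩
  rw [Subgroup.mem_bot]
  have hx1' : x ^ p = 1 := hx1
  apply Units.ext
  rw [Units.val_one]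
  refine eq_one_of_pow_eq_one hp hp0 (mem_higherUnits.mp hx2) ?_
  rw [← Units.val_pow_eq_pow_val, hx1', Units.val_one]

/-- **Units of a complete DVR**: if `(p) = 𝔪^e`, `p ≠ 0`, and the residue field `k` is finite,
then `[Oˣ : (Oˣ)ᵖ] = |k|^e * |μ_p(O)|` (both sides finite and nonzero). -/
theorem powIdx_units [IsAdicComplete (maximalIdeal O) O] [Finite (ResidueField O)] {p e : ℕ}
    (hp : Ideal.span {(p : O)} = maximalIdeal O ^ e) (hp0 : p ≠ 0) :
    PowDefined Oˣ p ∧ powIdx Oˣ p = Nat.card (ResidueField O) ^ e * powTor Oˣ p := by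
  have := finite_quot_pow (O := O) (e + 1)
  have hq : Nat.card (ResidueField O) ^ e ≠ 0 := pow_ne_zero _ Nat.card_pos.ne'
  have ha : ((higherUnits O (e + 1)).map (powMonoidHom p : Oˣ →* Oˣ)).relIndex
      (higherUnits O (e + 1)) = Nat.card (ResidueField O) ^ e := by
    rw [map_pow_higherUnits hp hp0 (Nat.lt_succ_self e)]
    exact relIndex_higherUnits (e + 1) e (Nat.le_succ e) (Nat.succ_pos e)
  have hb : Nat.card ↥((powMonoidHom p : Oˣ →* Oˣ).ker ⊓ higherUnits O (e + 1)) = 1 := by
    rw [ker_pow_inf_higherUnits hp hp0]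
    exact Nat.card_unique
  obtain ⟨h1, h2⟩ := powDefined_of_subgroup (higherUnits O (e + 1))
    (index_higherUnits_ne_zero (e + 1)) ha hb hq one_ne_zero
  exact ⟨h1, by rwa [mul_one] at h2⟩

end Index

/-! ### The fraction field -/

section Field

open IsLocalRing

open scoped WithZero

variable (O : Type*) [CommRing O] [IsDomain O] [IsDiscreteValuationRing O]
  (K : Type*) [Field K] [Algebra O K] [IsFractionRing O K]

/-- The normalised valuation `Kˣ → ℤ` (written multiplicatively; a uniformiser goes to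
`ofAdd (-1)`), as a group homomorphism. -/
noncomputable def ordHom : Kˣ →* Multiplicative ℤ :=
  (WithZero.unitsWithZeroEquiv (α := Multiplicative ℤ)).toMonoidHom.comp
    (Units.map
      ((IsDiscreteValuationRing.maximalIdeal O).valuation K).toMonoidWithZeroHom.toMonoidHom)

theorem coe_ordHom (x : Kˣ) :
    ((ordHom O K x : Multiplicative ℤ) : ℤᵐ⁰) =
      (IsDiscreteValuationRing.maximalIdeal O).valuation K (x : K) := by
  rw [ordHom]
  simp only [MonoidHom.coe_comp, Function.comp_apply, MulEquiv.toMonoidHom_eq_coe,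
    MonoidHom.coe_coe]
  rw [WithZero.coe_unitsWithZeroEquiv_eq_units_val]
  rfl

theorem ordHom_surjective : Function.Surjective (ordHom O K) := by
  intro k
  obtain ⟨x, hx⟩ := (IsDiscreteValuationRing.maximalIdeal O).valuation_surjective K (k : ℤᵐ⁰)
  have hx0 : x ≠ 0 := by
    rintro rfl
    rw [map_zero] at hx
    exact WithZero.coe_ne_zero hx.symm
  refine ⟨Units.mk0 x hx0, ?_⟩
  apply WithZero.coe_injective
  rw [coe_ordHom, Units.val_mk0, hx]

theorem mem_ker_ordHom {x : Kˣ} :
    x ∈ (ordHom O K).ker ↔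
      (IsDiscreteValuationRing.maximalIdeal O).valuation K (x : K) = 1 := by
  rw [MonoidHom.mem_ker, ← coe_ordHom, ← WithZero.coe_one, WithZero.coe_inj]

/-- The units of `O` are exactly the elements of `Kˣ` of valuation `1`. -/
theorem range_unitsMap : (Units.map (algebraMap O K : O →* K)).range = (ordHom O K).ker := by
  ext x
  rw [mem_ker_ordHom]
  have h := IsDiscreteValuationRing.mker_valuation_eq_isUnitSubmonoid (A := O) (K := K)
  constructor
  · rintro ⟨u, rfl⟩
    have : ((Units.map (algebraMap O K : O →* K) u : Kˣ) : K) ∈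
        (IsUnit.submonoid O).map (algebraMap O K) := ⟨(u : O), u.isUnit, rfl⟩
    rw [← h] at this
    exact this
  · intro hx
    have hx' : (x : K) ∈
        MonoidHom.mker ((IsDiscreteValuationRing.maximalIdeal O).valuation K) := hx
    rw [h] at hx'
    obtain ⟨a, ha, hax⟩ := hx'
    obtain ⟨u, rfl⟩ : IsUnit a := ha
    exact ⟨u, Units.ext hax⟩

omit [IsDomain O] [IsDiscreteValuationRing O] in
theorem unitsMap_injective : Function.Injective (Units.map (algebraMap O K : O →* K)) :=
  Units.map_injective (IsFractionRing.injective O K)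

omit [Algebra O K] [IsFractionRing O K] in
theorem ker_pow_eq_rootsOfUnity (n : ℕ) :
    (powMonoidHom n : Kˣ →* Kˣ).ker = rootsOfUnity n K := by
  ext x
  rfl

variable {O}

/-- Every nonzero integer generates a power of the maximal ideal. -/
theorem exists_span_natCast_eq_pow {n : ℕ} (hn : (n : O) ≠ 0) :
    ∃ e : ℕ, Ideal.span {(n : O)} = maximalIdeal O ^ e := by
  obtain ⟨ϖ, hϖ⟩ := IsDiscreteValuationRing.exists_irreducible O
  obtain ⟨e, he⟩ := IsDiscreteValuationRing.ideal_eq_span_pow_irreducible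
    (s := Ideal.span {(n : O)}) (by rwa [Ne, Ideal.span_singleton_eq_bot]) hϖ
  exact ⟨e, by rw [hϖ.maximalIdeal_eq, Ideal.span_singleton_pow, he]⟩

/-- **The `n`-th power index of a local field**, ramification form: if `(n) = 𝔪^e` then
`[Kˣ : (Kˣ)ⁿ] = n * |k|^e * |μ_n(K)|`, all three factors finite and nonzero. -/
theorem powIdx_field_of_span_eq [IsAdicComplete (maximalIdeal O) O] [Finite (ResidueField O)]
    {n e : ℕ} (hp : Ideal.span {(n : O)} = maximalIdeal O ^ e) (hn : n ≠ 0) :
    PowDefined Kˣ n ∧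
      powIdx Kˣ n = n * Nat.card (ResidueField O) ^ e * Nat.card (rootsOfUnity n K) := by
  obtain ⟨hU, hUeq⟩ := powIdx_units hp hn
  obtain ⟨hK, hKeq⟩ := powDefined_of_exact_int (Units.map (algebraMap O K : O →* K))
    (unitsMap_injective O K) (ordHom O K) (ordHom_surjective O K) (range_unitsMap O K) hn hU
  refine ⟨hK, ?_⟩
  rw [hUeq] at hKeq
  have h1 : powIdx Kˣ n * powTor Oˣ n =
      (n * Nat.card (ResidueField O) ^ e * powTor Kˣ n) * powTor Oˣ n := by
    rw [hKeq]
    ring
  have h2 := Nat.eq_of_mul_eq_mul_right (Nat.pos_of_ne_zero hU.2) h1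
  rw [h2, powTor, ker_pow_eq_rootsOfUnity]

/-- **The `n`-th power index of a local field**: for a complete discrete valuation ring `O` with
finite residue field, fraction field `K`, and `n ≠ 0` in `O`,
`[Kˣ : (Kˣ)ⁿ] = n * |O / nO| * |μ_n(K)|`, all three factors finite and nonzero. -/
theorem powIdx_field [IsAdicComplete (maximalIdeal O) O] [Finite (ResidueField O)]
    {n : ℕ} (hn : (n : O) ≠ 0) :
    PowDefined Kˣ n ∧
      powIdx Kˣ n = n * Nat.card (O ⧸ Ideal.span {(n : O)}) * Nat.card (rootsOfUnity n K) := by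
  obtain ⟨e, he⟩ := exists_span_natCast_eq_pow hn
  have hn0 : n ≠ 0 := by
    rintro rfl
    exact hn Nat.cast_zero
  rw [he, card_quot_pow]
  exact powIdx_field_of_span_eq K he hn0

/-- The same statement as a cardinality of the quotient group `Kˣ ⧸ (Kˣ)ⁿ`. -/
theorem card_quotient_pow_field [IsAdicComplete (maximalIdeal O) O] [Finite (ResidueField O)]
    {n : ℕ} (hn : (n : O) ≠ 0) :
    Nat.card (Kˣ ⧸ (powMonoidHom n : Kˣ →* Kˣ).range) =
      n * Nat.card (O ⧸ Ideal.span {(n : O)}) * Nat.card (rootsOfUnity n K) :=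
  (powIdx_field K hn).2

/-- Finiteness of `Kˣ ⧸ (Kˣ)ⁿ`. -/
theorem finite_quotient_pow_field [IsAdicComplete (maximalIdeal O) O] [Finite (ResidueField O)]
    {n : ℕ} (hn : (n : O) ≠ 0) :
    Finite (Kˣ ⧸ (powMonoidHom n : Kˣ →* Kˣ).range) :=
  Nat.finite_of_card_ne_zero (powIdx_field K hn).1.1

end Field

/-! ### Mathlib's nonarchimedean local fields -/

section LocalField

open scoped ValuativeRel

/-- `[Kˣ : (Kˣ)ⁿ] = n * |𝒪 / n𝒪| * |μ_n(K)|` for a nonarchimedean local field of characteristic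
zero in the sense of Mathlib. -/
theorem card_quotient_pow_localField (K : Type*) [Field K] [ValuativeRel K] [UniformSpace K]
    [IsUniformAddGroup K] [IsNonarchimedeanLocalField K] [CharZero K] {n : ℕ} (hn : n ≠ 0) :
    Nat.card (Kˣ ⧸ (powMonoidHom n : Kˣ →* Kˣ).range) =
      n * Nat.card (𝒪[K] ⧸ Ideal.span {(n : 𝒪[K])}) * Nat.card (rootsOfUnity n K) := by
  apply card_quotient_pow_field
  intro h
  apply hn
  have : ((n : 𝒪[K]) : K) = 0 := by
    rw [h]
    rfl
  exact_mod_cast this

end LocalField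

end Fermat.Agent.CFT.Local.PowIndex
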