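/-
PROJECT C, Layer B, slice B1a (helper21): the model of `q`-adic local fields.

A `q`-adic local field is any field `K` with `[Algebra ℚ_[q] K] [FiniteDimensional ℚ_[q] K]`.
Its absolute value is Mathlib's `spectralNorm ℚ_[q] K` and its ring of integers is the valuation
subring `𝒪 q K = {x | spectralNorm ℚ_[q] K x ≤ 1}`.  We prove that `𝒪 q K` is a complete discrete
valuation ring with finite residue field and fraction field `K`, i.e. an instance of the abstract
setting (M1) in which the rest of Layer B is stated.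
-/
import Mathlib

set_option autoImplicit false
set_option linter.unusedSectionVars false

open scoped NNReal

namespace Fermat.Agent.CFT.Local.Model

variable (q : ℕ) [Fact q.Prime] (K : Type*) [Field K] [Algebra ℚ_[q] K]
  [FiniteDimensional ℚ_[q] K]

/-- The absolute value of a `q`-adic local field (the spectral norm). -/
noncomputable def nrm (x : K) : ℝ := spectralNorm ℚ_[q] K x

theorem nrm_def (x : K) : nrm q K x = spectralNorm ℚ_[q] K x := rfl

theorem nrm_nonneg (x : K) : 0 ≤ nrm q K x := spectralNorm_nonneg x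

@[simp] theorem nrm_zero : nrm q K 0 = 0 := spectralNorm_zero

@[simp] theorem nrm_one : nrm q K 1 = 1 := spectralNorm_one

theorem nrm_mul (x y : K) : nrm q K (x * y) = nrm q K x * nrm q K y :=
  spectralAlgNorm_mul x y

theorem nrm_eq_zero_iff {x : K} : nrm q K x = 0 ↔ x = 0 := by
  constructor
  · intro h
    exact eq_zero_of_map_spectralNorm_eq_zero h (Algebra.IsAlgebraic.isAlgebraic x)
  · rintro rfl
    exact nrm_zero q K

theorem nrm_pos {x : K} (hx : x ≠ 0) : 0 < nrm q K x :=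
  lt_of_le_of_ne (nrm_nonneg q K x) (fun h => hx ((nrm_eq_zero_iff q K).mp h.symm))

theorem nrm_neg (x : K) : nrm q K (-x) = nrm q K x :=
  spectralNorm_neg (Algebra.IsAlgebraic.isAlgebraic x)

theorem nrm_add_le_max (x y : K) : nrm q K (x + y) ≤ max (nrm q K x) (nrm q K y) :=
  isNonarchimedean_spectralNorm x y

theorem nrm_sub_le_max (x y : K) : nrm q K (x - y) ≤ max (nrm q K x) (nrm q K y) := by
  rw [sub_eq_add_neg, ← nrm_neg q K y]
  exact nrm_add_le_max q K x (-y)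

theorem nrm_algebraMap (a : ℚ_[q]) : nrm q K (algebraMap ℚ_[q] K a) = ‖a‖ :=
  spectralNorm_extends a

theorem nrm_pow (x : K) (n : ℕ) : nrm q K (x ^ n) = nrm q K x ^ n := by
  induction n with
  | zero => simp
  | succ n ih => rw [pow_succ, nrm_mul, ih, pow_succ]

theorem nrm_inv (x : K) : nrm q K x⁻¹ = (nrm q K x)⁻¹ := by
  by_cases hx : x = 0
  · simp [hx]
  · have h := nrm_mul q K x x⁻¹
    rw [mul_inv_cancel₀ hx, nrm_one] at h
    exact eq_inv_of_mul_eq_one_right h.symm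

theorem nrm_q : nrm q K (q : K) = (q : ℝ)⁻¹ := by
  have : (q : K) = algebraMap ℚ_[q] K (q : ℚ_[q]) := by simp
  rw [this, nrm_algebraMap, Padic.norm_p]

/-- The ring of integers of a `q`-adic local field, as a valuation subring. -/
noncomputable def 𝒪 : ValuationSubring K where
  carrier := {x | nrm q K x ≤ 1}
  mul_mem' {x y} hx hy := by
    simp only [Set.mem_setOf_eq] at hx hy ⊢
    rw [nrm_mul]
    exact mul_le_one₀ hx (nrm_nonneg q K y) hy
  one_mem' := by simp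
  add_mem' {x y} hx hy := by
    simp only [Set.mem_setOf_eq] at hx hy ⊢
    exact (nrm_add_le_max q K x y).trans (max_le hx hy)
  zero_mem' := by simp
  neg_mem' {x} hx := by
    simp only [Set.mem_setOf_eq] at hx ⊢
    rwa [nrm_neg]
  mem_or_inv_mem' x := by
    simp only [Set.mem_setOf_eq]
    rcases le_total (nrm q K x) 1 with h | h
    · exact Or.inl h
    · right
      rw [nrm_inv]
      exact inv_le_one_of_one_le₀ h

theorem mem_𝒪_iff {x : K} : x ∈ 𝒪 q K ↔ nrm q K x ≤ 1 := Iff.rfl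


/-! ### `ℤ_[q]`-algebra structures and integrality -/

/-- The `ℤ_[q]`-algebra structure on a `q`-adic local field. -/
@[instance_reducible]
noncomputable def algebraIntField : Algebra ℤ_[q] K :=
  ((algebraMap ℚ_[q] K).comp (algebraMap ℤ_[q] ℚ_[q])).toAlgebra

scoped[Fermat.Agent.CFT.Local.Model] attribute [instance] algebraIntField

theorem algebraMap_int_apply (a : ℤ_[q]) :
    algebraMap ℤ_[q] K a = algebraMap ℚ_[q] K (a : ℚ_[q]) := rfl

instance isScalarTower_int_field : IsScalarTower ℤ_[q] ℚ_[q] K :=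
  IsScalarTower.of_algebraMap_eq (fun _ => rfl)

theorem nrm_algebraMap_int_le (a : ℤ_[q]) : nrm q K (algebraMap ℤ_[q] K a) ≤ 1 := by
  rw [algebraMap_int_apply, nrm_algebraMap]
  exact PadicInt.norm_le_one a

/-- The `ℤ_[q]`-algebra structure on the ring of integers. -/
@[instance_reducible]
noncomputable def algebraInt𝒪 : Algebra ℤ_[q] ↥(𝒪 q K) :=
  (RingHom.codRestrict (algebraMap ℤ_[q] K) (𝒪 q K).toSubring
    (fun a => nrm_algebraMap_int_le q K a)).toAlgebra

scoped[Fermat.Agent.CFT.Local.Model] attribute [instance] algebraInt𝒪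

instance isScalarTower_int_𝒪 : IsScalarTower ℤ_[q] ↥(𝒪 q K) K :=
  IsScalarTower.of_algebraMap_eq (fun _ => rfl)

theorem mem_𝒪_iff_isIntegral {x : K} : x ∈ 𝒪 q K ↔ IsIntegral ℤ_[q] x := by
  have hxi : IsIntegral ℚ_[q] x := Algebra.IsIntegral.isIntegral x
  rw [mem_𝒪_iff, nrm_def, spectralNorm, spectralValue_le_one_iff (minpoly.monic hxi)]
  constructor
  · intro h
    have hl : minpoly ℚ_[q] x ∈ Polynomial.lifts (algebraMap ℤ_[q] ℚ_[q]) := by
      rw [Polynomial.lifts_iff_coeff_lifts]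
      intro n
      exact ⟨⟨_, h n⟩, rfl⟩
    obtain ⟨P, hP, -, hmonic⟩ :=
      Polynomial.lifts_and_degree_eq_and_monic hl (minpoly.monic hxi)
    refine ⟨P, hmonic, ?_⟩
    have h0 := minpoly.aeval ℚ_[q] x
    rw [← hP, Polynomial.aeval_map_algebraMap] at h0
    exact h0
  · intro hx n
    rw [minpoly.isIntegrallyClosed_eq_field_fractions' ℚ_[q] hx, Polynomial.coeff_map]
    exact PadicInt.norm_le_one _

instance isIntegralClosure_𝒪 : IsIntegralClosure ↥(𝒪 q K) ℤ_[q] K where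
  algebraMap_injective := Subtype.val_injective
  isIntegral_iff {x} := by
    rw [← mem_𝒪_iff_isIntegral]
    exact ⟨fun h => ⟨⟨x, h⟩, rfl⟩, fun ⟨y, hy⟩ => hy ▸ y.2⟩


omit [FiniteDimensional ℚ_[q] K] in
include q in
theorem charZero_field : CharZero K :=
  charZero_of_injective_algebraMap (algebraMap ℚ_[q] K).injective

instance isSeparable_field : Algebra.IsSeparable ℚ_[q] K := Algebra.IsSeparable.of_integral ℚ_[q] K

instance isTorsionFree_int_field : Module.IsTorsionFree ℤ_[q] K := by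
  refine Module.isTorsionFree_iff_algebraMap_injective.mpr ?_
  rw [show (algebraMap ℤ_[q] K) = (algebraMap ℚ_[q] K).comp (algebraMap ℤ_[q] ℚ_[q]) from rfl]
  exact (algebraMap ℚ_[q] K).injective.comp (IsFractionRing.injective ℤ_[q] ℚ_[q])

instance finite_int_𝒪 : Module.Finite ℤ_[q] ↥(𝒪 q K) :=
  IsIntegralClosure.finite ℤ_[q] ℚ_[q] K ↥(𝒪 q K)

instance free_int_𝒪 : Module.Free ℤ_[q] ↥(𝒪 q K) :=
  IsIntegralClosure.module_free ℤ_[q] ℚ_[q] K ↥(𝒪 q K)

theorem finrank_int_𝒪 : Module.finrank ℤ_[q] ↥(𝒪 q K) = Module.finrank ℚ_[q] K :=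
  IsIntegralClosure.rank ℤ_[q] ℚ_[q] K ↥(𝒪 q K)

instance isNoetherianRing_𝒪 : IsNoetherianRing ↥(𝒪 q K) :=
  IsIntegralClosure.isNoetherianRing ℤ_[q] ℚ_[q] K ↥(𝒪 q K)


/-! ### Discreteness of the value group -/

omit [FiniteDimensional ℚ_[q] K] [Field K] [Algebra ℚ_[q] K] in
theorem one_lt_q : (1 : ℝ) < q := by exact_mod_cast (Fact.out : q.Prime).one_lt

omit [FiniteDimensional ℚ_[q] K] [Field K] [Algebra ℚ_[q] K] in
theorem q_pos : (0 : ℝ) < q := lt_trans zero_lt_one (one_lt_q q)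

theorem exists_zpow_eq_nrm_pow {x : K} (hx : x ≠ 0) :
    ∃ k : ℤ, nrm q K x ^ (Module.finrank ℚ_[q] K) = (q : ℝ) ^ (-k) := by
  have hint : IsIntegral ℚ_[q] x := Algebra.IsIntegral.isIntegral x
  obtain ⟨m, hm⟩ := minpoly.degree_dvd hint
  have hdpos : 0 < (minpoly ℚ_[q] x).natDegree := minpoly.natDegree_pos hint
  have hc : (minpoly ℚ_[q] x).coeff 0 ≠ 0 := minpoly.coeff_zero_ne_zero hint hx
  have h1 : nrm q K x ^ (minpoly ℚ_[q] x).natDegree = ‖(minpoly ℚ_[q] x).coeff 0‖ := by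
    rw [nrm_def, spectralNorm.spectralNorm_eq_norm_coeff_zero_rpow, ← Real.rpow_natCast,
      ← Real.rpow_mul (norm_nonneg _)]
    have : (1 / ((minpoly ℚ_[q] x).natDegree : ℝ)) * ((minpoly ℚ_[q] x).natDegree : ℝ) = 1 := by
      field_simp
    rw [this, Real.rpow_one]
  refine ⟨((minpoly ℚ_[q] x).coeff 0).valuation * m, ?_⟩
  rw [hm, pow_mul, h1, Padic.norm_eq_zpow_neg_valuation hc, ← zpow_natCast, ← zpow_mul]
  congr 1
  ring

/-- The unnormalised valuation (as a function): `nrm x ^ [K:ℚ_q] = q ^ (- wFun x)`. -/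
noncomputable def wFun (x : Kˣ) : ℤ := (exists_zpow_eq_nrm_pow q K x.ne_zero).choose

theorem nrm_pow_finrank' (x : Kˣ) :
    nrm q K x ^ (Module.finrank ℚ_[q] K) = (q : ℝ) ^ (-(wFun q K x)) :=
  (exists_zpow_eq_nrm_pow q K x.ne_zero).choose_spec

theorem wFun_eq_of {x : Kˣ} {k : ℤ}
    (h : nrm q K x ^ (Module.finrank ℚ_[q] K) = (q : ℝ) ^ (-k)) : wFun q K x = k := by
  rw [nrm_pow_finrank'] at h
  have := zpow_right_injective₀ (q_pos q) (one_lt_q q).ne' h
  omega

/-- The unnormalised valuation as a group homomorphism: `nrm x ^ [K:ℚ_q] = q ^ (- w x)`. -/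
noncomputable def w : Kˣ →* Multiplicative ℤ where
  toFun x := Multiplicative.ofAdd (wFun q K x)
  map_one' := by
    have : wFun q K 1 = 0 := by
      apply wFun_eq_of
      simp
    rw [this]; rfl
  map_mul' x y := by
    have : wFun q K (x * y) = wFun q K x + wFun q K y := by
      apply wFun_eq_of
      rw [Units.val_mul, nrm_mul, mul_pow, nrm_pow_finrank', nrm_pow_finrank',
        ← zpow_add₀ (q_pos q).ne']
      congr 1
      ring
    rw [this]; rfl

theorem nrm_pow_finrank (x : Kˣ) :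
    nrm q K x ^ (Module.finrank ℚ_[q] K) = (q : ℝ) ^ (-(Multiplicative.toAdd (w q K x))) :=
  nrm_pow_finrank' q K x


theorem wFun_one : wFun q K 1 = 0 := congrArg Multiplicative.toAdd (map_one (w q K))

theorem wFun_mul (x y : Kˣ) : wFun q K (x * y) = wFun q K x + wFun q K y :=
  congrArg Multiplicative.toAdd (map_mul (w q K) x y)

theorem wFun_inv (x : Kˣ) : wFun q K x⁻¹ = - wFun q K x :=
  congrArg Multiplicative.toAdd (map_inv (w q K) x)

theorem wFun_zpow (x : Kˣ) (k : ℤ) : wFun q K (x ^ k) = k * wFun q K x := by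
  have := congrArg Multiplicative.toAdd (map_zpow (w q K) x k)
  rw [toAdd_zpow] at this
  rw [← smul_eq_mul]
  exact this

theorem finrank_pos : 0 < Module.finrank ℚ_[q] K := Module.finrank_pos

theorem nrm_lt_one_iff (x : Kˣ) : nrm q K x < 1 ↔ 0 < wFun q K x := by
  rw [← pow_lt_one_iff_of_nonneg (nrm_nonneg q K x) (finrank_pos q K).ne', nrm_pow_finrank',
    zpow_lt_one_iff_right₀ (one_lt_q q)]
  omega

theorem nrm_le_one_iff (x : Kˣ) : nrm q K x ≤ 1 ↔ 0 ≤ wFun q K x := by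
  rw [← pow_le_one_iff_of_nonneg (nrm_nonneg q K x) (finrank_pos q K).ne', nrm_pow_finrank',
    zpow_le_one_iff_right₀ (one_lt_q q)]
  omega

theorem nrm_eq_one_iff (x : Kˣ) : nrm q K x = 1 ↔ wFun q K x = 0 := by
  rw [← pow_eq_one_iff_of_nonneg (nrm_nonneg q K x) (finrank_pos q K).ne', nrm_pow_finrank',
    zpow_eq_one_iff_right₀ (q_pos q).le (one_lt_q q).ne']
  omega

theorem q_ne_zero : (q : K) ≠ 0 := by
  haveI := charZero_field q K
  exact_mod_cast (Fact.out : q.Prime).ne_zero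

theorem wFun_q : wFun q K (Units.mk0 (q : K) (q_ne_zero q K)) = Module.finrank ℚ_[q] K := by
  apply wFun_eq_of
  rw [Units.val_mk0, nrm_q, zpow_neg, zpow_natCast, inv_pow]

theorem nrm_eq_of_wFun_eq {x y : Kˣ} (h : wFun q K x = wFun q K y) : nrm q K x = nrm q K y := by
  rw [← pow_left_inj₀ (nrm_nonneg q K x) (nrm_nonneg q K y) (finrank_pos q K).ne',
    nrm_pow_finrank', nrm_pow_finrank', h]

/-- There is a uniformizer: an element of norm `< 1` whose norm generates the value group. -/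
theorem exists_uniformizer :
    ∃ π : Kˣ, nrm q K π < 1 ∧ ∀ x : Kˣ, ∃ k : ℤ, nrm q K x = nrm q K π ^ k := by
  classical
  have hP : ∃ m : ℕ, 0 < m ∧ ∃ x : Kˣ, wFun q K x = m :=
    ⟨Module.finrank ℚ_[q] K, finrank_pos q K, _, wFun_q q K⟩
  obtain ⟨hd0, π, hπ⟩ := Nat.find_spec hP
  set d := Nat.find hP with hd
  refine ⟨π, (nrm_lt_one_iff q K π).mpr (by rw [hπ]; exact_mod_cast hd0), fun x => ?_⟩
  have hdpos : (0 : ℤ) < d := by exact_mod_cast hd0
  have hr0 : 0 ≤ wFun q K x % d := Int.emod_nonneg _ hdpos.ne'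
  have hr1 : wFun q K x % d < d := Int.emod_lt_of_pos _ hdpos
  have hy : wFun q K (x * π ^ (-(wFun q K x / d))) = wFun q K x % d := by
    rw [wFun_mul, wFun_zpow, hπ, Int.emod_def]
    ring
  have hr : wFun q K x % d = 0 := by
    by_contra hne
    have hpos : 0 < wFun q K x % d := lt_of_le_of_ne hr0 (Ne.symm hne)
    have hmin := Nat.find_min' hP (m := (wFun q K x % d).toNat)
      ⟨by omega, x * π ^ (-(wFun q K x / d)), by rw [hy]; omega⟩
    omega
  refine ⟨wFun q K x / d, ?_⟩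
  have h1 : wFun q K x = wFun q K (π ^ (wFun q K x / d)) := by
    rw [wFun_zpow, hπ]
    have := Int.emod_add_mul_ediv (wFun q K x) d
    rw [hr] at this
    linarith
  have := nrm_eq_of_wFun_eq q K h1
  rw [this, Units.val_zpow_eq_zpow_val]
  exact map_zpow₀ (spectralMulAlgNorm ℚ_[q] K) _ _


/-! ### The normalised valuation -/

/-- A chosen uniformizer of `K`, as a unit of `K`. -/
noncomputable def ϖu : Kˣ := (exists_uniformizer q K).choose

theorem nrm_ϖu_lt_one : nrm q K (ϖu q K) < 1 := (exists_uniformizer q K).choose_spec.1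

theorem nrm_ϖu_pos : 0 < nrm q K (ϖu q K) := nrm_pos q K (ϖu q K).ne_zero

/-- The normalised valuation of a nonzero element (as a function). -/
noncomputable def ordFun (x : Kˣ) : ℤ := ((exists_uniformizer q K).choose_spec.2 x).choose

theorem nrm_eq_zpow_ordFun (x : Kˣ) : nrm q K x = nrm q K (ϖu q K) ^ ordFun q K x :=
  ((exists_uniformizer q K).choose_spec.2 x).choose_spec

theorem ordFun_eq_of {x : Kˣ} {k : ℤ} (h : nrm q K x = nrm q K (ϖu q K) ^ k) :
    ordFun q K x = k := by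
  rw [nrm_eq_zpow_ordFun] at h
  exact zpow_right_injective₀ (nrm_ϖu_pos q K) (nrm_ϖu_lt_one q K).ne h

/-- The normalised valuation as a group homomorphism `Kˣ →* Multiplicative ℤ`. -/
noncomputable def ord : Kˣ →* Multiplicative ℤ where
  toFun x := Multiplicative.ofAdd (ordFun q K x)
  map_one' := by
    have : ordFun q K 1 = 0 := by
      apply ordFun_eq_of
      simp
    rw [this]; rfl
  map_mul' x y := by
    have : ordFun q K (x * y) = ordFun q K x + ordFun q K y := by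
      apply ordFun_eq_of
      rw [Units.val_mul, nrm_mul, nrm_eq_zpow_ordFun, nrm_eq_zpow_ordFun q K y,
        ← zpow_add₀ (nrm_ϖu_pos q K).ne']
    rw [this]; rfl

theorem ord_apply (x : Kˣ) : ord q K x = Multiplicative.ofAdd (ordFun q K x) := rfl

theorem ordFun_one : ordFun q K 1 = 0 := congrArg Multiplicative.toAdd (map_one (ord q K))

theorem ordFun_mul (x y : Kˣ) : ordFun q K (x * y) = ordFun q K x + ordFun q K y :=
  congrArg Multiplicative.toAdd (map_mul (ord q K) x y)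

theorem ordFun_inv (x : Kˣ) : ordFun q K x⁻¹ = - ordFun q K x :=
  congrArg Multiplicative.toAdd (map_inv (ord q K) x)

theorem ordFun_zpow (x : Kˣ) (k : ℤ) : ordFun q K (x ^ k) = k * ordFun q K x := by
  have := congrArg Multiplicative.toAdd (map_zpow (ord q K) x k)
  rw [toAdd_zpow] at this
  rw [← smul_eq_mul]
  exact this

theorem ordFun_ϖu : ordFun q K (ϖu q K) = 1 := by
  apply ordFun_eq_of
  rw [zpow_one]

theorem ord_surjective : Function.Surjective (ord q K) := by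
  intro k
  refine ⟨ϖu q K ^ (Multiplicative.toAdd k), ?_⟩
  rw [ord_apply, ordFun_zpow, ordFun_ϖu, mul_one]
  rfl

theorem nrm_le_one_iff_ordFun (x : Kˣ) : nrm q K x ≤ 1 ↔ 0 ≤ ordFun q K x := by
  rw [nrm_eq_zpow_ordFun, zpow_le_one_iff_right_of_lt_one₀ (nrm_ϖu_pos q K) (nrm_ϖu_lt_one q K)]

theorem nrm_lt_one_iff_ordFun (x : Kˣ) : nrm q K x < 1 ↔ 0 < ordFun q K x := by
  rw [nrm_eq_zpow_ordFun, zpow_lt_one_iff_right_of_lt_one₀ (nrm_ϖu_pos q K) (nrm_ϖu_lt_one q K)]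

theorem nrm_eq_one_iff_ordFun (x : Kˣ) : nrm q K x = 1 ↔ ordFun q K x = 0 := by
  rw [nrm_eq_zpow_ordFun]
  constructor
  · intro h
    have h2 : nrm q K (ϖu q K) ^ ordFun q K x = nrm q K (ϖu q K) ^ (0 : ℤ) := by rw [h, zpow_zero]
    exact zpow_right_injective₀ (nrm_ϖu_pos q K) (nrm_ϖu_lt_one q K).ne h2
  · intro h
    rw [h, zpow_zero]

theorem nrm_le_nrm_iff_ordFun (x y : Kˣ) : nrm q K x ≤ nrm q K y ↔ ordFun q K y ≤ ordFun q K x := by
  rw [nrm_eq_zpow_ordFun, nrm_eq_zpow_ordFun q K y,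
    zpow_le_zpow_iff_right_of_lt_one₀ (nrm_ϖu_pos q K) (nrm_ϖu_lt_one q K)]

/-- The absolute ramification index `e(K/ℚ_q) = ord q`. -/
noncomputable def ramIdx : ℕ := (ordFun q K (Units.mk0 (q : K) (q_ne_zero q K))).toNat

theorem ramIdx_pos : 0 < ramIdx q K := by
  have : 0 < ordFun q K (Units.mk0 (q : K) (q_ne_zero q K)) := by
    rw [← nrm_lt_one_iff_ordFun, Units.val_mk0, nrm_q]
    exact inv_lt_one_of_one_lt₀ (one_lt_q q)
  unfold ramIdx
  omega

theorem ordFun_q : ordFun q K (Units.mk0 (q : K) (q_ne_zero q K)) = ramIdx q K := by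
  have := ramIdx_pos q K
  unfold ramIdx at this ⊢
  omega

theorem nrm_ϖu_pow_ramIdx : nrm q K (ϖu q K) ^ ramIdx q K = (q : ℝ)⁻¹ := by
  have := nrm_eq_zpow_ordFun q K (Units.mk0 (q : K) (q_ne_zero q K))
  rw [Units.val_mk0, nrm_q, ordFun_q, zpow_natCast] at this
  exact this.symm


/-! ### `𝒪 q K` is a discrete valuation ring -/

theorem q_mem_𝒪 : (q : K) ∈ 𝒪 q K := by
  rw [mem_𝒪_iff, nrm_q]
  exact inv_le_one_of_one_le₀ (one_lt_q q).le

theorem nrm_coe_le_one (x : ↥(𝒪 q K)) : nrm q K (x : K) ≤ 1 := x.2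

theorem isUnit_iff_nrm_eq_one (x : ↥(𝒪 q K)) : IsUnit x ↔ nrm q K (x : K) = 1 := by
  constructor
  · rintro ⟨u, rfl⟩
    have h1 : nrm q K ((u : ↥(𝒪 q K)) : K) ≤ 1 := nrm_coe_le_one q K _
    have h2 : nrm q K (((u⁻¹ : (↥(𝒪 q K))ˣ) : ↥(𝒪 q K)) : K) ≤ 1 := nrm_coe_le_one q K _
    have h3 : nrm q K ((u : ↥(𝒪 q K)) : K) * nrm q K (((u⁻¹ : (↥(𝒪 q K))ˣ) : ↥(𝒪 q K)) : K) = 1 := by
      rw [← nrm_mul, ← MulMemClass.coe_mul, Units.mul_inv]
      simp
    have h4 := nrm_nonneg q K ((u : ↥(𝒪 q K)) : K)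
    have h5 := nrm_nonneg q K (((u⁻¹ : (↥(𝒪 q K))ˣ) : ↥(𝒪 q K)) : K)
    nlinarith
  · intro h
    have hx0 : (x : K) ≠ 0 := by
      intro h0
      rw [h0, nrm_zero] at h
      exact zero_ne_one h
    have hinv : (x : K)⁻¹ ∈ 𝒪 q K := by rw [mem_𝒪_iff, nrm_inv, h, inv_one]
    exact IsUnit.of_mul_eq_one ⟨_, hinv⟩ (Subtype.ext (mul_inv_cancel₀ hx0))

theorem mem_maximalIdeal_iff (x : ↥(𝒪 q K)) :
    x ∈ IsLocalRing.maximalIdeal ↥(𝒪 q K) ↔ nrm q K (x : K) < 1 := by
  rw [IsLocalRing.mem_maximalIdeal, mem_nonunits_iff, isUnit_iff_nrm_eq_one]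
  have := nrm_coe_le_one q K x
  constructor
  · intro h
    exact lt_of_le_of_ne this h
  · intro h
    exact h.ne

theorem not_isField_𝒪 : ¬ IsField ↥(𝒪 q K) := by
  rw [IsLocalRing.isField_iff_maximalIdeal_eq]
  intro h
  have hq : (⟨(q : K), q_mem_𝒪 q K⟩ : ↥(𝒪 q K)) ∈ IsLocalRing.maximalIdeal ↥(𝒪 q K) := by
    rw [mem_maximalIdeal_iff]
    change nrm q K (q : K) < 1
    rw [nrm_q]
    exact inv_lt_one_of_one_lt₀ (one_lt_q q)
  rw [h, Ideal.mem_bot] at hq
  exact q_ne_zero q K (congrArg Subtype.val hq)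

instance isDiscreteValuationRing_𝒪 : IsDiscreteValuationRing ↥(𝒪 q K) := by
  have h : IsDiscreteValuationRing ↥(𝒪 q K) ↔ ValuationRing ↥(𝒪 q K) :=
    (IsDiscreteValuationRing.TFAE ↥(𝒪 q K) (not_isField_𝒪 q K)).out 0 1
  exact h.mpr inferInstance

theorem dvd_iff_nrm_le {x y : ↥(𝒪 q K)} (hy : y ≠ 0) :
    y ∣ x ↔ nrm q K (x : K) ≤ nrm q K (y : K) := by
  have hy0 : (y : K) ≠ 0 := fun h => hy (Subtype.ext h)
  constructor
  · rintro ⟨z, rfl⟩
    rw [MulMemClass.coe_mul, nrm_mul]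
    exact mul_le_of_le_one_right (nrm_nonneg q K _) (nrm_coe_le_one q K z)
  · intro h
    have hz : (x : K) / (y : K) ∈ 𝒪 q K := by
      rw [mem_𝒪_iff, div_eq_mul_inv, nrm_mul, nrm_inv]
      exact mul_inv_le_one_of_le₀ h (nrm_nonneg q K _)
    exact ⟨⟨_, hz⟩, Subtype.ext (by simp [mul_div_cancel₀ _ hy0])⟩

/-- The chosen uniformizer as an element of the ring of integers. -/
noncomputable def ϖ : ↥(𝒪 q K) := ⟨ϖu q K, (nrm_ϖu_lt_one q K).le⟩

theorem coe_ϖ : ((ϖ q K : ↥(𝒪 q K)) : K) = ϖu q K := rfl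

theorem ϖ_ne_zero : ϖ q K ≠ 0 := fun h => (ϖu q K).ne_zero (congrArg Subtype.val h)

theorem nrm_lt_one_iff_le_nrm_ϖ (x : K) : nrm q K x < 1 ↔ nrm q K x ≤ nrm q K (ϖu q K) := by
  by_cases hx : x = 0
  · subst hx
    simp only [nrm_zero, zero_lt_one, true_iff]
    exact (nrm_ϖu_pos q K).le
  · have h1 := nrm_lt_one_iff_ordFun q K (Units.mk0 x hx)
    have h2 := nrm_le_nrm_iff_ordFun q K (Units.mk0 x hx) (ϖu q K)
    rw [Units.val_mk0] at h1 h2
    rw [h1, h2, ordFun_ϖu]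
    omega

theorem maximalIdeal_eq_span_ϖ :
    IsLocalRing.maximalIdeal ↥(𝒪 q K) = Ideal.span {ϖ q K} := by
  ext x
  rw [mem_maximalIdeal_iff, Ideal.mem_span_singleton, dvd_iff_nrm_le q K (ϖ_ne_zero q K), coe_ϖ,
    nrm_lt_one_iff_le_nrm_ϖ]

theorem irreducible_ϖ : Irreducible (ϖ q K) :=
  (IsDiscreteValuationRing.irreducible_iff_uniformizer _).mpr (maximalIdeal_eq_span_ϖ q K)

theorem mem_maximalIdeal_pow_iff (x : ↥(𝒪 q K)) (n : ℕ) :
    x ∈ IsLocalRing.maximalIdeal ↥(𝒪 q K) ^ n ↔ nrm q K (x : K) ≤ nrm q K (ϖu q K) ^ n := by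
  rw [maximalIdeal_eq_span_ϖ, Ideal.span_singleton_pow, Ideal.mem_span_singleton,
    dvd_iff_nrm_le q K (pow_ne_zero n (ϖ_ne_zero q K)), SubmonoidClass.coe_pow, nrm_pow, coe_ϖ]


/-! ### Completeness -/

theorem smodEq_maximalIdeal_pow_iff (x y : ↥(𝒪 q K)) (n : ℕ) :
    x ≡ y [SMOD ((IsLocalRing.maximalIdeal ↥(𝒪 q K)) ^ n • ⊤ : Submodule ↥(𝒪 q K) ↥(𝒪 q K))] ↔
      nrm q K ((x : K) - (y : K)) ≤ nrm q K (ϖu q K) ^ n := by
  rw [SModEq.sub_mem, smul_eq_mul, Ideal.mul_top, mem_maximalIdeal_pow_iff]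
  rfl

theorem tendsto_nrm_ϖu_pow :
    Filter.Tendsto (fun n : ℕ => nrm q K (ϖu q K) ^ n) Filter.atTop (nhds 0) :=
  tendsto_pow_atTop_nhds_zero_of_lt_one (nrm_ϖu_pos q K).le (nrm_ϖu_lt_one q K)

instance isHausdorff_𝒪 : IsHausdorff (IsLocalRing.maximalIdeal ↥(𝒪 q K)) ↥(𝒪 q K) := by
  refine ⟨fun x hx => ?_⟩
  have h : ∀ n : ℕ, nrm q K (x : K) ≤ nrm q K (ϖu q K) ^ n := by
    intro n
    have := (smodEq_maximalIdeal_pow_iff q K x 0 n).mp (hx n)
    simpa using this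
  have h0 : nrm q K (x : K) ≤ 0 := ge_of_tendsto' (tendsto_nrm_ϖu_pow q K) h
  have h1 : nrm q K (x : K) = 0 := le_antisymm h0 (nrm_nonneg q K _)
  exact Subtype.ext ((nrm_eq_zero_iff q K).mp h1)

instance isPrecomplete_𝒪 : IsPrecomplete (IsLocalRing.maximalIdeal ↥(𝒪 q K)) ↥(𝒪 q K) := by
  refine ⟨fun f hf => ?_⟩
  letI : NormedField K := spectralNorm.normedField ℚ_[q] K
  haveI : CompleteSpace K := spectralNorm.completeSpace ℚ_[q] K
  have hnorm : ∀ x : K, ‖x‖ = nrm q K x := fun _ => rfl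
  set r := nrm q K (ϖu q K) with hr
  have hf' : ∀ {m n : ℕ}, m ≤ n → ‖(f m : K) - (f n : K)‖ ≤ r ^ m := fun {m n} hmn =>
    (smodEq_maximalIdeal_pow_iff q K (f m) (f n) m).mp (hf hmn)
  have hcau : CauchySeq (fun n => (f n : K)) := by
    refine cauchySeq_of_le_geometric r 1 (nrm_ϖu_lt_one q K) (fun n => ?_)
    rw [dist_eq_norm, one_mul]
    exact hf' (Nat.le_succ n)
  obtain ⟨L, hL⟩ := cauchySeq_tendsto_of_complete hcau
  have hL1 : ‖L‖ ≤ 1 := by
    refine le_of_tendsto' ((continuous_norm.tendsto L).comp hL) (fun n => ?_)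
    exact nrm_coe_le_one q K (f n)
  refine ⟨⟨L, hL1⟩, fun n => ?_⟩
  rw [smodEq_maximalIdeal_pow_iff]
  change ‖(f n : K) - L‖ ≤ r ^ n
  have ht : Filter.Tendsto (fun m => ‖(f n : K) - (f m : K)‖) Filter.atTop (nhds ‖(f n : K) - L‖) :=
    (continuous_norm.tendsto _).comp (tendsto_const_nhds.sub hL)
  refine le_of_tendsto ht ?_
  filter_upwards [Filter.eventually_ge_atTop n] with m hm
  exact hf' hm

instance isAdicComplete_𝒪 : IsAdicComplete (IsLocalRing.maximalIdeal ↥(𝒪 q K)) ↥(𝒪 q K) where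


/-! ### The residue field -/

instance isLocalHom_int_𝒪 : IsLocalHom (algebraMap ℤ_[q] ↥(𝒪 q K)) := by
  refine ⟨fun a ha => ?_⟩
  rw [isUnit_iff_nrm_eq_one] at ha
  have h : nrm q K (algebraMap ℤ_[q] K a) = 1 := ha
  rw [algebraMap_int_apply, nrm_algebraMap] at h
  exact PadicInt.isUnit_iff.mpr h

instance finite_residueField_int : Finite (IsLocalRing.ResidueField ℤ_[q]) :=
  Finite.of_equiv _ (PadicInt.residueField (p := q)).symm.toEquiv

instance finite_residueField_𝒪 : Finite (IsLocalRing.ResidueField ↥(𝒪 q K)) :=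
  IsLocalRing.ResidueField.finite_of_finite (R := ℤ_[q]) (finite_residueField_int q)

theorem q_mem_maximalIdeal :
    (⟨(q : K), q_mem_𝒪 q K⟩ : ↥(𝒪 q K)) ∈ IsLocalRing.maximalIdeal ↥(𝒪 q K) := by
  rw [mem_maximalIdeal_iff]
  change nrm q K (q : K) < 1
  rw [nrm_q]
  exact inv_lt_one_of_one_lt₀ (one_lt_q q)

instance charP_residueField_𝒪 : CharP (IsLocalRing.ResidueField ↥(𝒪 q K)) q := by
  rw [CharP.charP_iff_prime_eq_zero (Fact.out : q.Prime)]
  have h : IsLocalRing.residue ↥(𝒪 q K) (⟨(q : K), q_mem_𝒪 q K⟩ : ↥(𝒪 q K)) = 0 :=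
    (IsLocalRing.residue_eq_zero_iff _).mpr (q_mem_maximalIdeal q K)
  have h2 : (⟨(q : K), q_mem_𝒪 q K⟩ : ↥(𝒪 q K)) = ((q : ℕ) : ↥(𝒪 q K)) := Subtype.ext (by simp)
  rw [h2, map_natCast] at h
  exact h


/-! ### Functoriality: `ℚ_[q]`-algebra maps are isometries -/

section Functoriality

variable (L : Type*) [Field L] [Algebra ℚ_[q] L] [FiniteDimensional ℚ_[q] L]

variable {K L} in
theorem nrm_algHom (φ : K →ₐ[ℚ_[q]] L) (x : K) : nrm q L (φ x) = nrm q K x := by
  simp only [nrm_def, spectralNorm, minpoly.algHom_eq φ φ.injective]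

variable {K L} in
theorem nrm_algEquiv (σ : K ≃ₐ[ℚ_[q]] L) (x : K) : nrm q L (σ x) = nrm q K x :=
  nrm_algHom q (σ : K →ₐ[ℚ_[q]] L) x

variable {K L} in
theorem algHom_mem_𝒪_iff (φ : K →ₐ[ℚ_[q]] L) (x : K) : φ x ∈ 𝒪 q L ↔ x ∈ 𝒪 q K := by
  rw [mem_𝒪_iff, mem_𝒪_iff, nrm_algHom]

theorem nrm_algebraMap_tower [Algebra K L] [IsScalarTower ℚ_[q] K L] (x : K) :
    nrm q L (algebraMap K L x) = nrm q K x :=
  nrm_algHom q (IsScalarTower.toAlgHom ℚ_[q] K L) x

theorem algebraMap_mem_𝒪_iff [Algebra K L] [IsScalarTower ℚ_[q] K L] (x : K) :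
    algebraMap K L x ∈ 𝒪 q L ↔ x ∈ 𝒪 q K :=
  algHom_mem_𝒪_iff q (IsScalarTower.toAlgHom ℚ_[q] K L) x

end Functoriality

/-! ### Summary: `(𝒪 q K, K)` is an instance of the abstract setting (M1) -/

/-- The abstract setting (M1) of Layer B: a complete discrete valuation ring `O` with finite
residue field and fraction field `K` of characteristic zero. -/
structure IsLocalFieldData (O : Type*) [CommRing O] (F : Type*) [Field F] [Algebra O F] : Prop where
  isDomain : IsDomain O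
  isDVR : IsDiscreteValuationRing O
  isAdicComplete : IsAdicComplete (IsLocalRing.maximalIdeal O) O
  finite_residueField : Finite (IsLocalRing.ResidueField O)
  isFractionRing : IsFractionRing O F
  charZero : CharZero F

theorem isLocalFieldData : IsLocalFieldData ↥(𝒪 q K) K where
  isDomain := inferInstance
  isDVR := inferInstance
  isAdicComplete := inferInstance
  finite_residueField := inferInstance
  isFractionRing := inferInstance
  charZero := charZero_field q K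

end Fermat.Agent.CFT.Local.Model
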