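import Mathlib
import Fermat.Agent.CFT.Local.Model
import Fermat.Agent.CFT.Local.PowIndex

/-!
# PROJECT C, slice B5': the `n`-th power index for the `(M2)` local fields

For a finite extension `K` of `ℚ_[q]` with integers `𝒪 q K` (Local/Model.lean):
`|𝒪 / q𝒪| = q ^ [K : ℚ_q]`, `|𝒪 / n𝒪| = 1` for `n` prime to `q`, hence
`[Kˣ : (Kˣ)^q] = q * q ^ [K : ℚ_q] * |μ_q(K)|` and `[Kˣ : (Kˣ)^n] = n * |μ_n(K)|` for `q ∤ n`.
-/

set_option autoImplicit false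

namespace Fermat.Agent.CFT.Local.PowIndexModel

open scoped Fermat.Agent.CFT.Local.Model

open Fermat.Agent.CFT.Local.Model Fermat.Agent.CFT.Local.PowIndex IsLocalRing Module

variable (q : ℕ) [Fact q.Prime] (K : Type*) [Field K] [Algebra ℚ_[q] K]
  [FiniteDimensional ℚ_[q] K]

theorem map_maximalIdeal_int :
    Ideal.map (algebraMap ℤ_[q] ↥(𝒪 q K)) (maximalIdeal ℤ_[q]) =
      Ideal.span {((q : ℕ) : ↥(𝒪 q K))} := by
  rw [PadicInt.maximalIdeal_eq_span_p, Ideal.map_span, Set.image_singleton, map_natCast]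

theorem card_residueField_int : Nat.card (ℤ_[q] ⧸ maximalIdeal ℤ_[q]) = q := by
  have h := Nat.card_congr (PadicInt.residueField (p := q)).toEquiv
  rw [Nat.card_zmod] at h
  exact h

attribute [local instance] Ideal.Quotient.field in
/-- `|𝒪 / q𝒪| = q ^ [K : ℚ_q]`. -/
theorem card_quot_q :
    Nat.card (↥(𝒪 q K) ⧸ Ideal.span {((q : ℕ) : ↥(𝒪 q K))}) = q ^ finrank ℚ_[q] K := by
  rw [← map_maximalIdeal_int, ← finrank_int_𝒪,
    ← IsLocalRing.finrank_quotient_map (R := ℤ_[q]) (S := ↥(𝒪 q K))]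
  have : Module.Finite (ℤ_[q] ⧸ maximalIdeal ℤ_[q])
      (↥(𝒪 q K) ⧸ Ideal.map (algebraMap ℤ_[q] ↥(𝒪 q K)) (maximalIdeal ℤ_[q])) :=
    Module.Finite.of_restrictScalars_finite ℤ_[q] _ _
  rw [Module.natCard_eq_pow_finrank (K := ℤ_[q] ⧸ maximalIdeal ℤ_[q]), card_residueField_int]

theorem natCast_ne_zero {n : ℕ} (hn : n ≠ 0) : ((n : ℕ) : ↥(𝒪 q K)) ≠ 0 := by
  have := charZero_field q K
  intro h
  have h' : (𝒪 q K).subtype ((n : ℕ) : ↥(𝒪 q K)) = 0 := by rw [h, map_zero]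
  rw [map_natCast] at h'
  exact hn (by exact_mod_cast h')

theorem isUnit_natCast {n : ℕ} (h : q.Coprime n) : IsUnit ((n : ℕ) : ↥(𝒪 q K)) := by
  rw [isUnit_iff_nrm_eq_one]
  have h1 : ((((n : ℕ) : ↥(𝒪 q K)) : K)) = algebraMap ℚ_[q] K (n : ℚ_[q]) := by
    rw [map_natCast]
    exact map_natCast (𝒪 q K).subtype n
  rw [h1, nrm_algebraMap, Padic.norm_natCast_eq_one_iff]
  exact h

/-- `|𝒪 / n𝒪| = 1` for `n` prime to `q`. -/
theorem card_quot_of_coprime {n : ℕ} (h : q.Coprime n) :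
    Nat.card (↥(𝒪 q K) ⧸ Ideal.span {((n : ℕ) : ↥(𝒪 q K))}) = 1 := by
  have htop : Ideal.span {((n : ℕ) : ↥(𝒪 q K))} = ⊤ :=
    Ideal.span_singleton_eq_top.mpr (isUnit_natCast q K h)
  rw [htop]
  have : Subsingleton (↥(𝒪 q K) ⧸ (⊤ : Ideal ↥(𝒪 q K))) :=
    Ideal.Quotient.subsingleton_iff.mpr rfl
  exact Nat.card_unique

/-- **`[Kˣ : (Kˣ)^q] = q * q ^ [K : ℚ_q] * |μ_q(K)|`** for a finite extension `K` of `ℚ_q`. -/
theorem card_quotient_pow_q :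
    Nat.card (Kˣ ⧸ (powMonoidHom q : Kˣ →* Kˣ).range) =
      q * q ^ finrank ℚ_[q] K * Nat.card (rootsOfUnity q K) := by
  have h := card_quotient_pow_field (O := ↥(𝒪 q K)) K (n := q)
    (natCast_ne_zero q K (Fact.out : q.Prime).ne_zero)
  rwa [card_quot_q] at h

/-- **`[Kˣ : (Kˣ)^n] = n * |μ_n(K)|`** for a finite extension `K` of `ℚ_q` and `n ≠ 0` prime to
`q`. -/
theorem card_quotient_pow_of_coprime {n : ℕ} (hn : n ≠ 0) (h : q.Coprime n) :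
    Nat.card (Kˣ ⧸ (powMonoidHom n : Kˣ →* Kˣ).range) = n * Nat.card (rootsOfUnity n K) := by
  have h1 := card_quotient_pow_field (O := ↥(𝒪 q K)) K (n := n) (natCast_ne_zero q K hn)
  rwa [card_quot_of_coprime q K h, mul_one] at h1

include q in
/-- Finiteness of `Kˣ ⧸ (Kˣ)ⁿ`. -/
theorem finite_quotient_pow {n : ℕ} (hn : n ≠ 0) :
    Finite (Kˣ ⧸ (powMonoidHom n : Kˣ →* Kˣ).range) :=
  finite_quotient_pow_field (O := ↥(𝒪 q K)) K (natCast_ne_zero q K hn)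

end Fermat.Agent.CFT.Local.PowIndexModel
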