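import Mathlib
import Fermat.Agent.CFT.Herbrand

/-
Project C, Layer B2a: vanishing of the Tate cohomology `Ĥ⁰`, `Ĥ¹` of a cyclic group acting on an
abelian group, in the concrete index form of `CFT/Herbrand.lean`, and the approximation lemma
(complete separated stable filtration whose graded pieces have vanishing cohomology).
-/

set_option autoImplicit false

namespace Fermat.Agent.CFT.Local.CyclicVanish

open Fermat.Agent.CFT.Herbrand

variable {A : Type*} [AddCommGroup A]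

/-- exactness of `g` then `f` on the subgroup `A'`: `ker f ∩ A' ⊆ g A'` -/
def ExactOn (f g : A →+ A) (A' : AddSubgroup A) : Prop :=
  ∀ a ∈ A', f a = 0 → ∃ b ∈ A', g b = a

/-- `Ĥ⁰` of the stable subgroup `A'` vanishes: invariants are norms. -/
def V0On (σ : A →+ A) (n : ℕ) (A' : AddSubgroup A) : Prop :=
  ∀ a ∈ A', σ a = a → ∃ b ∈ A', nrm σ n b = a

/-- `Ĥ¹ = Ĥ⁻¹` of the stable subgroup `A'` vanishes: elements of norm zero are of the form
`σ b - b`. -/
def V1On (σ : A →+ A) (n : ℕ) (A' : AddSubgroup A) : Prop :=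
  ∀ a ∈ A', nrm σ n a = 0 → ∃ b ∈ A', σ b - b = a

theorem v0On_iff_exactOn (σ : A →+ A) (n : ℕ) (A' : AddSubgroup A) :
    V0On σ n A' ↔ ExactOn (delta σ) (nrm σ n) A' := by
  unfold V0On ExactOn
  simp only [delta_apply, sub_eq_zero]

theorem v1On_iff_exactOn (σ : A →+ A) (n : ℕ) (A' : AddSubgroup A) :
    V1On σ n A' ↔ ExactOn (nrm σ n) (delta σ) A' := by
  unfold V1On ExactOn
  simp only [delta_apply]

theorem idxSub_eq_one_iff (f g : A →+ A) (A' : AddSubgroup A) :
    idxSub f g A' = 1 ↔ ExactOn f g A' := by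
  rw [idxSub, AddSubgroup.relIndex_eq_one]
  constructor
  · intro h a ha hfa
    obtain ⟨b, hb, hgb⟩ := h ⟨hfa, ha⟩
    exact ⟨b, hb, hgb⟩
  · rintro h a ⟨ha1, ha2⟩
    obtain ⟨b, hb, hgb⟩ := h a ha2 ha1
    exact ⟨b, hb, hgb⟩

theorem idx_eq_one_iff (f g : A →+ A) :
    idx f g = 1 ↔ ∀ a, f a = 0 → ∃ b, g b = a := by
  rw [idx, AddSubgroup.relIndex_eq_one]
  constructor
  · intro h a hfa
    obtain ⟨b, hgb⟩ := h hfa
    exact ⟨b, hgb⟩
  · intro h a ha
    obtain ⟨b, hgb⟩ := h a ha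
    exact ⟨b, hgb⟩

/-- Vanishing of `Ĥ⁰` and `Ĥ¹` of a stable subgroup gives Herbrand quotient `1` there. -/
theorem herbrandSub_eq_one (σ : A →+ A) (n : ℕ) (A' : AddSubgroup A)
    (h0 : V0On σ n A') (h1 : V1On σ n A') :
    IsDefinedSub (delta σ) (nrm σ n) A' ∧ herbrandSub (delta σ) (nrm σ n) A' = 1 := by
  have e0 : idxSub (delta σ) (nrm σ n) A' = 1 :=
    (idxSub_eq_one_iff _ _ _).mpr ((v0On_iff_exactOn σ n A').mp h0)
  have e1 : idxSub (nrm σ n) (delta σ) A' = 1 :=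
    (idxSub_eq_one_iff _ _ _).mpr ((v1On_iff_exactOn σ n A').mp h1)
  refine ⟨⟨by rw [e0]; exact one_ne_zero, by rw [e1]; exact one_ne_zero⟩, ?_⟩
  rw [herbrandSub, e0, e1, Nat.cast_one, div_one]

/-- A stable subgroup of finite index with vanishing `Ĥ⁰`, `Ĥ¹` forces the Herbrand quotient of
the whole group to be `1`. -/
theorem hcyc_eq_one_of_sub (σ : A →+ A) (n : ℕ) (hσ : ∀ a, σ^[n] a = a) (A' : AddSubgroup A)
    (hstab : ∀ a ∈ A', σ a ∈ A') (hidx : A'.index ≠ 0)
    (h0 : V0On σ n A') (h1 : V1On σ n A') :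
    IsDefined (delta σ) (nrm σ n) ∧ hcyc σ n = 1 := by
  have hd : ∀ a ∈ A', delta σ a ∈ A' := fun a ha => by
    rw [delta_apply]
    exact A'.sub_mem (hstab a ha) ha
  have hit : ∀ j : ℕ, ∀ a ∈ A', σ^[j] a ∈ A' := by
    intro j
    induction j with
    | zero => intro a ha; exact ha
    | succ j ih =>
      intro a ha
      rw [Function.iterate_succ_apply']
      exact hstab _ (ih a ha)
  have hn : ∀ a ∈ A', nrm σ n a ∈ A' := fun a ha => by
    rw [nrm_apply]
    exact A'.sum_mem fun j _ => hit j a ha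
  obtain ⟨hS, hS1⟩ := herbrandSub_eq_one σ n A' h0 h1
  have hfg := delta_nrm_eq_zero σ n hσ
  have hgf := nrm_delta_eq_zero σ n hσ
  refine ⟨(isDefined_iff_isDefinedSub _ _ A' hfg hgf hd hn hidx).mpr hS, ?_⟩
  rw [hcyc, herbrand_eq_herbrandSub _ _ A' hfg hgf hd hn hidx, hS1]

/-! ### The approximation lemma -/

section Approx

variable (f g : A →+ A) (F : ℕ → AddSubgroup A)

open Classical in
/-- auxiliary choice function for the approximation lemma -/
noncomputable def pick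
    (hgr : ∀ i, ∀ a ∈ F i, f a = 0 → ∃ b ∈ F i, a - g b ∈ F (i + 1)) (i : ℕ) (a : A) : A :=
  if h : a ∈ F i ∧ f a = 0 then Classical.choose (hgr i a h.1 h.2) else 0

theorem pick_spec
    (hgr : ∀ i, ∀ a ∈ F i, f a = 0 → ∃ b ∈ F i, a - g b ∈ F (i + 1)) (i : ℕ) (a : A)
    (ha : a ∈ F i) (hfa : f a = 0) :
    pick f g F hgr i a ∈ F i ∧ a - g (pick f g F hgr i a) ∈ F (i + 1) := by
  unfold pick
  rw [dif_pos ⟨ha, hfa⟩]
  exact Classical.choose_spec (hgr i a ha hfa)

/-- auxiliary sequence of remainders for the approximation lemma -/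
noncomputable def rem
    (hgr : ∀ i, ∀ a ∈ F i, f a = 0 → ∃ b ∈ F i, a - g b ∈ F (i + 1)) (a : A) : ℕ → A
  | 0 => a
  | (i + 1) => rem hgr a i - g (pick f g F hgr i (rem hgr a i))

/-- **Approximation lemma.**  Let `F` be a filtration of `A` which is separated and complete,
`f, g` endomorphisms with `f ∘ g = 0` and `g` preserving the filtration.  If on each level every
element of `F i` killed by `f` is in `g (F i)` modulo `F (i+1)`, then every element of `F 0`
killed by `f` is in `g (F 0)`. -/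
theorem exactOn_of_graded (hfg : ∀ a, f (g a) = 0)
    (hg : ∀ i, ∀ a ∈ F i, g a ∈ F i)
    (sep : ∀ a, (∀ i, a ∈ F i) → a = 0)
    (compl : ∀ x : ℕ → A, (∀ i, x i ∈ F i) →
      ∃ y, ∀ i, y - ∑ j ∈ Finset.range i, x j ∈ F i)
    (hgr : ∀ i, ∀ a ∈ F i, f a = 0 → ∃ b ∈ F i, a - g b ∈ F (i + 1)) :
    ExactOn f g (F 0) := by
  intro a ha hfa
  have key : ∀ i, rem f g F hgr a i ∈ F i ∧ f (rem f g F hgr a i) = 0 := by
    intro i
    induction i with
    | zero => exact ⟨ha, hfa⟩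
    | succ i ih =>
      obtain ⟨h1, h2⟩ := pick_spec f g F hgr i _ ih.1 ih.2
      refine ⟨h2, ?_⟩
      show f (rem f g F hgr a i - g (pick f g F hgr i (rem f g F hgr a i))) = 0
      rw [map_sub, ih.2, hfg, sub_zero]
  set b : ℕ → A := fun i => pick f g F hgr i (rem f g F hgr a i) with hb
  have hbmem : ∀ i, b i ∈ F i := fun i => (pick_spec f g F hgr i _ (key i).1 (key i).2).1
  have hrem : ∀ i, rem f g F hgr a i = a - g (∑ j ∈ Finset.range i, b j) := by
    intro i
    induction i with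
    | zero => simp [rem]
    | succ i ih =>
      show rem f g F hgr a i - g (b i) = _
      rw [ih, Finset.sum_range_succ, map_add]
      abel
  obtain ⟨y, hy⟩ := compl b hbmem
  refine ⟨y, ?_, ?_⟩
  · have := hy 0
    simpa using this
  · have : g y - a = 0 := by
      apply sep
      intro i
      have e : g y - a = g (y - ∑ j ∈ Finset.range i, b j) - rem f g F hgr a i := by
        rw [hrem i, map_sub]
        abel
      rw [e]
      exact (F i).sub_mem (hg i _ (hy i)) (key i).1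
    exact sub_eq_zero.mp this

end Approx

/-- The approximation lemma for `Ĥ⁰`. -/
theorem v0On_of_graded (σ : A →+ A) (n : ℕ) (hσ : ∀ a, σ^[n] a = a) (F : ℕ → AddSubgroup A)
    (hstab : ∀ i, ∀ a ∈ F i, σ a ∈ F i)
    (sep : ∀ a, (∀ i, a ∈ F i) → a = 0)
    (compl : ∀ x : ℕ → A, (∀ i, x i ∈ F i) →
      ∃ y, ∀ i, y - ∑ j ∈ Finset.range i, x j ∈ F i)
    (hgr : ∀ i, ∀ a ∈ F i, σ a = a → ∃ b ∈ F i, a - nrm σ n b ∈ F (i + 1)) :
    V0On σ n (F 0) := by
  rw [v0On_iff_exactOn]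
  have hit : ∀ i, ∀ j : ℕ, ∀ a ∈ F i, σ^[j] a ∈ F i := by
    intro i j
    induction j with
    | zero => intro a ha; exact ha
    | succ j ih =>
      intro a ha
      rw [Function.iterate_succ_apply']
      exact hstab i _ (ih a ha)
  refine exactOn_of_graded (delta σ) (nrm σ n) F (delta_nrm_eq_zero σ n hσ) ?_ sep compl ?_
  · intro i a ha
    rw [nrm_apply]
    exact (F i).sum_mem fun j _ => hit i j a ha
  · intro i a ha hda
    rw [delta_apply, sub_eq_zero] at hda
    exact hgr i a ha hda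

/-- The approximation lemma for `Ĥ¹`. -/
theorem v1On_of_graded (σ : A →+ A) (n : ℕ) (hσ : ∀ a, σ^[n] a = a) (F : ℕ → AddSubgroup A)
    (hstab : ∀ i, ∀ a ∈ F i, σ a ∈ F i)
    (sep : ∀ a, (∀ i, a ∈ F i) → a = 0)
    (compl : ∀ x : ℕ → A, (∀ i, x i ∈ F i) →
      ∃ y, ∀ i, y - ∑ j ∈ Finset.range i, x j ∈ F i)
    (hgr : ∀ i, ∀ a ∈ F i, nrm σ n a = 0 → ∃ b ∈ F i, a - (σ b - b) ∈ F (i + 1)) :
    V1On σ n (F 0) := by
  rw [v1On_iff_exactOn]
  refine exactOn_of_graded (nrm σ n) (delta σ) F (nrm_delta_eq_zero σ n hσ) ?_ sep compl ?_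
  · intro i a ha
    rw [delta_apply]
    exact (F i).sub_mem (hstab i a ha) ha
  · intro i a ha hna
    obtain ⟨b, hb, hab⟩ := hgr i a ha hna
    exact ⟨b, hb, by rwa [delta_apply]⟩

end Fermat.Agent.CFT.Local.CyclicVanish
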