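import Mathlib
import Fermat.Agent.CFT.Local.CyclicVanish

/-
Project C, Layer B2c (ring level): for a commutative ring `R` (think `O_L`) with an automorphism
`σ` of finite order `n`, a `σ`-fixed non-zero-divisor `ε` (think `π_K`) with `1 + εR ⊆ Rˣ`, and a
`σ`-stable, `ε`-stable additive subgroup `M` with `ε^c R ⊆ M`, `ε`-adically complete, such that
`M / εM` has vanishing `Ĥ⁰`, `Ĥ¹`: the subgroup `1 + ε^(c+1) M` of `Rˣ` has vanishing `Ĥ⁰`, `Ĥ¹`.
-/

set_option autoImplicit false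

namespace Fermat.Agent.CFT.Local

open Fermat.Agent.CFT.Herbrand Fermat.Agent.CFT.Local.CyclicVanish Finset

/-- The abstract data behind the computation of the cohomology of the units of a local field. -/
structure UnitLattice (R : Type*) [CommRing R] where
  /-- the automorphism -/
  σ : R →+* R
  /-- its order -/
  n : ℕ
  hσ : ∀ r, σ^[n] r = r
  /-- the uniformiser of the base -/
  ε : R
  hσε : σ ε = ε
  hε : ∀ x, ε * x = 0 → x = 0
  hunit : ∀ x, IsUnit (1 + ε * x)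
  /-- the lattice -/
  M : AddSubgroup R
  hσM : ∀ x ∈ M, σ x ∈ M
  hεM : ∀ x ∈ M, ε * x ∈ M
  /-- the conductor exponent of the lattice -/
  c : ℕ
  hc : ∀ r, ε ^ c * r ∈ M
  sepR : ∀ r, (∀ m : ℕ, ∃ r', r = ε ^ m * r') → r = 0
  compl : ∀ x : ℕ → R, (∀ i, x i ∈ M) →
    ∃ y ∈ M, ∀ i : ℕ, ∃ m ∈ M, y - ∑ j ∈ range i, ε ^ j * x j = ε ^ i * m
  a0 : ∀ x ∈ M, σ x = x → ∃ y ∈ M, ∃ μ ∈ M, x - ∑ j ∈ range n, σ^[j] y = ε * μ
  a1 : ∀ x ∈ M, (∃ μ ∈ M, ∑ j ∈ range n, σ^[j] x = ε * μ) →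
    ∃ y ∈ M, ∃ μ ∈ M, x - (σ y - y) = ε * μ

/-- product expansion `∏ (1 + e y_j) = 1 + e ∑ y_j + e² r` -/
theorem prod_one_add_mul {R : Type*} [CommRing R] {ι : Type*} (s : Finset ι) (e : R)
    (y : ι → R) : ∃ r, ∏ j ∈ s, (1 + e * y j) = 1 + e * ∑ j ∈ s, y j + e ^ 2 * r := by
  classical
  induction s using Finset.induction_on with
  | empty => exact ⟨0, by simp⟩
  | insert a s ha ih =>
    obtain ⟨r, hr⟩ := ih
    refine ⟨r + y a * ∑ j ∈ s, y j + e * y a * r, ?_⟩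
    rw [Finset.prod_insert ha, Finset.sum_insert ha, hr]
    ring

namespace UnitLattice

variable {R : Type*} [CommRing R] (D : UnitLattice R)

theorem hεpow (k : ℕ) (x : R) (h : D.ε ^ k * x = 0) : x = 0 := by
  induction k with
  | zero => simpa using h
  | succ k ih =>
    apply ih
    apply D.hε
    rw [← mul_assoc, ← pow_succ']
    exact h

theorem hcm (m : ℕ) (r : R) : D.ε ^ (D.c + m) * r ∈ D.M := by
  rw [pow_add, mul_assoc]
  exact D.hc _

theorem hεpowM (k : ℕ) (x : R) (hx : x ∈ D.M) : D.ε ^ k * x ∈ D.M := by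
  induction k with
  | zero => simpa using hx
  | succ k ih =>
    rw [pow_succ', mul_assoc]
    exact D.hεM _ ih

theorem σ_pow (k : ℕ) : D.σ (D.ε ^ k) = D.ε ^ k := by
  rw [map_pow, D.hσε]

theorem iter_ε (j : ℕ) : D.σ^[j] D.ε = D.ε := by
  induction j with
  | zero => rfl
  | succ j ih => rw [Function.iterate_succ_apply', ih, D.hσε]

theorem iter_M (j : ℕ) (x : R) (hx : x ∈ D.M) : D.σ^[j] x ∈ D.M := by
  induction j with
  | zero => exact hx
  | succ j ih =>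
    rw [Function.iterate_succ_apply']
    exact D.hσM _ ih

theorem iter_one_add (j k : ℕ) (x : R) :
    D.σ^[j] (1 + D.ε ^ k * x) = 1 + D.ε ^ k * D.σ^[j] x := by
  rw [iterate_map_add, iterate_map_mul, iterate_map_pow, iterate_map_one, D.iter_ε]

/-- the subgroup `1 + ε^(c+m) M` of the unit group -/
def W (m : ℕ) : Subgroup Rˣ where
  carrier := {u | ∃ x ∈ D.M, (u : R) = 1 + D.ε ^ (D.c + m) * x}
  one_mem' := ⟨0, D.M.zero_mem, by simp⟩
  mul_mem' := by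
    rintro u v ⟨x, hx, hu⟩ ⟨y, hy, hv⟩
    refine ⟨x + y + D.ε ^ (D.c + m) * (x * y),
      D.M.add_mem (D.M.add_mem hx hy) (D.hcm m _), ?_⟩
    rw [Units.val_mul, hu, hv]
    ring
  inv_mem' := by
    rintro u ⟨x, hx, hu⟩
    have h1 : ((u⁻¹ : Rˣ) : R) = 1 - D.ε ^ (D.c + m) * (x * ((u⁻¹ : Rˣ) : R)) := by
      have : (u : R) * ((u⁻¹ : Rˣ) : R) = 1 := by
        rw [← Units.val_mul, mul_inv_cancel, Units.val_one]
      rw [hu] at this
      linear_combination this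
    have h2 : x * ((u⁻¹ : Rˣ) : R) ∈ D.M := by
      rw [h1, mul_sub, mul_one]
      refine D.M.sub_mem hx ?_
      have : x * (D.ε ^ (D.c + m) * (x * ((u⁻¹ : Rˣ) : R))) =
          D.ε ^ (D.c + m) * (x * (x * ((u⁻¹ : Rˣ) : R))) := by ring
      rw [this]
      exact D.hcm m _
    refine ⟨-(x * ((u⁻¹ : Rˣ) : R)), D.M.neg_mem h2, ?_⟩
    rw [mul_neg, ← sub_eq_add_neg]
    exact h1

theorem mem_W {m : ℕ} {u : Rˣ} :
    u ∈ D.W m ↔ ∃ x ∈ D.M, (u : R) = 1 + D.ε ^ (D.c + m) * x := Iff.rfl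

theorem W_succ_le (m : ℕ) : D.W (m + 1) ≤ D.W m := by
  rintro u ⟨x, hx, hu⟩
  refine ⟨D.ε * x, D.hεM x hx, ?_⟩
  rw [hu, ← add_assoc, pow_succ, mul_assoc]

theorem W_antitone : Antitone D.W := antitone_nat_of_succ_le D.W_succ_le

theorem W_le_zero (m : ℕ) : D.W m ≤ D.W 0 := D.W_antitone (Nat.zero_le m)

/-- `M · (1 + ε^c M) ⊆ M` -/
theorem mul_mem_M {x : R} (hx : x ∈ D.M) {v : Rˣ} (hv : v ∈ D.W 0) : x * (v : R) ∈ D.M := by
  obtain ⟨t, -, hvt⟩ := hv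
  rw [hvt, mul_add, mul_one]
  refine D.M.add_mem hx ?_
  have : x * (D.ε ^ (D.c + 0) * t) = D.ε ^ (D.c + 0) * (x * t) := by ring
  rw [this]
  exact D.hcm 0 _

/-- the basic criterion for membership of a quotient in the filtration -/
theorem div_mem_W {m : ℕ} {u v : Rˣ} (hv : v ∈ D.W 0) {μ : R} (hμ : μ ∈ D.M)
    (h : (u : R) - v = D.ε ^ (D.c + m) * μ) : u / v ∈ D.W m := by
  refine ⟨μ * ((v⁻¹ : Rˣ) : R), D.mul_mem_M hμ (inv_mem hv), ?_⟩
  rw [div_eq_mul_inv, Units.val_mul]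
  have h1 : (v : R) * ((v⁻¹ : Rˣ) : R) = 1 := by
    rw [← Units.val_mul, mul_inv_cancel, Units.val_one]
  have h2 : (u : R) = v + D.ε ^ (D.c + m) * μ := by linear_combination h
  rw [h2, add_mul, h1]
  ring

/-- the unit `1 + ε^(k+1) x` -/
noncomputable def oneAdd (k : ℕ) (x : R) : Rˣ := (D.hunit (D.ε ^ k * x)).unit

theorem coe_oneAdd (k : ℕ) (x : R) : (D.oneAdd k x : R) = 1 + D.ε ^ (k + 1) * x := by
  rw [oneAdd, IsUnit.unit_spec, pow_succ', mul_assoc]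

theorem oneAdd_mem_W (m : ℕ) {x : R} (hx : x ∈ D.M) : D.oneAdd (D.c + m) x ∈ D.W (m + 1) :=
  ⟨x, hx, by rw [coe_oneAdd, add_assoc]⟩

/-- the action of `σ` on units -/
def σU : Rˣ →* Rˣ := Units.map (D.σ : R →* R)

theorem coe_σU (u : Rˣ) : (D.σU u : R) = D.σ u := rfl

theorem coe_iter_σU (j : ℕ) (u : Rˣ) : ((D.σU^[j] u : Rˣ) : R) = D.σ^[j] (u : R) := by
  induction j with
  | zero => rfl
  | succ j ih => rw [Function.iterate_succ_apply', Function.iterate_succ_apply', coe_σU, ih]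

theorem σU_mem_W {m : ℕ} {u : Rˣ} (hu : u ∈ D.W m) : D.σU u ∈ D.W m := by
  obtain ⟨x, hx, hux⟩ := hu
  refine ⟨D.σ x, D.hσM x hx, ?_⟩
  rw [coe_σU, hux, map_add, map_mul, map_one, D.σ_pow]

theorem iter_σU_mem_W {m : ℕ} (j : ℕ) {u : Rˣ} (hu : u ∈ D.W m) : D.σU^[j] u ∈ D.W m := by
  induction j with
  | zero => exact hu
  | succ j ih =>
    rw [Function.iterate_succ_apply']
    exact D.σU_mem_W ih

/-- the multiplicative norm -/
def NU (u : Rˣ) : Rˣ := ∏ j ∈ range D.n, D.σU^[j] u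

theorem NU_mem_W {m : ℕ} {u : Rˣ} (hu : u ∈ D.W m) : D.NU u ∈ D.W m :=
  Subgroup.prod_mem _ fun j _ => D.iter_σU_mem_W j hu

theorem coe_NU (u : Rˣ) : (D.NU u : R) = ∏ j ∈ range D.n, D.σ^[j] (u : R) := by
  rw [NU, Units.coe_prod]
  exact Finset.prod_congr rfl fun j _ => D.coe_iter_σU j u

/-- expansion of the norm of `1 + ε^k x` -/
theorem coe_NU_expand (u : Rˣ) (k : ℕ) (x : R) (hu : (u : R) = 1 + D.ε ^ k * x) :
    ∃ r, (D.NU u : R) = 1 + D.ε ^ k * ∑ j ∈ range D.n, D.σ^[j] x + (D.ε ^ k) ^ 2 * r := by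
  obtain ⟨r, hr⟩ := prod_one_add_mul (range D.n) (D.ε ^ k) (fun j => D.σ^[j] x)
  refine ⟨r, ?_⟩
  rw [coe_NU, ← hr]
  exact Finset.prod_congr rfl fun j _ => by rw [hu, D.iter_one_add]


/-! ### the graded steps -/

/-- graded step for `Ĥ⁰` -/
theorem graded0 (i : ℕ) (u : Rˣ) (hu : u ∈ D.W (i + 1)) (hσu : D.σU u = u) :
    ∃ b ∈ D.W (i + 1), u / D.NU b ∈ D.W (i + 2) := by
  obtain ⟨x, hx, hux⟩ := hu
  -- `σ x = x`
  have hσx : D.σ x = x := by
    have h1 : D.σ (u : R) = u := by rw [← coe_σU, hσu]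
    rw [hux, map_add, map_mul, map_one, D.σ_pow] at h1
    have h2 : D.ε ^ (D.c + (i + 1)) * (D.σ x - x) = 0 := by linear_combination h1
    exact sub_eq_zero.mp (D.hεpow _ _ h2)
  obtain ⟨y, hy, μ, hμ, hxy⟩ := D.a0 x hx hσx
  refine ⟨D.oneAdd (D.c + i) y, D.oneAdd_mem_W i hy, ?_⟩
  have hbW : D.oneAdd (D.c + i) y ∈ D.W (i + 1) := D.oneAdd_mem_W i hy
  obtain ⟨r, hr⟩ := D.coe_NU_expand (D.oneAdd (D.c + i) y) (D.c + i + 1) y (D.coe_oneAdd _ _)
  refine D.div_mem_W (D.W_le_zero _ (D.NU_mem_W hbW))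
    (μ := μ - D.ε ^ (D.c + i) * r) (D.M.sub_mem hμ (D.hcm i r)) ?_
  rw [hr, hux]
  have e1 : D.c + (i + 1) = D.c + i + 1 := by ring
  have e2 : D.c + (i + 2) = D.c + i + 1 + 1 := by ring
  rw [e1, e2]
  have : D.ε ^ (D.c + i + 1) * x =
      D.ε ^ (D.c + i + 1) * (∑ j ∈ range D.n, D.σ^[j] y) + D.ε ^ (D.c + i + 1) * (D.ε * μ) := by
    rw [← hxy]; ring
  linear_combination this

/-- graded step for `Ĥ¹` -/
theorem graded1 (i : ℕ) (u : Rˣ) (hu : u ∈ D.W (i + 1)) (hNu : D.NU u = 1) :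
    ∃ b ∈ D.W (i + 1), u / (D.σU b / b) ∈ D.W (i + 2) := by
  obtain ⟨x, hx, hux⟩ := hu
  obtain ⟨r, hr⟩ := D.coe_NU_expand u (D.c + (i + 1)) x hux
  rw [hNu, Units.val_one] at hr
  have e1 : D.c + (i + 1) = D.c + i + 1 := by ring
  -- the trace of `x` is divisible by `ε`
  have htr : ∑ j ∈ range D.n, D.σ^[j] x = D.ε * (-(D.ε ^ (D.c + i) * r)) := by
    have h2 : D.ε ^ (D.c + (i + 1)) *
        (∑ j ∈ range D.n, D.σ^[j] x - D.ε * (-(D.ε ^ (D.c + i) * r))) = 0 := by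
      rw [e1]
      rw [e1] at hr
      linear_combination -hr
    exact sub_eq_zero.mp (D.hεpow _ _ h2)
  obtain ⟨y, hy, μ, hμ, hxy⟩ := D.a1 x hx ⟨_, D.M.neg_mem (D.hcm i r), htr⟩
  have hbW : D.oneAdd (D.c + i) y ∈ D.W (i + 1) := D.oneAdd_mem_W i hy
  refine ⟨D.oneAdd (D.c + i) y, hbW, ?_⟩
  have e3 : u / (D.σU (D.oneAdd (D.c + i) y) / D.oneAdd (D.c + i) y) =
      (u * D.oneAdd (D.c + i) y) / D.σU (D.oneAdd (D.c + i) y) := by
    rw [div_div_eq_mul_div]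
  rw [e3]
  refine D.div_mem_W (D.W_le_zero _ (D.σU_mem_W hbW))
    (μ := μ + D.ε ^ (D.c + i) * (x * y)) (D.M.add_mem hμ (D.hcm i _)) ?_
  rw [Units.val_mul, coe_σU, coe_oneAdd, hux, map_add, map_mul, map_one, D.σ_pow]
  have e2 : D.c + (i + 2) = D.c + i + 1 + 1 := by ring
  rw [e1, e2]
  have : D.ε ^ (D.c + i + 1) * x =
      D.ε ^ (D.c + i + 1) * (D.σ y - y) + D.ε ^ (D.c + i + 1) * (D.ε * μ) := by
    rw [← hxy]; ring
  linear_combination this

/-- separatedness of the filtration -/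
theorem W_sep (u : Rˣ) (hu : ∀ i, u ∈ D.W (i + 1)) : u = 1 := by
  have : (u : R) - 1 = 0 := by
    apply D.sepR
    intro m
    obtain ⟨x, -, hux⟩ := hu m
    refine ⟨D.ε ^ (D.c + 1) * x, ?_⟩
    rw [hux]
    have : D.c + (m + 1) = m + (D.c + 1) := by ring
    rw [this, pow_add]
    ring
  exact Units.ext (by rw [Units.val_one]; exact sub_eq_zero.mp this)

/-- completeness of the filtration -/
theorem W_compl (u : ℕ → Rˣ) (hu : ∀ i, u i ∈ D.W (i + 1)) :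
    ∃ y : Rˣ, ∀ i, y / ∏ j ∈ range i, u j ∈ D.W (i + 1) := by
  choose x hx hux using hu
  have hP : ∀ i, ∏ j ∈ range i, u j ∈ D.W 1 := fun i =>
    Subgroup.prod_mem _ fun j _ => D.W_antitone (Nat.le_add_left 1 j) ⟨x j, hx j, hux j⟩
  set w : ℕ → R := fun i => x i * ((∏ j ∈ range i, u j : Rˣ) : R) with hw
  have hwM : ∀ i, w i ∈ D.M := fun i => D.mul_mem_M (hx i) (D.W_le_zero _ (hP i))
  have hPw : ∀ i, ((∏ j ∈ range i, u j : Rˣ) : R) =
      1 + D.ε ^ (D.c + 1) * ∑ j ∈ range i, D.ε ^ j * w j := by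
    intro i
    induction i with
    | zero => simp
    | succ i ih =>
      rw [Finset.prod_range_succ, Units.val_mul, hux i, Finset.sum_range_succ]
      have hwi : w i = x i * ((∏ j ∈ range i, u j : Rˣ) : R) := rfl
      rw [hwi]
      have : D.c + (i + 1) = (D.c + 1) + i := by ring
      rw [this, pow_add]
      linear_combination ih
  obtain ⟨z, hz, hzi⟩ := D.compl w hwM
  refine ⟨D.oneAdd D.c z, fun i => ?_⟩
  obtain ⟨m, hm, hzm⟩ := hzi i
  refine D.div_mem_W (D.W_le_zero _ (hP i)) hm ?_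
  rw [coe_oneAdd, hPw i]
  have : D.c + (i + 1) = (D.c + 1) + i := by ring
  rw [this, pow_add]
  linear_combination D.ε ^ (D.c + 1) * hzm


/-! ### transfer to the additive language of `CFT/Herbrand.lean` -/

/-- the endomorphism of `Additive Rˣ` induced by `σ` -/
def σA : Additive Rˣ →+ Additive Rˣ := MonoidHom.toAdditive D.σU

/-- the filtration `1 + ε^(c+1+i) M` of `Additive Rˣ` -/
def F (i : ℕ) : AddSubgroup (Additive Rˣ) := Subgroup.toAddSubgroup (D.W (i + 1))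

theorem mem_F {i : ℕ} {a : Additive Rˣ} : a ∈ D.F i ↔ Additive.toMul a ∈ D.W (i + 1) := Iff.rfl

theorem σA_apply (a : Additive Rˣ) : D.σA a = Additive.ofMul (D.σU (Additive.toMul a)) := rfl

theorem iter_σA (j : ℕ) (a : Additive Rˣ) :
    D.σA^[j] a = Additive.ofMul (D.σU^[j] (Additive.toMul a)) := by
  induction j with
  | zero => rfl
  | succ j ih => rw [Function.iterate_succ_apply', Function.iterate_succ_apply', ih]; rfl

theorem nrm_σA (a : Additive Rˣ) :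
    nrm D.σA D.n a = Additive.ofMul (D.NU (Additive.toMul a)) := by
  rw [nrm_apply, NU, ofMul_prod]
  exact Finset.sum_congr rfl fun j _ => D.iter_σA j a

theorem hσA (a : Additive Rˣ) : D.σA^[D.n] a = a := by
  rw [iter_σA]
  have : D.σU^[D.n] (Additive.toMul a) = Additive.toMul a :=
    Units.ext (by rw [coe_iter_σU, D.hσ])
  rw [this]
  rfl

theorem F_stable (i : ℕ) (a : Additive Rˣ) (ha : a ∈ D.F i) : D.σA a ∈ D.F i :=
  D.σU_mem_W (D.mem_F.mp ha)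

theorem F_sep (a : Additive Rˣ) (ha : ∀ i, a ∈ D.F i) : a = 0 := by
  have := D.W_sep (Additive.toMul a) ha
  exact this

theorem F_compl (x : ℕ → Additive Rˣ) (hx : ∀ i, x i ∈ D.F i) :
    ∃ y, ∀ i, y - ∑ j ∈ range i, x j ∈ D.F i := by
  obtain ⟨y, hy⟩ := D.W_compl (fun i => Additive.toMul (x i)) hx
  refine ⟨Additive.ofMul y, fun i => ?_⟩
  rw [mem_F, toMul_sub, toMul_sum, toMul_ofMul]
  exact hy i

/-- **`Ĥ⁰(1 + ε^(c+1) M) = 0`** -/
theorem v0On : V0On D.σA D.n (D.F 0) := by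
  refine v0On_of_graded D.σA D.n D.hσA D.F D.F_stable D.F_sep D.F_compl ?_
  intro i a ha hσa
  have h1 : D.σU (Additive.toMul a) = Additive.toMul a := by
    have := congrArg Additive.toMul hσa
    exact this
  obtain ⟨b, hb, hab⟩ := D.graded0 i (Additive.toMul a) ha h1
  refine ⟨Additive.ofMul b, hb, ?_⟩
  rw [mem_F, toMul_sub, nrm_σA, toMul_ofMul, toMul_ofMul]
  exact hab

/-- **`Ĥ¹(1 + ε^(c+1) M) = 0`** -/
theorem v1On : V1On D.σA D.n (D.F 0) := by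
  refine v1On_of_graded D.σA D.n D.hσA D.F D.F_stable D.F_sep D.F_compl ?_
  intro i a ha hNa
  have h1 : D.NU (Additive.toMul a) = 1 := by
    have := congrArg Additive.toMul hNa
    rw [nrm_σA, toMul_ofMul] at this
    exact this
  obtain ⟨b, hb, hab⟩ := D.graded1 i (Additive.toMul a) ha h1
  refine ⟨Additive.ofMul b, hb, ?_⟩
  rw [mem_F, toMul_sub, toMul_sub, σA_apply, toMul_ofMul, toMul_ofMul]
  exact hab

/-- the subgroup `1 + ε^(c+1) M` has finite index in `Rˣ` as soon as `R / ε^(2c+1)` is finite -/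
theorem F_index_ne_zero (hfin : Finite (R ⧸ Ideal.span {D.ε ^ (D.c + 1 + D.c)})) :
    (D.F 0).index ≠ 0 := by
  rw [F, Subgroup.index_toAddSubgroup]
  set I : Ideal R := Ideal.span {D.ε ^ (D.c + 1 + D.c)} with hI
  let φ : Rˣ →* (R ⧸ I)ˣ := Units.map (Ideal.Quotient.mk I : R →* R ⧸ I)
  have hker : φ.ker ≤ D.W (0 + 1) := by
    intro u hu
    rw [MonoidHom.mem_ker] at hu
    have h1 : (Ideal.Quotient.mk I) (u : R) = 1 := by
      have := congrArg Units.val hu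
      exact this
    have h2 : (u : R) - 1 ∈ I := by
      rw [← Ideal.Quotient.eq, h1, map_one]
    rw [hI, Ideal.mem_span_singleton] at h2
    obtain ⟨t, ht⟩ := h2
    refine ⟨D.ε ^ D.c * t, D.hc t, ?_⟩
    have : (u : R) = 1 + D.ε ^ (D.c + 1 + D.c) * t := by linear_combination ht
    rw [this, pow_add, zero_add, mul_assoc]
  have hfi : φ.ker.index ≠ 0 := by
    rw [Subgroup.index_ker]
    exact Nat.card_pos.ne'
  exact ne_zero_of_dvd_ne_zero hfi (Subgroup.index_dvd_of_le hker)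

/-- **`h(Rˣ) = 1`**: the Herbrand quotient of the unit group is defined and equal to one. -/
theorem hcyc_units (hfin : Finite (R ⧸ Ideal.span {D.ε ^ (D.c + 1 + D.c)})) :
    IsDefined (delta D.σA) (nrm D.σA D.n) ∧ hcyc D.σA D.n = 1 :=
  hcyc_eq_one_of_sub D.σA D.n D.hσA (D.F 0) (D.F_stable 0) (D.F_index_ne_zero hfin) D.v0On D.v1On

end UnitLattice

end Fermat.Agent.CFT.Local
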