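import Mathlib
import Fermat.Agent.CFT.HerbrandShapiro
import Fermat.Agent.CFT.Local.UnitLattice

/-
Project C, Layer B2c (continued): the `UnitLattice` attached to a normal basis lattice.

`R` (think `O_L`) is an algebra over `O` (think `O_K`), `σ : R →ₐ[O] R` of order `k + 1`, `ϖ : O`
a uniformiser, `θ : R` with `θ, σθ, …, σ^k θ` linearly independent over `O`, and
`M = O θ + O σθ + ⋯ + O σ^k θ ⊇ ϖ^c R`.  Then `M / ϖ M` is an induced module, so its Tate
cohomology vanishes; completeness of `M` follows from the completeness of `R`.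
-/

set_option autoImplicit false

namespace Fermat.Agent.CFT.Local

open Fermat.Agent.CFT.Herbrand Fermat.Agent.CFT.HerbrandShapiro Finset

/-! ### The abstract induced-module computation -/

section Abstract

variable {A B : Type*} [AddCommGroup A] [AddCommGroup B]
  (σ : A →+ A) (ι : B →+ A) (k : ℕ) (E : A →+ A) (EB : B →+ B)

theorem indMap_sgl_zero (z : B) : indMap σ ι k (sgl k 0 z) = ι z := by
  rw [indMap_apply, Fin.sum_univ_succ]
  have : ∀ i : Fin k, σ^[((i.succ : Fin (k + 1)) : ℕ)] (ι (sgl k 0 z i.succ)) = 0 := by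
    intro i
    rw [sgl_apply, if_neg (Fin.succ_ne_zero i), map_zero, iterate_map_zero]
  rw [Finset.sum_eq_zero fun i _ => this i, add_zero, sgl_apply, if_pos rfl]
  rfl

variable (hι : ∀ y, σ^[k + 1] (ι y) = ι y)
include hι

theorem indMap_shift_id (b : Fin (k + 1) → B) :
    indMap σ ι k (shift (AddMonoidHom.id B) k b) = σ (indMap σ ι k b) :=
  indMap_shift σ ι (AddMonoidHom.id B) k hι b

theorem indMap_nrm (n : ℕ) (b : Fin (k + 1) → B) :
    indMap σ ι k (nrm (shift (AddMonoidHom.id B) k) n b) = nrm σ n (indMap σ ι k b) := by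
  have hsc : Function.Semiconj (indMap σ ι k) (shift (AddMonoidHom.id B) k) σ :=
    fun b => indMap_shift_id σ ι k hι b
  rw [nrm_apply, nrm_apply, map_sum]
  exact Finset.sum_congr rfl fun j _ => (hsc.iterate_right j).eq b

theorem indMap_delta (b : Fin (k + 1) → B) :
    indMap σ ι k (delta (shift (AddMonoidHom.id B) k) b) = delta σ (indMap σ ι k b) := by
  rw [delta_apply, delta_apply, map_sub, indMap_shift_id σ ι k hι]

variable (hinj : Function.Injective (indMap σ ι k))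
include hinj

/-- `Ĥ⁰` of an induced module vanishes. -/
theorem induced_a0 (x : A) (hx : x ∈ (indMap σ ι k).range) (hσx : σ x = x) :
    ∃ y ∈ (indMap σ ι k).range, nrm σ (k + 1) y = x := by
  obtain ⟨c, rfl⟩ := hx
  have h1 : shift (AddMonoidHom.id B) k c = c := by
    apply hinj
    rw [indMap_shift_id σ ι k hι, hσx]
  have h2 : c ∈ (delta (shift (AddMonoidHom.id B) k)).ker := by
    rw [AddMonoidHom.mem_ker, delta_apply, h1, sub_self]
  rw [ker_delta_shift] at h2
  obtain ⟨y₀, -, rfl⟩ := h2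
  refine ⟨indMap σ ι k (sgl k 0 y₀), ⟨_, rfl⟩, ?_⟩
  have h3 := nrm_shift_sgl_zero (AddMonoidHom.id B) k 1 y₀
  rw [mul_one] at h3
  rw [← indMap_nrm σ ι k hι, h3]
  congr 2
  simp [nrm_apply]

/-- `Ĥ¹` of an induced module modulo `E` vanishes. -/
theorem induced_a1 (hEσ : ∀ a, E (σ a) = σ (E a)) (hEι : ∀ y, E (ι y) = ι (EB y))
    (x : A) (hx : x ∈ (indMap σ ι k).range)
    (htr : ∃ μ ∈ (indMap σ ι k).range, nrm σ (k + 1) x = E μ) :
    ∃ y ∈ (indMap σ ι k).range, ∃ μ ∈ (indMap σ ι k).range, x - (σ y - y) = E μ := by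
  obtain ⟨c, rfl⟩ := hx
  obtain ⟨_, ⟨d, rfl⟩, hd⟩ := htr
  -- `E` commutes with the comparison map
  have hEit : ∀ (j : ℕ) (a : A), E (σ^[j] a) = σ^[j] (E a) := by
    intro j
    induction j with
    | zero => intro a; rfl
    | succ j ih =>
      intro a
      rw [Function.iterate_succ_apply', Function.iterate_succ_apply', hEσ, ih]
  have hEΦ : E (indMap σ ι k d) = indMap σ ι k (fun r => EB (d r)) := by
    rw [indMap_apply, indMap_apply, map_sum]
    exact Finset.sum_congr rfl fun r _ => by rw [hEit, hEι]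
  have h1 : nrm (shift (AddMonoidHom.id B) k) (k + 1) c = diag k (sumHom k c) := by
    have h3 := nrm_shift (AddMonoidHom.id B) k 1 (fun _ => rfl) c
    rw [mul_one] at h3
    rw [h3]
    congr 1
    simp [nrm_apply]
  have h2 : diag k (sumHom k c) = fun r => EB (d r) := by
    apply hinj
    rw [← h1, indMap_nrm σ ι k hι, hd, hEΦ]
  have h3 : sumHom k c = EB (d 0) := by
    have := congrFun h2 0
    rwa [diag_apply] at this
  obtain ⟨b, hb⟩ := sub_sgl_sumHom_mem_range (AddMonoidHom.id B) k c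
  refine ⟨indMap σ ι k b, ⟨_, rfl⟩, indMap σ ι k (sgl k 0 (d 0)), ⟨_, rfl⟩, ?_⟩
  have h4 : σ (indMap σ ι k b) - indMap σ ι k b = indMap σ ι k c - ι (EB (d 0)) := by
    rw [← delta_apply, ← indMap_delta σ ι k hι, hb, map_sub, indMap_sgl_zero, h3]
  rw [h4, indMap_sgl_zero, hEι]
  abel

end Abstract

/-! ### Normal basis data -/

/-- The data of a normal basis lattice in a complete ring. -/
structure NormalBasisData (O R : Type*) [CommRing O] [CommRing R] [Algebra O R] where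
  /-- the automorphism -/
  σ : R →ₐ[O] R
  /-- the order of the automorphism is `k + 1` -/
  k : ℕ
  hσ : ∀ r, σ^[k + 1] r = r
  /-- the uniformiser of the base -/
  ϖ : O
  hε : ∀ x : R, algebraMap O R ϖ * x = 0 → x = 0
  hunit : ∀ x : R, IsUnit (1 + algebraMap O R ϖ * x)
  /-- the normal basis generator -/
  θ : R
  hli : LinearIndependent O (fun j : Fin (k + 1) => σ^[(j : ℕ)] θ)
  /-- the conductor exponent -/
  c : ℕ
  hc : ∀ r : R, ∃ a : Fin (k + 1) → O,
    algebraMap O R ϖ ^ c * r = ∑ j : Fin (k + 1), a j • σ^[(j : ℕ)] θ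
  sepR : ∀ r : R, (∀ m : ℕ, ∃ r', r = algebraMap O R ϖ ^ m * r') → r = 0
  complR : ∀ x : ℕ → R, ∃ y, ∀ i : ℕ, ∃ r,
    y - ∑ j ∈ range i, algebraMap O R ϖ ^ j * x j = algebraMap O R ϖ ^ i * r

namespace NormalBasisData

variable {O R : Type*} [CommRing O] [CommRing R] [Algebra O R] (N : NormalBasisData O R)

/-- `σ` as an additive endomorphism -/
def σAdd : R →+ R := (N.σ : R →+* R).toAddMonoidHom

theorem σAdd_apply (r : R) : N.σAdd r = N.σ r := rfl

theorem σAdd_iter (j : ℕ) (r : R) : N.σAdd^[j] r = N.σ^[j] r := rfl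

/-- `c ↦ c • θ` -/
def coeffHom : O →+ R where
  toFun a := a • N.θ
  map_zero' := zero_smul _ _
  map_add' a b := add_smul a b N.θ

theorem coeffHom_apply (a : O) : N.coeffHom a = a • N.θ := rfl

/-- the uniformiser in `R` -/
def ε : R := algebraMap O R N.ϖ

theorem σ_iter_smul (j : ℕ) (a : O) (r : R) : N.σ^[j] (a • r) = a • N.σ^[j] r := by
  induction j with
  | zero => rfl
  | succ j ih => rw [Function.iterate_succ_apply', Function.iterate_succ_apply', ih, map_smul]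

/-- the comparison map `O^(k+1) → R` -/
def Φ : (Fin (N.k + 1) → O) →+ R := indMap N.σAdd N.coeffHom N.k

theorem Φ_apply (a : Fin (N.k + 1) → O) :
    N.Φ a = ∑ j : Fin (N.k + 1), a j • N.σ^[(j : ℕ)] N.θ := by
  rw [Φ, indMap_apply]
  exact Finset.sum_congr rfl fun j _ => by rw [σAdd_iter, coeffHom_apply, σ_iter_smul]

theorem Φ_injective : Function.Injective N.Φ := by
  rw [injective_iff_map_eq_zero]
  intro a ha
  rw [Φ_apply] at ha
  exact funext (Fintype.linearIndependent_iff.mp N.hli a ha)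

/-- the lattice `O θ + ⋯ + O σ^k θ` -/
def M : AddSubgroup R := N.Φ.range

theorem mem_M_iff (x : R) :
    x ∈ N.M ↔ ∃ a : Fin (N.k + 1) → O, x = ∑ j : Fin (N.k + 1), a j • N.σ^[(j : ℕ)] N.θ := by
  constructor
  · rintro ⟨a, rfl⟩
    exact ⟨a, N.Φ_apply a⟩
  · rintro ⟨a, rfl⟩
    exact ⟨a, N.Φ_apply a⟩

theorem mem_M_iff_span (x : R) :
    x ∈ N.M ↔ x ∈ Submodule.span O (Set.range fun j : Fin (N.k + 1) => N.σ^[(j : ℕ)] N.θ) := by
  rw [mem_M_iff, Submodule.mem_span_range_iff_exists_fun]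
  exact ⟨fun ⟨a, h⟩ => ⟨a, h.symm⟩, fun ⟨a, h⟩ => ⟨a, h.symm⟩⟩

theorem hι (y : O) : N.σAdd^[N.k + 1] (N.coeffHom y) = N.coeffHom y := N.hσ _

theorem smul_mem_M (a : O) (x : R) (hx : x ∈ N.M) : a • x ∈ N.M := by
  rw [mem_M_iff_span] at hx ⊢
  exact Submodule.smul_mem _ a hx

theorem σ_mem_M (x : R) (hx : x ∈ N.M) : N.σ x ∈ N.M := by
  obtain ⟨a, rfl⟩ := hx
  exact ⟨_, indMap_shift_id N.σAdd N.coeffHom N.k N.hι a⟩

theorem ε_mul_mem_M (x : R) (hx : x ∈ N.M) : N.ε * x ∈ N.M := by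
  have : N.ε * x = N.ϖ • x := by rw [ε, Algebra.smul_def]
  rw [this]
  exact N.smul_mem_M _ _ hx

theorem ε_pow_mul_mem_M (j : ℕ) (x : R) (hx : x ∈ N.M) : N.ε ^ j * x ∈ N.M := by
  induction j with
  | zero => simpa using hx
  | succ j ih =>
    rw [pow_succ', mul_assoc]
    exact N.ε_mul_mem_M _ ih

theorem hcM (r : R) : N.ε ^ N.c * r ∈ N.M := by
  obtain ⟨a, ha⟩ := N.hc r
  exact (N.mem_M_iff _).mpr ⟨a, ha⟩

/-- completeness of the lattice from the completeness of the ring -/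
theorem complM (x : ℕ → R) (hx : ∀ i, x i ∈ N.M) :
    ∃ y ∈ N.M, ∀ i : ℕ, ∃ m ∈ N.M, y - ∑ j ∈ range i, N.ε ^ j * x j = N.ε ^ i * m := by
  -- the tails
  have htail : ∀ i : ℕ, ∃ y, ∀ l : ℕ, ∃ r,
      y - ∑ j ∈ range l, N.ε ^ j * x (i + j) = N.ε ^ l * r := fun i =>
    N.complR fun j => x (i + j)
  choose y hy using htail
  have hyM : ∀ i, y i ∈ N.M := by
    intro i
    obtain ⟨r, hr⟩ := hy i N.c
    have : y i = ∑ j ∈ range N.c, N.ε ^ j * x (i + j) + N.ε ^ N.c * r := by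
      rw [← hr]; ring
    rw [this]
    exact N.M.add_mem (N.M.sum_mem fun j _ => N.ε_pow_mul_mem_M j _ (hx _)) (N.hcM r)
  refine ⟨y 0, hyM 0, fun i => ⟨y i, hyM i, ?_⟩⟩
  have : y 0 - ∑ j ∈ range i, N.ε ^ j * x j - N.ε ^ i * y i = 0 := by
    apply N.sepR
    intro l
    obtain ⟨r₀, hr₀⟩ := hy 0 (i + l)
    obtain ⟨r₁, hr₁⟩ := hy i l
    refine ⟨N.ε ^ i * (r₀ - r₁), ?_⟩
    show _ = N.ε ^ l * (N.ε ^ i * (r₀ - r₁))
    have hsplit : ∑ j ∈ range (i + l), N.ε ^ j * x (0 + j) =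
        ∑ j ∈ range i, N.ε ^ j * x j + N.ε ^ i * ∑ j ∈ range l, N.ε ^ j * x (i + j) := by
      rw [Finset.sum_range_add, Finset.mul_sum]
      congr 1
      · exact Finset.sum_congr rfl fun j _ => by rw [zero_add]
      · exact Finset.sum_congr rfl fun j _ => by rw [zero_add, pow_add, mul_assoc]
    rw [hsplit] at hr₀
    have e : N.ε ^ (i + l) = N.ε ^ l * N.ε ^ i := by rw [pow_add, mul_comm]
    rw [e] at hr₀
    linear_combination hr₀ - N.ε ^ i * hr₁
  exact sub_eq_zero.mp this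

/-- multiplication by `ε` as an additive endomorphism -/
def EHom : R →+ R := AddMonoidHom.mulLeft N.ε

/-- multiplication by `ϖ` as an additive endomorphism -/
def EBHom : O →+ O := AddMonoidHom.mulLeft N.ϖ

theorem σ_ε : N.σ N.ε = N.ε := N.σ.commutes N.ϖ

/-- The `UnitLattice` of a normal basis lattice. -/
def toUnitLattice : UnitLattice R where
  σ := N.σ
  n := N.k + 1
  hσ := N.hσ
  ε := N.ε
  hσε := N.σ_ε
  hε := N.hε
  hunit := N.hunit
  M := N.M
  hσM := N.σ_mem_M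
  hεM := N.ε_mul_mem_M
  c := N.c
  hc := N.hcM
  sepR := N.sepR
  compl := N.complM
  a0 := by
    intro x hx hσx
    obtain ⟨y, hy, hxy⟩ := induced_a0 N.σAdd N.coeffHom N.k N.hι N.Φ_injective x hx hσx
    refine ⟨y, hy, 0, N.M.zero_mem, ?_⟩
    rw [mul_zero, sub_eq_zero, ← hxy, nrm_apply]
    rfl
  a1 := by
    intro x hx htr
    have hEσ : ∀ a, N.EHom (N.σAdd a) = N.σAdd (N.EHom a) := by
      intro a
      show N.ε * N.σ a = N.σ (N.ε * a)
      rw [map_mul, N.σ_ε]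
    have hEι : ∀ y, N.EHom (N.coeffHom y) = N.coeffHom (N.EBHom y) := by
      intro y
      show N.ε * (y • N.θ) = (N.ϖ * y) • N.θ
      rw [mul_smul, ε, ← Algebra.smul_def]
    obtain ⟨μ, hμ, hxμ⟩ := htr
    obtain ⟨y, hy, μ', hμ', h⟩ := induced_a1 N.σAdd N.coeffHom N.k N.EHom N.EBHom N.hι
      N.Φ_injective hEσ hEι x hx ⟨μ, hμ, by rw [nrm_apply]; exact hxμ⟩
    exact ⟨y, hy, μ', hμ', h⟩

end NormalBasisData

end Fermat.Agent.CFT.Local
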