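import Mathlib
import Fermat.Agent.CFT.Local.CyclicVanish

/-
Project C, Layer B2c (group level): from the Herbrand quotient of the units to the Herbrand
quotient of the multiplicative group, and the norm index.

`U → G → ℤ` is an exact sequence (`U` = units, `G = Lˣ`, `G → ℤ` the normalised valuation) with a
compatible automorphism of finite order `n` acting trivially on `ℤ`: `h(G) = n · h(U)`.  If moreover
`Ĥ¹(G) = 0` (Hilbert 90) and `h(U) = 1`, then `[G^σ : N G] = n`.
-/

set_option autoImplicit false

namespace Fermat.Agent.CFT.Local.NormIndex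

open Fermat.Agent.CFT.Herbrand Fermat.Agent.CFT.Local.CyclicVanish Finset

section Additive

variable {G : Type*} [CommGroup G] (s : G →* G)

theorem toAdditive_iterate (j : ℕ) (a : Additive G) :
    (MonoidHom.toAdditive s)^[j] a = Additive.ofMul (s^[j] (Additive.toMul a)) := by
  induction j with
  | zero => rfl
  | succ j ih => rw [Function.iterate_succ_apply', Function.iterate_succ_apply', ih]; rfl

theorem toAdditive_iterate_fix (n : ℕ) (hs : ∀ g, s^[n] g = g) (a : Additive G) :
    (MonoidHom.toAdditive s)^[n] a = a := by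
  rw [toAdditive_iterate, hs]
  rfl

theorem nrm_toAdditive (n : ℕ) (a : Additive G) :
    nrm (MonoidHom.toAdditive s) n a =
      Additive.ofMul (∏ j ∈ range n, s^[j] (Additive.toMul a)) := by
  rw [nrm_apply, ofMul_prod]
  exact Finset.sum_congr rfl fun j _ => toAdditive_iterate s j a

theorem delta_toAdditive (a : Additive G) :
    delta (MonoidHom.toAdditive s) a =
      Additive.ofMul (s (Additive.toMul a) / Additive.toMul a) := rfl

end Additive

section SES

variable {U G : Type*} [CommGroup U] [CommGroup G]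
  (φ : U →* G) (v : G →* Multiplicative ℤ) (sU : U →* U) (sG : G →* G) (n : ℕ)

/-- The short exact sequence `U → G → ℤ` in the form of `CFT/Herbrand.lean`. -/
theorem isSES_of_val (hφ : Function.Injective φ) (hv : Function.Surjective v)
    (hex : φ.range = v.ker) (hφs : ∀ u, φ (sU u) = sG (φ u)) (hvs : ∀ g, v (sG g) = v g)
    (hsG : ∀ g, sG^[n] g = g) :
    IsSES (MonoidHom.toAdditive φ) (MonoidHom.toAdditiveLeft v)
      (delta (MonoidHom.toAdditive sU)) (nrm (MonoidHom.toAdditive sU) n)
      (delta (MonoidHom.toAdditive sG)) (nrm (MonoidHom.toAdditive sG) n)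
      (delta (AddMonoidHom.id ℤ)) (nrm (AddMonoidHom.id ℤ) n) := by
  have hit : ∀ (j : ℕ) (u : U), φ (sU^[j] u) = sG^[j] (φ u) := by
    intro j
    induction j with
    | zero => intro u; rfl
    | succ j ih =>
      intro u
      rw [Function.iterate_succ_apply', Function.iterate_succ_apply', hφs, ih]
  have hvit : ∀ (j : ℕ) (g : G), v (sG^[j] g) = v g := by
    intro j
    induction j with
    | zero => intro g; rfl
    | succ j ih =>
      intro g
      rw [Function.iterate_succ_apply', hvs, ih]
  refine ⟨?_, ?_, ?_, ?_, ?_, ?_, ?_, ?_, ?_⟩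
  · intro a b hab
    exact hφ hab
  · intro z
    obtain ⟨g, hg⟩ := hv (Multiplicative.ofAdd z)
    exact ⟨Additive.ofMul g, by
      show Multiplicative.toAdd (v g) = z
      rw [hg]; rfl⟩
  · ext a
    constructor
    · rintro ⟨u, rfl⟩
      have : φ (Additive.toMul u) ∈ v.ker := hex ▸ ⟨_, rfl⟩
      rw [MonoidHom.mem_ker] at this
      rw [AddMonoidHom.mem_ker]
      show Multiplicative.toAdd (v (φ (Additive.toMul u))) = 0
      rw [this]; rfl
    · intro ha
      rw [AddMonoidHom.mem_ker] at ha
      have h1 : v (Additive.toMul a) = 1 := by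
        have : Multiplicative.toAdd (v (Additive.toMul a)) = 0 := ha
        exact this
      have h2 : Additive.toMul a ∈ φ.range := by
        rw [hex, MonoidHom.mem_ker, h1]
      obtain ⟨u, hu⟩ := h2
      exact ⟨Additive.ofMul u, hu⟩
  · exact delta_nrm_eq_zero _ n (toAdditive_iterate_fix sG n hsG)
  · exact nrm_delta_eq_zero _ n (toAdditive_iterate_fix sG n hsG)
  · intro a
    rw [delta_toAdditive, delta_toAdditive]
    show Additive.ofMul (φ (sU (Additive.toMul a) / Additive.toMul a)) = _
    rw [map_div, hφs]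
    rfl
  · intro a
    rw [nrm_toAdditive, nrm_toAdditive]
    show Additive.ofMul (φ (∏ j ∈ range n, sU^[j] (Additive.toMul a))) = _
    rw [map_prod]
    congr 1
    exact Finset.prod_congr rfl fun j _ => hit j _
  · intro a
    rw [delta_toAdditive, delta_id]
    show Multiplicative.toAdd (v (sG (Additive.toMul a) / Additive.toMul a)) = 0
    rw [map_div, hvs, div_self']
    rfl
  · intro a
    rw [nrm_toAdditive, nrm_id_apply]
    show Multiplicative.toAdd (v (∏ j ∈ range n, sG^[j] (Additive.toMul a))) = _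
    rw [map_prod, Finset.prod_congr rfl fun j _ => hvit j (Additive.toMul a), Finset.prod_const,
      card_range, toAdd_pow]
    rfl

/-- **`h(G) = n · h(U)`**. -/
theorem hcyc_of_val (hn : n ≠ 0) (hφ : Function.Injective φ) (hv : Function.Surjective v)
    (hex : φ.range = v.ker) (hφs : ∀ u, φ (sU u) = sG (φ u)) (hvs : ∀ g, v (sG g) = v g)
    (hsG : ∀ g, sG^[n] g = g)
    (hU : IsDefined (delta (MonoidHom.toAdditive sU)) (nrm (MonoidHom.toAdditive sU) n)) :
    IsDefined (delta (MonoidHom.toAdditive sG)) (nrm (MonoidHom.toAdditive sG) n) ∧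
      hcyc (MonoidHom.toAdditive sG) n = hcyc (MonoidHom.toAdditive sU) n * n := by
  obtain ⟨-, -, hZ, hZn⟩ := herbrand_int n hn
  have h := (isSES_of_val φ v sU sG n hφ hv hex hφs hvs hsG).isDefined_mid hU hZ
  refine ⟨h.1, ?_⟩
  rw [hcyc, h.2, ← hZn]
  rfl

end SES

section Index

variable {A : Type*} [AddCommGroup A] (σ : A →+ A) (n : ℕ)

/-- If `Ĥ¹ = 0` and `h = n` then `|Ĥ⁰| = n`. -/
theorem idx_eq_of_hcyc (h1 : idx (nrm σ n) (delta σ) = 1) (hh : hcyc σ n = n) :
    idx (delta σ) (nrm σ n) = n := by
  rw [hcyc, herbrand, h1, Nat.cast_one, div_one] at hh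
  exact_mod_cast hh

/-- `Ĥ¹ = 0` in elementwise form gives `idx = 1`. -/
theorem idx_nrm_delta_eq_one (h90 : ∀ a, nrm σ n a = 0 → ∃ b, σ b - b = a) :
    idx (nrm σ n) (delta σ) = 1 :=
  (idx_eq_one_iff _ _).mpr fun a ha => by
    obtain ⟨b, hb⟩ := h90 a ha
    exact ⟨b, by rw [delta_apply, hb]⟩

end Index

end Fermat.Agent.CFT.Local.NormIndex
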