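import Mathlib
import Fermat.Agent.CFT.Local.PowIndex

/-!
# PROJECT C, slice C5b: local behaviour of Kummer extensions `K(y^(1/p))` away from `p`

All statements are model-free: `A` is any commutative algebra over the base with an endomorphism
`σ` and an element `α` with `α ^ p = y`, `σ α = ζ • α` (for instance `K_v[X]/(X^p - y)`,
`L ⊗ K_v`, an idempotent block of it, or an honest field extension).  The norm is the
`σ`-product `∏_{i<p} σ^[i] b`.

* `sigmaNorm σ n : A →* A`, `b ↦ ∏_{i<n} σ^[i] b`.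
* Split case (`prod_iterate_split`): if `β ^ p = 1`, `σ β = ζ • β`, then every element of the
  base ring is a `σ`-norm.
* Unramified case (`exists_unit_sigmaNorm_eq`): over a complete discrete valuation ring `O` with
  finite residue field in which `p` is a unit, if `α ^ p = u ∈ Oˣ` then every unit of `O` is the
  `σ`-norm of a unit of `A`.
-/

set_option autoImplicit false

namespace Fermat.Agent.CFT.Local.KummerLocal

open Finset

/-! ### The `σ`-norm -/

section SigmaNorm

variable {A : Type*} [CommRing A]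

/-- The `σ`-norm `b ↦ ∏_{i<n} σ^[i] b`. -/
noncomputable def sigmaNorm (σ : A →+* A) (n : ℕ) : A →* A where
  toFun b := ∏ i ∈ range n, σ^[i] b
  map_one' := by
    simp only [iterate_map_one, prod_const_one]
  map_mul' x y := by
    simp only [iterate_map_mul, prod_mul_distrib]

theorem sigmaNorm_apply (σ : A →+* A) (n : ℕ) (b : A) :
    sigmaNorm σ n b = ∏ i ∈ range n, σ^[i] b := rfl

/-- A `σ`-fixed element has `σ`-norm its `n`-th power. -/
theorem sigmaNorm_of_fixed (σ : A →+* A) (n : ℕ) {b : A} (hb : σ b = b) :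
    sigmaNorm σ n b = b ^ n := by
  rw [sigmaNorm_apply]
  have : ∀ i, σ^[i] b = b := fun i => Function.iterate_fixed hb i
  simp only [this, prod_const, card_range]

/-- An element whose `σ`-norm is a unit is a unit. -/
theorem isUnit_of_isUnit_sigmaNorm (σ : A →+* A) {n : ℕ} (hn : n ≠ 0) {b : A}
    (h : IsUnit (sigmaNorm σ n b)) : IsUnit b := by
  obtain ⟨n, rfl⟩ := Nat.exists_eq_succ_of_ne_zero hn
  rw [sigmaNorm_apply, prod_range_succ'] at h
  exact isUnit_of_mul_isUnit_right h

end SigmaNorm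

/-! ### The split case -/

section Split

variable {R A : Type*} [CommRing R] [CommRing A] [Algebra R A] (σ : A →ₐ[R] A)
  {p : ℕ} {ζ pinv : R} {β : A}

/-- The candidate idempotents `e_i = p⁻¹ ∑_j ζ^(i j) β^j`. -/
noncomputable def idem (p : ℕ) (ζ pinv : R) (β : A) (i : ℕ) : A :=
  pinv • ∑ j ∈ range p, ζ ^ (i * j) • β ^ j

theorem map_idem (hσ : σ β = ζ • β) (i : ℕ) :
    σ (idem p ζ pinv β i) = idem p ζ pinv β (i + 1) := by
  rw [idem, idem, map_smul, map_sum]
  congr 1
  refine sum_congr rfl fun j _ => ?_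
  rw [map_smul, map_pow, hσ, smul_pow, smul_smul, ← pow_add]
  congr 2
  ring

theorem iterate_idem (hσ : σ β = ζ • β) (i : ℕ) :
    σ^[i] (idem p ζ pinv β 0) = idem p ζ pinv β i := by
  induction i with
  | zero => rfl
  | succ i ih => rw [Function.iterate_succ_apply', ih, map_idem σ hσ]

theorem smul_mul_idem (hζ : ζ ^ p = 1) (hβ : β ^ p = 1) (i : ℕ) :
    ζ ^ i • (β * idem p ζ pinv β i) = idem p ζ pinv β i := by
  rw [idem, mul_smul_comm, smul_comm, mul_sum]
  congr 1
  rw [smul_sum]
  have h1 : ∀ j ∈ range p, ζ ^ i • (β * ζ ^ (i * j) • β ^ j) =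
      ζ ^ (i * (j + 1)) • β ^ (j + 1) := by
    intro j _
    rw [mul_smul_comm, smul_smul, ← pow_add, ← pow_succ']
    congr 2
    ring
  rw [sum_congr rfl h1]
  have h2 := sum_range_succ' (fun j => ζ ^ (i * j) • β ^ j) p
  have h3 := sum_range_succ (fun j => ζ ^ (i * j) • β ^ j) p
  have h4 : ζ ^ (i * p) • β ^ p = ζ ^ (i * 0) • β ^ 0 := by
    rw [hβ, mul_comm, pow_mul, hζ, one_pow, mul_zero, pow_zero, pow_zero]
  rw [h3, h4] at h2
  exact (add_right_cancel h2).symm

theorem smul_pow_mul_idem (hζ : ζ ^ p = 1) (hβ : β ^ p = 1) (i j : ℕ) :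
    ζ ^ (i * j) • (β ^ j * idem p ζ pinv β i) = idem p ζ pinv β i := by
  induction j with
  | zero => rw [mul_zero, pow_zero, pow_zero, one_smul, one_mul]
  | succ j ih =>
    have : ζ ^ (i * (j + 1)) • (β ^ (j + 1) * idem p ζ pinv β i) =
        ζ ^ (i * j) • (β ^ j * (ζ ^ i • (β * idem p ζ pinv β i))) := by
      rw [mul_smul_comm, smul_smul, ← pow_add, pow_succ, mul_assoc]
      congr 2
    rw [this, smul_mul_idem hζ hβ, ih]

theorem idem_mul_idem_of_lt (hζ : ζ ^ p = 1) (hβ : β ^ p = 1)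
    (hsum : ∀ d, 0 < d → d < p → ∑ j ∈ range p, ζ ^ (d * j) = 0) {i l : ℕ} (hil : i < l)
    (hl : l < p) : idem p ζ pinv β l * idem p ζ pinv β i = 0 := by
  obtain ⟨d, rfl⟩ := Nat.exists_eq_add_of_lt hil
  have h1 : idem p ζ pinv β (i + d + 1) * idem p ζ pinv β i =
      pinv • ∑ j ∈ range p, ζ ^ ((d + 1) * j) • idem p ζ pinv β i := by
    nth_rewrite 1 [idem]
    rw [smul_mul_assoc, sum_mul]
    congr 1
    refine sum_congr rfl fun j _ => ?_
    have : ζ ^ ((i + d + 1) * j) = ζ ^ ((d + 1) * j) * ζ ^ (i * j) := by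
      rw [← pow_add]
      congr 1
      ring
    rw [smul_mul_assoc, this, mul_smul, smul_pow_mul_idem hζ hβ]
  rw [h1, ← sum_smul, hsum (d + 1) (Nat.succ_pos d) (by omega), zero_smul, smul_zero]

theorem idem_mul_self (hp : (p : R) * pinv = 1) (hζ : ζ ^ p = 1) (hβ : β ^ p = 1) (i : ℕ) :
    idem p ζ pinv β i * idem p ζ pinv β i = idem p ζ pinv β i := by
  have h1 : idem p ζ pinv β i * idem p ζ pinv β i =
      pinv • ∑ _j ∈ range p, idem p ζ pinv β i := by
    nth_rewrite 1 [idem]
    rw [smul_mul_assoc, sum_mul]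
    congr 1
    refine sum_congr rfl fun j _ => ?_
    rw [smul_mul_assoc, smul_pow_mul_idem hζ hβ]
  rw [h1, sum_const, card_range, ← Nat.cast_smul_eq_nsmul R, smul_smul, mul_comm, hp, one_smul]

theorem sum_idem (hp : (p : R) * pinv = 1)
    (hsum : ∀ d, 0 < d → d < p → ∑ j ∈ range p, ζ ^ (d * j) = 0) :
    ∑ i ∈ range p, idem p ζ pinv β i = 1 := by
  rcases Nat.eq_zero_or_pos p with h0 | h0
  · subst h0
    have h10 : (1 : A) = 0 := by
      rw [← one_smul R (1 : A), ← hp, Nat.cast_zero, zero_mul, zero_smul]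
    have : Subsingleton A := subsingleton_of_zero_eq_one h10.symm
    exact Subsingleton.elim _ _
  simp only [idem]
  rw [← smul_sum, sum_comm]
  have h1 : ∀ j ∈ range p, ∑ i ∈ range p, ζ ^ (i * j) • β ^ j =
      if j = 0 then (p : R) • (1 : A) else 0 := by
    intro j hj
    rw [← sum_smul]
    split_ifs with h
    · subst h
      simp
    · have h2 : ∑ i ∈ range p, ζ ^ (i * j) = ∑ i ∈ range p, ζ ^ (j * i) :=
        sum_congr rfl fun i _ => by rw [mul_comm]
      rw [h2, hsum j (Nat.pos_of_ne_zero h) (mem_range.mp hj), zero_smul]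
  rw [sum_congr rfl h1, sum_ite_eq']
  have hp0 : 0 ∈ range p := mem_range.mpr h0
  rw [if_pos hp0, smul_smul, mul_comm, hp, one_smul]

theorem iterate_one_add_smul_idem (hσ : σ β = ζ • β) (a : R) (i : ℕ) :
    (σ : A →+* A)^[i] (1 + (a - 1) • idem p ζ pinv β 0) = 1 + (a - 1) • idem p ζ pinv β i := by
  induction i with
  | zero => rfl
  | succ i ih =>
    rw [Function.iterate_succ_apply', ih]
    show σ (1 + (a - 1) • idem p ζ pinv β i) = _
    rw [map_add, map_one, map_smul, map_idem σ hσ]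

theorem prod_one_add_smul_idem (hζ : ζ ^ p = 1) (hβ : β ^ p = 1)
    (hsum : ∀ d, 0 < d → d < p → ∑ j ∈ range p, ζ ^ (d * j) = 0) (a : R) {m : ℕ} (hm : m ≤ p) :
    ∏ i ∈ range m, (1 + (a - 1) • idem p ζ pinv β i) =
      1 + (a - 1) • ∑ i ∈ range m, idem p ζ pinv β i := by
  induction m with
  | zero => simp
  | succ m ih =>
    rw [prod_range_succ, sum_range_succ, ih (by omega)]
    have h0 : (∑ i ∈ range m, idem p ζ pinv β i) * idem p ζ pinv β m = 0 := by
      rw [sum_mul]
      refine sum_eq_zero fun i hi => ?_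
      rw [mul_comm]
      exact idem_mul_idem_of_lt hζ hβ hsum (mem_range.mp hi) (by omega)
    have h1 : (1 + (a - 1) • ∑ i ∈ range m, idem p ζ pinv β i) *
        (1 + (a - 1) • idem p ζ pinv β m) =
        1 + (a - 1) • (∑ i ∈ range m, idem p ζ pinv β i + idem p ζ pinv β m) +
          (a - 1) • (a - 1) • ((∑ i ∈ range m, idem p ζ pinv β i) * idem p ζ pinv β m) := by
      simp only [Algebra.smul_def]
      ring
    rw [h1, h0, smul_zero, smul_zero, add_zero]

/-- **Split case.**  If `β ^ p = 1` and `σ β = ζ • β` (`ζ` a `p`-th root of unity in the base with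
vanishing geometric sums, `p` invertible), then every element `a` of the base ring is the
`σ`-norm of `1 + (a - 1) • e`, `e = p⁻¹ ∑_j β^j`. -/
theorem sigmaNorm_split (hp : (p : R) * pinv = 1) (hζ : ζ ^ p = 1) (hβ : β ^ p = 1)
    (hσ : σ β = ζ • β)
    (hsum : ∀ d, 0 < d → d < p → ∑ j ∈ range p, ζ ^ (d * j) = 0) (a : R) :
    sigmaNorm (σ : A →+* A) p (1 + (a - 1) • idem p ζ pinv β 0) = algebraMap R A a := by
  rw [sigmaNorm_apply]
  simp only [iterate_one_add_smul_idem σ hσ]
  rw [prod_one_add_smul_idem hζ hβ hsum a le_rfl, sum_idem hp hsum, Algebra.smul_def, mul_one,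
    map_sub, map_one]
  ring

end Split

/-! ### The product formula `∏_{i<n} (x - ζ^i y) = x^n - y^n` -/

section ProdFormula

theorem prod_sub_pow_mul {R : Type*} [CommRing R] [IsDomain R] {ζ : R} {n : ℕ} (hpos : 0 < n)
    (h : IsPrimitiveRoot ζ n) (x y : R) :
    ∏ i ∈ range n, (x - ζ ^ i * y) = x ^ n - y ^ n := by
  classical
  rw [h.pow_sub_pow_eq_prod_sub_mul x y hpos]
  have hinj : Set.InjOn (fun i : ℕ => ζ ^ i) (range n : Set ℕ) := by
    intro i hi j hj hij
    exact h.pow_inj (mem_range.mp hi) (mem_range.mp hj) hij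
  have himg : Polynomial.nthRootsFinset n (1 : R) = (range n).image (fun i : ℕ => ζ ^ i) := by
    symm
    apply eq_of_subset_of_card_le
    · intro z hz
      obtain ⟨i, -, rfl⟩ := mem_image.mp hz
      rw [Polynomial.mem_nthRootsFinset hpos, ← pow_mul, mul_comm, pow_mul, h.pow_eq_one, one_pow]
    · rw [h.card_nthRootsFinset, card_image_of_injOn hinj, card_range]
  rw [himg, prod_image hinj]

theorem prod_sub_smul {O A : Type*} [CommRing O] [IsDomain O] [CommRing A] [Algebra O A]
    {ζ : O} {n : ℕ} (hpos : 0 < n) (h : IsPrimitiveRoot ζ n) (c : O) (α : A) :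
    ∏ i ∈ range n, (algebraMap O A c - ζ ^ i • α) = algebraMap O A c ^ n - α ^ n := by
  have h' : IsPrimitiveRoot (Polynomial.C ζ) n := h.map_of_injective Polynomial.C_injective
  have key := prod_sub_pow_mul hpos h' (Polynomial.C c) Polynomial.X
  have := congrArg (Polynomial.aeval α) key
  rw [map_prod, map_sub, map_pow, map_pow, Polynomial.aeval_C, Polynomial.aeval_X] at this
  rw [← this]
  refine prod_congr rfl fun i _ => ?_
  rw [map_sub, map_mul, map_pow, Polynomial.aeval_C, Polynomial.aeval_C, Polynomial.aeval_X,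
    Algebra.smul_def, map_pow]

end ProdFormula

/-! ### The unramified case -/

section Unramified

open IsLocalRing Fermat.Agent.CFT.Local.PowIndex

/-- In a finite field, if `ū` is not a `p`-th power then some `c ^ p - ū` is not a `p`-th power. -/
theorem exists_pow_sub_not_pow {k : Type*} [Field k] [Finite k] {p : ℕ} (hp0 : p ≠ 0) {ū : k}
    (hu : ∀ w : k, w ^ p ≠ ū) : ∃ c : k, ∀ w : k, w ^ p ≠ c ^ p - ū := by
  by_contra hcon
  push Not at hcon
  let S : Set k := Set.range fun w : k => w ^ p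
  have hS : ∀ s : S, (s : k) - ū ∈ S := by
    rintro ⟨_, c, rfl⟩
    obtain ⟨w, hw⟩ := hcon c
    exact ⟨w, hw⟩
  let f : S → S := fun s => ⟨(s : k) - ū, hS s⟩
  have hf : Function.Injective f := by
    intro s t hst
    have : (s : k) - ū = (t : k) - ū := congrArg Subtype.val hst
    exact Subtype.ext (sub_left_injective this)
  have hsurj := Finite.injective_iff_surjective.mp hf
  obtain ⟨⟨_, c, rfl⟩, hs⟩ := hsurj ⟨0, 0, zero_pow hp0⟩
  have h0 : c ^ p - ū = 0 := congrArg Subtype.val hs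
  exact hu c (sub_eq_zero.mp h0)

variable {O : Type*} [CommRing O] [IsDomain O] [IsDiscreteValuationRing O]

theorem span_natCast_eq_pow_zero {p : ℕ} (hpu : IsUnit (p : O)) :
    Ideal.span {(p : O)} = maximalIdeal O ^ 0 := by
  rw [pow_zero, Ideal.one_eq_top, Ideal.span_singleton_eq_top]
  exact hpu

/-- Hensel: if `p` is a unit, every element of `1 + 𝔪` is a `p`-th power of an element of
`1 + 𝔪`. -/
theorem exists_pow_eq_of_sub_one_mem [IsAdicComplete (maximalIdeal O) O] {p : ℕ}
    (hpu : IsUnit (p : O)) (hp0 : p ≠ 0) {y : O} (hy : y - 1 ∈ maximalIdeal O) :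
    ∃ x : O, x - 1 ∈ maximalIdeal O ∧ x ^ p = y := by
  have h := exists_pow_eq (span_natCast_eq_pow_zero hpu) hp0 (m := 1) Nat.one_pos (y := y)
    (by rwa [add_zero, pow_one])
  rwa [pow_one] at h

/-- `[Oˣ : (Oˣ)ᵖ] = p` if `p` is a unit of `O` and `O` contains a primitive `p`-th root of
unity. -/
theorem index_range_pow_units [IsAdicComplete (maximalIdeal O) O] [Finite (ResidueField O)]
    {p : ℕ} {ζ : O} (hpu : IsUnit (p : O)) (hp0 : p ≠ 0) (hζ : IsPrimitiveRoot ζ p) :
    (powMonoidHom p : Oˣ →* Oˣ).range.index = p := by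
  have : NeZero p := ⟨hp0⟩
  obtain ⟨-, h⟩ := powIdx_units (span_natCast_eq_pow_zero hpu) hp0
  have hker : (powMonoidHom p : Oˣ →* Oˣ).ker = rootsOfUnity p O := by
    ext x
    rfl
  rw [pow_zero, one_mul, powTor, hker, hζ.card_rootsOfUnity] at h
  exact h

/-- A subgroup containing a subgroup of prime index `p` and an element outside it is everything. -/
theorem eq_top_of_index_prime {G : Type*} [Group G] {H N : Subgroup G} {p : ℕ} (hp : p.Prime)
    (hH : H.index = p) (hHN : H ≤ N) {d : G} (hdN : d ∈ N) (hdH : d ∉ H) : N = ⊤ := by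
  have h := Subgroup.relIndex_mul_index hHN
  rw [hH] at h
  have hdvd : N.index ∣ p := Dvd.intro_left _ h
  rcases (Nat.dvd_prime hp).mp hdvd with h1 | h1
  · exact Subgroup.index_eq_one.mp h1
  · exfalso
    rw [h1] at h
    have h2 : H.relIndex N = 1 := by
      have := Nat.eq_of_mul_eq_mul_right hp.pos (h.trans (one_mul p).symm)
      exact this
    exact hdH (Subgroup.relIndex_eq_one.mp h2 hdN)

variable {A : Type*} [CommRing A] [Algebra O A] (σ : A →ₐ[O] A) {p : ℕ} {ζ : O} {α : A}

/-- The units of `O` which are `σ`-norms of units of `A`. -/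
noncomputable def normSub (σ : A →ₐ[O] A) (p : ℕ) : Subgroup Oˣ :=
  ((Units.map (sigmaNorm (σ : A →+* A) p)).range).comap (Units.map (algebraMap O A : O →* A))

omit [IsDomain O] [IsDiscreteValuationRing O] in
theorem mem_normSub {a : Oˣ} :
    a ∈ normSub σ p ↔
      ∃ b : Aˣ, sigmaNorm (σ : A →+* A) p (b : A) = algebraMap O A (a : O) := by
  rw [normSub, Subgroup.mem_comap, MonoidHom.mem_range]
  constructor
  · rintro ⟨b, hb⟩
    exact ⟨b, congrArg Units.val hb⟩
  · rintro ⟨b, hb⟩
    exact ⟨b, Units.ext hb⟩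

omit [IsDomain O] [IsDiscreteValuationRing O] in
/-- `p`-th powers of units of the base are `σ`-norms. -/
theorem range_pow_le_normSub : (powMonoidHom p : Oˣ →* Oˣ).range ≤ normSub σ p := by
  rintro _ ⟨z, rfl⟩
  rw [mem_normSub]
  refine ⟨Units.map (algebraMap O A : O →* A) z, ?_⟩
  have hfix : (σ : A →+* A) (algebraMap O A (z : O)) = algebraMap O A (z : O) := σ.commutes _
  rw [Units.coe_map, MonoidHom.coe_coe, sigmaNorm_of_fixed _ _ hfix, powMonoidHom_apply,
    Units.val_pow_eq_pow_val, map_pow]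

omit [IsDomain O] [IsDiscreteValuationRing O] in
theorem iterate_sub (hσ : σ α = ζ • α) (c : O) (i : ℕ) :
    (σ : A →+* A)^[i] (algebraMap O A c - α) = algebraMap O A c - ζ ^ i • α := by
  induction i with
  | zero => rw [Function.iterate_zero_apply, pow_zero, one_smul]
  | succ i ih =>
    rw [Function.iterate_succ_apply', ih]
    show σ (algebraMap O A c - ζ ^ i • α) = _
    rw [map_sub, AlgHom.commutes, map_smul, hσ, smul_smul, ← pow_succ]

omit [IsDiscreteValuationRing O] in
theorem sigmaNorm_sub (hp0 : p ≠ 0) (hζ : IsPrimitiveRoot ζ p) (hσ : σ α = ζ • α) (c : O) :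
    sigmaNorm (σ : A →+* A) p (algebraMap O A c - α) = algebraMap O A c ^ p - α ^ p := by
  rw [sigmaNorm_apply]
  simp only [iterate_sub σ hσ]
  exact prod_sub_smul (Nat.pos_of_ne_zero hp0) hζ c α

omit [IsDiscreteValuationRing O] in
theorem sum_pow_mul_eq_zero (hpp : p.Prime) (hζ : IsPrimitiveRoot ζ p) (d : ℕ) (hd0 : 0 < d)
    (hdp : d < p) : ∑ j ∈ range p, ζ ^ (d * j) = 0 := by
  have hcop : Nat.Coprime d p :=
    ((Nat.Prime.coprime_iff_not_dvd hpp).mpr (Nat.not_dvd_of_pos_of_lt hd0 hdp)).symm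
  have h := (hζ.pow_of_coprime d hcop).geom_sum_eq_zero hpp.one_lt
  simpa only [pow_mul] using h

omit [IsDiscreteValuationRing O] in
/-- Split sub-case: if `u` is a `p`-th power of a unit of `O`, every unit of `O` is a
`σ`-norm. -/
theorem normSub_eq_top_of_pow (hpp : p.Prime) (hpu : IsUnit (p : O)) (hζ : IsPrimitiveRoot ζ p)
    (z : Oˣ) (hα : α ^ p = algebraMap O A ((z : O) ^ p)) (hσ : σ α = ζ • α) :
    normSub σ p = ⊤ := by
  obtain ⟨pu, hpu'⟩ := hpu
  have hpinv : (p : O) * ((pu⁻¹ : Oˣ) : O) = 1 := by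
    rw [← hpu', Units.mul_inv]
  have hβ : (((z⁻¹ : Oˣ) : O) • α) ^ p = 1 := by
    rw [smul_pow, hα, Algebra.smul_def, ← map_mul, ← mul_pow, Units.inv_mul, one_pow, map_one]
  have hσβ : σ (((z⁻¹ : Oˣ) : O) • α) = ζ • (((z⁻¹ : Oˣ) : O) • α) := by
    rw [map_smul, hσ, smul_comm]
  rw [Subgroup.eq_top_iff']
  intro a
  rw [mem_normSub]
  have h := sigmaNorm_split σ hpinv hζ.pow_eq_one hβ hσβ (sum_pow_mul_eq_zero hpp hζ) (a : O)
  have hu : IsUnit (1 + ((a : O) - 1) • idem p ζ ((pu⁻¹ : Oˣ) : O) ((((z⁻¹ : Oˣ) : O)) • α) 0) := by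
    apply isUnit_of_isUnit_sigmaNorm (σ : A →+* A) hpp.ne_zero
    rw [h]
    exact a.isUnit.map (algebraMap O A)
  obtain ⟨b, hb⟩ := hu
  exact ⟨b, by rw [hb, h]⟩

/-- **Unramified case.**  Let `O` be a complete discrete valuation ring with finite residue field,
`p` a prime which is a unit of `O`, `ζ ∈ O` a primitive `p`-th root of unity, `u ∈ Oˣ`.  For any
commutative `O`-algebra `A` with an `O`-algebra endomorphism `σ` and an element `α` such that
`α ^ p = u` and `σ α = ζ • α`, every unit of `O` is the `σ`-norm of a unit of `A`. -/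
theorem normSub_eq_top [IsAdicComplete (maximalIdeal O) O] [Finite (ResidueField O)]
    (hpp : p.Prime) (hpu : IsUnit (p : O)) (hζ : IsPrimitiveRoot ζ p) (u : Oˣ)
    (hα : α ^ p = algebraMap O A (u : O)) (hσ : σ α = ζ • α) : normSub σ p = ⊤ := by
  have hp0 := hpp.ne_zero
  by_cases hsplit : ∃ w : ResidueField O, w ^ p = residue O (u : O)
  · obtain ⟨wb, hwb⟩ := hsplit
    obtain ⟨w, rfl⟩ := residue_surjective wb
    have hwu : IsUnit w := by
      by_contra h
      have h0 : residue O w = 0 := (residue_eq_zero_iff _).mpr ((mem_maximalIdeal w).mpr h)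
      rw [h0, zero_pow hp0] at hwb
      have h1 : (u : O) ∈ maximalIdeal O := (residue_eq_zero_iff _).mp hwb.symm
      exact (mem_maximalIdeal _).mp h1 u.isUnit
    obtain ⟨w, rfl⟩ := hwu
    have h1 : residue O ((u : O) * ((w⁻¹ : Oˣ) : O) ^ p) = 1 := by
      rw [map_mul, map_pow, ← hwb, ← mul_pow, ← map_mul, Units.mul_inv, map_one, one_pow]
    have hy : (u : O) * ((w⁻¹ : Oˣ) : O) ^ p - 1 ∈ maximalIdeal O := by
      rw [← residue_eq_zero_iff, map_sub, h1, map_one, sub_self]
    obtain ⟨t, -, htp⟩ := exists_pow_eq_of_sub_one_mem hpu hp0 hy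
    have hz : (t * (w : O)) ^ p = (u : O) := by
      rw [mul_pow, htp, mul_assoc, ← mul_pow, Units.inv_mul, one_pow, mul_one]
    have hzu : IsUnit (t * (w : O)) := by
      rw [← isUnit_pow_iff hp0, hz]
      exact u.isUnit
    obtain ⟨z, hz'⟩ := hzu
    refine normSub_eq_top_of_pow σ hpp hpu hζ z ?_ hσ
    rw [hz', hz, hα]
  · push Not at hsplit
    obtain ⟨cb, hcb⟩ := exists_pow_sub_not_pow hp0 hsplit
    obtain ⟨c, rfl⟩ := residue_surjective cb
    have hd : IsUnit (c ^ p - (u : O)) := by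
      by_contra h
      have h0 : residue O (c ^ p - (u : O)) = 0 :=
        (residue_eq_zero_iff _).mpr ((mem_maximalIdeal _).mpr h)
      rw [map_sub, map_pow] at h0
      exact hcb 0 (by rw [zero_pow hp0, h0])
    obtain ⟨d, hd⟩ := hd
    have hb : sigmaNorm (σ : A →+* A) p (algebraMap O A c - α) = algebraMap O A (d : O) := by
      rw [sigmaNorm_sub σ hp0 hζ hσ, hα, hd, map_sub, map_pow]
    have hdmem : d ∈ normSub σ p := by
      rw [mem_normSub]
      have hbu : IsUnit (algebraMap O A c - α) := by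
        apply isUnit_of_isUnit_sigmaNorm (σ : A →+* A) hp0
        rw [hb]
        exact d.isUnit.map (algebraMap O A)
      obtain ⟨b, hb'⟩ := hbu
      exact ⟨b, by rw [hb', hb]⟩
    have hdnot : d ∉ (powMonoidHom p : Oˣ →* Oˣ).range := by
      rintro ⟨z, hz⟩
      apply hcb (residue O (z : O))
      rw [← map_pow, ← map_pow, ← map_sub, ← hd, ← hz, powMonoidHom_apply,
        Units.val_pow_eq_pow_val]
    exact eq_top_of_index_prime hpp (index_range_pow_units hpu hp0 hζ)
      (range_pow_le_normSub σ) hdmem hdnot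

/-- The unramified case, spelled out. -/
theorem exists_unit_sigmaNorm_eq [IsAdicComplete (maximalIdeal O) O] [Finite (ResidueField O)]
    (hpp : p.Prime) (hpu : IsUnit (p : O)) (hζ : IsPrimitiveRoot ζ p) (u : Oˣ)
    (hα : α ^ p = algebraMap O A (u : O)) (hσ : σ α = ζ • α) (a : Oˣ) :
    ∃ b : Aˣ, ∏ i ∈ range p, (σ : A → A)^[i] (b : A) = algebraMap O A (a : O) := by
  have h : a ∈ normSub σ p := by
    rw [normSub_eq_top σ hpp hpu hζ u hα hσ]
    exact Subgroup.mem_top a
  exact (mem_normSub σ).mp h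

end Unramified

/-! ### Fraction field form -/

section FractionField

open IsLocalRing Fermat.Agent.CFT.Local.PowIndex

variable {O : Type*} [CommRing O] [IsDomain O] [IsDiscreteValuationRing O]
  (K : Type*) [Field K] [Algebra O K] [IsFractionRing O K]

/-- An element of `Kˣ` whose normalised valuation is divisible by `p` is a unit of `O` times a
`p`-th power. -/
theorem exists_unit_mul_pow {p : ℕ} (y : Kˣ) (m : Multiplicative ℤ)
    (hy : ordHom O K y = m ^ p) :
    ∃ (u : Oˣ) (z : Kˣ), y = Units.map (algebraMap O K : O →* K) u * z ^ p := by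
  obtain ⟨z, hz⟩ := ordHom_surjective O K m
  have hmem : y / z ^ p ∈ (ordHom O K).ker := by
    rw [MonoidHom.mem_ker, map_div, map_pow, hz, hy, div_self']
  rw [← range_unitsMap] at hmem
  obtain ⟨u, hu⟩ := hmem
  exact ⟨u, z, by rw [hu, div_mul_cancel]⟩

variable {K}

omit [IsFractionRing O K] in
/-- **Unramified case, fraction field form.**  `K` the fraction field of a complete discrete
valuation ring `O` with finite residue field, `p` a prime which is a unit of `O`, `ζ ∈ O` a
primitive `p`-th root of unity.  If `A` is a commutative `K`-algebra with a `K`-algebra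
endomorphism `σ` and `α ∈ A` with `α ^ p = u * z ^ p` (`u ∈ Oˣ`, `z ∈ Kˣ`) and `σ α = ζ • α`,
then every unit of `O` is the `σ`-norm of a unit of `A`. -/
theorem exists_unit_sigmaNorm_eq_of_field [IsAdicComplete (maximalIdeal O) O]
    [Finite (ResidueField O)] {A : Type*} [CommRing A] [Algebra K A] [Algebra O A]
    [IsScalarTower O K A] (σ : A →ₐ[K] A) {p : ℕ} {ζ : O} {α : A}
    (hpp : p.Prime) (hpu : IsUnit (p : O)) (hζ : IsPrimitiveRoot ζ p) (u : Oˣ) (z : Kˣ)
    (hα : α ^ p = algebraMap K A (algebraMap O K (u : O) * (z : K) ^ p))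
    (hσ : σ α = algebraMap O K ζ • α) (a : Oˣ) :
    ∃ b : Aˣ, ∏ i ∈ range p, (σ : A → A)^[i] (b : A) =
      algebraMap K A (algebraMap O K (a : O)) := by
  have hα' : (((z⁻¹ : Kˣ) : K) • α) ^ p = algebraMap O A (u : O) := by
    rw [smul_pow, hα, Algebra.smul_def, ← map_mul, IsScalarTower.algebraMap_apply O K A]
    congr 1
    rw [mul_comm (algebraMap O K (u : O)), ← mul_assoc, ← mul_pow, Units.inv_mul, one_pow, one_mul]
  have hσ' : (σ.restrictScalars O) (((z⁻¹ : Kˣ) : K) • α) = ζ • (((z⁻¹ : Kˣ) : K) • α) := by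
    rw [AlgHom.restrictScalars_apply, map_smul, hσ, algebraMap_smul, smul_comm]
  obtain ⟨b, hb⟩ := exists_unit_sigmaNorm_eq (σ.restrictScalars O) hpp hpu hζ u hα' hσ' a
  refine ⟨b, ?_⟩
  rw [← IsScalarTower.algebraMap_apply O K A, ← hb]
  rfl

end FractionField

end Fermat.Agent.CFT.Local.KummerLocal
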