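import Mathlib

/-!
# Explicit cocycle-level description of `H²` of a finite cyclic group

`G` a group, `σ : G`, `n > 0` with `σ ^ n = 1` and every element of `G` of the form `σ ^ i`, `i < n`.
For a `2`-cocycle `f` of `A : Rep k G` put `trSum f = ∑_{i<n} f (σ^i, σ)`.  Then

* `trSum f` is `σ`-invariant, and `trSum (d x) = N (x σ)`, `N = ∑_{i<n} σ^i`;
* a `2`-cocycle vanishing at all `(σ^i, σ)` is zero;
* `f` is a coboundary iff `trSum f` is a norm;
* the carry cocycle `stdCocycle a` of an invariant `a` has `trSum = a` (for `1 < n`).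

Hence `H²(G, A) ≃ A^G / N A` explicitly, `[f] ↦ [trSum f]`.
-/

set_option autoImplicit false

namespace Fermat.Agent.CFT.Local.CyclicH2

open groupCohomology Finset

universe u

variable {k G : Type u} [CommRing k] [Group G] (A : Rep k G) (σ : G) (n : ℕ)

/-- The transgression sum `∑_{i<n} f (σ^i, σ)` of a `2`-cochain. -/
def trSum (f : G × G → A) : A := ∑ i ∈ range n, f (σ ^ i, σ)

/-- The norm `∑_{i<n} σ^i • a`. -/
def nrm (a : A) : A := ∑ i ∈ range n, A.ρ (σ ^ i) a

theorem sum_shift {M : Type*} [AddCommGroup M] (F : ℕ → M) (h : F n = F 0) :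
    ∑ i ∈ range n, F (i + 1) = ∑ i ∈ range n, F i := by
  have h1 := Finset.sum_range_succ F n
  have h2 := Finset.sum_range_succ' F n
  rw [h1, h] at h2
  exact (add_right_cancel h2).symm

variable {A σ n}

theorem trSum_add (f g : G × G → A) : trSum A σ n (f + g) = trSum A σ n f + trSum A σ n g := by
  simp [trSum, Finset.sum_add_distrib]

theorem trSum_sub (f g : G × G → A) : trSum A σ n (f - g) = trSum A σ n f - trSum A σ n g := by
  simp [trSum, Finset.sum_sub_distrib]

theorem nrm_add (a b : A) : nrm A σ n (a + b) = nrm A σ n a + nrm A σ n b := by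
  simp [nrm, Finset.sum_add_distrib]

theorem nrm_sub (a b : A) : nrm A σ n (a - b) = nrm A σ n a - nrm A σ n b := by
  simp [nrm, Finset.sum_sub_distrib]

section

variable (hσ : σ ^ n = 1)
include hσ

/-- `trSum f` is `σ`-invariant for a `2`-cocycle `f`. -/
theorem trSum_invariant (f : cocycles₂ A) : A.ρ σ (trSum A σ n f) = trSum A σ n f := by
  have key : ∀ i : ℕ, f (σ ^ (i + 1), σ) + f (σ, σ ^ i)
      = A.ρ σ (f (σ ^ i, σ)) + f (σ, σ ^ (i + 1)) := by
    intro i
    have := (mem_cocycles₂_iff (f : G × G → A)).1 f.2 σ (σ ^ i) σ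
    rw [← pow_succ' σ i, ← pow_succ σ i] at this
    exact this
  have hsum := Finset.sum_congr (s₁ := range n) rfl (fun i _ => key i)
  rw [Finset.sum_add_distrib, Finset.sum_add_distrib] at hsum
  have e1 : ∑ i ∈ range n, f (σ ^ (i + 1), σ) = ∑ i ∈ range n, f (σ ^ i, σ) :=
    sum_shift n (fun i => f (σ ^ i, σ)) (by simp [hσ])
  have e2 : ∑ i ∈ range n, f (σ, σ ^ (i + 1)) = ∑ i ∈ range n, f (σ, σ ^ i) :=
    sum_shift n (fun i => f (σ, σ ^ i)) (by simp [hσ])
  rw [e1, e2] at hsum
  have := add_right_cancel hsum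
  rw [trSum, map_sum]
  exact this.symm

/-- `trSum` of a coboundary is a norm. -/
theorem trSum_d₁₂ (x : G → A) : trSum A σ n (d₁₂ A x) = nrm A σ n (x σ) := by
  unfold trSum nrm
  have : ∀ i : ℕ, d₁₂ A x (σ ^ i, σ) = A.ρ (σ ^ i) (x σ) - x (σ ^ (i + 1)) + x (σ ^ i) := by
    intro i
    rw [d₁₂_hom_apply, pow_succ]
  simp_rw [this]
  rw [Finset.sum_add_distrib, Finset.sum_sub_distrib]
  have e1 : ∑ i ∈ range n, x (σ ^ (i + 1)) = ∑ i ∈ range n, x (σ ^ i) :=
    sum_shift n (fun i => x (σ ^ i)) (by simp [hσ])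
  rw [e1]
  abel

end


/-! ### A 2-cocycle of a cyclic group is determined by its values at `(σ^i, σ)` -/

section Uniqueness

variable (hgen : ∀ g : G, ∃ i : ℕ, σ ^ i = g)
include hgen

theorem eq_zero_of_forall_pow (f : cocycles₂ A) (h : ∀ i : ℕ, f (σ ^ i, σ) = 0) : f = 0 := by
  have h11 : f (1, 1) = 0 := by
    have := h 0
    rw [pow_zero, cocycles₂_map_one_fst] at this
    exact this
  have hpow : ∀ j i : ℕ, f (σ ^ i, σ ^ j) = 0 := by
    intro j
    induction j with
    | zero =>
      intro i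
      rw [pow_zero, cocycles₂_map_one_snd, h11, map_zero]
    | succ j ih =>
      intro i
      have := (mem_cocycles₂_iff (f : G × G → A)).1 f.2 (σ ^ i) (σ ^ j) σ
      rw [← pow_add, h (i + j), ih i, h j, map_zero, ← pow_succ, zero_add, zero_add] at this
      exact this.symm
  apply cocycles₂_ext
  intro g g'
  obtain ⟨i, rfl⟩ := hgen g
  obtain ⟨j, rfl⟩ := hgen g'
  rw [hpow j i]
  rfl

theorem eq_of_forall_pow (f f' : cocycles₂ A) (h : ∀ i : ℕ, f (σ ^ i, σ) = f' (σ ^ i, σ)) :
    f = f' := by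
  rw [← sub_eq_zero]
  apply eq_zero_of_forall_pow hgen
  intro i
  have : (f - f') (σ ^ i, σ) = f (σ ^ i, σ) - f' (σ ^ i, σ) := rfl
  rw [this, h i, sub_self]

end Uniqueness


/-! ### The coboundary criterion -/

section Criterion

variable (hord : orderOf σ = n) (hgen : ∀ g : G, ∃ i : ℕ, σ ^ i = g)

include hord in
theorem pow_n_eq_one : σ ^ n = 1 := by
  rw [← hord]; exact pow_orderOf_eq_one σ

/-- The partial sums used to build a primitive. -/
def partialSum (f : G × G → A) (b : A) (k : ℕ) : A :=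
  ∑ i ∈ range k, (A.ρ (σ ^ i) b - f (σ ^ i, σ))

theorem partialSum_succ (f : G × G → A) (b : A) (k : ℕ) :
    partialSum (σ := σ) f b (k + 1) = partialSum (σ := σ) f b k + (A.ρ (σ ^ k) b - f (σ ^ k, σ)) :=
  Finset.sum_range_succ _ _

include hord in
theorem partialSum_add_n (f : G × G → A) (b : A) (h : trSum A σ n f = nrm A σ n b) (k : ℕ) :
    partialSum (σ := σ) f b (k + n) = partialSum (σ := σ) f b k := by
  have hσ := pow_n_eq_one hord
  induction k with
  | zero =>
    rw [zero_add]
    unfold partialSum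
    rw [Finset.sum_sub_distrib, Finset.sum_range_zero]
    have : ∑ i ∈ range n, A.ρ (σ ^ i) b = nrm A σ n b := rfl
    rw [this, ← h]
    exact sub_self _
  | succ k ih =>
    rw [add_right_comm, partialSum_succ, partialSum_succ, ih, pow_add, hσ, mul_one]

include hord in
theorem partialSum_eq_of_pow_eq (f : G × G → A) (b : A) (h : trSum A σ n f = nrm A σ n b)
    {i j : ℕ} (hij : σ ^ i = σ ^ j) : partialSum (σ := σ) f b i = partialSum (σ := σ) f b j := by
  have hper : Function.Periodic (partialSum (σ := σ) f b) n := partialSum_add_n hord f b h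
  have hmod : i % n = j % n := by
    have := pow_eq_pow_iff_modEq.mp hij
    rw [hord] at this
    exact this
  rw [← hper.map_mod_nat i, ← hper.map_mod_nat j, hmod]

include hord hgen in
/-- **Coboundary criterion**: a `2`-cocycle of the cyclic group `⟨σ⟩` of order `n` is a coboundary
iff its transgression sum is a norm. -/
theorem mem_coboundaries₂_iff (f : cocycles₂ A) :
    (f : G × G → A) ∈ coboundaries₂ A ↔ ∃ b : A, trSum A σ n f = nrm A σ n b := by
  have hσ := pow_n_eq_one hord
  constructor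
  · rintro ⟨x, hx⟩
    refine ⟨x σ, ?_⟩
    have hx' : (f : G × G → A) = d₁₂ A x := hx.symm
    rw [hx']
    exact trSum_d₁₂ hσ x
  · rintro ⟨b, hb⟩
    classical
    let ind : G → ℕ := fun g => Classical.choose (hgen g)
    have hind : ∀ g, σ ^ ind g = g := fun g => Classical.choose_spec (hgen g)
    let x : G → A := fun g => f (1, 1) + partialSum (σ := σ) f b (ind g)
    have hxpow : ∀ k : ℕ, x (σ ^ k) = f (1, 1) + partialSum (σ := σ) f b k := by
      intro k
      show f (1, 1) + partialSum (σ := σ) f b (ind (σ ^ k)) = _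
      rw [partialSum_eq_of_pow_eq hord f b hb (hind (σ ^ k))]
    have hxσ : x σ = b := by
      have := hxpow 1
      rw [pow_one] at this
      rw [this, partialSum]
      simp only [Finset.sum_range_one, pow_zero, map_one, Module.End.one_apply]
      rw [cocycles₂_map_one_fst f σ]
      abel
    refine ⟨x, ?_⟩
    have hmem : d₁₂ A x ∈ cocycles₂ A := d₁₂_apply_mem_cocycles₂ x
    have heq : (⟨d₁₂ A x, hmem⟩ : cocycles₂ A) = f := by
      apply eq_of_forall_pow hgen
      intro i
      show d₁₂ A x (σ ^ i, σ) = f (σ ^ i, σ)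
      rw [d₁₂_hom_apply, ← pow_succ, hxσ, hxpow, hxpow, partialSum_succ]
      abel
    exact congrArg Subtype.val heq

include hord hgen in
theorem H2π_eq_zero_iff_trSum (f : cocycles₂ A) :
    H2π A f = 0 ↔ ∃ b : A, trSum A σ n f = nrm A σ n b := by
  rw [H2π_eq_zero_iff, mem_coboundaries₂_iff hord hgen]

end Criterion


/-! ### The carry cocycle -/

section Carry

theorem carry_identity {n p q r : ℕ} (hp : p < n) (hq : q < n) (hr : r < n) :
    ((if n ≤ (p + q) % n + r then 1 else 0) + (if n ≤ p + q then 1 else 0) : ℕ)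
      = (if n ≤ q + r then 1 else 0) + (if n ≤ p + (q + r) % n then 1 else 0) := by
  have e1 : (p + q) % n = if n ≤ p + q then p + q - n else p + q := by
    split_ifs with h
    · rw [Nat.mod_eq_sub_mod h, Nat.mod_eq_of_lt (by omega)]
    · exact Nat.mod_eq_of_lt (by omega)
  have e2 : (q + r) % n = if n ≤ q + r then q + r - n else q + r := by
    split_ifs with h
    · rw [Nat.mod_eq_sub_mod h, Nat.mod_eq_of_lt (by omega)]
    · exact Nat.mod_eq_of_lt (by omega)
  rw [e1, e2]
  split_ifs <;> omega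

variable (hord : orderOf σ = n) (hn : 0 < n) (hgen : ∀ g : G, ∃ i : ℕ, σ ^ i = g)

/-- The index of `g`: the exponent `i < n` with `σ ^ i = g`. -/
noncomputable def idx (hgen : ∀ g : G, ∃ i : ℕ, σ ^ i = g) (n : ℕ) (g : G) : ℕ :=
  Classical.choose (hgen g) % n

include hn in
theorem idx_lt (g : G) : idx hgen n g < n := Nat.mod_lt _ hn

include hord in
theorem pow_idx (g : G) : σ ^ idx hgen n g = g := by
  unfold idx
  rw [← hord, pow_mod_orderOf]
  exact Classical.choose_spec (hgen g)

include hord hn in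
theorem idx_pow (k : ℕ) : idx hgen n (σ ^ k) = k % n := by
  have h1 := pow_idx hord hgen (σ ^ k)
  have h2 := pow_eq_pow_iff_modEq.mp h1
  rw [hord] at h2
  have h3 : idx hgen n (σ ^ k) % n = k % n := h2
  rwa [Nat.mod_eq_of_lt (idx_lt hn hgen _)] at h3

include hord hn in
theorem idx_mul (g h : G) : idx hgen n (g * h) = (idx hgen n g + idx hgen n h) % n := by
  conv_lhs => rw [← pow_idx hord hgen g, ← pow_idx hord hgen h, ← pow_add]
  exact idx_pow hord hn hgen _

include hgen in
theorem ρ_eq_of_invariant {a : A} (ha : A.ρ σ a = a) (g : G) : A.ρ g a = a := by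
  obtain ⟨i, rfl⟩ := hgen g
  induction i with
  | zero => simp
  | succ i ih => rw [pow_succ, map_mul, Module.End.mul_apply, ha, ih]

/-- The carry cochain `(σ^i, σ^j) ↦ a` if `i + j ≥ n`, else `0` (`0 ≤ i, j < n`). -/
noncomputable def carry (hgen : ∀ g : G, ∃ i : ℕ, σ ^ i = g) (n : ℕ) (a : A) : G × G → A :=
  fun p => (if n ≤ idx hgen n p.1 + idx hgen n p.2 then 1 else 0 : ℕ) • a

include hord hn in
theorem carry_mem_cocycles₂ {a : A} (ha : A.ρ σ a = a) : carry hgen n a ∈ cocycles₂ A := by
  rw [mem_cocycles₂_iff]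
  intro g h j
  simp only [carry]
  rw [map_nsmul, ρ_eq_of_invariant hgen ha g, ← add_smul, ← add_smul,
    idx_mul hord hn hgen g h, idx_mul hord hn hgen h j]
  congr 1
  exact carry_identity (idx_lt hn hgen g) (idx_lt hn hgen h) (idx_lt hn hgen j)

/-- The carry cocycle attached to an invariant element. -/
noncomputable def stdCocycle {a : A} (ha : A.ρ σ a = a) : cocycles₂ A :=
  ⟨carry hgen n a, carry_mem_cocycles₂ hord hn hgen ha⟩

theorem stdCocycle_apply {a : A} (ha : A.ρ σ a = a) (g h : G) :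
    stdCocycle hord hn hgen ha (g, h)
      = (if n ≤ idx hgen n g + idx hgen n h then 1 else 0 : ℕ) • a := rfl

/-- The transgression sum of the carry cocycle of `a` is `a` (for `1 < n`). -/
theorem trSum_stdCocycle (h1 : 1 < n) {a : A} (ha : A.ρ σ a = a) :
    trSum A σ n (stdCocycle hord hn hgen ha) = a := by
  unfold trSum
  have hσ1 : idx hgen n σ = 1 := by
    have := idx_pow hord hn hgen 1
    rwa [pow_one, Nat.mod_eq_of_lt h1] at this
  have hterm : ∀ i ∈ range n, stdCocycle hord hn hgen ha (σ ^ i, σ)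
      = if i = n - 1 then a else 0 := by
    intro i hi
    rw [Finset.mem_range] at hi
    rw [stdCocycle_apply, idx_pow hord hn hgen i, Nat.mod_eq_of_lt hi, hσ1]
    by_cases h : i = n - 1
    · rw [if_pos h, if_pos (by omega), one_smul]
    · rw [if_neg h, if_neg (by omega), zero_smul]
  rw [Finset.sum_congr rfl hterm, Finset.sum_ite_eq' (range n) (n - 1)]
  rw [if_pos (Finset.mem_range.mpr (by omega))]

end Carry


/-! ### Norms are invariant; generators -/

theorem nrm_invariant (hσ : σ ^ n = 1) (b : A) : A.ρ σ (nrm A σ n b) = nrm A σ n b := by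
  unfold nrm
  rw [map_sum]
  have : ∀ i : ℕ, A.ρ σ (A.ρ (σ ^ i) b) = A.ρ (σ ^ (i + 1)) b := by
    intro i
    rw [pow_succ', map_mul, Module.End.mul_apply]
  simp_rw [this]
  exact sum_shift n (fun i => A.ρ (σ ^ i) b) (by simp [hσ])

/-- If `a` is invariant then `nrm a = n • a`. -/
theorem nrm_of_invariant {a : A} (ha : A.ρ σ a = a) : nrm A σ n a = n • a := by
  unfold nrm
  have : ∀ i : ℕ, A.ρ (σ ^ i) a = a := by
    intro i
    induction i with
    | zero => simp
    | succ i ih => rw [pow_succ, map_mul, Module.End.mul_apply, ha, ih]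
  simp_rw [this]
  simp

theorem nrm_nsmul (m : ℕ) (b : A) : nrm A σ n (m • b) = m • nrm A σ n b := by
  unfold nrm
  simp_rw [map_nsmul]
  rw [Finset.smul_sum]

theorem nrm_zsmul (m : ℤ) (b : A) : nrm A σ n (m • b) = m • nrm A σ n b := by
  unfold nrm
  simp_rw [map_zsmul]
  rw [Finset.smul_sum]

/-- From "every element is in `zpowers σ`" (the form used by `Rep.FiniteCyclicGroup`) to natural
powers, for `σ` of finite order. -/
theorem exists_pow_of_mem_zpowers (hfin : IsOfFinOrder σ) (h : ∀ g : G, g ∈ Subgroup.zpowers σ)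
    (g : G) : ∃ i : ℕ, σ ^ i = g := by
  have := (hfin.mem_powers_iff_mem_zpowers).2 (h g)
  exact Submonoid.mem_powers_iff g σ |>.1 this

/-! ### Descending linear maps to `H²` -/

section Desc

variable (A)

theorem H2π_surjective : Function.Surjective (H2π A).hom :=
  (ModuleCat.epi_iff_surjective (H2π A)).1 inferInstance

variable {A}
variable {M : Type*} [AddCommGroup M] [Module k M]

/-- A linear map on `2`-cocycles killing the coboundaries descends to `H²`. -/
noncomputable def H2desc (φ : cocycles₂ A →ₗ[k] M)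
    (h : ∀ f : cocycles₂ A, (f : G × G → A) ∈ coboundaries₂ A → φ f = 0) : H2 A →ₗ[k] M :=
  ((LinearMap.ker (H2π A).hom).liftQ φ (fun f hf => h f ((H2π_eq_zero_iff f).1 hf))) ∘ₗ
    ((H2π A).hom.quotKerEquivOfSurjective (H2π_surjective A)).symm.toLinearMap

theorem H2desc_H2π (φ : cocycles₂ A →ₗ[k] M)
    (h : ∀ f : cocycles₂ A, (f : G × G → A) ∈ coboundaries₂ A → φ f = 0) (f : cocycles₂ A) :
    H2desc φ h (H2π A f) = φ f := by
  unfold H2desc
  have : ((H2π A).hom.quotKerEquivOfSurjective (H2π_surjective A)).symm (H2π A f)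
      = Submodule.Quotient.mk f := by
    rw [LinearEquiv.symm_apply_eq]
    rfl
  rw [LinearMap.comp_apply, LinearEquiv.coe_coe, this, Submodule.liftQ_apply]

end Desc


/-! ### Descending additive maps to `H²` -/

section DescAdd

variable {M : Type*} [AddCommGroup M]

/-- An additive map on `2`-cocycles killing the coboundaries descends to `H²`. -/
noncomputable def H2descAdd (φ : cocycles₂ A →+ M)
    (h : ∀ f : cocycles₂ A, (f : G × G → A) ∈ coboundaries₂ A → φ f = 0) : H2 A →+ M :=
  (QuotientAddGroup.lift (AddMonoidHom.ker (H2π A).hom.toAddMonoidHom) φ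
      (fun f hf => h f ((H2π_eq_zero_iff f).1 hf))).comp
    (QuotientAddGroup.quotientKerEquivOfSurjective (H2π A).hom.toAddMonoidHom
      (H2π_surjective A)).symm.toAddMonoidHom

theorem H2descAdd_H2π (φ : cocycles₂ A →+ M)
    (h : ∀ f : cocycles₂ A, (f : G × G → A) ∈ coboundaries₂ A → φ f = 0) (f : cocycles₂ A) :
    H2descAdd φ h (H2π A f) = φ f := by
  unfold H2descAdd
  have : (QuotientAddGroup.quotientKerEquivOfSurjective (H2π A).hom.toAddMonoidHom
      (H2π_surjective A)).symm (H2π A f) = QuotientAddGroup.mk f := by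
    rw [AddEquiv.symm_apply_eq]
    rfl
  rw [AddMonoidHom.comp_apply, AddEquiv.coe_toAddMonoidHom, this, QuotientAddGroup.lift_mk]

end DescAdd

/-! ### Every class is the class of a carry cocycle -/

theorem exists_H2π_stdCocycle (hord : orderOf σ = n) (hn : 0 < n)
    (hgen : ∀ g : G, ∃ i : ℕ, σ ^ i = g) (h1 : 1 < n) (x : H2 A) :
    ∃ (a : A) (ha : A.ρ σ a = a), H2π A (stdCocycle hord hn hgen ha) = x := by
  induction x using H2_induction_on with
  | h f =>
    have hσ := pow_n_eq_one hord
    refine ⟨trSum A σ n f, trSum_invariant hσ f, ?_⟩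
    rw [H2π_eq_iff]
    have hmem := (mem_coboundaries₂_iff hord hgen
      (stdCocycle hord hn hgen (trSum_invariant hσ f) - f)).2 ⟨0, by
        have : ((stdCocycle hord hn hgen (trSum_invariant hσ f) - f : cocycles₂ A) : G × G → A)
          = (stdCocycle hord hn hgen (trSum_invariant hσ f) : G × G → A) - (f : G × G → A) := rfl
        rw [this, trSum_sub, trSum_stdCocycle hord hn hgen h1]
        simp [nrm]⟩
    exact hmem

end Fermat.Agent.CFT.Local.CyclicH2
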