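import Mathlib
import Fermat.Agent.CFT.Local.CyclicH2

/-!
# Inflation and restriction for the explicit `H²` of finite cyclic groups

Cocycle-level compatibilities of the transgression sum `trSum` of `CyclicH2`:

* `trSum_inflation`: for a surjection `G' = ⟨σ'⟩ ↠ G = ⟨σ⟩` of cyclic groups of orders `n * m`, `n`,
  `trSum' (inf f) = m • ι (trSum f)`;
* `trSum_restriction`: for `H = ⟨τ⟩ → G = ⟨σ⟩`, `τ ↦ σ ^ d`, `|H| = n / d`,
  `trSum_H (res f) ≡ ι (trSum_G f)` modulo norms from `H`.
-/

set_option autoImplicit false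

namespace Fermat.Agent.CFT.Local.CyclicH2

open groupCohomology Finset

universe u

variable {k : Type u} [CommRing k]

theorem sum_range_mul_periodic {M : Type*} [AddCommGroup M] (F : ℕ → M) (n m : ℕ)
    (hF : ∀ i, F (i + n) = F i) : ∑ i ∈ range (n * m), F i = m • ∑ i ∈ range n, F i := by
  induction m with
  | zero => simp
  | succ m ih =>
    rw [Nat.mul_succ, Finset.sum_range_add, ih, succ_nsmul]
    congr 1
    apply Finset.sum_congr rfl
    intro i _
    have : ∀ j, F (n * j + i) = F i := by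
      intro j
      induction j with
      | zero => simp
      | succ j ihj =>
        rw [Nat.mul_succ, add_right_comm, hF, ihj]
    exact this m

section Inflation

variable {G G' : Type u} [Group G] [Group G'] {A : Rep k G} {A' : Rep k G'}
  {σ : G} {σ' : G'} {n m : ℕ}

/-- **Inflation.** If `φ : G' → G` maps `σ'` to `σ`, `σ ^ n = 1`, and `f' = ι ∘ f ∘ (φ × φ)`, then
`trSum' f' = m • ι (trSum f)` (sums over `n * m` resp. `n` terms). -/
theorem trSum_inflation (φ : G' →* G) (hφ : φ σ' = σ) (hσ : σ ^ n = 1) (ι : A →+ A')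
    (f : G × G → A) (f' : G' × G' → A') (hf' : ∀ g h, f' (g, h) = ι (f (φ g, φ h))) :
    trSum A' σ' (n * m) f' = m • ι (trSum A σ n f) := by
  unfold trSum
  have h1 : ∀ i : ℕ, f' (σ' ^ i, σ') = ι (f (σ ^ i, σ)) := by
    intro i
    rw [hf', map_pow, hφ]
  simp_rw [h1]
  rw [sum_range_mul_periodic (fun i => ι (f (σ ^ i, σ))) n m (by
    intro i
    simp only [pow_add, hσ, mul_one]), map_sum]

end Inflation

section Restriction

variable {G H : Type u} [Group G] [Group H] {A : Rep k G} {A' : Rep k H}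
  {σ : G} {τ : H} {n d e : ℕ}

/-- **Restriction.**  `G = ⟨σ⟩` of order `n = d * e`, `H = ⟨τ⟩` of order `e`, `φ : H → G` with
`φ τ = σ ^ d`, `ι : A → A'` equivariant along `φ`, and `f' = ι ∘ f ∘ (φ × φ)` for a `2`-cocycle `f`.
Then `trSum_H f' - ι (trSum_G f)` is a norm from `H`. -/
theorem trSum_restriction (hord : orderOf σ = n) (hn : 0 < n) (hgen : ∀ g : G, ∃ i : ℕ, σ ^ i = g)
    (hde : n = d * e) (hτ : τ ^ e = 1)
    (φ : H →* G) (hφ : φ τ = σ ^ d) (ι : A →+ A')
    (hι : ∀ (h : H) (a : A), ι (A.ρ (φ h) a) = A'.ρ h (ι a))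
    (f : cocycles₂ A) (f' : H × H → A') (hf' : ∀ g h, f' (g, h) = ι (f (φ g, φ h))) :
    ∃ b' : A', trSum A' τ e f' = ι (trSum A σ n f) + nrm A' τ e b' := by
  have hσ := pow_n_eq_one hord
  have he : 0 < e := by
    rcases Nat.eq_zero_or_pos e with h | h
    · rw [h, mul_zero] at hde; omega
    · exact h
  have hd : 0 < d := by
    rcases Nat.eq_zero_or_pos d with h | h
    · rw [h, zero_mul] at hde; omega
    · exact h
  rcases Nat.lt_or_ge 1 e with he1 | he1
  swap
  · -- `H` is trivial as far as the sums go: `e = 1`, `nrm = id`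
    have he' : e = 1 := le_antisymm he1 he
    subst he'
    refine ⟨trSum A' τ 1 f' - ι (trSum A σ n f), ?_⟩
    have : ∀ b : A', nrm A' τ 1 b = b := by
      intro b
      simp [nrm]
    rw [this]
    abel
  -- main case `1 < e`, hence `d < n` and `1 < n`
  have hdn : d < n := by
    rw [hde]
    calc d = d * 1 := (mul_one d).symm
      _ < d * e := Nat.mul_lt_mul_of_pos_left he1 hd
  have hn1 : 1 < n := lt_of_le_of_lt hd hdn
  set a := trSum A σ n f with ha
  have hainv : A.ρ σ a = a := trSum_invariant hσ f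
  -- `f = carry_a + d x`
  have hcob : ((f - stdCocycle hord hn hgen hainv : cocycles₂ A) : G × G → A)
      ∈ coboundaries₂ A := by
    rw [mem_coboundaries₂_iff hord hgen]
    refine ⟨0, ?_⟩
    have : ((f - stdCocycle hord hn hgen hainv : cocycles₂ A) : G × G → A)
        = (f : G × G → A) - (stdCocycle hord hn hgen hainv : G × G → A) := rfl
    rw [this, trSum_sub, trSum_stdCocycle hord hn hgen hn1]
    simp [nrm, ha]
  obtain ⟨x, hx⟩ := hcob
  have hfx : ∀ g h : G, f (g, h) = stdCocycle hord hn hgen hainv (g, h) + d₁₂ A x (g, h) := by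
    intro g h
    have := congrFun hx (g, h)
    have h2 : ((f - stdCocycle hord hn hgen hainv : cocycles₂ A) : G × G → A) (g, h)
        = f (g, h) - stdCocycle hord hn hgen hainv (g, h) := rfl
    rw [h2] at this
    rw [this]
    abel
  -- the pulled back cochain
  let y : H → A' := fun h => ι (x (φ h))
  refine ⟨y τ, ?_⟩
  unfold trSum nrm
  have hterm : ∀ i ∈ range e, f' (τ ^ i, τ)
      = (if i = e - 1 then ι a else 0) + (A'.ρ (τ ^ i) (y τ) - y (τ ^ (i + 1)) + y (τ ^ i)) := by
    intro i hi
    rw [Finset.mem_range] at hi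
    rw [hf', hfx, map_add]
    congr 1
    · -- the carry part
      rw [stdCocycle_apply, map_pow, hφ, ← pow_mul, idx_pow hord hn hgen,
        idx_pow hord hn hgen]
      have hdi : d * i < n := by
        rw [hde]
        exact Nat.mul_lt_mul_of_pos_left hi hd
      rw [Nat.mod_eq_of_lt hdi, Nat.mod_eq_of_lt hdn]
      by_cases hie : i = e - 1
      · rw [if_pos hie, if_pos, one_smul]
        rw [hie, hde]
        have : d * (e - 1) + d = d * e := by
          rw [← Nat.mul_succ]
          congr 1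
          omega
        omega
      · rw [if_neg hie, if_neg, zero_smul, map_zero]
        rw [hde, not_le]
        have hi2 : i + 1 < e := by omega
        calc d * i + d = d * (i + 1) := (Nat.mul_succ d i).symm
          _ < d * e := Nat.mul_lt_mul_of_pos_left hi2 hd
    · -- the coboundary part
      rw [d₁₂_hom_apply]
      show ι (A.ρ (φ (τ ^ i)) (x (φ τ)) - x (φ (τ ^ i) * φ τ) + x (φ (τ ^ i)))
        = A'.ρ (τ ^ i) (ι (x (φ τ))) - ι (x (φ (τ ^ (i + 1)))) + ι (x (φ (τ ^ i)))
      rw [map_add, map_sub, hι, pow_succ, map_mul]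
  rw [Finset.sum_congr rfl hterm, Finset.sum_add_distrib, Finset.sum_ite_eq' (range e) (e - 1),
    if_pos (Finset.mem_range.mpr (by omega)), Finset.sum_add_distrib, Finset.sum_sub_distrib]
  have e1 : ∑ i ∈ range e, y (τ ^ (i + 1)) = ∑ i ∈ range e, y (τ ^ i) :=
    sum_shift e (fun i => y (τ ^ i)) (by simp [hτ])
  rw [e1]
  abel

end Restriction

end Fermat.Agent.CFT.Local.CyclicH2
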