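/-
PROJECT C, Layer B, slice B1b: unramified extensions of complete discretely valued fields,
abstract (M1) style.  Part 1: the reduction map `Gal(L/K) → Gal(l/k)`.

Setting (AKLB): `O` a DVR with fraction field `K`, `L/K` finite, `B` the integral closure of `O`
in `L`, ASSUMED local (e.g. because `O` is complete; at instance level this is supplied by B1a).
`IsUnram O B` means `𝔪_O B = 𝔪_B`.
-/
import Mathlib

set_option linter.unusedSectionVars false

namespace Fermat.Agent.CFT.Local.Unramified

open IsLocalRing Module
open scoped Pointwise

section Defs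

variable (O B : Type*) [CommRing O] [IsLocalRing O] [CommRing B] [IsLocalRing B] [Algebra O B]

/-- `B / O` (local rings) is unramified: `𝔪_O B = 𝔪_B`. -/
def IsUnram : Prop := Ideal.map (algebraMap O B) (maximalIdeal O) = maximalIdeal B

variable {O B} in
lemma IsUnram.map_eq (h : IsUnram O B) :
    Ideal.map (algebraMap O B) (maximalIdeal O) = maximalIdeal B := h

end Defs

section Uniformizer

variable {O B : Type*} [CommRing O] [IsDomain O] [IsDiscreteValuationRing O]
  [CommRing B] [IsLocalRing B] [Algebra O B]

/-- Unramified: a uniformizer of `O` generates the maximal ideal of `B`. -/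
theorem IsUnram.maximalIdeal_eq_span (hur : IsUnram O B) {ϖ : O} (hϖ : Irreducible ϖ) :
    maximalIdeal B = Ideal.span {algebraMap O B ϖ} := by
  rw [← hur.map_eq, hϖ.maximalIdeal_eq, Ideal.map_span, Set.image_singleton]

theorem isUnram_iff_maximalIdeal_eq_span {ϖ : O} (hϖ : Irreducible ϖ) :
    IsUnram O B ↔ maximalIdeal B = Ideal.span {algebraMap O B ϖ} := by
  rw [IsUnram, hϖ.maximalIdeal_eq, Ideal.map_span, Set.image_singleton, eq_comm]

end Uniformizer

section UniformizerDVR

variable {O B : Type*} [CommRing O] [IsDomain O] [IsDiscreteValuationRing O]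
  [CommRing B] [IsDomain B] [IsDiscreteValuationRing B] [Algebra O B]

/-- Unramified: a uniformizer of `O` is a uniformizer of `B`. -/
theorem IsUnram.irreducible_algebraMap
    (hur : IsUnram O B) {ϖ : O} (hϖ : Irreducible ϖ) : Irreducible (algebraMap O B ϖ) :=
  (IsDiscreteValuationRing.irreducible_iff_uniformizer _).mpr (hur.maximalIdeal_eq_span hϖ)

theorem isUnram_iff_irreducible_algebraMap
    {ϖ : O} (hϖ : Irreducible ϖ) : IsUnram O B ↔ Irreducible (algebraMap O B ϖ) := by
  rw [isUnram_iff_maximalIdeal_eq_span hϖ, IsDiscreteValuationRing.irreducible_iff_uniformizer]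

end UniformizerDVR

section ResAut

variable {O B : Type*} [CommRing O] [IsLocalRing O] [CommRing B] [IsLocalRing B] [Algebra O B]
  [IsLocalHom (algebraMap O B)]

/-- An `O`-algebra automorphism of `B` induces an automorphism of the residue field extension. -/
noncomputable def resAut :
    (B ≃ₐ[O] B) →* (ResidueField B ≃ₐ[ResidueField O] ResidueField B) where
  toFun e := ResidueField.mapAlgEquiv' e
  map_one' := by
    ext x
    obtain ⟨x, rfl⟩ := residue_surjective x
    simp
  map_mul' e₁ e₂ := by
    ext x
    obtain ⟨x, rfl⟩ := residue_surjective x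
    simp

@[simp]
lemma resAut_residue (e : B ≃ₐ[O] B) (b : B) : resAut e (residue B b) = residue B (e b) := rfl

end ResAut

section Pointwise

variable {B G : Type*} [CommRing B] [IsLocalRing B] [Group G] [MulSemiringAction G B]

/-- Every ring automorphism of a local ring preserves the maximal ideal. -/
lemma smul_maximalIdeal_eq (g : G) : g • maximalIdeal B = maximalIdeal B := by
  apply le_antisymm
  · intro x hx
    rw [Ideal.mem_pointwise_smul_iff_inv_smul_mem] at hx
    rw [mem_maximalIdeal, mem_nonunits_iff] at hx ⊢
    intro hu
    apply hx
    exact hu.map (MulSemiringAction.toRingHom G B g⁻¹)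
  · intro x hx
    rw [Ideal.mem_pointwise_smul_iff_inv_smul_mem]
    rw [mem_maximalIdeal, mem_nonunits_iff] at hx ⊢
    intro hu
    apply hx
    have := hu.map (MulSemiringAction.toRingHom G B g)
    simpa using this

end Pointwise

section Rank

variable {O B : Type*} [CommRing O] [IsLocalRing O] [CommRing B] [IsLocalRing B] [Algebra O B]
  [IsLocalHom (algebraMap O B)] [Module.Finite O B] [Module.Free O B]

/-- For a finite free unramified extension of local rings, the residue degree is the rank. -/
theorem IsUnram.finrank_residueField (hur : IsUnram O B) :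
    finrank (ResidueField O) (ResidueField B) = finrank O B := by
  have e := AddEquiv.toLinearEquiv (R := O ⧸ maximalIdeal O)
    (Ideal.quotEquivOfEq hur).toAddEquiv ?_
  · rw [← IsLocalRing.finrank_quotient_map (R := O) (S := B)]
    exact e.finrank_eq.symm
  · intro r x
    obtain ⟨r, rfl⟩ := Ideal.Quotient.mk_surjective r
    obtain ⟨x, rfl⟩ := Ideal.Quotient.mk_surjective x
    simp only [RingEquiv.toAddEquiv_eq_coe]; rfl

end Rank

section AKLB

variable (O K B L : Type*) [CommRing O] [IsDomain O] [IsDiscreteValuationRing O]
  [Field K] [Algebra O K] [IsFractionRing O K]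
  [CommRing B] [IsDomain B] [IsLocalRing B]
  [Field L] [Algebra B L] [IsFractionRing B L]
  [Algebra O B] [Algebra K L] [Algebra O L] [IsScalarTower O B L] [IsScalarTower O K L]
  [IsIntegralClosure B O L] [FiniteDimensional K L]

include K L in
lemma faithfulSMul_of_aklb : FaithfulSMul O B := by
  rw [faithfulSMul_iff_algebraMap_injective]
  have h1 : Function.Injective (algebraMap O L) := by
    rw [IsScalarTower.algebraMap_eq O K L]
    exact (algebraMap K L).injective.comp (IsFractionRing.injective O K)
  rw [IsScalarTower.algebraMap_eq O B L] at h1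
  exact Function.Injective.of_comp h1

include K L in
lemma isIntegral_of_aklb : Algebra.IsIntegral O B := IsIntegralClosure.isIntegral_algebra O L

include K L in
/-- In the AKLB setting with `B` local, `O → B` is a local homomorphism. -/
lemma isLocalHom_of_aklb : IsLocalHom (algebraMap O B) := by
  have := faithfulSMul_of_aklb O K B L
  have := isIntegral_of_aklb O K B L
  infer_instance

include K L in
lemma isTorsionFree_of_aklb : IsTorsionFree O L := by
  have : FaithfulSMul O K := (faithfulSMul_iff_algebraMap_injective O K).mpr
    (IsFractionRing.injective O K)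
  exact .trans_faithfulSMul O K L

include K L in
lemma finite_of_aklb [Algebra.IsSeparable K L] : Module.Finite O B :=
  IsIntegralClosure.finite O K L B

include K L in
lemma free_of_aklb [Algebra.IsSeparable K L] : Module.Free O B :=
  have := isTorsionFree_of_aklb O K L
  IsIntegralClosure.module_free O K L B

include K L in
lemma finrank_of_aklb [Algebra.IsSeparable K L] : finrank O B = finrank K L :=
  have := isTorsionFree_of_aklb O K L
  IsIntegralClosure.rank O K L B

end AKLB

section Galois

variable (O K B L : Type*) [CommRing O] [IsDomain O] [IsDiscreteValuationRing O]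
  [Field K] [Algebra O K] [IsFractionRing O K]
  [CommRing B] [IsDomain B] [IsLocalRing B]
  [Field L] [Algebra B L] [IsFractionRing B L]
  [Algebra O B] [Algebra K L] [Algebra O L] [IsScalarTower O B L] [IsScalarTower O K L]
  [IsIntegralClosure B O L] [FiniteDimensional K L] [IsLocalHom (algebraMap O B)]

/-- Reduction `Aut(B/O) → Gal(l/k)` is surjective for `L/K` Galois
(the decomposition group is everything since `B` is local). -/
theorem resAut_surjective [IsGalois K L] :
    Function.Surjective (resAut (O := O) (B := B)) := by
  have : Finite (B ≃ₐ[O] B) := Finite.of_equiv _ (galRestrict O K L B).toEquiv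
  have := Algebra.isInvariant_of_isGalois' O K L B
  have key := Ideal.Quotient.stabilizerHom_surjective (B ≃ₐ[O] B) (maximalIdeal O) (maximalIdeal B)
  intro τ
  obtain ⟨⟨g, hg⟩, h⟩ := key τ
  refine ⟨g, ?_⟩
  ext x
  obtain ⟨x, rfl⟩ := residue_surjective x
  rw [← h]
  rfl

/-- The reduction homomorphism `Gal(L/K) → Gal(l/k)`. -/
noncomputable def resHom : Gal(L/K) →* Gal(ResidueField B/ResidueField O) :=
  (resAut (O := O) (B := B)).comp (galRestrict O K L B).toMonoidHom

variable {O K B L} in
lemma resHom_residue (σ : Gal(L/K)) (b : B) :
    resHom O K B L σ (residue B b) = residue B (galRestrict O K L B σ b) := rfl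

variable {O K B L} in
lemma algebraMap_galRestrict (σ : Gal(L/K)) (b : B) :
    algebraMap B L (galRestrict O K L B σ b) = σ (algebraMap B L b) :=
  algebraMap_galRestrict_apply O σ b

theorem resHom_surjective [IsGalois K L] : Function.Surjective (resHom O K B L) :=
  (resAut_surjective O K B L).comp (galRestrict O K L B).surjective

variable {O K B L} in
include K L in
/-- Unramified: residue degree = degree. -/
theorem IsUnram.finrank_residueField_eq [Algebra.IsSeparable K L] (hur : IsUnram O B) :
    finrank (ResidueField O) (ResidueField B) = finrank K L := by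
  have := finite_of_aklb O K B L
  have := free_of_aklb O K B L
  rw [hur.finrank_residueField, finrank_of_aklb O K B L]

variable {O K B L} in
/-- For `L/K` unramified Galois with finite residue fields, reduction is an isomorphism
`Gal(L/K) ≃ Gal(l/k)`. -/
theorem resHom_bijective [IsGalois K L] [Finite (ResidueField O)] (hur : IsUnram O B) :
    Function.Bijective (resHom O K B L) := by
  have := finite_of_aklb O K B L
  have hfin : Finite (ResidueField B) := ResidueField.finite_of_finite ‹_›
  refine (resHom_surjective O K B L).bijective_of_nat_card_le ?_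
  rw [IsGalois.card_aut_eq_finrank, IsGalois.card_aut_eq_finrank,
    hur.finrank_residueField_eq (K := K) (L := L)]

/-- The isomorphism `Gal(L/K) ≃* Gal(l/k)` for an unramified Galois extension. -/
noncomputable def resEquiv [IsGalois K L] [Finite (ResidueField O)] (hur : IsUnram O B) :
    Gal(L/K) ≃* Gal(ResidueField B/ResidueField O) :=
  MulEquiv.ofBijective (resHom O K B L) (resHom_bijective hur)

variable {O K B L} in
@[simp]
lemma resEquiv_apply [IsGalois K L] [Finite (ResidueField O)] (hur : IsUnram O B) (σ : Gal(L/K)) :
    resEquiv O K B L hur σ = resHom O K B L σ := rfl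

variable {O K B L} in
include O B in
/-- An unramified Galois extension (finite residue fields) is cyclic. -/
theorem isCyclic_of_isUnram [IsGalois K L] [Finite (ResidueField O)] (hur : IsUnram O B) :
    IsCyclic Gal(L/K) := by
  have := finite_of_aklb O K B L
  have hfin : Finite (ResidueField B) := ResidueField.finite_of_finite ‹_›
  exact isCyclic_of_surjective (resEquiv O K B L hur).symm (resEquiv O K B L hur).symm.surjective

/-- The Frobenius element of an unramified Galois extension with finite residue fields. -/
noncomputable def frob [IsGalois K L] [Finite (ResidueField O)] (hur : IsUnram O B) : Gal(L/K) :=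
  letI := Fintype.ofFinite (ResidueField O)
  haveI := finite_of_aklb O K B L
  (resEquiv O K B L hur).symm
    (FiniteField.frobeniusAlgEquivOfAlgebraic (ResidueField O) (ResidueField B))

variable {O K B L} in
lemma resHom_frob [IsGalois K L] [Finite (ResidueField O)] (hur : IsUnram O B)
    (x : ResidueField B) :
    resHom O K B L (frob O K B L hur) x = x ^ Nat.card (ResidueField O) := by
  let := Fintype.ofFinite (ResidueField O)
  have := finite_of_aklb O K B L
  have h : resHom O K B L (frob O K B L hur) =
      FiniteField.frobeniusAlgEquivOfAlgebraic (ResidueField O) (ResidueField B) := by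
    rw [← resEquiv_apply hur, frob]
    convert (resEquiv O K B L hur).apply_symm_apply _
  rw [h, FiniteField.coe_frobeniusAlgEquivOfAlgebraic, Nat.card_eq_fintype_card]

variable {O K B L} in
/-- `Frob b ≡ b ^ |k|  mod 𝔪_B`. -/
theorem frob_spec [IsGalois K L] [Finite (ResidueField O)] (hur : IsUnram O B) (b : B) :
    galRestrict O K L B (frob O K B L hur) b - b ^ Nat.card (ResidueField O) ∈ maximalIdeal B := by
  rw [← residue_eq_zero_iff, map_sub, map_pow, ← resHom_residue, resHom_frob, sub_self]

variable {O K B L} in
/-- Characterisation of the Frobenius element. -/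
theorem eq_frob_iff [IsGalois K L] [Finite (ResidueField O)] (hur : IsUnram O B) (σ : Gal(L/K)) :
    σ = frob O K B L hur ↔
      ∀ b : B, galRestrict O K L B σ b - b ^ Nat.card (ResidueField O) ∈ maximalIdeal B := by
  constructor
  · rintro rfl
    exact frob_spec hur
  · intro h
    apply (resHom_bijective hur).1
    ext x
    obtain ⟨b, rfl⟩ := residue_surjective x
    rw [resHom_frob, resHom_residue, ← map_pow, ← sub_eq_zero, ← map_sub, residue_eq_zero_iff]
    exact h b

variable {O K B L} in
theorem orderOf_frob [IsGalois K L] [Finite (ResidueField O)] (hur : IsUnram O B) :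
    orderOf (frob O K B L hur) = finrank K L := by
  let := Fintype.ofFinite (ResidueField O)
  have := finite_of_aklb O K B L
  have hfin : Finite (ResidueField B) := ResidueField.finite_of_finite ‹_›
  rw [frob, MulEquiv.orderOf_eq, FiniteField.orderOf_frobeniusAlgEquivOfAlgebraic,
    hur.finrank_residueField_eq (K := K) (L := L)]

variable {O K B L} in
/-- The Frobenius generates the Galois group. -/
theorem zpowers_frob [IsGalois K L] [Finite (ResidueField O)] (hur : IsUnram O B) :
    Subgroup.zpowers (frob O K B L hur) = ⊤ := by
  rw [← Subgroup.card_eq_iff_eq_top, Nat.card_zpowers, orderOf_frob,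
    IsGalois.card_aut_eq_finrank]

end Galois

end Fermat.Agent.CFT.Local.Unramified
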