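/-
PROJECT C, Layer B, slice B1b: unramified extensions, abstract (M1) style.
Part 2: EXISTENCE and the polynomial criterion.

* `exists_monic_lift_irreducible`: monic `f ∈ O[X]` of any degree `n > 0` with irreducible
  reduction (hence irreducible over `O` and `K`).
* `isUnram_of_root`: if `α ∈ L` is a root of such an `f` and `[L:K] ≤ deg f`, then `B/O` is
  unramified; `isGalois_of_root`: and `L/K` is Galois when `B` is complete (Hensel).
* `IsUnram.exists_monic_root`: conversely every unramified extension arises in this way.
* `exists_root_of_residue_root`: Hensel lifting of simple residue roots into complete local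
  `O`-algebras; `exists_root_of_finrank_dvd`: the embedding criterion.
-/
import Fermat.Agent.CFT.Local.Unramified

set_option linter.unusedSectionVars false

namespace Fermat.Agent.CFT.Local.Unramified
open IsLocalRing Module Polynomial
open scoped IntermediateField

/-- Over a finite field there are monic irreducible polynomials of every positive degree. -/
theorem exists_monic_irreducible_natDegree (k : Type*) [Field k] [Finite k] (n : ℕ) (hn : 0 < n) :
    ∃ g : k[X], g.Monic ∧ Irreducible g ∧ g.natDegree = n := by
  obtain ⟨p, hp⟩ := CharP.exists k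
  have hpp := CharP.char_is_prime k p
  have : Fact p.Prime := ⟨hpp⟩
  have : NeZero n := ⟨hn.ne'⟩
  obtain ⟨α, hα⟩ := Field.exists_primitive_element k (FiniteField.Extension k p n)
  have hint : IsIntegral k α := IsIntegral.of_finite k α
  refine ⟨minpoly k α, minpoly.monic hint, minpoly.irreducible hint, ?_⟩
  rw [← IntermediateField.adjoin.finrank hint, hα, IntermediateField.finrank_top',
    FiniteField.finrank_extension]

section Lift

variable (O K : Type*) [CommRing O] [IsDomain O] [IsDiscreteValuationRing O]
  [Field K] [Algebra O K] [IsFractionRing O K] [Finite (ResidueField O)]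

/-- Monic lifts of irreducible polynomials over the residue field, of any degree `n > 0`;
they are irreducible over `O` and over `K`. -/
theorem exists_monic_lift_irreducible (n : ℕ) (hn : 0 < n) :
    ∃ f : O[X], f.Monic ∧ f.natDegree = n ∧ Irreducible (f.map (residue O)) ∧
      Irreducible f ∧ Irreducible (f.map (algebraMap O K)) := by
  obtain ⟨g, hgm, hgi, hgn⟩ := exists_monic_irreducible_natDegree (ResidueField O) n hn
  have hl : g ∈ lifts (residue O) :=
    (mem_lifts g).mpr (map_surjective _ residue_surjective g)
  obtain ⟨f, hfg, hfn, hfm⟩ := lifts_and_natDegree_eq_and_monic hl hgm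
  have hirr : Irreducible f := hfm.irreducible_of_irreducible_map (residue O) f (hfg ▸ hgi)
  refine ⟨f, hfm, hfn.trans hgn, hfg ▸ hgi, hirr, ?_⟩
  exact (hfm.irreducible_iff_irreducible_map_fraction_map (K := K)).mp hirr

end Lift

section Criterion

attribute [local instance] Ideal.Quotient.field

variable {O B : Type*} [CommRing O] [IsLocalRing O] [CommRing B] [IsLocalRing B] [Algebra O B]
  [IsLocalHom (algebraMap O B)] [Module.Finite O B] [Module.Free O B] [Finite (ResidueField O)]

example : Algebra (O ⧸ maximalIdeal O) (B ⧸ Ideal.map (algebraMap O B) (maximalIdeal O)) := inferInstance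

/-- Criterion: if the residue degree is at least the rank, the extension is unramified. -/
theorem isUnram_of_finrank_le
    (h : finrank O B ≤ finrank (ResidueField O) (ResidueField B)) : IsUnram O B := by
  set I := Ideal.map (algebraMap O B) (maximalIdeal O) with hI
  have hle : I ≤ maximalIdeal B :=
    ((local_hom_TFAE (algebraMap O B)).out 0 2 rfl rfl).mp ‹_›
  have hfinl : Finite (ResidueField B) := ResidueField.finite_of_finite ‹_›
  have hfinq : Module.Finite (O ⧸ maximalIdeal O) (B ⧸ I) :=
    Module.Finite.of_restrictScalars_finite O _ _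
  have hfink : Finite (O ⧸ maximalIdeal O) := ‹Finite (ResidueField O)›
  have hfinBI : Finite (B ⧸ I) := Module.finite_of_finite (O ⧸ maximalIdeal O)
  -- cardinalities
  have c1 : Nat.card (B ⧸ I) = Nat.card (ResidueField O) ^ finrank O B := by
    rw [← IsLocalRing.finrank_quotient_map (R := O) (S := B)]
    exact Module.natCard_eq_pow_finrank (K := O ⧸ maximalIdeal O) (V := B ⧸ I)
  have c2 : Nat.card (ResidueField B) =
      Nat.card (ResidueField O) ^ finrank (ResidueField O) (ResidueField B) :=
    Module.natCard_eq_pow_finrank
  have hsurj : Function.Surjective (Ideal.Quotient.factor hle) :=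
    Ideal.Quotient.factor_surjective hle
  have hcard : Nat.card (B ⧸ I) ≤ Nat.card (B ⧸ maximalIdeal B) := by
    rw [c1]
    change _ ≤ Nat.card (ResidueField B)
    rw [c2]
    exact Nat.pow_le_pow_right Nat.card_pos h
  have hbij := hsurj.bijective_of_nat_card_le hcard
  apply le_antisymm hle
  intro x hx
  have : Ideal.Quotient.factor hle (Ideal.Quotient.mk I x) = Ideal.Quotient.factor hle 0 := by
    rw [Ideal.Quotient.factor_mk, map_zero, Ideal.Quotient.eq_zero_iff_mem]
    exact hx
  have := hbij.1 this
  rwa [Ideal.Quotient.eq_zero_iff_mem] at this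

/-- If a monic `f ∈ O[X]` with irreducible reduction has a root in `B` and
`rank_O B ≤ deg f`, then `B/O` is unramified. -/
theorem isUnram_of_aeval_eq_zero (f : O[X]) (hf : f.Monic)
    (hirr : Irreducible (f.map (residue O))) (α : B) (hα : aeval α f = 0)
    (hdeg : finrank O B ≤ f.natDegree) : IsUnram O B := by
  apply isUnram_of_finrank_le
  have hroot : aeval (residue B α) (f.map (residue O)) = 0 := by
    rw [← map_aeval_eq_aeval_map (ψ := residue B) (φ := residue O) rfl, hα, map_zero]
  have hmin : minpoly (ResidueField O) (residue B α) = f.map (residue O) :=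
    (minpoly.eq_of_irreducible_of_monic hirr hroot (hf.map _)).symm
  have hfinl : Module.Finite (ResidueField O) (ResidueField B) := inferInstance
  calc finrank O B ≤ f.natDegree := hdeg
    _ = (f.map (residue O)).natDegree := (hf.natDegree_map _).symm
    _ = (minpoly (ResidueField O) (residue B α)).natDegree := by rw [hmin]
    _ ≤ finrank (ResidueField O) (ResidueField B) := minpoly.natDegree_le _

end Criterion

section Hensel

variable {O C : Type*} [CommRing O] [IsLocalRing O] [CommRing C] [IsLocalRing C] [Algebra O C]
  [IsLocalHom (algebraMap O C)] [IsAdicComplete (maximalIdeal C) C]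

/-- Hensel: a simple root of `f mod 𝔪` in the residue field of a complete local `O`-algebra `C`
lifts to a root of `f` in `C`. -/
theorem exists_root_of_residue_root (f : O[X]) (hf : f.Monic) (x₀ : ResidueField C)
    (h0 : aeval x₀ (f.map (residue O)) = 0)
    (h1 : aeval x₀ (derivative (f.map (residue O))) ≠ 0) :
    ∃ x : C, aeval x f = 0 ∧ residue C x = x₀ := by
  obtain ⟨a₀, rfl⟩ := residue_surjective x₀
  have key (g : O[X]) : aeval (residue C a₀) (g.map (residue O)) =
      residue C ((g.map (algebraMap O C)).eval a₀) := by
    rw [← map_aeval_eq_aeval_map (ψ := residue C) (φ := residue O) rfl, eval_map_algebraMap]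
  rw [key] at h0
  rw [derivative_map, key, ← derivative_map] at h1
  obtain ⟨a, ha, hres⟩ := HenselianRing.is_henselian (I := maximalIdeal C)
    (f.map (algebraMap O C)) (hf.map _) a₀
    (by rwa [← residue_eq_zero_iff])
    (by
      have : residue C ((derivative (f.map (algebraMap O C))).eval a₀) ≠ 0 := h1
      exact isUnit_iff_ne_zero.mpr this)
  refine ⟨a, ?_, ?_⟩
  · rwa [IsRoot, eval_map_algebraMap] at ha
  · rw [← sub_eq_zero, ← map_sub, residue_eq_zero_iff]
    exact hres

end Hensel

section Splits

variable {O C : Type*} [CommRing O] [IsDomain O] [IsLocalRing O] [CommRing C]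
  [IsLocalRing C] [Algebra O C]
  [IsLocalHom (algebraMap O C)] [IsAdicComplete (maximalIdeal C) C] [IsDomain C]

/-- If `f mod 𝔪` is separable and splits in the residue field of the complete local domain `C`,
then `f` has `deg f` distinct roots in `C`. -/
theorem card_rootSet_of_residue_splits (f : O[X]) (hf : f.Monic)
    (hsep : (f.map (residue O)).Separable)
    (hspl : ((f.map (residue O)).map (algebraMap (ResidueField O) (ResidueField C))).Splits) :
    Fintype.card (f.rootSet C) = f.natDegree := by
  classical
  apply le_antisymm
  · have := ncard_rootSet_le f C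
    rwa [Set.ncard_eq_toFinset_card', Set.toFinset_card] at this
  · have hcard := card_rootSet_eq_natDegree hsep hspl
    rw [hf.natDegree_map] at hcard
    rw [← hcard]
    have hlift : ∀ x₀ : (f.map (residue O)).rootSet (ResidueField C),
        ∃ x : C, aeval x f = 0 ∧ residue C x = x₀.1 := by
      rintro ⟨x₀, hx₀⟩
      rw [mem_rootSet] at hx₀
      exact exists_root_of_residue_root f hf x₀ hx₀.2
        (hsep.aeval_derivative_ne_zero hx₀.2)
    choose φ hφ0 hφ1 using hlift
    have hne : f.map (algebraMap O C) ≠ 0 := (hf.map _).ne_zero
    refine Fintype.card_le_of_injective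
      (fun x₀ => (⟨φ x₀, mem_rootSet'.mpr ⟨hne, hφ0 x₀⟩⟩ : f.rootSet C)) ?_
    intro x y hxy
    have : φ x = φ y := congrArg Subtype.val hxy
    apply Subtype.ext
    rw [← hφ1 x, ← hφ1 y, this]

end Splits

section GaloisOfRoot

variable {O K B L : Type*} [CommRing O] [IsDomain O] [IsDiscreteValuationRing O]
  [Field K] [Algebra O K] [IsFractionRing O K]
  [CommRing B] [IsDomain B] [IsLocalRing B]
  [Field L] [Algebra B L] [IsFractionRing B L]
  [Algebra O B] [Algebra K L] [Algebra O L] [IsScalarTower O B L] [IsScalarTower O K L]
  [IsIntegralClosure B O L] [FiniteDimensional K L] [IsLocalHom (algebraMap O B)]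
  [Finite (ResidueField O)]

include K in
/-- A root in `L` of a monic `f ∈ O[X]` comes from `B`. -/
lemma exists_eq_algebraMap_of_root (f : O[X]) (hf : f.Monic) (α : L) (hα : aeval α f = 0) :
    ∃ b : B, algebraMap B L b = α ∧ aeval b f = 0 := by
  have hint : IsIntegral O α := ⟨f, hf, by rwa [← aeval_def]⟩
  obtain ⟨b, rfl⟩ := IsIntegralClosure.isIntegral_iff (A := B) |>.mp hint
  refine ⟨b, rfl, ?_⟩
  apply IsFractionRing.injective B L
  rw [map_zero, ← aeval_algebraMap_apply, hα]

/-- The residue of a root of `f` generates a residue extension whose minimal polynomial is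
`f mod 𝔪`, when the latter is irreducible. -/
lemma minpoly_residue_of_root (f : O[X]) (hf : f.Monic)
    (hirr : Irreducible (f.map (residue O))) (b : B) (hb : aeval b f = 0) :
    minpoly (ResidueField O) (residue B b) = f.map (residue O) := by
  have hroot : aeval (residue B b) (f.map (residue O)) = 0 := by
    rw [← map_aeval_eq_aeval_map (ψ := residue B) (φ := residue O) rfl, hb, map_zero]
  exact (minpoly.eq_of_irreducible_of_monic hirr hroot (hf.map _)).symm

/-- EXISTENCE, part (b): `K(α)/K` is Galois when `α` is a root of a monic `f ∈ O[X]` with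
irreducible reduction, `[L:K] = deg f`, and `B` is complete. -/
theorem isGalois_of_root [Algebra.IsSeparable K L] [IsAdicComplete (maximalIdeal B) B]
    (f : O[X]) (hf : f.Monic) (hirr : Irreducible (f.map (residue O)))
    (α : L) (hα : aeval α f = 0) (hdeg : finrank K L = f.natDegree) : IsGalois K L := by
  classical
  have hfinB := finite_of_aklb O K B L
  have hfinl : Finite (ResidueField B) :=
    ResidueField.finite_of_finite (R := O) ‹Finite (ResidueField O)›
  obtain ⟨b, rfl, hb⟩ := exists_eq_algebraMap_of_root (K := K) (B := B) f hf α hα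
  have hmin := minpoly_residue_of_root f hf hirr b hb
  -- `f mod 𝔪` is separable and splits in `l`
  have hsep : (f.map (residue O)).Separable := PerfectField.separable_of_irreducible hirr
  have hspl : ((f.map (residue O)).map
      (algebraMap (ResidueField O) (ResidueField B))).Splits := by
    rw [← hmin]
    exact Normal.splits inferInstance _
  have hcard := card_rootSet_of_residue_splits f hf hsep hspl
  -- transfer to `L`
  set g := f.map (algebraMap O K) with hg
  have hgm : g.Monic := hf.map _
  have hgdeg : g.natDegree = f.natDegree := hf.natDegree_map _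
  have hgL : g.map (algebraMap K L) = f.map (algebraMap O L) := by
    rw [hg, Polynomial.map_map, ← IsScalarTower.algebraMap_eq]
  have hfBL : (f.map (algebraMap O B)).map (algebraMap B L) = f.map (algebraMap O L) := by
    rw [Polynomial.map_map, ← IsScalarTower.algebraMap_eq]
  have hne : g.map (algebraMap K L) ≠ 0 := (hgm.map _).ne_zero
  have hle : f.natDegree ≤ Fintype.card (g.rootSet L) := by
    rw [← hcard]
    refine Fintype.card_le_of_injective
      (fun x => (⟨algebraMap B L x.1, ?_⟩ : g.rootSet L)) ?_
    · have hx := x.2
      rw [mem_rootSet'] at hx ⊢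
      refine ⟨hne, ?_⟩
      rw [hg, aeval_map_algebraMap, aeval_algebraMap_apply, hx.2, map_zero]
    · intro x y hxy
      apply Subtype.ext
      exact IsFractionRing.injective B L (congrArg Subtype.val hxy)
  have hge : Fintype.card (g.rootSet L) ≤ g.natDegree := by
    have := ncard_rootSet_le g L
    rwa [Set.ncard_eq_toFinset_card', Set.toFinset_card] at this
  have hcardL : Fintype.card (g.rootSet L) = g.natDegree := le_antisymm hge (hgdeg ▸ hle)
  have hsplits : (g.map (algebraMap K L)).Splits := by
    rw [splits_iff_card_roots]
    apply le_antisymm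
    · exact card_roots' _
    · rw [natDegree_map, ← hcardL]
      simp_rw [rootSet_def, Finset.coe_sort_coe, Fintype.card_coe]
      exact Multiset.toFinset_card_le _
  have hgsep : g.Separable :=
    (card_rootSet_eq_natDegree_iff_of_splits hgm.ne_zero hsplits).mp hcardL
  have hαg : aeval (algebraMap B L b) g = 0 := by rw [hg, aeval_map_algebraMap, hα]
  have hgirr : Irreducible g := by
    have h1 : Irreducible f := hf.irreducible_of_irreducible_map (residue O) f hirr
    exact (hf.irreducible_iff_irreducible_map_fraction_map (K := K)).mp h1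
  have hming : minpoly K (algebraMap B L b) = g :=
    (minpoly.eq_of_irreducible_of_monic hgirr hαg hgm).symm
  have htop : K⟮algebraMap B L b⟯ = ⊤ := by
    rw [Field.primitive_element_iff_minpoly_natDegree_eq, hming, hgdeg, hdeg]
  have hsf : g.IsSplittingField K L := by
    refine ⟨hsplits, ?_⟩
    rw [eq_top_iff, ← IntermediateField.top_toSubalgebra, ← htop,
      IntermediateField.adjoin_simple_toSubalgebra_of_isAlgebraic
        (Algebra.IsAlgebraic.isAlgebraic _)]
    apply Algebra.adjoin_mono
    rw [Set.singleton_subset_iff, mem_rootSet']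
    exact ⟨hne, hαg⟩
  exact IsGalois.of_separable_splitting_field hgsep

end GaloisOfRoot

section Converse

variable {O K B L : Type*} [CommRing O] [IsDomain O] [IsDiscreteValuationRing O]
  [Field K] [Algebra O K] [IsFractionRing O K]
  [CommRing B] [IsDomain B] [IsLocalRing B]
  [Field L] [Algebra B L] [IsFractionRing B L]
  [Algebra O B] [Algebra K L] [Algebra O L] [IsScalarTower O B L] [IsScalarTower O K L]
  [IsIntegralClosure B O L] [FiniteDimensional K L] [IsLocalHom (algebraMap O B)]
  [Finite (ResidueField O)]

include K L in
/-- CONVERSE: an unramified extension is generated by a root of a monic polynomial with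
irreducible (separable) reduction of degree `[L:K]`. -/
theorem IsUnram.exists_monic_root [Algebra.IsSeparable K L] (hur : IsUnram O B) :
    ∃ (f : O[X]) (b : B), f.Monic ∧ f.natDegree = finrank K L ∧
      Irreducible (f.map (residue O)) ∧ aeval b f = 0 := by
  have hfinB := finite_of_aklb O K B L
  have hfreeB := free_of_aklb O K B L
  have hintB := isIntegral_of_aklb O K B L
  have hfinl : Finite (ResidueField B) :=
    ResidueField.finite_of_finite (R := O) ‹Finite (ResidueField O)›
  obtain ⟨x₀, hx₀⟩ := Field.exists_primitive_element (ResidueField O) (ResidueField B)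
  obtain ⟨b, rfl⟩ := residue_surjective x₀
  have hintb : IsIntegral O b := Algebra.IsIntegral.isIntegral b
  set f := minpoly O b with hf
  have hfm : f.Monic := minpoly.monic hintb
  have hint₀ : IsIntegral (ResidueField O) (residue B b) := IsIntegral.of_finite _ _
  have hdeg₀ : (minpoly (ResidueField O) (residue B b)).natDegree = finrank K L := by
    rw [← IntermediateField.adjoin.finrank hint₀, hx₀, IntermediateField.finrank_top',
      hur.finrank_residueField_eq (K := K) (L := L)]
  have hroot : aeval (residue B b) (f.map (residue O)) = 0 := by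
    rw [← map_aeval_eq_aeval_map (ψ := residue B) (φ := residue O) rfl, hf, minpoly.aeval,
      map_zero]
  have hdvd := minpoly.dvd (ResidueField O) (residue B b) hroot
  have hle : f.natDegree ≤ finrank K L := by
    rw [← finrank_of_aklb O K B L]
    exact minpoly.natDegree_le b
  have hge : finrank K L ≤ f.natDegree := by
    rw [← hdeg₀, ← hfm.natDegree_map (residue O)]
    exact natDegree_le_of_dvd hdvd (hfm.map _).ne_zero
  have heq : f.map (residue O) = minpoly (ResidueField O) (residue B b) := by
    refine eq_of_monic_of_dvd_of_natDegree_le (minpoly.monic hint₀) (hfm.map _) hdvd ?_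
    rw [hfm.natDegree_map, hdeg₀]
    exact hle
  refine ⟨f, b, hfm, le_antisymm hle hge, ?_, minpoly.aeval O b⟩
  rw [heq]
  exact minpoly.irreducible hint₀

end Converse

section Assembly

variable {O K B L : Type*} [CommRing O] [IsDomain O] [IsDiscreteValuationRing O]
  [Field K] [Algebra O K] [IsFractionRing O K]
  [CommRing B] [IsDomain B] [IsLocalRing B]
  [Field L] [Algebra B L] [IsFractionRing B L]
  [Algebra O B] [Algebra K L] [Algebra O L] [IsScalarTower O B L] [IsScalarTower O K L]
  [IsIntegralClosure B O L] [FiniteDimensional K L] [IsLocalHom (algebraMap O B)]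
  [Finite (ResidueField O)]

include K in
/-- EXISTENCE, part (a): if `α ∈ L` is a root of a monic `f ∈ O[X]` with irreducible reduction
and `[L:K] ≤ deg f`, then `B/O` is unramified. -/
theorem isUnram_of_root [Algebra.IsSeparable K L]
    (f : O[X]) (hf : f.Monic) (hirr : Irreducible (f.map (residue O)))
    (α : L) (hα : aeval α f = 0) (hdeg : finrank K L ≤ f.natDegree) : IsUnram O B := by
  have hfinB := finite_of_aklb O K B L
  have hfreeB := free_of_aklb O K B L
  obtain ⟨b, -, hb⟩ := exists_eq_algebraMap_of_root (K := K) (B := B) f hf α hα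
  exact isUnram_of_aeval_eq_zero f hf hirr b hb (by rwa [finrank_of_aklb O K B L])

include O B in
/-- An unramified extension (finite residue field, `B` complete) is Galois. -/
theorem IsUnram.isGalois [Algebra.IsSeparable K L] [IsAdicComplete (maximalIdeal B) B]
    (hur : IsUnram O B) : IsGalois K L := by
  obtain ⟨f, b, hfm, hfdeg, hirr, hb⟩ := hur.exists_monic_root (K := K) (L := L)
  refine isGalois_of_root (O := O) (B := B) f hfm hirr (algebraMap B L b) ?_ hfdeg.symm
  rw [aeval_algebraMap_apply, hb, map_zero]

include K L in
/-- EMBEDDING CRITERION (Hensel): if `f ∈ O[X]` is monic with irreducible reduction and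
`deg f` divides the residue degree of the complete `B`, then `f` has a root in `B`. -/
theorem exists_root_of_finrank_dvd [Algebra.IsSeparable K L]
    [IsAdicComplete (maximalIdeal B) B]
    (f : O[X]) (hf : f.Monic) (hirr : Irreducible (f.map (residue O)))
    (hdvd : f.natDegree ∣ finrank (ResidueField O) (ResidueField B)) :
    ∃ b : B, aeval b f = 0 := by
  have hfinB := finite_of_aklb O K B L
  have hfinl : Finite (ResidueField B) :=
    ResidueField.finite_of_finite (R := O) ‹Finite (ResidueField O)›
  set g := f.map (residue O) with hg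
  have hgm : g.Monic := hf.map _
  have hsep : g.Separable := PerfectField.separable_of_irreducible hirr
  -- the field `k[X]/(g)` embeds into `l`
  have : Fact (Irreducible g) := ⟨hirr⟩
  have hdeg : finrank (ResidueField O) (AdjoinRoot g) = f.natDegree := by
    rw [(AdjoinRoot.powerBasis hgm.ne_zero).finrank, AdjoinRoot.powerBasis_dim,
      hf.natDegree_map]
  obtain ⟨φ⟩ := FiniteField.nonempty_algHom_of_finrank_dvd
    (F := ResidueField O) (K := AdjoinRoot g) (L := ResidueField B) (hdeg ▸ hdvd)
  set x₀ := φ (AdjoinRoot.root g) with hx₀
  have h0 : aeval x₀ g = 0 := by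
    rw [hx₀, aeval_algHom_apply, AdjoinRoot.aeval_eq, AdjoinRoot.mk_self, map_zero]
  obtain ⟨b, hb, -⟩ := exists_root_of_residue_root f hf x₀ h0
    (hsep.aeval_derivative_ne_zero h0)
  exact ⟨b, hb⟩

end Assembly

section Omega

variable (O K : Type*) [CommRing O] [IsDomain O] [IsDiscreteValuationRing O]
  [Field K] [Algebra O K] [IsFractionRing O K] [Finite (ResidueField O)]

/-- EXISTENCE inside any algebraically closed `Ω/K`: for every `n > 0` there are a monic
`f ∈ O[X]` of degree `n` with irreducible reduction and a root `α ∈ Ω` with `[K(α):K] = n`.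
(Feed `K⟮α⟯` with its ring of integers to `isUnram_of_root` / `isGalois_of_root`.) -/
theorem exists_adjoin_root (n : ℕ) (hn : 0 < n) (Ω : Type*) [Field Ω] [Algebra K Ω]
    [IsAlgClosed Ω] :
    ∃ (f : O[X]) (α : Ω), f.Monic ∧ f.natDegree = n ∧ Irreducible (f.map (residue O)) ∧
      aeval α (f.map (algebraMap O K)) = 0 ∧ minpoly K α = f.map (algebraMap O K) ∧
      finrank K K⟮α⟯ = n := by
  obtain ⟨f, hfm, hfn, hirr, -, hirrK⟩ := exists_monic_lift_irreducible O K n hn
  have hdeg : (f.map (algebraMap O K)).degree ≠ 0 := by
    rw [degree_eq_natDegree (hfm.map _).ne_zero, hfm.natDegree_map, hfn]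
    exact_mod_cast hn.ne'
  obtain ⟨α, hα⟩ := IsAlgClosed.exists_aeval_eq_zero Ω (f.map (algebraMap O K)) hdeg
  have hmin : minpoly K α = f.map (algebraMap O K) :=
    (minpoly.eq_of_irreducible_of_monic hirrK hα (hfm.map _)).symm
  have hint : IsIntegral K α := ⟨_, hfm.map _, by rwa [← aeval_def]⟩
  refine ⟨f, α, hfm, hfn, hirr, hα, hmin, ?_⟩
  rw [IntermediateField.adjoin.finrank hint, hmin, hfm.natDegree_map, hfn]

end Omega

end Fermat.Agent.CFT.Local.Unramified
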