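import Mathlib
import Fermat.Agent.CFT.Local.Model
import Fermat.Agent.CFT.Local.UnramifiedExists
import Fermat.Agent.CFT.LocalBridge.Inertia

/-!
# PROJECT C, slice B1c': inertia and ramification inside `PadicAlgCl q`

* `nrm_eq_norm`: the spectral norm of a finite subextension `E` of `PadicAlgCl q / ℚ_[q]` is the
  ambient norm.
* Roots of unity of order prime to `q` are pairwise at distance `1`; every element of norm `1` is
  congruent to such a root of unity (Teichmüller representatives).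
* `nrField q`: the maximal unramified extension (generated by the roots of unity of order prime to
  `q`); `localInertia_eq_fixingSubgroup`: helper4's local inertia group is its Galois group.
* `localInertia_le_fixingSubgroup_iff_ramIdx`: the local inertia group acts trivially on a finite
  subextension `E` iff `E / ℚ_[q]` is unramified (`ramIdx q E = 1`, equivalently
  `IsUnram ℤ_[q] (𝒪 q E)`).
-/

set_option autoImplicit false

namespace Fermat.Agent.CFT.Local.PadicAlgClLocal

open scoped Fermat.Agent.CFT.Local.Model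

open Fermat.Agent.CFT.Local.Model Fermat.Agent.CFT.Local.Unramified Fermat.Agent.CFT.LocalBridge
  IsLocalRing

/-! ### Ramification index one -/

section Model

variable (q : ℕ) [Fact q.Prime] (K : Type*) [Field K] [Algebra ℚ_[q] K]
  [FiniteDimensional ℚ_[q] K]

theorem nrm_ϖu_eq_of_ramIdx_eq_one (h : ramIdx q K = 1) : nrm q K (ϖu q K) = (q : ℝ)⁻¹ := by
  have := nrm_ϖu_pow_ramIdx q K
  rwa [h, pow_one] at this

theorem ramIdx_eq_one_of_nrm_ϖu_eq (h : nrm q K (ϖu q K) = (q : ℝ)⁻¹) : ramIdx q K = 1 := by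
  have h1 := nrm_ϖu_pow_ramIdx q K
  rw [h] at h1
  have hq0 : (0 : ℝ) < (q : ℝ)⁻¹ := inv_pos.mpr (q_pos q)
  have hq1 : (q : ℝ)⁻¹ < 1 := inv_lt_one_of_one_lt₀ (one_lt_q q)
  have h2 : ((q : ℝ)⁻¹) ^ ramIdx q K = ((q : ℝ)⁻¹) ^ 1 := by rw [h1, pow_one]
  exact pow_right_injective₀ hq0 hq1.ne h2

/-- `K / ℚ_q` is unramified iff the value group of `K` is `q^ℤ`. -/
theorem ramIdx_eq_one_iff_forall :
    ramIdx q K = 1 ↔ ∀ x : Kˣ, ∃ k : ℤ, nrm q K (x : K) = (q : ℝ) ^ k := by
  constructor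
  · intro h x
    refine ⟨- ordFun q K x, ?_⟩
    rw [nrm_eq_zpow_ordFun, nrm_ϖu_eq_of_ramIdx_eq_one q K h, zpow_neg, inv_zpow]
  · intro h
    obtain ⟨k, hk⟩ := h (ϖu q K)
    have h1 := nrm_ϖu_pow_ramIdx q K
    rw [hk, ← zpow_natCast, ← zpow_mul, ← zpow_neg_one] at h1
    have h2 : k * (ramIdx q K : ℤ) = -1 :=
      zpow_right_injective₀ (q_pos q) (one_lt_q q).ne' h1
    have h3 : ((ramIdx q K : ℕ) : ℤ) ∣ 1 := ⟨-k, by linarith⟩
    have h4 : ramIdx q K ∣ 1 := by exact_mod_cast h3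
    exact Nat.dvd_one.mp h4

theorem natCast_𝒪_ne_zero : ((q : ℕ) : ↥(𝒪 q K)) ≠ 0 := by
  intro h
  have h' : (𝒪 q K).subtype ((q : ℕ) : ↥(𝒪 q K)) = 0 := by rw [h, map_zero]
  rw [map_natCast] at h'
  exact q_ne_zero q K h'

theorem coe_natCast_𝒪 : ((((q : ℕ) : ↥(𝒪 q K)) : ↥(𝒪 q K)) : K) = (q : K) :=
  map_natCast (𝒪 q K).subtype q

/-- `IsUnram ℤ_[q] (𝒪 q K)` (helper18's predicate) iff the absolute ramification index is `1`. -/
theorem isUnram_iff_ramIdx_eq_one :
    IsUnram ℤ_[q] ↥(𝒪 q K) ↔ ramIdx q K = 1 := by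
  rw [isUnram_iff_maximalIdeal_eq_span (PadicInt.irreducible_p (p := q)), map_natCast]
  constructor
  · intro h
    apply ramIdx_eq_one_of_nrm_ϖu_eq
    apply le_antisymm
    · have h1 : ϖ q K ∈ maximalIdeal ↥(𝒪 q K) := by
        rw [maximalIdeal_eq_span_ϖ]
        exact Ideal.mem_span_singleton_self _
      rw [h, Ideal.mem_span_singleton, dvd_iff_nrm_le q K (natCast_𝒪_ne_zero q K), coe_ϖ,
        coe_natCast_𝒪, nrm_q] at h1
      exact h1
    · have h1 : nrm q K (q : K) < 1 := by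
        rw [nrm_q]
        exact inv_lt_one_of_one_lt₀ (one_lt_q q)
      rw [nrm_lt_one_iff_le_nrm_ϖ, nrm_q] at h1
      exact h1
  · intro h
    have hϖ := nrm_ϖu_eq_of_ramIdx_eq_one q K h
    ext x
    rw [mem_maximalIdeal_iff, Ideal.mem_span_singleton,
      dvd_iff_nrm_le q K (natCast_𝒪_ne_zero q K), coe_natCast_𝒪, nrm_q,
      nrm_lt_one_iff_le_nrm_ϖ, hϖ]

end Model

/-! ### Norms and roots of unity in `PadicAlgCl q` -/

variable (q : ℕ) [Fact q.Prime]

/-- (i) the spectral norm of a finite subextension is the ambient norm. -/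
theorem nrm_eq_norm (E : IntermediateField ℚ_[q] (PadicAlgCl q)) [FiniteDimensional ℚ_[q] E]
    (x : E) :
    nrm q E x = ‖(x : PadicAlgCl q)‖ := by
  rw [nrm_def, spectralNorm.eq_of_tower (L := PadicAlgCl q)]
  rfl

theorem norm_natCast_eq_one {m : ℕ} (hm : ¬ q ∣ m) : ‖(m : PadicAlgCl q)‖ = 1 := by
  rw [← map_natCast (algebraMap ℚ_[q] (PadicAlgCl q)), PadicAlgCl.norm_extends,
    Padic.norm_natCast_eq_one_iff]
  exact ((Nat.Prime.coprime_iff_not_dvd (Fact.out : q.Prime)).mpr hm)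

theorem norm_eq_one_of_pow_eq_one {m : ℕ} (hm : m ≠ 0) {ζ : PadicAlgCl q} (h : ζ ^ m = 1) :
    ‖ζ‖ = 1 := by
  have h1 : ‖ζ‖ ^ m = 1 := by rw [← norm_pow, h, norm_one]
  exact (pow_eq_one_iff_of_nonneg (norm_nonneg ζ) hm).mp h1

theorem norm_sub_le_max'' (a b : PadicAlgCl q) : ‖a - b‖ ≤ max ‖a‖ ‖b‖ :=
  norm_sub_le_max' q a b

/-- A nontrivial root of unity of order prime to `q` is at distance `1` from `1`. -/
theorem norm_sub_one_eq_one {m : ℕ} (hm : ¬ q ∣ m) {η : PadicAlgCl q} (h : η ^ m = 1)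
    (hne : η ≠ 1) : ‖η - 1‖ = 1 := by
  have hm0 : m ≠ 0 := fun h0 => hm (h0 ▸ dvd_zero q)
  have hη : ‖η‖ = 1 := norm_eq_one_of_pow_eq_one q hm0 h
  have hle : ‖η - 1‖ ≤ 1 := by
    refine (norm_sub_le_max' q η 1).trans ?_
    rw [hη, norm_one, max_self]
  by_contra hcon
  have hlt : ‖η - 1‖ < 1 := lt_of_le_of_ne hle hcon
  -- all powers are congruent to 1
  have hpow : ∀ i : ℕ, ‖η ^ i - 1‖ < 1 := by
    intro i
    induction i with
    | zero => simp
    | succ i ih =>
      have : η ^ (i + 1) - 1 = η * (η ^ i - 1) + (η - 1) := by ring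
      rw [this]
      refine lt_of_le_of_lt (IsUltrametricDist.norm_add_le_max _ _) (max_lt ?_ hlt)
      rw [norm_mul, hη, one_mul]
      exact ih
  have hgeom : ∑ i ∈ Finset.range m, η ^ i = 0 := by
    have h1 : (η - 1) * ∑ i ∈ Finset.range m, η ^ i = 0 := by
      rw [mul_comm, geom_sum_mul, h, sub_self]
    exact (mul_eq_zero.mp h1).resolve_left (sub_ne_zero.mpr hne)
  have hsum : (m : PadicAlgCl q) = - ∑ i ∈ Finset.range m, (η ^ i - 1) := by
    rw [Finset.sum_sub_distrib, hgeom]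
    simp
  have hlt' : ‖(m : PadicAlgCl q)‖ < 1 := by
    rw [hsum, norm_neg]
    obtain ⟨i, -, hi⟩ := IsUltrametricDist.exists_norm_finsetSum_le_of_nonempty
      (Finset.nonempty_range_iff.mpr hm0) (fun i => η ^ i - 1)
    exact lt_of_le_of_lt hi (hpow i)
  rw [norm_natCast_eq_one q hm] at hlt'
  exact lt_irrefl _ hlt'

/-- Distinct roots of unity of order prime to `q` are at distance `1`. -/
theorem norm_sub_eq_one_of_pow_eq_one {m : ℕ} (hm : ¬ q ∣ m) {ζ ζ' : PadicAlgCl q}
    (h : ζ ^ m = 1) (h' : ζ' ^ m = 1) (hne : ζ ≠ ζ') : ‖ζ - ζ'‖ = 1 := by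
  have hm0 : m ≠ 0 := fun h0 => hm (h0 ▸ dvd_zero q)
  have hζ' : ‖ζ'‖ = 1 := norm_eq_one_of_pow_eq_one q hm0 h'
  have hζ'0 : ζ' ≠ 0 := by
    intro h0
    rw [h0, norm_zero] at hζ'
    exact zero_ne_one hζ'
  have h1 : (ζ * ζ'⁻¹) ^ m = 1 := by
    rw [mul_pow, inv_pow, h, h', inv_one, mul_one]
  have h2 : ζ * ζ'⁻¹ ≠ 1 := by
    intro h3
    apply hne
    have := congrArg (· * ζ') h3
    simpa [mul_assoc, inv_mul_cancel₀ hζ'0] using this
  have h3 : ζ - ζ' = ζ' * (ζ * ζ'⁻¹ - 1) := by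
    field_simp
  rw [h3, norm_mul, hζ', one_mul, norm_sub_one_eq_one q hm h1 h2]

theorem one_le_norm_multiset_prod (s : Multiset (PadicAlgCl q)) (h : ∀ a ∈ s, 1 ≤ ‖a‖) :
    1 ≤ ‖s.prod‖ := by
  induction s using Multiset.induction_on with
  | empty => simp
  | cons a s ih =>
    rw [Multiset.prod_cons, norm_mul]
    exact one_le_mul_of_one_le_of_one_le (h a (Multiset.mem_cons_self a s))
      (ih fun b hb => h b (Multiset.mem_cons_of_mem hb))

/-- Splitting of `X^m - 1`: if `‖z^m - 1‖ < 1` then `z` is close to an `m`-th root of unity. -/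
theorem exists_pow_eq_one_near {m : ℕ} (hm0 : m ≠ 0) {z : PadicAlgCl q}
    (hz : ‖z ^ m - 1‖ < 1) : ∃ ζ : PadicAlgCl q, ζ ^ m = 1 ∧ ‖z - ζ‖ < 1 := by
  classical
  set f : Polynomial (PadicAlgCl q) := Polynomial.X ^ m - Polynomial.C 1 with hf
  have hmonic : f.Monic := Polynomial.monic_X_pow_sub_C 1 hm0
  have hsplit : f.Splits := IsAlgClosed.splits f
  have heval : Polynomial.eval z f = z ^ m - 1 := by
    simp [hf]
  have hprod := hsplit.eval_eq_prod_roots_of_monic hmonic z
  rw [heval] at hprod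
  by_contra hcon
  push Not at hcon
  have h1 : 1 ≤ ‖(f.roots.map (z - ·)).prod‖ := by
    apply one_le_norm_multiset_prod
    intro a ha
    obtain ⟨ζ, hζ, rfl⟩ := Multiset.mem_map.mp ha
    apply hcon ζ
    have := (Polynomial.mem_roots hmonic.ne_zero).mp hζ
    rw [Polynomial.IsRoot.def, hf] at this
    simpa [sub_eq_zero] using this
  rw [← hprod] at h1
  exact not_lt_of_ge h1 hz

/-- **Teichmüller representatives**: every element of norm `1` is congruent, modulo the open unit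
ball, to a root of unity of order prime to `q`. -/
theorem exists_rootOfUnity_near {z : PadicAlgCl q} (hz : ‖z‖ = 1) :
    ∃ (m : ℕ) (ζ : PadicAlgCl q), ¬ q ∣ m ∧ ζ ^ m = 1 ∧ ‖z - ζ‖ < 1 := by
  have hint : IsIntegral ℚ_[q] z := (PadicAlgCl.isAlgebraic q).isAlgebraic z |>.isIntegral
  let E : IntermediateField ℚ_[q] (PadicAlgCl q) := IntermediateField.adjoin ℚ_[q] {z}
  have hfd : FiniteDimensional ℚ_[q] E := IntermediateField.adjoin.finiteDimensional hint
  let zE : E := ⟨z, IntermediateField.mem_adjoin_simple_self ℚ_[q] z⟩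
  have hzE : nrm q E zE = 1 := by rw [nrm_eq_norm]; exact hz
  let zO : ↥(𝒪 q E) := ⟨zE, hzE.le⟩
  have hunit : IsUnit zO := (isUnit_iff_nrm_eq_one q E zO).mpr hzE
  have hfin : Finite (IsLocalRing.ResidueField ↥(𝒪 q E)) := inferInstance
  have hfinU : Finite (IsLocalRing.ResidueField ↥(𝒪 q E))ˣ := inferInstance
  let k := IsLocalRing.ResidueField ↥(𝒪 q E)
  have hres : IsUnit (IsLocalRing.residue ↥(𝒪 q E) zO) := hunit.map _
  obtain ⟨u, hu⟩ := hres
  have hupow : u ^ Nat.card kˣ = 1 := pow_card_eq_one'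
  set m := Nat.card kˣ with hm
  have hm0 : m ≠ 0 := Nat.card_pos.ne'
  have hres1 : IsLocalRing.residue ↥(𝒪 q E) (zO ^ m - 1) = 0 := by
    rw [map_sub, map_pow, map_one, ← hu, ← Units.val_pow_eq_pow_val, hupow, Units.val_one,
      sub_self]
  have hmem : zO ^ m - 1 ∈ IsLocalRing.maximalIdeal ↥(𝒪 q E) :=
    (IsLocalRing.residue_eq_zero_iff _).mp hres1
  rw [mem_maximalIdeal_iff, nrm_eq_norm] at hmem
  have hnear : ‖z ^ m - 1‖ < 1 := hmem
  have hqm : ¬ q ∣ m := by
    have hcard : Nat.card k = m + 1 := by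
      rw [hm, Nat.card_units]
      have : 0 < Nat.card k := Nat.card_pos
      omega
    have hchar : CharP k q := inferInstance
    have hqk : q ∣ Nat.card k := by
      have := Fintype.ofFinite k
      rw [Nat.card_eq_fintype_card]
      obtain ⟨n, -, hn⟩ := FiniteField.card k q
      rw [hn]
      exact dvd_pow_self q n.ne_zero
    intro hdvd
    rw [hcard] at hqk
    have : q ∣ 1 := (Nat.dvd_add_right hdvd).mp hqk
    exact (Fact.out : q.Prime).one_lt.ne' (Nat.dvd_one.mp this)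
  obtain ⟨ζ, hζ, hzζ⟩ := exists_pow_eq_one_near q hm0 hnear
  exact ⟨m, ζ, hqm, hζ, hzζ⟩

/-! ### The maximal unramified extension and the inertia group -/

/-- The maximal unramified extension of `ℚ_[q]` in `PadicAlgCl q`: generated by the roots of unity
of order prime to `q`. -/
noncomputable def nrField : IntermediateField ℚ_[q] (PadicAlgCl q) :=
  IntermediateField.adjoin ℚ_[q] {ζ | ∃ m : ℕ, ¬ q ∣ m ∧ ζ ^ m = 1}

theorem mem_nrField_of_pow_eq_one {m : ℕ} (hm : ¬ q ∣ m) {ζ : PadicAlgCl q} (h : ζ ^ m = 1) :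
    ζ ∈ nrField q :=
  IntermediateField.subset_adjoin _ _ ⟨m, hm, h⟩

/-- An automorphism fixing a set pointwise fixes the field it generates. -/
theorem mem_fixingSubgroup_adjoin_iff {F L : Type*} [Field F] [Field L] [Algebra F L]
    (S : Set L) (τ : L ≃ₐ[F] L) :
    τ ∈ (IntermediateField.adjoin F S).fixingSubgroup ↔ ∀ x ∈ S, τ x = x := by
  rw [IntermediateField.mem_fixingSubgroup_iff]
  constructor
  · intro h x hx
    exact h x (IntermediateField.subset_adjoin F S hx)
  · intro h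
    have hle : IntermediateField.adjoin F S ≤
        IntermediateField.fixedField (Subgroup.zpowers τ) := by
      rw [IntermediateField.adjoin_le_iff]
      intro x hx
      rw [SetLike.mem_coe, IntermediateField.mem_fixedField_iff]
      intro f hf
      have hstab : Subgroup.zpowers τ ≤ MulAction.stabilizer (L ≃ₐ[F] L) x := by
        rw [Subgroup.zpowers_le, MulAction.mem_stabilizer_iff]
        exact h x hx
      exact MulAction.mem_stabilizer_iff.mp (hstab hf)
    intro x hx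
    exact (IntermediateField.mem_fixedField_iff _ x).mp (hle hx) τ (Subgroup.mem_zpowers τ)

/-- **The local inertia group is the Galois group of `PadicAlgCl q` over the maximal unramified
extension.** -/
theorem localInertia_eq_fixingSubgroup : localInertia q = (nrField q).fixingSubgroup := by
  ext τ
  rw [nrField, mem_fixingSubgroup_adjoin_iff, mem_localInertia_iff]
  constructor
  · rintro h ζ ⟨m, hm, hζ⟩
    have hm0 : m ≠ 0 := fun h0 => hm (h0 ▸ dvd_zero q)
    by_contra hne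
    have h1 : (τ ζ) ^ m = 1 := by rw [← map_pow, hζ, map_one]
    have h2 := norm_sub_eq_one_of_pow_eq_one q hm h1 hζ hne
    have h3 := h ζ (norm_eq_one_of_pow_eq_one q hm0 hζ).le
    rw [h2] at h3
    exact lt_irrefl _ h3
  · intro h z hz
    rcases lt_or_eq_of_le hz with hlt | heq
    · refine lt_of_le_of_lt (norm_sub_le_max' q _ _) (max_lt ?_ hlt)
      rw [norm_locGal_apply]
      exact hlt
    · obtain ⟨m, ζ, hm, hζ, hzζ⟩ := exists_rootOfUnity_near q heq
      have h1 : τ z - z = τ (z - ζ) - (z - ζ) := by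
        rw [map_sub, h ζ ⟨m, hm, hζ⟩]
        ring
      rw [h1]
      refine lt_of_le_of_lt (norm_sub_le_max' q _ _) (max_lt ?_ hzζ)
      rw [norm_locGal_apply]
      exact hzζ

/-- **(iii), Galois form**: the local inertia group acts trivially on `E` iff `E` lies in the
maximal unramified extension. -/
theorem localInertia_le_fixingSubgroup_iff (E : IntermediateField ℚ_[q] (PadicAlgCl q)) :
    localInertia q ≤ E.fixingSubgroup ↔ E ≤ nrField q := by
  rw [localInertia_eq_fixingSubgroup]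
  constructor
  · intro h
    have h1 := IntermediateField.fixedField_antitone h
    rwa [InfiniteGalois.fixedField_fixingSubgroup, InfiniteGalois.fixedField_fixingSubgroup] at h1
  · intro h
    exact IntermediateField.fixingSubgroup_antitone h

/-! ### Subextensions of unramified extensions -/

/-- The value group criterion with the ambient norm. -/
theorem ramIdx_eq_one_iff_norm (E : IntermediateField ℚ_[q] (PadicAlgCl q))
    [FiniteDimensional ℚ_[q] E] :
    ramIdx q E = 1 ↔ ∀ x ∈ E, x ≠ 0 → ∃ k : ℤ, ‖x‖ = (q : ℝ) ^ k := by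
  rw [ramIdx_eq_one_iff_forall]
  constructor
  · intro h x hx hx0
    have hx0' : (⟨x, hx⟩ : E) ≠ 0 := fun h0 => hx0 (congrArg Subtype.val h0)
    obtain ⟨k, hk⟩ := h (Units.mk0 ⟨x, hx⟩ hx0')
    rw [Units.val_mk0, nrm_eq_norm] at hk
    exact ⟨k, hk⟩
  · intro h x
    obtain ⟨k, hk⟩ := h (x : E) (x : E).2 (fun h0 => x.ne_zero (Subtype.ext h0))
    exact ⟨k, by rw [nrm_eq_norm]; exact hk⟩

/-- A subextension of an unramified extension is unramified. -/
theorem ramIdx_eq_one_of_le {E E' : IntermediateField ℚ_[q] (PadicAlgCl q)}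
    [FiniteDimensional ℚ_[q] E] [FiniteDimensional ℚ_[q] E'] (hle : E ≤ E')
    (h : ramIdx q E' = 1) : ramIdx q E = 1 := by
  rw [ramIdx_eq_one_iff_norm] at h ⊢
  exact fun x hx hx0 => h x (hle hx) hx0

/-! ### Cyclotomic fields of order prime to `q` -/

/-- `ℚ_q(μ_M)` inside `PadicAlgCl q`. -/
noncomputable def cycField (M : ℕ) : IntermediateField ℚ_[q] (PadicAlgCl q) :=
  IntermediateField.adjoin ℚ_[q] {ζ | ζ ^ M = 1}

theorem cycField_mono {M M' : ℕ} (h : M ∣ M') : cycField q M ≤ cycField q M' := by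
  apply IntermediateField.adjoin.mono
  intro ζ hζ
  obtain ⟨c, rfl⟩ := h
  show ζ ^ (M * c) = 1
  rw [pow_mul, hζ, one_pow]

theorem cycField_le_nrField {M : ℕ} (hM : ¬ q ∣ M) : cycField q M ≤ nrField q := by
  apply IntermediateField.adjoin.mono
  intro ζ hζ
  exact ⟨M, hM, hζ⟩

theorem exists_mem_cycField_of_mem_nrField {x : PadicAlgCl q} (hx : x ∈ nrField q) :
    ∃ M : ℕ, ¬ q ∣ M ∧ x ∈ cycField q M := by
  have hq : q.Prime := Fact.out
  have hq1 : ¬ q ∣ 1 := fun h => hq.one_lt.ne' (Nat.dvd_one.mp h)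
  have hmul : ∀ {M M' : ℕ}, ¬ q ∣ M → ¬ q ∣ M' → ¬ q ∣ M * M' := by
    intro M M' h h' hdvd
    rcases hq.dvd_mul.mp hdvd with h1 | h1
    · exact h h1
    · exact h' h1
  refine IntermediateField.adjoin_induction (F := ℚ_[q])
    (p := fun x _ => ∃ M : ℕ, ¬ q ∣ M ∧ x ∈ cycField q M) ?_ ?_ ?_ ?_ ?_ hx
  · rintro ζ ⟨m, hm, hζ⟩
    exact ⟨m, hm, IntermediateField.subset_adjoin _ _ hζ⟩
  · intro a
    exact ⟨1, hq1, (cycField q 1).algebraMap_mem a⟩
  · rintro x y - - ⟨M, hM, hx⟩ ⟨M', hM', hy⟩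
    exact ⟨M * M', hmul hM hM', add_mem (cycField_mono q (Dvd.intro _ rfl) hx)
      (cycField_mono q (Dvd.intro_left _ rfl) hy)⟩
  · rintro x - ⟨M, hM, hx⟩
    exact ⟨M, hM, inv_mem hx⟩
  · rintro x y - - ⟨M, hM, hx⟩ ⟨M', hM', hy⟩
    exact ⟨M * M', hmul hM hM', mul_mem (cycField_mono q (Dvd.intro _ rfl) hx)
      (cycField_mono q (Dvd.intro_left _ rfl) hy)⟩

/-- A finite subextension of the maximal unramified extension lies in a cyclotomic field of order
prime to `q`. -/
theorem exists_le_cycField (E : IntermediateField ℚ_[q] (PadicAlgCl q))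
    [FiniteDimensional ℚ_[q] E] (hE : E ≤ nrField q) :
    ∃ M : ℕ, ¬ q ∣ M ∧ E ≤ cycField q M := by
  classical
  have hq : q.Prime := Fact.out
  obtain ⟨T, hT⟩ := fg_of_finiteDimensional E
  have hTE : ∀ t ∈ T, t ∈ E := by
    intro t ht
    rw [← hT]
    exact IntermediateField.subset_adjoin _ _ ht
  choose! Mt hMt using fun t (ht : t ∈ T) =>
    exists_mem_cycField_of_mem_nrField q (hE (hTE t ht))
  refine ⟨∏ t ∈ T, Mt t, ?_, ?_⟩
  · intro hdvd
    obtain ⟨t, ht, htd⟩ := (Prime.dvd_finsetProd_iff hq.prime _).mp hdvd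
    exact (hMt t ht).1 htd
  · rw [← hT, IntermediateField.adjoin_le_iff]
    intro t ht
    exact cycField_mono q (Finset.dvd_prod_of_mem Mt ht) (hMt t ht).2

/-! ### Cyclotomic fields of order prime to `q` are unramified -/

section Cyc

variable {M : ℕ}

theorem setOf_pow_eq_one_eq_rootSet (hM0 : M ≠ 0) :
    {ζ : PadicAlgCl q | ζ ^ M = 1} =
      (Polynomial.X ^ M - Polynomial.C (1 : ℚ_[q])).rootSet (PadicAlgCl q) := by
  ext ζ
  have hne : (Polynomial.X ^ M - Polynomial.C (1 : ℚ_[q])) ≠ 0 :=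
    (Polynomial.monic_X_pow_sub_C 1 hM0).ne_zero
  rw [Polynomial.mem_rootSet_of_ne hne]
  simp [sub_eq_zero]

theorem finiteDimensional_cycField (hM0 : M ≠ 0) : FiniteDimensional ℚ_[q] (cycField q M) := by
  have hfin : ({ζ : PadicAlgCl q | ζ ^ M = 1}).Finite := by
    rw [setOf_pow_eq_one_eq_rootSet q hM0]
    exact Polynomial.rootSet_finite _ _
  have : Finite ({ζ : PadicAlgCl q | ζ ^ M = 1}) := hfin
  exact IntermediateField.finiteDimensional_adjoin
    (fun x _ => ((PadicAlgCl.isAlgebraic q).isAlgebraic x).isIntegral)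

theorem isGalois_cycField (hM0 : M ≠ 0) : IsGalois ℚ_[q] (cycField q M) := by
  have hsplit : ((Polynomial.X ^ M - Polynomial.C (1 : ℚ_[q])).map
      (algebraMap ℚ_[q] (PadicAlgCl q))).Splits := IsAlgClosed.splits _
  have h := IntermediateField.adjoin_rootSet_isSplittingField hsplit
  rw [← setOf_pow_eq_one_eq_rootSet q hM0] at h
  have h' : (Polynomial.X ^ M - Polynomial.C (1 : ℚ_[q])).IsSplittingField ℚ_[q]
      (cycField q M) := h
  have hsep : (Polynomial.X ^ M - Polynomial.C (1 : ℚ_[q])).Separable :=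
    Polynomial.separable_X_pow_sub_C 1 (Nat.cast_ne_zero.mpr hM0) one_ne_zero
  exact IsGalois.of_separable_splitting_field (p := Polynomial.X ^ M - Polynomial.C (1 : ℚ_[q]))
    (F := ℚ_[q]) (E := cycField q M) hsep

open Module in
/-- `ℚ_q(μ_M)` is unramified over `ℚ_q` for `q ∤ M`: the reduction map on Galois groups is
injective, so the residue degree is at least the degree. -/
theorem ramIdx_cycField_eq_one (hM : ¬ q ∣ M) [FiniteDimensional ℚ_[q] (cycField q M)] :
    ramIdx q (cycField q M) = 1 := by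
  have hM0 : M ≠ 0 := fun h0 => hM (h0 ▸ dvd_zero q)
  have hgal := isGalois_cycField q hM0
  have hinj : Function.Injective (resHom ℤ_[q] ℚ_[q] ↥(𝒪 q (cycField q M)) (cycField q M)) := by
    rw [injective_iff_map_eq_one]
    intro σ hσ
    obtain ⟨τ, rfl⟩ := AlgEquiv.restrictNormalHom_surjective (F := ℚ_[q])
      (K₁ := cycField q M) (PadicAlgCl q) σ
    have hfix : ∀ ζ ∈ {ζ : PadicAlgCl q | ζ ^ M = 1}, τ ζ = ζ := by
      intro ζ hζ
      by_contra hne
      have hζE : ζ ∈ cycField q M := IntermediateField.subset_adjoin _ _ hζ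
      have hζ1 : ‖ζ‖ = 1 := norm_eq_one_of_pow_eq_one q hM0 hζ
      have hζO : (⟨ζ, hζE⟩ : cycField q M) ∈ 𝒪 q (cycField q M) := by
        rw [mem_𝒪_iff, nrm_eq_norm]
        exact hζ1.le
      have h1 := resHom_residue (O := ℤ_[q]) (K := ℚ_[q]) (B := ↥(𝒪 q (cycField q M)))
        (L := cycField q M) (AlgEquiv.restrictNormalHom (cycField q M) τ) ⟨⟨ζ, hζE⟩, hζO⟩
      rw [hσ] at h1
      have h2 : galRestrict ℤ_[q] ℚ_[q] (cycField q M) ↥(𝒪 q (cycField q M))
          (AlgEquiv.restrictNormalHom (cycField q M) τ) ⟨⟨ζ, hζE⟩, hζO⟩ -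
            (⟨⟨ζ, hζE⟩, hζO⟩ : ↥(𝒪 q (cycField q M))) ∈
          maximalIdeal ↥(𝒪 q (cycField q M)) := by
        rw [← residue_eq_zero_iff, map_sub, ← h1]
        simp
      rw [mem_maximalIdeal_iff, nrm_eq_norm] at h2
      have h3 := algebraMap_galRestrict (O := ℤ_[q]) (K := ℚ_[q])
        (B := ↥(𝒪 q (cycField q M))) (L := cycField q M)
        (AlgEquiv.restrictNormalHom (cycField q M) τ) ⟨⟨ζ, hζE⟩, hζO⟩
      have h4 : ((AlgEquiv.restrictNormalHom (cycField q M) τ (⟨ζ, hζE⟩ : cycField q M) :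
          cycField q M) : PadicAlgCl q) = τ ζ :=
        AlgEquiv.restrictNormal_commutes τ (cycField q M) ⟨ζ, hζE⟩
      have h5 : (((galRestrict ℤ_[q] ℚ_[q] (cycField q M) ↥(𝒪 q (cycField q M))
          (AlgEquiv.restrictNormalHom (cycField q M) τ) ⟨⟨ζ, hζE⟩, hζO⟩ -
            (⟨⟨ζ, hζE⟩, hζO⟩ : ↥(𝒪 q (cycField q M))) : ↥(𝒪 q (cycField q M))) :
              cycField q M) : PadicAlgCl q) = τ ζ - ζ := by
        rw [← h4]
        have h6 : ((galRestrict ℤ_[q] ℚ_[q] (cycField q M) ↥(𝒪 q (cycField q M))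
          (AlgEquiv.restrictNormalHom (cycField q M) τ) ⟨⟨ζ, hζE⟩, hζO⟩ :
            ↥(𝒪 q (cycField q M))) : cycField q M) =
            AlgEquiv.restrictNormalHom (cycField q M) τ (⟨ζ, hζE⟩ : cycField q M) := h3
        rw [← h6]
        rfl
      rw [h5] at h2
      have h7 := norm_sub_eq_one_of_pow_eq_one q hM
        (show (τ ζ) ^ M = 1 by rw [← map_pow, hζ, map_one]) hζ hne
      rw [h7] at h2
      exact lt_irrefl _ h2
    have hmem : τ ∈ (cycField q M).fixingSubgroup :=
      (mem_fixingSubgroup_adjoin_iff _ τ).mpr hfix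
    ext x
    have h4 : ((AlgEquiv.restrictNormalHom (cycField q M) τ x : cycField q M) :
        PadicAlgCl q) = τ x := AlgEquiv.restrictNormal_commutes τ (cycField q M) x
    rw [h4, AlgEquiv.one_apply]
    exact (IntermediateField.mem_fixingSubgroup_iff _ τ).mp hmem x x.2
  have hcard : finrank ℚ_[q] (cycField q M) ≤
      finrank (ResidueField ℤ_[q]) (ResidueField ↥(𝒪 q (cycField q M))) := by
    rw [← IsGalois.card_aut_eq_finrank, ← IsGalois.card_aut_eq_finrank]
    exact Nat.card_le_card_of_injective _ hinj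
  have hur : IsUnram ℤ_[q] ↥(𝒪 q (cycField q M)) :=
    isUnram_of_finrank_le (by rw [finrank_int_𝒪]; exact hcard)
  exact (isUnram_iff_ramIdx_eq_one q (cycField q M)).mp hur

end Cyc

/-! ### The two directions of (iii) -/

theorem ramIdx_eq_one_of_le_nrField (E : IntermediateField ℚ_[q] (PadicAlgCl q))
    [FiniteDimensional ℚ_[q] E] (h : E ≤ nrField q) : ramIdx q E = 1 := by
  obtain ⟨M, hM, hle⟩ := exists_le_cycField q E h
  have hM0 : M ≠ 0 := fun h0 => hM (h0 ▸ dvd_zero q)
  have := finiteDimensional_cycField q hM0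
  exact ramIdx_eq_one_of_le q hle (ramIdx_cycField_eq_one q hM)

theorem norm_multiset_prod_le_one (s : Multiset (PadicAlgCl q)) (h : ∀ a ∈ s, ‖a‖ ≤ 1) :
    ‖s.prod‖ ≤ 1 := by
  induction s using Multiset.induction_on with
  | empty => simp
  | cons a s ih =>
    rw [Multiset.prod_cons, norm_mul]
    exact mul_le_one₀ (h a (Multiset.mem_cons_self a s)) (norm_nonneg _)
      (ih fun b hb => h b (Multiset.mem_cons_of_mem hb))

/-- An element of `PadicAlgCl q` integral over `ℤ_[q]` has norm at most `1`. -/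
theorem norm_le_one_of_isIntegral {r : PadicAlgCl q} (f : Polynomial ℤ_[q]) (hf : f.Monic)
    (hr : Polynomial.eval₂
      ((algebraMap ℚ_[q] (PadicAlgCl q)).comp (algebraMap ℤ_[q] ℚ_[q])) r f = 0) : ‖r‖ ≤ 1 := by
  have hint : IsIntegral ℚ_[q] r := ((PadicAlgCl.isAlgebraic q).isAlgebraic r).isIntegral
  let E : IntermediateField ℚ_[q] (PadicAlgCl q) := IntermediateField.adjoin ℚ_[q] {r}
  have hfd : FiniteDimensional ℚ_[q] E := IntermediateField.adjoin.finiteDimensional hint
  let rE : E := ⟨r, IntermediateField.mem_adjoin_simple_self ℚ_[q] r⟩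
  have hrE : IsIntegral ℤ_[q] rE := by
    refine ⟨f, hf, ?_⟩
    apply Subtype.val_injective
    have h1 : (E.val : E →+* PadicAlgCl q).comp (algebraMap ℤ_[q] E) =
        (algebraMap ℚ_[q] (PadicAlgCl q)).comp (algebraMap ℤ_[q] ℚ_[q]) := by
      ext a
      rfl
    have h2 := Polynomial.hom_eval₂ f (algebraMap ℤ_[q] E) (E.val : E →+* PadicAlgCl q) rE
    rw [h1] at h2
    show (E.val : E →+* PadicAlgCl q) (Polynomial.eval₂ (algebraMap ℤ_[q] E) rE f) = _
    rw [h2]
    exact hr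
  have hmem : rE ∈ 𝒪 q E := (mem_𝒪_iff_isIntegral q E).mpr hrE
  rw [mem_𝒪_iff, nrm_eq_norm] at hmem
  exact hmem

open Polynomial in
/-- If `E / ℚ_q` is unramified, the local inertia group acts trivially on `E`. -/
theorem localInertia_le_fixingSubgroup_of_ramIdx_eq_one
    (E : IntermediateField ℚ_[q] (PadicAlgCl q)) [FiniteDimensional ℚ_[q] E]
    (h : ramIdx q E = 1) : localInertia q ≤ E.fixingSubgroup := by
  classical
  have hur : IsUnram ℤ_[q] ↥(𝒪 q E) := (isUnram_iff_ramIdx_eq_one q E).mpr h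
  obtain ⟨f, b, hfm, hfdeg, hirr, hb⟩ := hur.exists_monic_root (K := ℚ_[q]) (L := E)
  -- the ring homomorphisms into `PadicAlgCl q`
  let φ : ℤ_[q] →+* PadicAlgCl q :=
    (algebraMap ℚ_[q] (PadicAlgCl q)).comp (algebraMap ℤ_[q] ℚ_[q])
  let ψ : ↥(𝒪 q E) →+* PadicAlgCl q := (E.val : E →+* PadicAlgCl q).comp (𝒪 q E).subtype
  have hψφ : ψ.comp (algebraMap ℤ_[q] ↥(𝒪 q E)) = φ := by
    ext a
    rfl
  have hψeval : ∀ g : ℤ_[q][X], ψ (aeval b g) = eval (ψ b) (g.map φ) := by
    intro g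
    rw [aeval_def, hom_eval₂, hψφ, eval_map]
  set β : PadicAlgCl q := ψ b with hβ
  have hβE : β ∈ E := (b : E).2
  have hβ1 : ‖β‖ ≤ 1 := by
    have := nrm_coe_le_one q E b
    rwa [nrm_eq_norm] at this
  set g : ℚ_[q][X] := f.map (algebraMap ℤ_[q] ℚ_[q]) with hg
  set G : (PadicAlgCl q)[X] := f.map φ with hG
  have hGg : G = g.map (algebraMap ℚ_[q] (PadicAlgCl q)) := by
    rw [hG, hg, Polynomial.map_map]
  have hGm : G.Monic := hfm.map φ
  have hβroot : eval β G = 0 := by
    rw [← hψeval, hb, map_zero]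
  have hβmem : β ∈ G.roots := (mem_roots hGm.ne_zero).mpr hβroot
  -- the derivative at `β` has norm one
  have hsep : (f.map (residue ℤ_[q])).Separable := PerfectField.separable_of_irreducible hirr
  have hres0 : aeval (residue ↥(𝒪 q E) b) (f.map (residue ℤ_[q])) = 0 := by
    rw [← map_aeval_eq_aeval_map (ψ := residue ↥(𝒪 q E)) (φ := residue ℤ_[q]) rfl, hb, map_zero]
  have hres1 := hsep.aeval_derivative_ne_zero hres0
  rw [derivative_map,
    ← map_aeval_eq_aeval_map (ψ := residue ↥(𝒪 q E)) (φ := residue ℤ_[q]) rfl] at hres1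
  have hunit : IsUnit (aeval b (derivative f)) := by
    by_contra hnu
    exact hres1 ((residue_eq_zero_iff _).mpr ((mem_maximalIdeal _).mpr hnu))
  have hder : ‖eval β (derivative G)‖ = 1 := by
    rw [hG, derivative_map, ← hψeval]
    have := (isUnit_iff_nrm_eq_one q E _).mp hunit
    rwa [nrm_eq_norm] at this
  -- roots of `G` have norm at most one
  have hroots : ∀ r ∈ G.roots, ‖r‖ ≤ 1 := by
    intro r hr
    have hr0 : eval r G = 0 := (mem_roots hGm.ne_zero).mp hr
    rw [hG, eval_map] at hr0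
    exact norm_le_one_of_isIntegral q f hfm hr0
  -- `E = ℚ_q(β)`
  have hgirr : Irreducible g := by
    have h1 : Irreducible f := hfm.irreducible_of_irreducible_map (residue ℤ_[q]) f hirr
    exact (Monic.irreducible_iff_irreducible_map_fraction_map (K := ℚ_[q]) hfm).mp h1
  have hgroot : aeval β g = 0 := by
    rw [← eval_map_algebraMap, ← hGg]
    exact hβroot
  have hmin : minpoly ℚ_[q] β = g :=
    (minpoly.eq_of_irreducible_of_monic hgirr hgroot (hfm.map _)).symm
  have hint : IsIntegral ℚ_[q] β := ((PadicAlgCl.isAlgebraic q).isAlgebraic β).isIntegral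
  have hle : IntermediateField.adjoin ℚ_[q] {β} ≤ E := by
    rw [IntermediateField.adjoin_le_iff]
    rintro x rfl
    exact hβE
  have heq : IntermediateField.adjoin ℚ_[q] {β} = E := by
    apply IntermediateField.eq_of_le_of_finrank_eq hle
    rw [IntermediateField.adjoin.finrank hint, hmin, hg, hfm.natDegree_map, hfdeg]
  -- an inertia element fixes `β`
  intro τ hτ
  have hτβ : τ β = β := by
    by_contra hne
    have hτroot : τ β ∈ G.roots := by
      rw [mem_roots hGm.ne_zero, IsRoot.def, hGg, eval_map_algebraMap, aeval_algHom_apply,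
        hgroot, map_zero]
    have hmem : τ β ∈ G.roots.erase β := (Multiset.mem_erase_of_ne hne).mpr hτroot
    have hprod := (IsAlgClosed.splits G).eval_root_derivative hGm hβmem
    rw [← Multiset.cons_erase hmem, Multiset.map_cons, Multiset.prod_cons] at hprod
    have h1 : ‖β - τ β‖ < 1 := by
      rw [← norm_neg, neg_sub]
      exact hτ β hβ1
    have h2 : ‖(((G.roots.erase β).erase (τ β)).map (β - ·)).prod‖ ≤ 1 := by
      apply norm_multiset_prod_le_one
      intro a ha
      obtain ⟨r, hr, rfl⟩ := Multiset.mem_map.mp ha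
      have hr' : r ∈ G.roots := Multiset.mem_of_mem_erase (Multiset.mem_of_mem_erase hr)
      exact (norm_sub_le_max' q β r).trans (max_le hβ1 (hroots r hr'))
    have h3 : ‖eval β (derivative G)‖ < 1 := by
      rw [hprod, norm_mul]
      calc ‖β - τ β‖ * ‖(((G.roots.erase β).erase (τ β)).map (β - ·)).prod‖
          ≤ ‖β - τ β‖ * 1 := mul_le_mul_of_nonneg_left h2 (norm_nonneg _)
        _ < 1 := by rw [mul_one]; exact h1
    rw [hder] at h3
    exact lt_irrefl _ h3
  rw [← heq, mem_fixingSubgroup_adjoin_iff]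
  rintro x rfl
  exact hτβ

/-- **(iii)** For a finite subextension `E` of `PadicAlgCl q / ℚ_[q]`: the local inertia group acts
trivially on `E` iff `E / ℚ_[q]` is unramified. -/
theorem localInertia_le_fixingSubgroup_iff_ramIdx (E : IntermediateField ℚ_[q] (PadicAlgCl q))
    [FiniteDimensional ℚ_[q] E] :
    localInertia q ≤ E.fixingSubgroup ↔ ramIdx q E = 1 :=
  ⟨fun h => ramIdx_eq_one_of_le_nrField q E ((localInertia_le_fixingSubgroup_iff q E).mp h),
    localInertia_le_fixingSubgroup_of_ramIdx_eq_one q E⟩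

/-- (iii) with helper18's predicate. -/
theorem localInertia_le_fixingSubgroup_iff_isUnram (E : IntermediateField ℚ_[q] (PadicAlgCl q))
    [FiniteDimensional ℚ_[q] E] :
    localInertia q ≤ E.fixingSubgroup ↔ IsUnram ℤ_[q] ↥(𝒪 q E) := by
  rw [localInertia_le_fixingSubgroup_iff_ramIdx, isUnram_iff_ramIdx_eq_one]

/-- A finite subextension is unramified iff it lies in the maximal unramified extension. -/
theorem le_nrField_iff_ramIdx (E : IntermediateField ℚ_[q] (PadicAlgCl q))
    [FiniteDimensional ℚ_[q] E] : E ≤ nrField q ↔ ramIdx q E = 1 := by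
  rw [← localInertia_le_fixingSubgroup_iff, localInertia_le_fixingSubgroup_iff_ramIdx]

end Fermat.Agent.CFT.Local.PadicAlgClLocal
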