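/-
PROJECT C, Layer B, slice B3c (helper13): two commutation rules between field-level inflation and
restriction of relative Brauer groups (`GaloisDict.infBr`, `GaloisDict.resBr`).

* `resBr_infBr_comm`   : `K ⊆ L ⊆ M' ⊆ M`, `M'/K` normal:
    `res_{K→L} (inf_{M'→M} y) = inf_{M'→M} (res_{K→L} y)`.
* `resBr_infBr_factor` : `K ⊆ E ⊆ N ⊆ M`, `K ⊆ L ⊆ N`, `E/K` and `N/L` normal:
    `res_{K→L} (inf_{E→M} x) = inf_{N→M} (res_{K→L} (inf_{E→N} x))`.
-/
import Mathlib
import Fermat.Agent.CFT.GaloisDict.InfRes

set_option autoImplicit false

noncomputable section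

namespace Fermat.Agent.CFT.Local.BrFunct

open groupCohomology CategoryTheory Rep Fermat.Agent.CFT.GaloisDict

section Comm

variable (K L M' M : Type) [Field K] [Field L] [Field M'] [Field M]
  [Algebra K L] [Algebra L M'] [Algebra K M'] [Algebra M' M] [Algebra L M] [Algebra K M]
  [IsScalarTower K L M'] [IsScalarTower K M' M] [IsScalarTower L M' M] [IsScalarTower K L M]
  [Normal K M'] [Normal L M']

theorem restrictNormal_restrictScalars (g : M ≃ₐ[L] M) :
    AlgEquiv.restrictNormalHom M' (AlgEquiv.restrictScalarsHom K g) =
      AlgEquiv.restrictScalarsHom K (AlgEquiv.restrictNormalHom M' g) := by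
  ext x
  apply (algebraMap M' M).injective
  have h1 := AlgEquiv.restrictNormal_commutes (AlgEquiv.restrictScalarsHom K g) M' x
  have h2 := AlgEquiv.restrictNormal_commutes g M' x
  exact h1.trans h2.symm

theorem infBr_comp_resBr :
    infBr K M' M ≫ resBr K L M = resBr K L M' ≫ infBr L M' M := by
  unfold infBr resBr
  rw [← groupCohomology.map_comp, ← groupCohomology.map_comp]
  refine groupCohomology.map_congr ?_ ?_ 2
  · ext g : 1
    exact restrictNormal_restrictScalars K L M' M g
  · rfl

/-- Restriction commutes with inflation. -/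
theorem resBr_infBr_comm (y : Br K M') :
    resBr K L M (infBr K M' M y) = infBr L M' M (resBr K L M' y) := by
  have h := infBr_comp_resBr K L M' M
  exact congrArg (fun φ => φ y) h

end Comm

section Factor

variable (K E L N M : Type) [Field K] [Field E] [Field L] [Field N] [Field M]
  [Algebra K E] [Algebra E N] [Algebra K N] [Algebra N M] [Algebra E M] [Algebra K M]
  [Algebra K L] [Algebra L N] [Algebra L M]
  [IsScalarTower K E N] [IsScalarTower K E M] [IsScalarTower E N M] [IsScalarTower K N M]
  [IsScalarTower K L N] [IsScalarTower K L M] [IsScalarTower L N M]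
  [Normal K E] [Normal L N]

theorem restrictNormal_factor (g : M ≃ₐ[L] M) :
    AlgEquiv.restrictNormalHom E (AlgEquiv.restrictScalarsHom K g) =
      AlgEquiv.restrictNormalHom E
        (AlgEquiv.restrictScalarsHom K (AlgEquiv.restrictNormalHom N g)) := by
  ext x
  apply (algebraMap E N).injective
  apply (algebraMap N M).injective
  have h1 := AlgEquiv.restrictNormal_commutes (AlgEquiv.restrictScalarsHom K g) E x
  have h2 := AlgEquiv.restrictNormal_commutes
    (AlgEquiv.restrictScalarsHom K (AlgEquiv.restrictNormalHom N g)) E x
  have h3 := AlgEquiv.restrictNormal_commutes g N (algebraMap E N x)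
  rw [← IsScalarTower.algebraMap_apply E N M]
  refine h1.trans ?_
  rw [IsScalarTower.algebraMap_apply E N M]
  refine Eq.trans ?_ (congrArg (algebraMap N M) h2.symm)
  exact h3.symm

theorem infBr_comp_resBr_factor :
    infBr K E M ≫ resBr K L M = infBr K E N ≫ resBr K L N ≫ infBr L N M := by
  unfold infBr resBr
  rw [← groupCohomology.map_comp, ← groupCohomology.map_comp, ← groupCohomology.map_comp]
  refine groupCohomology.map_congr ?_ ?_ 2
  · ext g : 1
    exact restrictNormal_factor K E L N M g
  · ext a
    refine Additive.toMul.injective (Units.ext ?_)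
    exact IsScalarTower.algebraMap_apply E N M _

/-- Restriction of an inflated class factors through the intermediate layer `N/L`. -/
theorem resBr_infBr_factor (x : Br K E) :
    resBr K L M (infBr K E M x) = infBr L N M (resBr K L N (infBr K E N x)) := by
  have h := infBr_comp_resBr_factor K E L N M
  exact congrArg (fun φ => φ x) h

end Factor

end Fermat.Agent.CFT.Local.BrFunct
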