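import Fermat.Agent.CFT.Local.UnramifiedM2

/-
PROJECT C, Layer B (B3c plumbing, requested by helper13 #749 (B)): common overfields.

* Pure field theory (`K ⊆ L ⊆ M₁, M₂` finite): `emb`, `compositum`, `overfield K L M₁ M₂ :
  IntermediateField K (AlgebraicClosure L)` (normal closure over `K` of the compositum of the
  images), finite and normal over `K`, with `Algebra L ↥overfield`, `IsScalarTower K L ↥overfield`
  and `L`-embeddings `toOverfield₁`, `toOverfield₂`.
* `exists_common_overfield`  : for towers of fields finite over `ℚ_[q]` there is a field `M`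
  finite over `ℚ_[q]`, Galois over `K`, with all instances, and `L`-embeddings of `M₁`, `M₂`.
* `exists_common_overfield'` : the same with `Algebra M₁ M`, `Algebra M₂ M` and all towers.
* `exists_unram_type`        : the unramified extension of degree `n` as an abstract type.
-/

set_option linter.unusedSectionVars false

namespace Fermat.Agent.CFT.Local.CommonOverfield

open Fermat.Agent.CFT.Local Fermat.Agent.CFT.Local.Model Fermat.Agent.CFT.Local.TowerInst
open Fermat.Agent.CFT.Local.Unramified Fermat.Agent.CFT.Local.UnramifiedM2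
open IsLocalRing Module Polynomial
open scoped IntermediateField Fermat.Agent.CFT.Local.TowerInst

universe u v w₁ w₂

/-! ### Pure field theory: a common finite normal overfield inside `AlgebraicClosure L` -/

section Field

variable (K : Type u) (L : Type v) (M₁ : Type w₁) (M₂ : Type w₂)
  [Field K] [Field L] [Field M₁] [Field M₂]
  [Algebra K L] [Algebra L M₁] [Algebra L M₂]
  [FiniteDimensional K L] [FiniteDimensional L M₁] [FiniteDimensional L M₂]

/-- a chosen `L`-embedding of a finite extension into the algebraic closure of `L` -/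
noncomputable def emb : M₁ →ₐ[L] AlgebraicClosure L :=
  IsAlgClosed.lift

theorem finiteDimensional_fieldRange : FiniteDimensional L ↥(emb L M₁).fieldRange :=
  LinearEquiv.finiteDimensional (AlgEquiv.ofInjectiveField (emb L M₁)).toLinearEquiv

/-- the compositum of the images of `M₁`, `M₂`, as an intermediate field of `Ω/K` -/
noncomputable def compositum : IntermediateField K (AlgebraicClosure L) :=
  ((emb L M₁).fieldRange ⊔ (emb L M₂).fieldRange).restrictScalars K

instance finiteDimensional_compositum : FiniteDimensional K ↥(compositum K L M₁ M₂) := by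
  have := finiteDimensional_fieldRange L M₁
  have := finiteDimensional_fieldRange L M₂
  have h1 : FiniteDimensional L ↥((emb L M₁).fieldRange ⊔ (emb L M₂).fieldRange) :=
    IntermediateField.finiteDimensional_sup _ _
  exact FiniteDimensional.trans K L ↥((emb L M₁).fieldRange ⊔ (emb L M₂).fieldRange)

/-- THE COMMON OVERFIELD: the normal closure over `K` of the compositum of (the images of)
`M₁`, `M₂` inside `AlgebraicClosure L`. -/
noncomputable def overfield : IntermediateField K (AlgebraicClosure L) :=
  IntermediateField.normalClosure K ↥(compositum K L M₁ M₂) (AlgebraicClosure L)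

instance finiteDimensional_overfield : FiniteDimensional K ↥(overfield K L M₁ M₂) :=
  inferInstanceAs (FiniteDimensional K
    ↥(IntermediateField.normalClosure K ↥(compositum K L M₁ M₂) (AlgebraicClosure L)))

instance normal_overfield : Normal K ↥(overfield K L M₁ M₂) :=
  inferInstanceAs (Normal K
    ↥(IntermediateField.normalClosure K ↥(compositum K L M₁ M₂) (AlgebraicClosure L)))

theorem compositum_le_overfield : compositum K L M₁ M₂ ≤ overfield K L M₁ M₂ :=
  IntermediateField.le_normalClosure _

theorem emb_mem_overfield₁ (x : M₁) : emb L M₁ x ∈ overfield K L M₁ M₂ :=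
  compositum_le_overfield K L M₁ M₂
    ((le_sup_left : (emb L M₁).fieldRange ≤ _) ⟨x, rfl⟩)

theorem emb_mem_overfield₂ (x : M₂) : emb L M₂ x ∈ overfield K L M₁ M₂ :=
  compositum_le_overfield K L M₁ M₂
    ((le_sup_right : (emb L M₂).fieldRange ≤ _) ⟨x, rfl⟩)

theorem algebraMap_mem_overfield (x : L) :
    algebraMap L (AlgebraicClosure L) x ∈ overfield K L M₁ M₂ := by
  rw [← (emb L M₁).commutes x]
  exact emb_mem_overfield₁ K L M₁ M₂ _

/-- the `L`-algebra structure on the common overfield -/
noncomputable instance algebraOverfield : Algebra L ↥(overfield K L M₁ M₂) :=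
  ((algebraMap L (AlgebraicClosure L)).codRestrict (overfield K L M₁ M₂).toSubring
    (algebraMap_mem_overfield K L M₁ M₂)).toAlgebra

theorem coe_algebraMap_overfield (x : L) :
    ((algebraMap L ↥(overfield K L M₁ M₂) x : ↥(overfield K L M₁ M₂)) : AlgebraicClosure L) =
      algebraMap L (AlgebraicClosure L) x := rfl

instance isScalarTower_overfield : IsScalarTower K L ↥(overfield K L M₁ M₂) :=
  IsScalarTower.of_algebraMap_eq fun x => Subtype.ext (by
    rw [coe_algebraMap_overfield]
    exact IsScalarTower.algebraMap_apply K L (AlgebraicClosure L) x)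

instance isScalarTower_overfield_top :
    IsScalarTower L ↥(overfield K L M₁ M₂) (AlgebraicClosure L) :=
  IsScalarTower.of_algebraMap_eq fun _ => rfl

/-- the embedding of `M₁` into the common overfield -/
noncomputable def toOverfield₁ : M₁ →ₐ[L] ↥(overfield K L M₁ M₂) where
  toRingHom := (emb L M₁).toRingHom.codRestrict (overfield K L M₁ M₂).toSubring
    (emb_mem_overfield₁ K L M₁ M₂)
  commutes' x := Subtype.ext ((emb L M₁).commutes x)

/-- the embedding of `M₂` into the common overfield -/
noncomputable def toOverfield₂ : M₂ →ₐ[L] ↥(overfield K L M₁ M₂) where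
  toRingHom := (emb L M₂).toRingHom.codRestrict (overfield K L M₁ M₂).toSubring
    (emb_mem_overfield₂ K L M₁ M₂)
  commutes' x := Subtype.ext ((emb L M₂).commutes x)

end Field

/-! ### The (M2) structure on the common overfield -/

section M2

variable (q : ℕ) [Fact q.Prime]
  (K : Type u) (L : Type v) (M₁ : Type w₁) (M₂ : Type w₂)
  [Field K] [Field L] [Field M₁] [Field M₂]
  [Algebra ℚ_[q] K] [FiniteDimensional ℚ_[q] K]
  [Algebra ℚ_[q] L] [FiniteDimensional ℚ_[q] L]
  [Algebra ℚ_[q] M₁] [FiniteDimensional ℚ_[q] M₁]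
  [Algebra ℚ_[q] M₂] [FiniteDimensional ℚ_[q] M₂]
  [Algebra K L] [Algebra L M₁] [Algebra L M₂]
  [IsScalarTower ℚ_[q] K L] [IsScalarTower ℚ_[q] L M₁] [IsScalarTower ℚ_[q] L M₂]

/-- COMMON OVERFIELD of two towers `K ⊆ L ⊆ M₁`, `K ⊆ L ⊆ M₂` of fields finite over `ℚ_q`:
a field `M` finite over `ℚ_q`, Galois over `K`, with `L`-embeddings of `M₁` and `M₂`. -/
theorem exists_common_overfield :
    ∃ (M : Type v) (_ : Field M) (_ : Algebra ℚ_[q] M) (_ : FiniteDimensional ℚ_[q] M)
      (_ : Algebra K M) (_ : Algebra L M) (_ : IsScalarTower ℚ_[q] K M)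
      (_ : IsScalarTower ℚ_[q] L M) (_ : IsScalarTower K L M) (_ : IsGalois K M),
      Nonempty (M₁ →ₐ[L] M) ∧ Nonempty (M₂ →ₐ[L] M) := by
  have := charZero_field q K
  have := finiteDimensional_top q K L
  have := finiteDimensional_top q L M₁
  have := finiteDimensional_top q L M₂
  have hfd : FiniteDimensional ℚ_[q] ↥(overfield K L M₁ M₂) :=
    FiniteDimensional.trans ℚ_[q] K ↥(overfield K L M₁ M₂)
  have hst : IsScalarTower ℚ_[q] L ↥(overfield K L M₁ M₂) :=
    IsScalarTower.of_algebraMap_eq fun x => Subtype.ext (by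
      rw [coe_algebraMap_overfield]
      exact IsScalarTower.algebraMap_apply ℚ_[q] L (AlgebraicClosure L) x)
  have hgal : IsGalois K ↥(overfield K L M₁ M₂) := ⟨⟩
  exact ⟨↥(overfield K L M₁ M₂), inferInstance, inferInstance, hfd, inferInstance, inferInstance,
    inferInstance, hst, inferInstance, hgal, ⟨toOverfield₁ K L M₁ M₂⟩, ⟨toOverfield₂ K L M₁ M₂⟩⟩

/-- COMMON OVERFIELD, fully instantiated form: the `L`-embeddings are turned into `Algebra`
instances and all scalar towers are provided. -/
theorem exists_common_overfield' [Algebra K M₁] [IsScalarTower K L M₁]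
    [Algebra K M₂] [IsScalarTower K L M₂] :
    ∃ (M : Type v) (_ : Field M) (_ : Algebra ℚ_[q] M) (_ : FiniteDimensional ℚ_[q] M)
      (_ : Algebra K M) (_ : Algebra L M) (_ : Algebra M₁ M) (_ : Algebra M₂ M)
      (_ : IsScalarTower ℚ_[q] K M) (_ : IsScalarTower ℚ_[q] L M)
      (_ : IsScalarTower ℚ_[q] M₁ M) (_ : IsScalarTower ℚ_[q] M₂ M)
      (_ : IsScalarTower K L M) (_ : IsScalarTower L M₁ M) (_ : IsScalarTower L M₂ M)
      (_ : IsScalarTower K M₁ M) (_ : IsScalarTower K M₂ M), IsGalois K M := by
  obtain ⟨M, i1, i2, i3, i4, i5, i6, i7, i8, i9, ⟨ι₁⟩, ⟨ι₂⟩⟩ :=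
    exists_common_overfield q K L M₁ M₂
  let a1 : Algebra M₁ M := ι₁.toRingHom.toAlgebra
  let a2 : Algebra M₂ M := ι₂.toRingHom.toAlgebra
  have t1 : IsScalarTower L M₁ M := IsScalarTower.of_algebraMap_eq fun x => (ι₁.commutes x).symm
  have t2 : IsScalarTower L M₂ M := IsScalarTower.of_algebraMap_eq fun x => (ι₂.commutes x).symm
  have t3 : IsScalarTower ℚ_[q] M₁ M := IsScalarTower.of_algebraMap_eq fun x => by
    rw [IsScalarTower.algebraMap_apply ℚ_[q] L M, IsScalarTower.algebraMap_apply ℚ_[q] L M₁,
      ← IsScalarTower.algebraMap_apply L M₁ M]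
  have t4 : IsScalarTower ℚ_[q] M₂ M := IsScalarTower.of_algebraMap_eq fun x => by
    rw [IsScalarTower.algebraMap_apply ℚ_[q] L M, IsScalarTower.algebraMap_apply ℚ_[q] L M₂,
      ← IsScalarTower.algebraMap_apply L M₂ M]
  have t5 : IsScalarTower K M₁ M := IsScalarTower.of_algebraMap_eq fun x => by
    rw [IsScalarTower.algebraMap_apply K L M, IsScalarTower.algebraMap_apply K L M₁,
      ← IsScalarTower.algebraMap_apply L M₁ M]
  have t6 : IsScalarTower K M₂ M := IsScalarTower.of_algebraMap_eq fun x => by
    rw [IsScalarTower.algebraMap_apply K L M, IsScalarTower.algebraMap_apply K L M₂,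
      ← IsScalarTower.algebraMap_apply L M₂ M]
  exact ⟨M, i1, i2, i3, i4, i5, a1, a2, i6, i7, t3, t4, i8, t1, t2, t5, t6, i9⟩

end M2

section Unram

variable (q : ℕ) [Fact q.Prime]
  (K : Type u) [Field K] [Algebra ℚ_[q] K] [FiniteDimensional ℚ_[q] K]

/-- (U2) as an abstract type: for every `n > 0` there is an unramified (Galois) extension
`E/K` of degree `n` of fields finite over `ℚ_q`. -/
theorem exists_unram_type (n : ℕ) (hn : 0 < n) :
    ∃ (E : Type u) (_ : Field E) (_ : Algebra ℚ_[q] E) (_ : FiniteDimensional ℚ_[q] E)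
      (_ : Algebra K E) (_ : IsScalarTower ℚ_[q] K E),
      IsUnram ↥(𝒪 q K) ↥(𝒪 q E) ∧ finrank K E = n ∧ IsGalois K E := by
  obtain ⟨F, hF, hF', hn', hur, hgal⟩ :=
    exists_unram_intermediateField q K (AlgebraicClosure K) n hn
  exact ⟨↥F, inferInstance, inferInstance, hF', inferInstance, inferInstance, hur, hn', hgal⟩

end Unram

end Fermat.Agent.CFT.Local.CommonOverfield
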