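/-
PROJECT C, Layer B, slice B1b: unramified extensions, abstract (M1) style.
Part 3: tower, base change, Frobenius compatibility, containment/uniqueness, maximal unramified
subextension.

* `IsUnram.trans`, `IsUnram.of_top`, `IsUnram.of_bot`: behaviour in towers.
* `isUnram_of_splits_of_separable_residue`: BASE CHANGE in polynomial form (`L = K(α)`, `α` a root
  of a monic `F ∈ O[X]` with separable reduction which splits in `L` ⟹ `L/K` unramified Galois).
* `eq_frob_pow_iff`, `frob_restrict`, `finrank_baseChange`: `Frob_{EL/L}|_E = Frob_{E/K}^f`,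
  `[EL:L] = n / gcd(n, f)`.
* `map_maximalIdeal_of_square`: `e(M/K_d) = e(L/K)` in the base change square.
* `IsUnram.nonempty_algHom`, `IsUnram.le_of_finrank_dvd`, `IsUnram.eq_of_finrank_eq`:
  containment and uniqueness inside a common overfield.
* `exists_root_natDegree_eq_resDeg`, `maxUnram`, `finrank_maxUnram`, `isUnram_maxUnram`: the
  maximal unramified subextension.
-/
import Fermat.Agent.CFT.Local.UnramifiedExists

set_option linter.unusedSectionVars false

namespace Fermat.Agent.CFT.Local.Unramified
open IsLocalRing Module Polynomial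
open scoped IntermediateField

section Tower

variable {O B C : Type*} [CommRing O] [IsLocalRing O] [CommRing B] [IsLocalRing B]
  [CommRing C] [IsLocalRing C] [Algebra O B] [Algebra B C] [Algebra O C] [IsScalarTower O B C]

/-- Unramified extensions compose. -/
theorem IsUnram.trans (h1 : IsUnram O B) (h2 : IsUnram B C) : IsUnram O C := by
  rw [IsUnram, IsScalarTower.algebraMap_eq O B C, ← Ideal.map_map, h1.map_eq, h2.map_eq]

/-- If `C/O` is unramified then so is `C/B` for every intermediate local `B`. -/
theorem IsUnram.of_top [IsLocalHom (algebraMap O B)] [IsLocalHom (algebraMap B C)]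
    (h : IsUnram O C) : IsUnram B C := by
  have h1 : Ideal.map (algebraMap O B) (maximalIdeal O) ≤ maximalIdeal B :=
    ((local_hom_TFAE (algebraMap O B)).out 0 2 rfl rfl).mp ‹_›
  have h2 : Ideal.map (algebraMap B C) (maximalIdeal B) ≤ maximalIdeal C :=
    ((local_hom_TFAE (algebraMap B C)).out 0 2 rfl rfl).mp ‹_›
  apply le_antisymm h2
  rw [← h.map_eq, IsScalarTower.algebraMap_eq O B C, ← Ideal.map_map]
  exact Ideal.map_mono h1

end Tower

section TowerDVR

variable {O B C : Type*} [CommRing O] [IsDomain O] [IsDiscreteValuationRing O]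
  [CommRing B] [IsDomain B] [IsDiscreteValuationRing B]
  [CommRing C] [IsDomain C] [IsDiscreteValuationRing C]
  [Algebra O B] [Algebra B C] [Algebra O C] [IsScalarTower O B C]

/-- If `C/O` is unramified then so is `B/O` for every intermediate DVR `B`
(with `O → B` injective). -/
theorem IsUnram.of_bot [IsLocalHom (algebraMap O B)] [IsLocalHom (algebraMap B C)]
    (hinj : Function.Injective (algebraMap O B)) (h : IsUnram O C) : IsUnram O B := by
  have hBC : IsUnram B C := h.of_top
  obtain ⟨ϖ, hϖ⟩ := IsDiscreteValuationRing.exists_irreducible O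
  obtain ⟨ϖB, hϖB⟩ := IsDiscreteValuationRing.exists_irreducible B
  have hne : Ideal.map (algebraMap O B) (maximalIdeal O) ≠ ⊥ := by
    rw [hϖ.maximalIdeal_eq, Ideal.map_span, Set.image_singleton, Ne,
      Ideal.span_singleton_eq_bot]
    exact fun h0 => hϖ.ne_zero (hinj (h0.trans (map_zero _).symm))
  obtain ⟨e, he⟩ := IsDiscreteValuationRing.ideal_eq_span_pow_irreducible hne hϖB
  have he' : Ideal.map (algebraMap O B) (maximalIdeal O) = maximalIdeal B ^ e := by
    rw [he, hϖB.maximalIdeal_eq, Ideal.span_singleton_pow]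
  have hC : maximalIdeal C ^ e = maximalIdeal C ^ 1 := by
    rw [pow_one, ← hBC.map_eq, ← Ideal.map_pow, ← he', Ideal.map_map,
      ← IsScalarTower.algebraMap_eq, h.map_eq, hBC.map_eq]
  have hinjpow := (Ideal.pow_right_strictAnti (maximalIdeal C)
    (IsDiscreteValuationRing.not_a_field C) (Ideal.IsPrime.ne_top inferInstance)).injective
  have : e = 1 := hinjpow hC
  rw [IsUnram, he', this, pow_one]

end TowerDVR

section BaseChange

variable {O K B L : Type*} [CommRing O] [IsDomain O] [IsDiscreteValuationRing O]
  [Field K] [Algebra O K] [IsFractionRing O K]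
  [CommRing B] [IsDomain B] [IsLocalRing B]
  [Field L] [Algebra B L] [IsFractionRing B L]
  [Algebra O B] [Algebra K L] [Algebra O L] [IsScalarTower O B L] [IsScalarTower O K L]
  [IsIntegralClosure B O L] [FiniteDimensional K L] [IsLocalHom (algebraMap O B)]
  [Finite (ResidueField O)]

/-- If `L = K(α)` with `α` a root of a monic `F ∈ O[X]` which splits in `L`, then `L/K` is
normal. -/
theorem normal_of_splits_of_adjoin_eq_top (F : O[X]) (hF : F.Monic)
    (hspl : (F.map (algebraMap O L)).Splits) (α : L) (hα : aeval α F = 0)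
    (hgen : K⟮α⟯ = ⊤) : Normal K L := by
  have hFK : (F.map (algebraMap O K)).Monic := hF.map _
  have hαK : aeval α (F.map (algebraMap O K)) = 0 := by rwa [aeval_map_algebraMap]
  have hint : IsIntegral K α := ⟨_, hFK, by rwa [← aeval_def]⟩
  have hdvd : minpoly K α ∣ F.map (algebraMap O K) := minpoly.dvd K α hαK
  have hsplK : ((F.map (algebraMap O K)).map (algebraMap K L)).Splits := by
    rwa [Polynomial.map_map, ← IsScalarTower.algebraMap_eq]
  have hspl' : ((minpoly K α).map (algebraMap K L)).Splits :=
    hsplK.of_dvd (Polynomial.map_ne_zero hFK.ne_zero) (Polynomial.map_dvd _ hdvd)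
  have hsf : (minpoly K α).IsSplittingField K L := by
    refine ⟨hspl', ?_⟩
    rw [eq_top_iff, ← IntermediateField.top_toSubalgebra, ← hgen,
      IntermediateField.adjoin_simple_toSubalgebra_of_isAlgebraic
        (Algebra.IsAlgebraic.isAlgebraic _)]
    apply Algebra.adjoin_mono
    rw [Set.singleton_subset_iff, mem_rootSet']
    exact ⟨Polynomial.map_ne_zero (minpoly.ne_zero hint), minpoly.aeval K α⟩
  exact Normal.of_isSplittingField (minpoly K α)

/-- Separable-reduction criterion (BASE CHANGE form): if `L = K(α)`, `α` a root of a monic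
`F ∈ O[X]` whose reduction is separable (not necessarily irreducible) and which splits in `L`,
then `L/K` is Galois and `B/O` is unramified.  (Apply with `O := 𝒪_L'`, `F := f` the defining
polynomial of an unramified `E/K`, `L := E·L'`.) -/
theorem isUnram_of_splits_of_separable_residue [Algebra.IsSeparable K L]
    (F : O[X]) (hF : F.Monic) (hsep : (F.map (residue O)).Separable)
    (hspl : (F.map (algebraMap O L)).Splits) (α : L) (hα : aeval α F = 0)
    (hgen : K⟮α⟯ = ⊤) : IsUnram O B ∧ IsGalois K L := by
  have hN := normal_of_splits_of_adjoin_eq_top (O := O) F hF hspl α hα hgen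
  have hG : IsGalois K L := ⟨⟩
  refine ⟨?_, hG⟩
  have hfinB := finite_of_aklb O K B L
  have hfreeB := free_of_aklb O K B L
  have hfinl : Finite (ResidueField B) :=
    ResidueField.finite_of_finite (R := O) ‹Finite (ResidueField O)›
  obtain ⟨b, rfl, hb⟩ := exists_eq_algebraMap_of_root (K := K) (B := B) F hF α hα
  -- the reduction map is injective
  have hinj : Function.Injective (resHom O K B L) := by
    rw [injective_iff_map_eq_one]
    intro σ hσ
    set b' := galRestrict O K L B σ b with hb'
    have hres : residue B b' = residue B b := by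
      rw [hb', ← resHom_residue, hσ, AlgEquiv.one_apply]
    have hroot' : aeval b' F = 0 := by
      have := Polynomial.aeval_algHom_apply
        ((galRestrict O K L B σ : B ≃ₐ[O] B) : B →ₐ[O] B) b F
      rw [hb] at this
      simpa using this
    have hroot₀ : aeval (residue B b) (F.map (residue O)) = 0 := by
      rw [← map_aeval_eq_aeval_map (ψ := residue B) (φ := residue O) rfl, hb, map_zero]
    have hder : IsUnit ((derivative (F.map (algebraMap O B))).eval b) := by
      rw [← residue_ne_zero_iff_isUnit]
      have := hsep.aeval_derivative_ne_zero hroot₀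
      rwa [derivative_map, ← map_aeval_eq_aeval_map (ψ := residue B) (φ := residue O) rfl,
        ← eval_map_algebraMap, ← derivative_map] at this
    have heq : b = b' := by
      refine IsLocalRing.eq_of_eval_eq_zero_of_not_isUnit_sub
        (f := F.map (algebraMap O B)) ?_ ?_ ?_ hder
      · rwa [eval_map_algebraMap]
      · rwa [eval_map_algebraMap]
      · rw [← mem_nonunits_iff, ← mem_maximalIdeal, ← residue_eq_zero_iff, map_sub, hres,
          sub_self]
    have hα' : σ (algebraMap B L b) = algebraMap B L b := by
      rw [← algebraMap_galRestrict (O := O) σ b, ← hb', ← heq]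
    have hadj : Algebra.adjoin K {algebraMap B L b} = ⊤ := by
      rw [← IntermediateField.adjoin_simple_toSubalgebra_of_isAlgebraic
        (Algebra.IsAlgebraic.isAlgebraic _), hgen, IntermediateField.top_toSubalgebra]
    have : (σ : L →ₐ[K] L) = (1 : Gal(L/K)) := by
      apply AlgHom.ext_of_adjoin_eq_top hadj
      intro x hx
      rw [Set.mem_singleton_iff] at hx
      subst hx
      simpa using hα'
    exact AlgEquiv.coe_toAlgHom_injective this
  have hbij : Function.Bijective (resHom O K B L) := ⟨hinj, resHom_surjective O K B L⟩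
  apply isUnram_of_finrank_le
  rw [finrank_of_aklb O K B L, ← IsGalois.card_aut_eq_finrank K L,
    ← IsGalois.card_aut_eq_finrank (ResidueField O) (ResidueField B)]
  exact (Nat.card_eq_of_bijective _ hbij).le

end BaseChange

section FrobPow

variable {O K B L : Type*} [CommRing O] [IsDomain O] [IsDiscreteValuationRing O]
  [Field K] [Algebra O K] [IsFractionRing O K]
  [CommRing B] [IsDomain B] [IsLocalRing B]
  [Field L] [Algebra B L] [IsFractionRing B L]
  [Algebra O B] [Algebra K L] [Algebra O L] [IsScalarTower O B L] [IsScalarTower O K L]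
  [IsIntegralClosure B O L] [FiniteDimensional K L] [IsLocalHom (algebraMap O B)]
  [Finite (ResidueField O)] [IsGalois K L]

lemma resHom_frob_pow (hur : IsUnram O B) (f : ℕ) (x : ResidueField B) :
    resHom O K B L (frob O K B L hur ^ f) x = x ^ (Nat.card (ResidueField O) ^ f) := by
  induction f generalizing x with
  | zero => simp
  | succ f ih =>
    rw [pow_succ, map_mul, AlgEquiv.mul_apply, resHom_frob, ih, ← pow_mul, ← pow_succ']

/-- Characterisation of the powers of the Frobenius element. -/
theorem eq_frob_pow_iff (hur : IsUnram O B) (f : ℕ) (σ : Gal(L/K)) :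
    σ = frob O K B L hur ^ f ↔ ∀ b : B,
      galRestrict O K L B σ b - b ^ (Nat.card (ResidueField O) ^ f) ∈ maximalIdeal B := by
  constructor
  · rintro rfl b
    rw [← residue_eq_zero_iff, map_sub, ← resHom_residue, resHom_frob_pow, map_pow, sub_self]
  · intro h
    apply (resHom_bijective hur).1
    ext x
    obtain ⟨b, rfl⟩ := residue_surjective x
    rw [resHom_frob_pow, resHom_residue, ← map_pow, ← sub_eq_zero, ← map_sub,
      residue_eq_zero_iff]
    exact h b

end FrobPow

section FrobCompat

variable {O K B E : Type*} [CommRing O] [IsDomain O] [IsDiscreteValuationRing O]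
  [Field K] [Algebra O K] [IsFractionRing O K]
  [CommRing B] [IsDomain B] [IsLocalRing B]
  [Field E] [Algebra B E] [IsFractionRing B E]
  [Algebra O B] [Algebra K E] [Algebra O E] [IsScalarTower O B E] [IsScalarTower O K E]
  [IsIntegralClosure B O E] [FiniteDimensional K E] [IsLocalHom (algebraMap O B)]
  [Finite (ResidueField O)] [IsGalois K E]

variable {O' K' B' E' : Type*} [CommRing O'] [IsDomain O'] [IsDiscreteValuationRing O']
  [Field K'] [Algebra O' K'] [IsFractionRing O' K']
  [CommRing B'] [IsDomain B'] [IsLocalRing B']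
  [Field E'] [Algebra B' E'] [IsFractionRing B' E']
  [Algebra O' B'] [Algebra K' E'] [Algebra O' E'] [IsScalarTower O' B' E']
  [IsScalarTower O' K' E']
  [IsIntegralClosure B' O' E'] [FiniteDimensional K' E'] [IsLocalHom (algebraMap O' B')]
  [Finite (ResidueField O')] [IsGalois K' E']

/-- FROBENIUS UNDER BASE CHANGE.  `E/K` and `E'/K'` unramified Galois, `ι : E → E'` a ring
homomorphism mapping `B` into `B'` (via `j`), `|k'| = |k| ^ f`.  If `τ ∈ Gal(E/K)` is the
restriction along `ι` of `Frob_{E'/K'}`, then `τ = Frob_{E/K} ^ f`. -/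
theorem frob_restrict (hur : IsUnram O B) (hur' : IsUnram O' B')
    (ι : E →+* E') (j : B →+* B') (hj : ∀ b, algebraMap B' E' (j b) = ι (algebraMap B E b))
    (f : ℕ) (hcard : Nat.card (ResidueField O') = Nat.card (ResidueField O) ^ f)
    (τ : Gal(E/K)) (hτ : ∀ x, ι (τ x) = frob O' K' B' E' hur' (ι x)) :
    τ = frob O K B E hur ^ f := by
  rw [eq_frob_pow_iff]
  intro b
  by_contra hb
  have hu : IsUnit (galRestrict O K E B τ b - b ^ (Nat.card (ResidueField O) ^ f)) := by
    rwa [mem_maximalIdeal, mem_nonunits_iff, not_not] at hb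
  have hu' := hu.map j
  have hcomm : j (galRestrict O K E B τ b) =
      galRestrict O' K' E' B' (frob O' K' B' E' hur') (j b) := by
    apply IsFractionRing.injective B' E'
    rw [hj, algebraMap_galRestrict (O := O), hτ, algebraMap_galRestrict (O := O'), hj]
  rw [map_sub, map_pow, hcomm, ← hcard] at hu'
  exact (mem_nonunits_iff.mp ((mem_maximalIdeal _).mp (frob_spec hur' (j b)))) hu'

/-- DEGREE UNDER BASE CHANGE: if moreover restriction `Gal(E'/K') → Gal(E/K)` is injective
(i.e. `E' = K'·ι(E)`), then `[E':K'] = n / gcd(n, f)` with `n = [E:K]`. -/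
theorem finrank_baseChange (hur : IsUnram O B) (hur' : IsUnram O' B')
    (ι : E →+* E') (j : B →+* B') (hj : ∀ b, algebraMap B' E' (j b) = ι (algebraMap B E b))
    (f : ℕ) (hcard : Nat.card (ResidueField O') = Nat.card (ResidueField O) ^ f)
    (res : Gal(E'/K') →* Gal(E/K)) (hres : ∀ σ x, ι (res σ x) = σ (ι x))
    (hinj : Function.Injective res) :
    finrank K' E' = finrank K E / Nat.gcd (finrank K E) f := by
  have h1 : res (frob O' K' B' E' hur') = frob O K B E hur ^ f :=
    frob_restrict hur hur' ι j hj f hcard _ (fun x => hres _ x)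
  rw [← orderOf_frob hur', ← orderOf_injective res hinj, h1, orderOf_pow, orderOf_frob]

end FrobCompat

section Square

variable {O B₁ B₂ C : Type*} [CommRing O] [IsLocalRing O] [CommRing B₁] [IsLocalRing B₁]
  [CommRing B₂] [IsLocalRing B₂] [CommRing C] [IsLocalRing C]
  [Algebra O B₁] [Algebra O B₂] [Algebra B₁ C] [Algebra B₂ C] [Algebra O C]
  [IsScalarTower O B₁ C] [IsScalarTower O B₂ C]

/-- RAMIFICATION IN THE BASE-CHANGE SQUARE: `B₁/O` unramified (`K_d/K`), `C/B₂` unramified
(`M/L`), `𝔪_O B₂ = 𝔪_{B₂}^e` (`e = e(L/K)`); then `𝔪_{B₁} C = 𝔪_C ^ e`, i.e. `e(M/K_d) = e(L/K)`. -/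
theorem map_maximalIdeal_of_square (h1 : IsUnram O B₁) (h2 : IsUnram B₂ C) (e : ℕ)
    (he : Ideal.map (algebraMap O B₂) (maximalIdeal O) = maximalIdeal B₂ ^ e) :
    Ideal.map (algebraMap B₁ C) (maximalIdeal B₁) = maximalIdeal C ^ e := by
  rw [← h1.map_eq, Ideal.map_map, ← IsScalarTower.algebraMap_eq,
    IsScalarTower.algebraMap_eq O B₂ C, ← Ideal.map_map, he, Ideal.map_pow, h2.map_eq]

end Square

section MaxUnram

variable (O K B L : Type*) [CommRing O] [IsDomain O] [IsDiscreteValuationRing O]
  [Field K] [Algebra O K] [IsFractionRing O K]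
  [CommRing B] [IsDomain B] [IsLocalRing B]
  [Field L] [Algebra B L] [IsFractionRing B L]
  [Algebra O B] [Algebra K L] [Algebra O L] [IsScalarTower O B L] [IsScalarTower O K L]
  [IsIntegralClosure B O L] [FiniteDimensional K L] [IsLocalHom (algebraMap O B)]
  [Finite (ResidueField O)] [Algebra.IsSeparable K L] [IsAdicComplete (maximalIdeal B) B]

/-- MAXIMAL UNRAMIFIED SUBEXTENSION, polynomial form: there is a monic `f ∈ O[X]` with
irreducible reduction of degree `f(L/K) = [l:k]` having a root `b ∈ B`; `K(b)` has degree
`[l:k]` over `K` (and is unramified by `isUnram_of_root`). -/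
theorem exists_root_natDegree_eq_resDeg :
    ∃ (f : O[X]) (b : B), f.Monic ∧
      f.natDegree = finrank (ResidueField O) (ResidueField B) ∧
      Irreducible (f.map (residue O)) ∧ aeval b f = 0 ∧
      minpoly K (algebraMap B L b) = f.map (algebraMap O K) ∧
      finrank K K⟮algebraMap B L b⟯ = finrank (ResidueField O) (ResidueField B) := by
  have hfinB := finite_of_aklb O K B L
  have hpos : 0 < finrank (ResidueField O) (ResidueField B) := Module.finrank_pos
  obtain ⟨f, hfm, hfn, hirr, -, hirrK⟩ := exists_monic_lift_irreducible O K _ hpos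
  obtain ⟨b, hb⟩ := exists_root_of_finrank_dvd (K := K) (L := L) (B := B) f hfm hirr
    (hfn ▸ dvd_rfl)
  have hα : aeval (algebraMap B L b) (f.map (algebraMap O K)) = 0 := by
    rw [aeval_map_algebraMap, aeval_algebraMap_apply, hb, map_zero]
  have hmin : minpoly K (algebraMap B L b) = f.map (algebraMap O K) :=
    (minpoly.eq_of_irreducible_of_monic hirrK hα (hfm.map _)).symm
  have hint : IsIntegral K (algebraMap B L b) := Algebra.IsIntegral.isIntegral _
  refine ⟨f, b, hfm, hfn, hirr, hb, hmin, ?_⟩
  rw [IntermediateField.adjoin.finrank hint, hmin, hfm.natDegree_map, hfn]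

/-- The maximal unramified subextension `L₀` of `L/K` (`[L₀:K] = f(L/K)`). -/
noncomputable def maxUnram : IntermediateField K L :=
  K⟮algebraMap B L (exists_root_natDegree_eq_resDeg O K B L).choose_spec.choose⟯

theorem finrank_maxUnram :
    finrank K (maxUnram O K B L) = finrank (ResidueField O) (ResidueField B) :=
  (exists_root_natDegree_eq_resDeg O K B L).choose_spec.choose_spec.2.2.2.2.2

variable {B₀ : Type*} [CommRing B₀] [IsDomain B₀] [IsLocalRing B₀]
  [Algebra B₀ (maxUnram O K B L)] [IsFractionRing B₀ (maxUnram O K B L)]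
  [Algebra O B₀] [Algebra O (maxUnram O K B L)] [IsScalarTower O B₀ (maxUnram O K B L)]
  [IsScalarTower O K (maxUnram O K B L)] [IsScalarTower O (maxUnram O K B L) L]
  [IsIntegralClosure B₀ O (maxUnram O K B L)] [IsLocalHom (algebraMap O B₀)]

include K B L in
/-- `L₀/K` is unramified (for any presentation `B₀` of its ring of integers). -/
theorem isUnram_maxUnram : IsUnram O B₀ := by
  obtain ⟨hfm, hfn, hirr, hb, hmin, hdeg⟩ :=
    (exists_root_natDegree_eq_resDeg O K B L).choose_spec.choose_spec
  set f := (exists_root_natDegree_eq_resDeg O K B L).choose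
  set b := (exists_root_natDegree_eq_resDeg O K B L).choose_spec.choose
  let α : maxUnram O K B L := ⟨algebraMap B L b, IntermediateField.mem_adjoin_simple_self K _⟩
  have hα : aeval α f = 0 := by
    apply (algebraMap (maxUnram O K B L) L).injective
    rw [map_zero, ← aeval_algebraMap_apply]
    change aeval (algebraMap B L b) f = 0
    rw [aeval_algebraMap_apply, hb, map_zero]
  refine isUnram_of_root (K := K) (L := maxUnram O K B L) f hfm hirr α hα ?_
  rw [finrank_maxUnram, hfn]

end MaxUnram

section Containment

variable {O K B E : Type*} [CommRing O] [IsDomain O] [IsDiscreteValuationRing O]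
  [Field K] [Algebra O K] [IsFractionRing O K]
  [CommRing B] [IsDomain B] [IsLocalRing B]
  [Field E] [Algebra B E] [IsFractionRing B E]
  [Algebra O B] [Algebra K E] [Algebra O E] [IsScalarTower O B E] [IsScalarTower O K E]
  [IsIntegralClosure B O E] [FiniteDimensional K E] [IsLocalHom (algebraMap O B)]
  [Finite (ResidueField O)] [Algebra.IsSeparable K E]

variable {B' L : Type*}
  [CommRing B'] [IsDomain B'] [IsLocalRing B']
  [Field L] [Algebra B' L] [IsFractionRing B' L]
  [Algebra O B'] [Algebra K L] [Algebra O L] [IsScalarTower O B' L] [IsScalarTower O K L]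
  [IsIntegralClosure B' O L] [FiniteDimensional K L] [IsLocalHom (algebraMap O B')]
  [Algebra.IsSeparable K L] [IsAdicComplete (maximalIdeal B') B']

/-- CONTAINMENT: an unramified `E/K` embeds into any `L/K` (complete) whose residue degree is
divisible by `[E:K]`. -/
theorem IsUnram.nonempty_algHom (hur : IsUnram O B)
    (hdvd : finrank K E ∣ finrank (ResidueField O) (ResidueField B')) :
    Nonempty (E →ₐ[K] L) := by
  obtain ⟨f, b, hfm, hfdeg, hirr, hb⟩ := hur.exists_monic_root (K := K) (L := E)
  obtain ⟨b', hb'⟩ := exists_root_of_finrank_dvd (K := K) (L := L) (B := B') f hfm hirr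
    (hfdeg ▸ hdvd)
  set α := algebraMap B E b with hα
  have hgirr : Irreducible (f.map (algebraMap O K)) := by
    have h1 : Irreducible f := hfm.irreducible_of_irreducible_map (residue O) f hirr
    exact (hfm.irreducible_iff_irreducible_map_fraction_map (K := K)).mp h1
  have hαroot : aeval α (f.map (algebraMap O K)) = 0 := by
    rw [aeval_map_algebraMap, hα, aeval_algebraMap_apply, hb, map_zero]
  have hmin : minpoly K α = f.map (algebraMap O K) :=
    (minpoly.eq_of_irreducible_of_monic hgirr hαroot (hfm.map _)).symm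
  have hint : IsIntegral K α := Algebra.IsIntegral.isIntegral α
  have htop : K⟮α⟯ = ⊤ := by
    rw [Field.primitive_element_iff_minpoly_natDegree_eq, hmin, hfm.natDegree_map, hfdeg]
  have hroot' : algebraMap B' L b' ∈ (minpoly K α).aroots L := by
    rw [mem_aroots]
    refine ⟨minpoly.ne_zero hint, ?_⟩
    rw [hmin, aeval_map_algebraMap, aeval_algebraMap_apply, hb', map_zero]
  let φ : K⟮α⟯ →ₐ[K] L :=
    (IntermediateField.algHomAdjoinIntegralEquiv K hint).symm ⟨_, hroot'⟩
  exact ⟨φ.comp ((IntermediateField.equivOfEq htop).trans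
    IntermediateField.topEquiv).symm.toAlgHom⟩

end Containment

section InOmega

variable {O K Ω : Type*} [CommRing O] [IsDomain O] [IsDiscreteValuationRing O]
  [Field K] [Algebra O K] [IsFractionRing O K] [Finite (ResidueField O)]
  [Field Ω] [Algebra K Ω] (E L : IntermediateField K Ω)

variable {B : Type*} [CommRing B] [IsDomain B] [IsLocalRing B]
  [Algebra B E] [IsFractionRing B E]
  [Algebra O B] [Algebra O E] [IsScalarTower O B E] [IsScalarTower O K E]
  [IsIntegralClosure B O E] [FiniteDimensional K E] [IsLocalHom (algebraMap O B)]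
  [Algebra.IsSeparable K E] [IsAdicComplete (maximalIdeal B) B]

variable {B' : Type*} [CommRing B'] [IsDomain B'] [IsLocalRing B']
  [Algebra B' L] [IsFractionRing B' L]
  [Algebra O B'] [Algebra O L] [IsScalarTower O B' L] [IsScalarTower O K L]
  [IsIntegralClosure B' O L] [FiniteDimensional K L] [IsLocalHom (algebraMap O B')]
  [Algebra.IsSeparable K L] [IsAdicComplete (maximalIdeal B') B']

/-- CONTAINMENT inside a common overfield `Ω`: if `E/K` is unramified and `[E:K]` divides the
residue degree of `L/K`, then `E ≤ L`. -/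
theorem IsUnram.le_of_finrank_dvd (hur : IsUnram O B)
    (hdvd : finrank K E ∣ finrank (ResidueField O) (ResidueField B')) : E ≤ L := by
  have hG : IsGalois K E := hur.isGalois
  obtain ⟨φ⟩ := hur.nonempty_algHom (K := K) (E := E) (L := L) (B' := B') hdvd
  set ψ : E →ₐ[K] Ω := L.val.comp φ with hψ
  have hrange := AlgHom.fieldRange_of_normal ψ
  intro x hx
  rw [← hrange] at hx
  obtain ⟨y, rfl⟩ := hx
  exact (φ y).2

/-- UNIQUENESS: two unramified extensions of `K` of the same degree inside `Ω` coincide. -/
theorem IsUnram.eq_of_finrank_eq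
    (hur : IsUnram O B) (hur' : IsUnram O B')
    (hdeg : finrank K E = finrank K L) : E = L := by
  have h1 : E ≤ L := by
    apply hur.le_of_finrank_dvd E L (B' := B')
    rw [hur'.finrank_residueField_eq (K := K) (L := L), hdeg]
  exact IntermediateField.eq_of_le_of_finrank_eq h1 hdeg

end InOmega

end Fermat.Agent.CFT.Local.Unramified
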