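import Fermat.Agent.CFT.Local.TowerInst
import Fermat.Agent.CFT.Local.UnramifiedBaseChange

/-
PROJECT C, Layer B, slice B1b (part 4): unramified extensions at the concrete model (M2).

Field form of (U2)/(U3) for fields finite over `ℚ_[q]` with rings of integers `𝒪 q _`
(helper21's `Model.lean`, helper14's `TowerInst.lean`), on top of the abstract AKLB theory of
`Unramified.lean`, `UnramifiedExists.lean`, `UnramifiedBaseChange.lean`.

Square of fields `K ⊆ E, L ⊆ M` (all finite over `ℚ_[q]`), `E/K` unramified, `M = L·E`: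
* `isUnram_baseChange`      : (U3a) `M/L` is unramified and Galois;
* `resGal`, `resGal_commutes`, `resGal_injective` : restriction `Gal(M/L) → Gal(E/K)`;
* `resGal_frob`, `restrictNormalHom_frob` : (U3b) `Frob_{M/L}|_E = Frob_{E/K} ^ f(L/K)`;
* `finrank_baseChange_int`, `orderOf_frob_baseChange` : (U3c) `[M:L] = n / gcd(n, f(L/K))`;
* `relRamIdx_square`        : (U3d) `e(M/E) = e(L/K)`;
* `adjoin_range_eq_top_of_sup_eq_top` : `F ⊔ L = ⊤` gives the generation hypothesis;
* `exists_unram_intermediateField`, `le_of_isUnram_of_finrank_dvd`,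
  `eq_of_isUnram_of_finrank_eq` : (U2) existence / containment / uniqueness inside `Ω`;
* `*_sup` : the same statements for `F L : IntermediateField K Ω` with `F ⊔ L = ⊤`.
-/

set_option linter.unusedSectionVars false

namespace Fermat.Agent.CFT.Local.UnramifiedM2

open Fermat.Agent.CFT.Local Fermat.Agent.CFT.Local.Model Fermat.Agent.CFT.Local.TowerInst
open Fermat.Agent.CFT.Local.Unramified
open IsLocalRing Module Polynomial
open scoped IntermediateField Fermat.Agent.CFT.Local.TowerInst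

variable (q : ℕ) [Fact q.Prime]
  (K E L M : Type*) [Field K] [Field E] [Field L] [Field M]
  [Algebra ℚ_[q] K] [FiniteDimensional ℚ_[q] K]
  [Algebra ℚ_[q] E] [FiniteDimensional ℚ_[q] E]
  [Algebra ℚ_[q] L] [FiniteDimensional ℚ_[q] L]
  [Algebra ℚ_[q] M] [FiniteDimensional ℚ_[q] M]
  [Algebra K E] [Algebra K L] [Algebra E M] [Algebra L M] [Algebra K M]
  [IsScalarTower ℚ_[q] K E] [IsScalarTower ℚ_[q] K L] [IsScalarTower ℚ_[q] E M]
  [IsScalarTower ℚ_[q] L M] [IsScalarTower ℚ_[q] K M]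
  [IsScalarTower K E M] [IsScalarTower K L M]

/-- the two paths `𝒪_K → M` agree -/
lemma algebraMap_square :
    (algebraMap ↥(𝒪 q L) M).comp (algebraMap ↥(𝒪 q K) ↥(𝒪 q L)) =
      (algebraMap E M).comp (algebraMap ↥(𝒪 q K) E) := by
  ext a
  change algebraMap L M (algebraMap K L (a : K)) = algebraMap E M (algebraMap K E (a : K))
  rw [← IsScalarTower.algebraMap_apply, ← IsScalarTower.algebraMap_apply]

/-- residue compatibility -/
lemma residue_square :
    (residue ↥(𝒪 q L)).comp (algebraMap ↥(𝒪 q K) ↥(𝒪 q L)) =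
      (algebraMap (ResidueField ↥(𝒪 q K)) (ResidueField ↥(𝒪 q L))).comp (residue ↥(𝒪 q K)) := by
  ext a
  rfl

/-- (U3a) BASE CHANGE at (M2): `E/K` unramified, `M = L·E` ⟹ `M/L` unramified and Galois. -/
theorem isUnram_baseChange (hur : IsUnram ↥(𝒪 q K) ↥(𝒪 q E))
    (hgen : IntermediateField.adjoin L (Set.range (algebraMap E M)) = ⊤) :
    IsUnram ↥(𝒪 q L) ↥(𝒪 q M) ∧ IsGalois L M := by
  have := charZero_field q K
  have := charZero_field q L
  have hfdKE := finiteDimensional_top q K E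
  have hfdLM := finiteDimensional_top q L M
  have hGE : IsGalois K E := hur.isGalois (O := ↥(𝒪 q K)) (B := ↥(𝒪 q E))
  obtain ⟨f, b, hfm, hfdeg, hirr, hb⟩ := hur.exists_monic_root (K := K) (L := E)
  set F := f.map (algebraMap ↥(𝒪 q K) ↥(𝒪 q L)) with hF
  have hsep : (F.map (residue ↥(𝒪 q L))).Separable := by
    rw [hF, Polynomial.map_map, residue_square, ← Polynomial.map_map]
    exact (PerfectField.separable_of_irreducible hirr).map
  set αE : E := algebraMap ↥(𝒪 q E) E b with hαEdef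
  set α : M := algebraMap E M αE with hαdef
  have hαE : aeval αE f = 0 := by rw [hαEdef, aeval_algebraMap_apply, hb, map_zero]
  have hα : aeval α F = 0 := by
    rw [hF, aeval_def, eval₂_map, algebraMap_square q K E L M, hαdef, ← hom_eval₂, ← aeval_def,
      hαE, map_zero]
  have hgirr : Irreducible (f.map (algebraMap ↥(𝒪 q K) K)) := by
    have h1 : Irreducible f := hfm.irreducible_of_irreducible_map (residue _) f hirr
    exact (hfm.irreducible_iff_irreducible_map_fraction_map (K := K)).mp h1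
  have hmin : minpoly K αE = f.map (algebraMap ↥(𝒪 q K) K) :=
    (minpoly.eq_of_irreducible_of_monic hgirr (by rwa [aeval_map_algebraMap])
      (hfm.map _)).symm
  have hsplE : ((f.map (algebraMap ↥(𝒪 q K) K)).map (algebraMap K E)).Splits := by
    rw [← hmin]
    exact Normal.splits inferInstance αE
  have hspl : (F.map (algebraMap ↥(𝒪 q L) M)).Splits := by
    rw [hF, Polynomial.map_map, algebraMap_square q K E L M, ← Polynomial.map_map]
    have : f.map (algebraMap ↥(𝒪 q K) E) =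
        (f.map (algebraMap ↥(𝒪 q K) K)).map (algebraMap K E) := by
      rw [Polynomial.map_map, ← IsScalarTower.algebraMap_eq]
    rw [this]
    exact hsplE.map _
  have htopE : K⟮αE⟯ = ⊤ := by
    rw [Field.primitive_element_iff_minpoly_natDegree_eq, hmin, hfm.natDegree_map, hfdeg]
  have hgen' : L⟮α⟯ = ⊤ := by
    rw [eq_top_iff, ← hgen, IntermediateField.adjoin_le_iff]
    rintro _ ⟨x, rfl⟩
    have hx : x ∈ Algebra.adjoin K {αE} := by
      rw [← IntermediateField.adjoin_simple_toSubalgebra_of_isAlgebraic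
        (Algebra.IsAlgebraic.isAlgebraic _), htopE]
      trivial
    rw [Algebra.adjoin_singleton_eq_range_aeval] at hx
    obtain ⟨p, rfl⟩ := hx
    have h1 : algebraMap E M (aeval αE p) = aeval α (p.map (algebraMap K L)) := by
      rw [aeval_map_algebraMap]
      exact (aeval_algebraMap_apply M αE p).symm
    change algebraMap E M (aeval αE p) ∈ _
    rw [h1]
    have : aeval α (p.map (algebraMap K L)) ∈ Algebra.adjoin L {α} := by
      rw [Algebra.adjoin_singleton_eq_range_aeval]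
      exact ⟨_, rfl⟩
    exact IntermediateField.algebra_adjoin_le_adjoin L _ this
  exact isUnram_of_splits_of_separable_residue (O := ↥(𝒪 q L)) (K := L) (B := ↥(𝒪 q M))
    (L := M) F (hfm.map _) hsep hspl α hα hgen'

/-! ### Restriction `Gal(M/L) → Gal(E/K)` -/

section Res

variable {K E L M : Type*} [Field K] [Field E] [Field L] [Field M]
  [Algebra K E] [Algebra K L] [Algebra E M] [Algebra L M] [Algebra K M]
  [IsScalarTower K E M] [IsScalarTower K L M] [Normal K E]

/-- restriction `Gal(M/L) → Gal(E/K)` for a square `K ⊆ E, L ⊆ M` with `E/K` normal -/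
noncomputable def resGal : (M ≃ₐ[L] M) →* (E ≃ₐ[K] E) where
  toFun σ := AlgEquiv.restrictNormalHom E (σ.restrictScalars K)
  map_one' := by
    have : (AlgEquiv.restrictScalars K (1 : M ≃ₐ[L] M)) = 1 := rfl
    rw [this, map_one]
  map_mul' σ τ := by
    have : (AlgEquiv.restrictScalars K (σ * τ)) =
        AlgEquiv.restrictScalars K σ * AlgEquiv.restrictScalars K τ := rfl
    rw [this, map_mul]

theorem resGal_apply (σ : M ≃ₐ[L] M) :
    resGal (K := K) (E := E) σ = AlgEquiv.restrictNormalHom E (σ.restrictScalars K) := rfl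

theorem resGal_commutes (σ : M ≃ₐ[L] M) (x : E) :
    algebraMap E M (resGal (K := K) σ x) = σ (algebraMap E M x) :=
  AlgEquiv.restrictNormal_commutes (σ.restrictScalars K) E x

theorem resGal_injective [Algebra.IsAlgebraic L M]
    (hgen : IntermediateField.adjoin L (Set.range (algebraMap E M)) = ⊤) :
    Function.Injective (resGal (K := K) (E := E) (L := L) (M := M)) := by
  rw [injective_iff_map_eq_one]
  intro σ hσ
  have halg : Algebra.adjoin L (Set.range (algebraMap E M)) = ⊤ := by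
    rw [← IntermediateField.adjoin_toSubalgebra, hgen, IntermediateField.top_toSubalgebra]
  have : (σ : M →ₐ[L] M) = AlgHom.id L M := by
    apply AlgHom.ext_of_adjoin_eq_top halg
    rintro _ ⟨x, rfl⟩
    have := resGal_commutes (K := K) σ x
    rw [hσ] at this
    simpa using this.symm
  ext x
  exact DFunLike.congr_fun this x

/-- `E ⊔ L = ⊤` in `IntermediateField K M` gives the generation hypothesis. -/
theorem adjoin_range_eq_top_of_sup_eq_top {K M : Type*} [Field K] [Field M] [Algebra K M]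
    (E L : IntermediateField K M) (h : E ⊔ L = ⊤) :
    IntermediateField.adjoin ↥L (Set.range (algebraMap ↥E M)) = ⊤ := by
  apply IntermediateField.restrictScalars_injective K
  have hr : Set.range (algebraMap ↥E M) = (E : Set M) := by
    ext x
    simp
  rw [IntermediateField.restrictScalars_adjoin_eq_sup, IntermediateField.restrictScalars_top, hr,
    IntermediateField.adjoin_self, sup_comm, h]

end Res

/-! ### (U3b)-(U3d) -/

instance isScalarTower_int_square_left : IsScalarTower ↥(𝒪 q K) ↥(𝒪 q E) ↥(𝒪 q M) :=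
  IsScalarTower.of_algebraMap_eq fun a => Subtype.ext (by
    change algebraMap K M (a : K) = algebraMap E M (algebraMap K E (a : K))
    rw [← IsScalarTower.algebraMap_apply])

theorem card_residueField_int :
    Nat.card (ResidueField ↥(𝒪 q L)) = Nat.card (ResidueField ↥(𝒪 q K)) ^ relResDeg q K L := by
  have := charZero_field q K
  have := finiteDimensional_top q K L
  have := Unramified.finite_of_aklb ↥(𝒪 q K) K ↥(𝒪 q L) L
  have : Module.Finite (ResidueField ↥(𝒪 q K)) (ResidueField ↥(𝒪 q L)) := inferInstance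
  exact Module.natCard_eq_pow_finrank

/-- (U3b) FROBENIUS UNDER BASE CHANGE at (M2): `Frob_{M/L}|_E = Frob_{E/K} ^ f(L/K)`. -/
theorem resGal_frob [FiniteDimensional K E] [FiniteDimensional L M] [IsGalois K E] [IsGalois L M]
    (hur : IsUnram ↥(𝒪 q K) ↥(𝒪 q E)) (hurM : IsUnram ↥(𝒪 q L) ↥(𝒪 q M)) :
    resGal (K := K) (E := E) (frob ↥(𝒪 q L) L ↥(𝒪 q M) M hurM) =
      frob ↥(𝒪 q K) K ↥(𝒪 q E) E hur ^ relResDeg q K L := by
  exact frob_restrict hur hurM (algebraMap E M) (algebraMap ↥(𝒪 q E) ↥(𝒪 q M)) (fun b => rfl)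
    (relResDeg q K L) (card_residueField_int q K L) _ (fun x => resGal_commutes _ x)

/-- (U3b'), in `restrictNormalHom` form. -/
theorem restrictNormalHom_frob [FiniteDimensional K E] [FiniteDimensional L M]
    [IsGalois K E] [IsGalois L M]
    (hur : IsUnram ↥(𝒪 q K) ↥(𝒪 q E)) (hurM : IsUnram ↥(𝒪 q L) ↥(𝒪 q M)) :
    AlgEquiv.restrictNormalHom E
        ((frob ↥(𝒪 q L) L ↥(𝒪 q M) M hurM).restrictScalars K) =
      frob ↥(𝒪 q K) K ↥(𝒪 q E) E hur ^ relResDeg q K L :=
  resGal_frob q K E L M hur hurM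

/-- (U3c) DEGREE UNDER BASE CHANGE at (M2): `[M:L] = n / gcd(n, f(L/K))`, `n = [E:K]`. -/
theorem finrank_baseChange_int [FiniteDimensional K E] [FiniteDimensional L M]
    [IsGalois K E] [IsGalois L M]
    (hur : IsUnram ↥(𝒪 q K) ↥(𝒪 q E)) (hurM : IsUnram ↥(𝒪 q L) ↥(𝒪 q M))
    (hgen : IntermediateField.adjoin L (Set.range (algebraMap E M)) = ⊤) :
    finrank L M = finrank K E / Nat.gcd (finrank K E) (relResDeg q K L) := by
  exact finrank_baseChange hur hurM (algebraMap E M) (algebraMap ↥(𝒪 q E) ↥(𝒪 q M))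
    (fun b => rfl) (relResDeg q K L) (card_residueField_int q K L)
    (resGal (K := K) (E := E) (L := L) (M := M)) (fun σ x => resGal_commutes σ x)
    (resGal_injective hgen)

/-- (U3c') the order of `Frob_{M/L}`. -/
theorem orderOf_frob_baseChange [FiniteDimensional K E] [FiniteDimensional L M]
    [IsGalois K E] [IsGalois L M]
    (hur : IsUnram ↥(𝒪 q K) ↥(𝒪 q E)) (hurM : IsUnram ↥(𝒪 q L) ↥(𝒪 q M))
    (hgen : IntermediateField.adjoin L (Set.range (algebraMap E M)) = ⊤) :
    orderOf (frob ↥(𝒪 q L) L ↥(𝒪 q M) M hurM) =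
      finrank K E / Nat.gcd (finrank K E) (relResDeg q K L) := by
  rw [orderOf_frob hurM, finrank_baseChange_int q K E L M hur hurM hgen]

/-- (U3d) RAMIFICATION IN THE SQUARE at (M2): `e(M/E) = e(L/K)` when `E/K` and `M/L` are
unramified. -/
theorem relRamIdx_square
    (hur : IsUnram ↥(𝒪 q K) ↥(𝒪 q E)) (hurM : IsUnram ↥(𝒪 q L) ↥(𝒪 q M)) :
    relRamIdx q E M = relRamIdx q K L := by
  have h1 := map_maximalIdeal_of_square (O := ↥(𝒪 q K)) (B₁ := ↥(𝒪 q E)) (B₂ := ↥(𝒪 q L))
    (C := ↥(𝒪 q M)) hur hurM (relRamIdx q K L) (map_maximalIdeal_int q K L)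
  rw [map_maximalIdeal_int q E M] at h1
  have hne : maximalIdeal ↥(𝒪 q M) ≠ ⊥ := IsDiscreteValuationRing.not_a_field _
  exact (Ideal.pow_right_strictAnti _ hne (Ideal.IsMaximal.ne_top inferInstance)).injective h1

/-! ### (U2) at (M2): unramified extensions inside an algebraically closed field -/

section InOmega

variable (Ω : Type*) [Field Ω] [Algebra ℚ_[q] Ω] [Algebra K Ω] [IsScalarTower ℚ_[q] K Ω]

/-- the tower instance `ℚ_q → F → Ω` for intermediate fields `F` of `Ω/K` (Mathlib only has it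
for `F.toSubalgebra`) -/
instance isScalarTower_intermediateField_top (F : IntermediateField K Ω) :
    IsScalarTower ℚ_[q] ↥F Ω :=
  IsScalarTower.of_algebraMap_eq fun _ => rfl

theorem finiteDimensional_intermediateField (F : IntermediateField K Ω)
    [FiniteDimensional K ↥F] : FiniteDimensional ℚ_[q] ↥F :=
  FiniteDimensional.trans ℚ_[q] K ↥F

/-- (U2) EXISTENCE at (M2): for every `n > 0` there is an unramified (Galois, cyclic) extension
of degree `n` of `K` inside any algebraically closed `Ω`. -/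
theorem exists_unram_intermediateField [IsAlgClosed Ω] (n : ℕ) (hn : 0 < n) :
    ∃ (F : IntermediateField K Ω) (_ : FiniteDimensional K ↥F)
      (_ : FiniteDimensional ℚ_[q] ↥F),
      finrank K ↥F = n ∧ IsUnram ↥(𝒪 q K) ↥(𝒪 q ↥F) ∧ IsGalois K ↥F := by
  have := charZero_field q K
  obtain ⟨f, α, hfm, hfn, hirr, hα, hmin, hfr⟩ := exists_adjoin_root ↥(𝒪 q K) K n hn Ω
  have hfd : FiniteDimensional K ↥K⟮α⟯ := Module.finite_of_finrank_pos (by rw [hfr]; exact hn)
  have hfd' : FiniteDimensional ℚ_[q] ↥K⟮α⟯ := FiniteDimensional.trans ℚ_[q] K ↥K⟮α⟯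
  refine ⟨K⟮α⟯, hfd, hfd', hfr, ?_, ?_⟩
  all_goals
    have hgen : aeval (IntermediateField.AdjoinSimple.gen K α) f = 0 := by
      apply (algebraMap ↥K⟮α⟯ Ω).injective
      rw [map_zero, ← aeval_algebraMap_apply, IntermediateField.AdjoinSimple.algebraMap_gen,
        ← aeval_map_algebraMap K, hα]
  · exact isUnram_of_root (O := ↥(𝒪 q K)) (K := K) (B := ↥(𝒪 q ↥K⟮α⟯)) (L := ↥K⟮α⟯) f hfm hirr
      _ hgen (by rw [hfr, hfn])
  · exact isGalois_of_root (O := ↥(𝒪 q K)) (K := K) (B := ↥(𝒪 q ↥K⟮α⟯)) (L := ↥K⟮α⟯) f hfm hirr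
      _ hgen (by rw [hfr, hfn])

variable {Ω}

/-- (U2) CONTAINMENT at (M2): `F/K` unramified with `[F:K] ∣ f(F'/K)` ⟹ `F ≤ F'`. -/
theorem le_of_isUnram_of_finrank_dvd (F F' : IntermediateField K Ω)
    [FiniteDimensional K ↥F] [FiniteDimensional K ↥F']
    [FiniteDimensional ℚ_[q] ↥F] [FiniteDimensional ℚ_[q] ↥F']
    (hur : IsUnram ↥(𝒪 q K) ↥(𝒪 q ↥F)) (hdvd : finrank K ↥F ∣ relResDeg q K ↥F') : F ≤ F' := by
  have := charZero_field q K
  exact hur.le_of_finrank_dvd (O := ↥(𝒪 q K)) (K := K) F F' (B := ↥(𝒪 q ↥F))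
    (B' := ↥(𝒪 q ↥F')) hdvd

/-- (U2) UNIQUENESS at (M2): unramified extensions of the same degree inside `Ω` coincide. -/
theorem eq_of_isUnram_of_finrank_eq (F F' : IntermediateField K Ω)
    [FiniteDimensional K ↥F] [FiniteDimensional K ↥F']
    [FiniteDimensional ℚ_[q] ↥F] [FiniteDimensional ℚ_[q] ↥F']
    (hur : IsUnram ↥(𝒪 q K) ↥(𝒪 q ↥F)) (hur' : IsUnram ↥(𝒪 q K) ↥(𝒪 q ↥F'))
    (hdeg : finrank K ↥F = finrank K ↥F') : F = F' := by
  have := charZero_field q K
  exact hur.eq_of_finrank_eq (O := ↥(𝒪 q K)) (K := K) F F' (B := ↥(𝒪 q ↥F))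
    (B' := ↥(𝒪 q ↥F')) hur' hdeg

/-! ### The intermediate-field form of (U3): `F, L ≤ Ω`, `F ⊔ L = ⊤`, everything at (M2) -/

variable [FiniteDimensional ℚ_[q] Ω]

/-- (U3a) in intermediate-field form. -/
theorem isUnram_baseChange_sup (F L : IntermediateField K Ω)
    [FiniteDimensional ℚ_[q] ↥F] [FiniteDimensional ℚ_[q] ↥L]
    (hur : IsUnram ↥(𝒪 q K) ↥(𝒪 q ↥F)) (hsup : F ⊔ L = ⊤) :
    IsUnram ↥(𝒪 q ↥L) ↥(𝒪 q Ω) ∧ IsGalois ↥L Ω :=
  isUnram_baseChange q K ↥F ↥L Ω hur (adjoin_range_eq_top_of_sup_eq_top F L hsup)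

/-- (U3b) in intermediate-field form. -/
theorem restrictNormalHom_frob_sup (F L : IntermediateField K Ω)
    [FiniteDimensional ℚ_[q] ↥F] [FiniteDimensional ℚ_[q] ↥L]
    [FiniteDimensional K ↥F] [FiniteDimensional ↥L Ω] [IsGalois K ↥F] [IsGalois ↥L Ω]
    (hur : IsUnram ↥(𝒪 q K) ↥(𝒪 q ↥F)) (hurM : IsUnram ↥(𝒪 q ↥L) ↥(𝒪 q Ω)) :
    AlgEquiv.restrictNormalHom ↥F
        ((frob ↥(𝒪 q ↥L) ↥L ↥(𝒪 q Ω) Ω hurM).restrictScalars K) =
      frob ↥(𝒪 q K) K ↥(𝒪 q ↥F) ↥F hur ^ relResDeg q K ↥L :=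
  restrictNormalHom_frob q K ↥F ↥L Ω hur hurM

/-- (U3c) in intermediate-field form. -/
theorem finrank_baseChange_sup (F L : IntermediateField K Ω)
    [FiniteDimensional ℚ_[q] ↥F] [FiniteDimensional ℚ_[q] ↥L]
    [FiniteDimensional K ↥F] [FiniteDimensional ↥L Ω] [IsGalois K ↥F] [IsGalois ↥L Ω]
    (hur : IsUnram ↥(𝒪 q K) ↥(𝒪 q ↥F)) (hurM : IsUnram ↥(𝒪 q ↥L) ↥(𝒪 q Ω))
    (hsup : F ⊔ L = ⊤) :
    finrank ↥L Ω = finrank K ↥F / Nat.gcd (finrank K ↥F) (relResDeg q K ↥L) :=
  finrank_baseChange_int q K ↥F ↥L Ω hur hurM (adjoin_range_eq_top_of_sup_eq_top F L hsup)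

/-- (U3d) in intermediate-field form. -/
theorem relRamIdx_square_sup (F L : IntermediateField K Ω)
    [FiniteDimensional ℚ_[q] ↥F] [FiniteDimensional ℚ_[q] ↥L]
    (hur : IsUnram ↥(𝒪 q K) ↥(𝒪 q ↥F)) (hurM : IsUnram ↥(𝒪 q ↥L) ↥(𝒪 q Ω)) :
    relRamIdx q ↥F Ω = relRamIdx q K ↥L :=
  relRamIdx_square q K ↥F ↥L Ω hur hurM

end InOmega

end Fermat.Agent.CFT.Local.UnramifiedM2
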