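/-
PROJECT C, Layer B, slice B3c (helper13): the compositum `L·E ⊆ Ω` as a TYPE with all the
instances needed by `UnramifiedM2` (abstract squares of `q`-adic fields).

For fields `L, E` with algebra structures into a common field `Ω`:
`comp L E Ω : IntermediateField L Ω := adjoin L (range (algebraMap E Ω))`, with
* the (scoped) `Algebra E ↥(comp L E Ω)` structure and its scalar towers,
* `adjoin_range_eq_top : adjoin L (range (algebraMap E ↥(comp L E Ω))) = ⊤`
  (the generation hypothesis `hgen` of `UnramifiedM2.isUnram_baseChange`),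
* at the concrete model (M2): the `ℚ_[q]`-structure, and for `E/K` unramified:
  `(L·E)/L` is unramified and Galois.

Use `open scoped Fermat.Agent.CFT.Local.Compositum`.
-/
import Mathlib
import Fermat.Agent.CFT.Local.UnramifiedM2

set_option autoImplicit false
set_option linter.unusedSectionVars false

namespace Fermat.Agent.CFT.Local.Compositum

open scoped IntermediateField

section Pure

variable (L E Ω : Type*) [Field L] [Field E] [Field Ω] [Algebra L Ω] [Algebra E Ω]

/-- The compositum `L·E` inside `Ω`, as an intermediate field of `Ω/L`. -/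
def comp : IntermediateField L Ω := IntermediateField.adjoin L (Set.range (algebraMap E Ω))

theorem algebraMap_mem_comp (x : E) : algebraMap E Ω x ∈ comp L E Ω :=
  IntermediateField.subset_adjoin L _ ⟨x, rfl⟩

/-- The ring map `E → L·E`. -/
def toComp : E →+* ↥(comp L E Ω) :=
  RingHom.codRestrict (algebraMap E Ω) (comp L E Ω) (algebraMap_mem_comp L E Ω)

theorem coe_toComp (x : E) : ((toComp L E Ω x : ↥(comp L E Ω)) : Ω) = algebraMap E Ω x := rfl

/-- The `E`-algebra structure of `L·E` (scoped instance). -/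
@[instance_reducible]
def algebraComp : Algebra E ↥(comp L E Ω) := (toComp L E Ω).toAlgebra

scoped[Fermat.Agent.CFT.Local.Compositum] attribute [instance] algebraComp

theorem coe_algebraMap_comp (x : E) :
    ((algebraMap E ↥(comp L E Ω) x : ↥(comp L E Ω)) : Ω) = algebraMap E Ω x := rfl

/-- `E → L·E → Ω`. -/
theorem isScalarTower_comp_top : IsScalarTower E ↥(comp L E Ω) Ω :=
  IsScalarTower.of_algebraMap_eq (fun _ => rfl)

scoped[Fermat.Agent.CFT.Local.Compositum] attribute [instance] isScalarTower_comp_top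

/-- `L·E` is generated over `L` by the image of `E`. -/
theorem adjoin_range_eq_top :
    IntermediateField.adjoin L (Set.range (algebraMap E ↥(comp L E Ω))) = ⊤ := by
  apply IntermediateField.lift_injective (comp L E Ω)
  rw [IntermediateField.lift_adjoin, IntermediateField.lift_top]
  have : (Subtype.val '' Set.range (algebraMap E ↥(comp L E Ω)) : Set Ω) =
      Set.range (algebraMap E Ω) := by
    ext y
    constructor
    · rintro ⟨_, ⟨x, rfl⟩, rfl⟩
      exact ⟨x, rfl⟩
    · rintro ⟨x, rfl⟩
      exact ⟨algebraMap E ↥(comp L E Ω) x, ⟨x, rfl⟩, rfl⟩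
  rw [this]
  rfl

section Base

variable (K : Type*) [Field K] [Algebra K L] [Algebra K E] [Algebra K Ω]
  [IsScalarTower K L Ω] [IsScalarTower K E Ω]

/-- `K → E → L·E`. -/
theorem isScalarTower_base_comp : IsScalarTower K E ↥(comp L E Ω) :=
  IsScalarTower.of_algebraMap_eq (fun x => Subtype.ext (by
    change algebraMap K Ω x = algebraMap E Ω (algebraMap K E x)
    rw [← IsScalarTower.algebraMap_apply]))

scoped[Fermat.Agent.CFT.Local.Compositum] attribute [instance] isScalarTower_base_comp

/-- `K → L·E → Ω`. -/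
theorem isScalarTower_base_comp_top : IsScalarTower K ↥(comp L E Ω) Ω :=
  IsScalarTower.of_algebraMap_eq (fun _ => rfl)

scoped[Fermat.Agent.CFT.Local.Compositum] attribute [instance] isScalarTower_base_comp_top

end Base

end Pure

section M2

open Fermat.Agent.CFT.Local Fermat.Agent.CFT.Local.Model Fermat.Agent.CFT.Local.TowerInst
open Fermat.Agent.CFT.Local.Unramified Module
open scoped Fermat.Agent.CFT.Local.TowerInst

variable (q : ℕ) [Fact q.Prime]
  (K E L Ω : Type*) [Field K] [Field E] [Field L] [Field Ω]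
  [Algebra ℚ_[q] K] [FiniteDimensional ℚ_[q] K]
  [Algebra ℚ_[q] E] [FiniteDimensional ℚ_[q] E]
  [Algebra ℚ_[q] L] [FiniteDimensional ℚ_[q] L]
  [Algebra ℚ_[q] Ω] [FiniteDimensional ℚ_[q] Ω]
  [Algebra K E] [Algebra K L] [Algebra E Ω] [Algebra L Ω] [Algebra K Ω]
  [IsScalarTower ℚ_[q] K E] [IsScalarTower ℚ_[q] K L] [IsScalarTower ℚ_[q] E Ω]
  [IsScalarTower ℚ_[q] L Ω] [IsScalarTower ℚ_[q] K Ω]
  [IsScalarTower K E Ω] [IsScalarTower K L Ω]

/-- `L·E` is finite over `ℚ_[q]`. -/
theorem finiteDimensional_comp : FiniteDimensional ℚ_[q] ↥(comp L E Ω) :=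
  haveI := finiteDimensional_top q L Ω
  FiniteDimensional.trans ℚ_[q] L ↥(comp L E Ω)

scoped[Fermat.Agent.CFT.Local.Compositum] attribute [instance] finiteDimensional_comp

/-- `ℚ_[q] → E → L·E`. -/
theorem isScalarTower_padic_comp : IsScalarTower ℚ_[q] E ↥(comp L E Ω) :=
  isScalarTower_base_comp L E Ω ℚ_[q]

/-- `ℚ_[q] → K → L·E`. -/
theorem isScalarTower_padic_base_comp : IsScalarTower ℚ_[q] K ↥(comp L E Ω) :=
  IsScalarTower.of_algebraMap_eq (fun x => Subtype.ext (by
    change algebraMap ℚ_[q] Ω x = algebraMap K Ω (algebraMap ℚ_[q] K x)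
    rw [← IsScalarTower.algebraMap_apply]))

scoped[Fermat.Agent.CFT.Local.Compositum] attribute [instance] isScalarTower_padic_base_comp

/-- `ℚ_[q] → L·E → Ω`. -/
theorem isScalarTower_padic_comp_top : IsScalarTower ℚ_[q] ↥(comp L E Ω) Ω :=
  IsScalarTower.of_algebraMap_eq (fun _ => rfl)

scoped[Fermat.Agent.CFT.Local.Compositum] attribute [instance] isScalarTower_padic_comp_top

/-- BASE CHANGE: `E/K` unramified ⟹ `(L·E)/L` unramified and Galois. -/
theorem isUnram_comp (hur : IsUnram ↥(𝒪 q K) ↥(𝒪 q E)) :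
    IsUnram ↥(𝒪 q L) ↥(𝒪 q ↥(comp L E Ω)) ∧ IsGalois L ↥(comp L E Ω) :=
  UnramifiedM2.isUnram_baseChange q K E L ↥(comp L E Ω) hur (adjoin_range_eq_top L E Ω)

end M2

end Fermat.Agent.CFT.Local.Compositum
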