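import Mathlib

/-!
# Comparing two subgroups of "inflated classes" (pure algebra)

Abstract form of the argument "every class of `L/K` is split by the unramified extension of the same
degree".  `X` plays the role of `Br(M/K)`, `XE` of `Br(E/K)`, `XL` of `Br(L/K)`, `X'` of `Br(M/L)`:

`infE : XE →+ X`, `infL : XL →+ X` injective, `res : X →+ X'` with `ker res = range infL`, and
`res ∘ infE = 0`.  Then there is a unique injective `compare : XE →+ XL` with
`infL ∘ compare = infE`; if moreover `|XL|` divides `|XE|` (finite), `compare` is an isomorphism and
the two ranges coincide.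
-/

set_option autoImplicit false

noncomputable section

namespace Fermat.Agent.CFT.Local.H2Compare

variable {XE XL X X' : Type*} [AddCommGroup XE] [AddCommGroup XL] [AddCommGroup X]
  [AddCommGroup X']

/-- The data of the comparison. -/
structure Setup (XE XL X X' : Type*) [AddCommGroup XE] [AddCommGroup XL] [AddCommGroup X]
    [AddCommGroup X'] where
  /-- inflation from the (unramified) layer `E/K` -/
  infE : XE →+ X
  /-- inflation from the layer `L/K` -/
  infL : XL →+ X
  /-- restriction to the layer `M/L` -/
  res : X →+ X'
  infE_injective : Function.Injective infE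
  infL_injective : Function.Injective infL
  exact : ∀ x : X, res x = 0 → ∃ y : XL, infL y = x
  vanish : ∀ x₀ : XE, res (infE x₀) = 0

namespace Setup

variable (S : Setup XE XL X X')

theorem exists_infL_eq (x₀ : XE) : ∃ y : XL, S.infL y = S.infE x₀ :=
  S.exact _ (S.vanish x₀)

/-- The comparison map. -/
def compare : XE →+ XL where
  toFun x₀ := Classical.choose (S.exists_infL_eq x₀)
  map_zero' := by
    apply S.infL_injective
    rw [Classical.choose_spec (S.exists_infL_eq 0), map_zero, map_zero]
  map_add' x y := by
    apply S.infL_injective
    rw [Classical.choose_spec (S.exists_infL_eq (x + y)), map_add, map_add,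
      Classical.choose_spec (S.exists_infL_eq x), Classical.choose_spec (S.exists_infL_eq y)]

theorem infL_compare (x₀ : XE) : S.infL (S.compare x₀) = S.infE x₀ :=
  Classical.choose_spec (S.exists_infL_eq x₀)

theorem compare_eq_iff (x₀ : XE) (y : XL) : S.compare x₀ = y ↔ S.infE x₀ = S.infL y := by
  constructor
  · rintro rfl
    exact (S.infL_compare x₀).symm
  · intro h
    apply S.infL_injective
    rw [S.infL_compare, h]

theorem compare_injective : Function.Injective S.compare := by
  intro x y hxy
  apply S.infE_injective
  rw [← S.infL_compare x, ← S.infL_compare y, hxy]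

include S in
/-- Lower bound: `|XE|` divides `|XL|`. -/
theorem card_dvd : Nat.card XE ∣ Nat.card XL := by
  have h1 : Nat.card S.compare.range = Nat.card XE :=
    (Nat.card_congr (Equiv.ofInjective _ S.compare_injective)).symm
  rw [← h1]
  exact AddSubgroup.card_addSubgroup_dvd_card _

section Upper

variable (hE : Nat.card XE ≠ 0) (hU : Nat.card XL ∣ Nat.card XE)

include S hU in
theorem card_eq : Nat.card XL = Nat.card XE := Nat.dvd_antisymm hU S.card_dvd

include hE hU in
theorem compare_bijective : Function.Bijective S.compare := by
  have hfinE : Finite XE := Nat.finite_of_card_ne_zero hE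
  have hfinL : Finite XL := by
    apply Nat.finite_of_card_ne_zero
    rw [S.card_eq hU]
    exact hE
  exact (Nat.bijective_iff_injective_and_card _).2 ⟨S.compare_injective, (S.card_eq hU).symm⟩

/-- The comparison isomorphism. -/
def compareEquiv : XE ≃+ XL :=
  AddEquiv.ofBijective S.compare (S.compare_bijective hE hU)

theorem compareEquiv_apply (x₀ : XE) : S.compareEquiv hE hU x₀ = S.compare x₀ := rfl

theorem infE_compareEquiv_symm (y : XL) : S.infE ((S.compareEquiv hE hU).symm y) = S.infL y := by
  obtain ⟨x₀, rfl⟩ := (S.compareEquiv hE hU).surjective y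
  rw [AddEquiv.symm_apply_apply, compareEquiv_apply, S.infL_compare]

include S hE hU in
theorem range_infL_eq : Set.range S.infL = Set.range S.infE := by
  ext z
  constructor
  · rintro ⟨y, rfl⟩
    exact ⟨(S.compareEquiv hE hU).symm y, S.infE_compareEquiv_symm hE hU y⟩
  · rintro ⟨x, rfl⟩
    exact ⟨S.compare x, S.infL_compare x⟩

end Upper

end Setup

end Fermat.Agent.CFT.Local.H2Compare
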