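import Mathlib

/-!
Project C, Layer B1a' (abstract part, (M1) style with two rings).

A finite extension `L/K` of discretely valued fields presented by two discrete valuation rings
`O ⊆ B` with fraction fields `K ⊆ L`, where `B` is the integral closure of `O` in `L`
(so `O` is "henselian along `L/K`": only one prime of `L` lies over the prime of `K`).

* `moduleFinite`, `moduleFree`, `finrank_eq` : `B` is a free `O`-module of rank `[L : K]`;
* `isLocalHom_algebraMap`, `primesOver_eq` : the maximal ideal of `B` is the only prime over the
  maximal ideal of `O`;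
* `ramIdx`, `resDeg`, `map_maximalIdeal_eq : 𝔪_O B = 𝔪_B ^ e`, `ramIdx_mul_resDeg : e * f = [L : K]`;
* every ring automorphism of `B` preserves the maximal ideal, its powers and the valuation
  (`ringEquiv_mem_maximalIdeal_iff`, `ringEquiv_mem_pow_iff`, `ringEquiv_addVal`);
* `redHom : Gal(L/K) →* Gal(l/k)` (reduction), `redHom_surjective` for Galois `L/K`,
  `mem_ker_redHom_iff` (the kernel is the inertia group), and for finite residue fields
  `card_ker_redHom : #ker = e`, `redHom_bijective_of_ramIdx_eq_one`.
-/

set_option autoImplicit false
set_option linter.unusedSectionVars false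

namespace Fermat.Agent.CFT.Local.Tower

open IsLocalRing Module

/-! ### Automorphisms of a local ring / a DVR -/

section Equiv

variable {B : Type*} [CommRing B] [IsLocalRing B]

theorem ringEquiv_mem_maximalIdeal_iff (e : B ≃+* B) (x : B) :
    e x ∈ maximalIdeal B ↔ x ∈ maximalIdeal B := by
  rw [mem_maximalIdeal, mem_maximalIdeal, mem_nonunits_iff, mem_nonunits_iff, isUnit_map_iff]

theorem ringEquiv_map_maximalIdeal (e : B ≃+* B) :
    (maximalIdeal B).map (e : B →+* B) = maximalIdeal B := by
  apply le_antisymm
  · rw [Ideal.map_le_iff_le_comap]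
    intro x hx
    exact (ringEquiv_mem_maximalIdeal_iff e x).2 hx
  · intro x hx
    have : e.symm x ∈ maximalIdeal B := (ringEquiv_mem_maximalIdeal_iff e.symm x).2 hx
    have h2 := Ideal.mem_map_of_mem (e : B →+* B) this
    simpa using h2

theorem ringEquiv_mem_pow_iff (e : B ≃+* B) (k : ℕ) (x : B) :
    e x ∈ maximalIdeal B ^ k ↔ x ∈ maximalIdeal B ^ k := by
  have key : ∀ (e : B ≃+* B) (x : B), x ∈ maximalIdeal B ^ k → e x ∈ maximalIdeal B ^ k := by
    intro e x hx
    have h := Ideal.mem_map_of_mem (e : B →+* B) hx
    rw [Ideal.map_pow, ringEquiv_map_maximalIdeal] at h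
    exact h
  constructor
  · intro h
    have := key e.symm _ h
    simpa using this
  · exact key e x

end Equiv

section DVR

variable {B : Type*} [CommRing B] [IsDomain B] [IsDiscreteValuationRing B]

open IsDiscreteValuationRing

theorem ringEquiv_addVal (e : B ≃+* B) (x : B) : addVal B (e x) = addVal B x := by
  by_cases hx : x = 0
  · simp [hx]
  obtain ⟨ϖ, hϖ⟩ := exists_irreducible B
  obtain ⟨n, u, rfl⟩ := eq_unit_mul_pow_irreducible hx hϖ
  have hϖ' : Irreducible (e ϖ) := (MulEquiv.irreducible_iff (e : B ≃* B)).2 hϖ
  rw [map_mul, map_pow, addVal_mul, addVal_mul, addVal_pow, addVal_pow, addVal_uniformizer hϖ,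
    addVal_uniformizer hϖ']
  congr 1
  have : IsUnit (e (u : B)) := (isUnit_map_iff e _).2 u.isUnit
  rw [addVal_eq_zero_of_unit u, ← this.unit_spec, addVal_eq_zero_of_unit]

end DVR

/-! ### The pair `O ⊆ B` -/

section Pair

variable (O K B L : Type*) [CommRing O] [IsDomain O] [IsDiscreteValuationRing O]
  [Field K] [Algebra O K] [IsFractionRing O K] [CharZero K]
  [CommRing B] [IsDomain B] [IsDiscreteValuationRing B]
  [Field L] [Algebra B L] [IsFractionRing B L]
  [Algebra K L] [FiniteDimensional K L]
  [Algebra O B] [Algebra O L] [IsScalarTower O K L] [IsScalarTower O B L]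
  [IsIntegralClosure B O L]

include K in
theorem isTorsionFree_top : Module.IsTorsionFree O L :=
  Module.IsTorsionFree.trans_faithfulSMul O K L

include K L in
theorem moduleFinite : Module.Finite O B :=
  IsIntegralClosure.finite O K L B

include K L in
theorem moduleFree : Module.Free O B := by
  have : Module.IsTorsionFree O L := isTorsionFree_top O K L
  exact IsIntegralClosure.module_free O K L B

include K L in
theorem finrank_eq : finrank O B = finrank K L := by
  have : Module.IsTorsionFree O L := isTorsionFree_top O K L
  exact IsIntegralClosure.rank O K L B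

include K L in
theorem algebraMap_injective : Function.Injective (algebraMap O B) := by
  have : Module.IsTorsionFree O L := isTorsionFree_top O K L
  have h : Function.Injective (algebraMap O L) := FaithfulSMul.algebraMap_injective O L
  rw [IsScalarTower.algebraMap_eq O B L] at h
  exact Function.Injective.of_comp h

include K L in
theorem faithfulSMul : FaithfulSMul O B :=
  (faithfulSMul_iff_algebraMap_injective O B).2 (algebraMap_injective O K B L)

include K L in
theorem isLocalHom_algebraMap : IsLocalHom (algebraMap O B) := by
  have : Algebra.IsIntegral O B := IsIntegralClosure.isIntegral_algebra O L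
  have hinj := algebraMap_injective O K B L
  constructor
  intro a ha
  by_contra hna
  have hmem : a ∈ maximalIdeal O := (mem_maximalIdeal a).2 hna
  obtain ⟨Q, hQ, hQo⟩ := Ideal.exists_ideal_over_maximal_of_isIntegral (S := B) (maximalIdeal O)
    (by rw [(RingHom.injective_iff_ker_eq_bot _).1 hinj]; exact bot_le)
  have : algebraMap O B a ∈ Q := by
    have : a ∈ Q.comap (algebraMap O B) := hQo ▸ hmem
    exact this
  exact hQ.ne_top (Ideal.eq_top_of_isUnit_mem _ this ha)

include K L in
theorem primesOver_eq : (maximalIdeal O).primesOver B = {maximalIdeal B} := by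
  have : FaithfulSMul O B := faithfulSMul O K B L
  have : Module.Finite O B := moduleFinite O K B L
  exact IsLocalRing.primesOver_eq B (IsDiscreteValuationRing.not_a_field O)

/-- the ramification index of `B` over `O` -/
noncomputable def ramIdx : ℕ := (maximalIdeal B).ramificationIdx O

/-- the residue degree of `B` over `O` -/
noncomputable def resDeg [IsLocalHom (algebraMap O B)] : ℕ :=
  finrank (ResidueField O) (ResidueField B)

include K L in
theorem map_maximalIdeal_eq :
    (maximalIdeal O).map (algebraMap O B) = maximalIdeal B ^ ramIdx O B := by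
  have : FaithfulSMul O B := faithfulSMul O K B L
  have : Module.Finite O B := moduleFinite O K B L
  have : Algebra.IsIntegral O B := IsIntegralClosure.isIntegral_algebra O L
  have h := Ideal.map_algebraMap_eq_finsetProd_pow (R := B) (S := O) (p := maximalIdeal O)
    (IsDiscreteValuationRing.not_a_field O)
  rw [h]
  have h2 : ((maximalIdeal O).primesOver B).toFinset = {maximalIdeal B} := by
    ext P
    simp [primesOver_eq O K B L]
  rw [h2, Finset.prod_singleton]
  rfl

include K L in
theorem ramIdx_pos : 0 < ramIdx O B := by
  have : Module.Finite O B := moduleFinite O K B L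
  exact Ideal.ramificationIdx_pos _ _

include K L in
theorem resDeg_pos [IsLocalHom (algebraMap O B)] : 0 < resDeg O B := by
  have : Module.Finite O B := moduleFinite O K B L
  exact Module.finrank_pos

include K L in
theorem ramIdx_mul_resDeg [IsLocalHom (algebraMap O B)] :
    ramIdx O B * resDeg O B = finrank K L := by
  have : FaithfulSMul O B := faithfulSMul O K B L
  have : Module.Finite O B := moduleFinite O K B L
  have : Module.Free O B := moduleFree O K B L
  have hrank : finrank O B = finrank K L := finrank_eq O K B L
  have hP := primesOver_eq O K B L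
  have : Fintype ((maximalIdeal O).primesOver B) := by
    rw [hP]; infer_instance
  have h := Ideal.sum_ramification_inertia_eq_finrank (maximalIdeal O) B
  rw [hrank] at h
  rw [← h]
  have hmem : maximalIdeal B ∈ (maximalIdeal O).primesOver B := by rw [hP]; rfl
  rw [Fintype.sum_eq_single (⟨maximalIdeal B, hmem⟩ : (maximalIdeal O).primesOver B)]
  · simp only [ramIdx, resDeg]
    congr 1
    rw [Ideal.inertiaDeg_eq_of_isMaximal (maximalIdeal O) (maximalIdeal B)]
    rfl
  · intro q hq
    exfalso
    apply hq
    apply Subtype.ext
    have h3 : (q : Ideal B) ∈ ({maximalIdeal B} : Set (Ideal B)) := hP ▸ q.2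
    exact h3

/-! ### Galois action and reduction -/

variable [IsLocalHom (algebraMap O B)]

/-- the reduction homomorphism on automorphisms of `B` over `O` -/
noncomputable def redAut :
    (B ≃ₐ[O] B) →* (ResidueField B ≃ₐ[ResidueField O] ResidueField B) where
  toFun e := ResidueField.mapAlgEquiv' e
  map_one' := by
    ext x
    obtain ⟨x, rfl⟩ := residue_surjective x
    simp
  map_mul' e₁ e₂ := by
    ext x
    obtain ⟨x, rfl⟩ := residue_surjective x
    simp

@[simp] theorem redAut_residue (e : B ≃ₐ[O] B) (x : B) :
    redAut O B e (residue B x) = residue B (e x) := rfl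

/-- the reduction homomorphism `Gal(L/K) → Gal(l/k)` -/
noncomputable def redHom :
    (L ≃ₐ[K] L) →* (ResidueField B ≃ₐ[ResidueField O] ResidueField B) :=
  (redAut O B).comp (galRestrict O K L B).toMonoidHom

@[simp] theorem redHom_residue (σ : L ≃ₐ[K] L) (x : B) :
    redHom O K B L σ (residue B x) = residue B (galRestrict O K L B σ x) := rfl

include K L in
theorem redAut_surjective [IsGalois K L] : Function.Surjective (redAut O B) := by
  have hinv : Algebra.IsInvariant O B (B ≃ₐ[O] B) := Algebra.isInvariant_of_isGalois' O K L B
  have : Finite (B ≃ₐ[O] B) := Finite.of_equiv _ (galRestrict O K L B).toEquiv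
  have hs := Ideal.Quotient.stabilizerHom_surjective (B ≃ₐ[O] B) (maximalIdeal O) (maximalIdeal B)
  intro τ
  obtain ⟨g, hg⟩ := hs τ
  refine ⟨g.1, ?_⟩
  ext x
  obtain ⟨x, rfl⟩ := residue_surjective x
  have := congrArg (fun t => t (Ideal.Quotient.mk _ x)) hg
  simp only [Ideal.Quotient.stabilizerHom_apply] at this
  exact this

theorem redHom_surjective [IsGalois K L] : Function.Surjective (redHom O K B L) := by
  intro τ
  obtain ⟨e, he⟩ := redAut_surjective O K B L τ
  exact ⟨(galRestrict O K L B).symm e, by simp [redHom, he]⟩

/-- the kernel of the reduction is the inertia group -/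
theorem mem_ker_redHom_iff (σ : L ≃ₐ[K] L) :
    σ ∈ (redHom O K B L).ker ↔ ∀ x : B, galRestrict O K L B σ x - x ∈ maximalIdeal B := by
  rw [MonoidHom.mem_ker]
  constructor
  · intro h x
    have := congrArg (fun t => t (residue B x)) h
    simp only [redHom_residue, AlgEquiv.one_apply] at this
    rw [← residue_eq_zero_iff, map_sub, this, sub_self]
  · intro h
    ext x
    obtain ⟨x, rfl⟩ := residue_surjective x
    rw [redHom_residue, AlgEquiv.one_apply]
    have := h x
    rw [← residue_eq_zero_iff, map_sub, sub_eq_zero] at this
    exact this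

/-! ### Finite residue fields: the inertia group has order `e` -/

include K L in
theorem card_residueGal [Finite (ResidueField B)] :
    Nat.card (ResidueField B ≃ₐ[ResidueField O] ResidueField B) = resDeg O B := by
  have : Module.Finite O B := moduleFinite O K B L
  exact IsGalois.card_aut_eq_finrank (ResidueField O) (ResidueField B)

theorem card_ker_redHom [IsGalois K L] [Finite (ResidueField B)] :
    Nat.card (redHom O K B L).ker = ramIdx O B := by
  have hsurj := redHom_surjective O K B L
  have h1 : Nat.card (redHom O K B L).ker * (redHom O K B L).ker.index = Nat.card (L ≃ₐ[K] L) :=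
    Subgroup.card_mul_index _
  have h2 : (redHom O K B L).ker.index = resDeg O B := by
    rw [Subgroup.index_ker, MonoidHom.range_eq_top.2 hsurj, Subgroup.card_top,
      card_residueGal O K B L]
  have h3 : Nat.card (L ≃ₐ[K] L) = finrank K L := IsGalois.card_aut_eq_finrank K L
  rw [h2, h3, ← ramIdx_mul_resDeg O K B L] at h1
  exact Nat.eq_of_mul_eq_mul_right (resDeg_pos O K B L) h1

/-- for an unramified Galois extension the reduction `Gal(L/K) → Gal(l/k)` is an isomorphism -/
theorem redHom_bijective_of_ramIdx_eq_one [IsGalois K L] [Finite (ResidueField B)]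
    (he : ramIdx O B = 1) : Function.Bijective (redHom O K B L) := by
  refine ⟨?_, redHom_surjective O K B L⟩
  rw [← MonoidHom.ker_eq_bot_iff]
  have h := card_ker_redHom O K B L
  rw [he] at h
  exact Subgroup.eq_bot_of_card_eq _ h

end Pair

end Fermat.Agent.CFT.Local.Tower
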