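/-
PROJECT C, Layer B, slice B1a' (part 2): the tower instance bundle at the concrete model (M2).

For `q`-adic local fields `K ⊆ L` (finite extensions of `ℚ_[q]`, `[Algebra K L]`,
`[IsScalarTower ℚ_[q] K L]`) with rings of integers `𝒪 q K`, `𝒪 q L` (helper21, `Model.lean`), this
file supplies the AKLB instance bundle required by `Tower.lean`, `Unramified.lean` and the
`CyclicInstance`-type files:

* `algebraInt : Algebra ↥(𝒪 q K) ↥(𝒪 q L)` (a def, instance only under
  `open scoped Fermat.Agent.CFT.Local.TowerInst`, since it would be a diamond for `K = L`);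
* `IsScalarTower` instances, `IsIntegralClosure ↥(𝒪 q L) ↥(𝒪 q K) L`, `IsLocalHom`;
* `finiteDimensional_top : FiniteDimensional K L` (a theorem, `q` is not determined by `K L`);
* the specialised statements `finrank_int`, `relRamIdx`, `relResDeg`, `e · f = [L : K]`,
  `𝔪_K 𝒪_L = 𝔪_L ^ e`, `ord_L = e · ord_K` on `K`, `ord_K ∘ N = f · ord_L` (Galois case),
  multiplicativity of the absolute ramification index, the reduction map `redHom`.
-/
import Mathlib
import Fermat.Agent.CFT.Local.Model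
import Fermat.Agent.CFT.Local.Tower
import Fermat.Agent.CFT.Local.Unramified

set_option linter.unusedSectionVars false

namespace Fermat.Agent.CFT.Local.TowerInst

open Fermat.Agent.CFT.Local Fermat.Agent.CFT.Local.Model IsLocalRing Module

/-! ### An abstract complement to `Tower`: unramified iff `e = 1` -/

section Abstract

variable (O K B L : Type*) [CommRing O] [IsDomain O] [IsDiscreteValuationRing O]
  [Field K] [Algebra O K] [IsFractionRing O K] [CharZero K]
  [CommRing B] [IsDomain B] [IsDiscreteValuationRing B]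
  [Field L] [Algebra B L] [IsFractionRing B L]
  [Algebra K L] [FiniteDimensional K L]
  [Algebra O B] [Algebra O L] [IsScalarTower O K L] [IsScalarTower O B L]
  [IsIntegralClosure B O L]

include K L in
/-- In the abstract AKLB setting of `Tower`: unramified iff `e = 1`. -/
theorem isUnram_iff_ramIdx_eq_one : Unramified.IsUnram O B ↔ Tower.ramIdx O B = 1 := by
  rw [Unramified.IsUnram, Tower.map_maximalIdeal_eq O K B L]
  constructor
  · intro h
    have hne : maximalIdeal B ≠ ⊥ := IsDiscreteValuationRing.not_a_field B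
    have hne1 : maximalIdeal B ≠ ⊤ := Ideal.IsPrime.ne_top'
    exact (Ideal.pow_right_strictAnti _ hne hne1).injective (h.trans (pow_one _).symm)
  · intro h
    rw [h, pow_one]

end Abstract

variable (q : ℕ) [Fact q.Prime]
  (K : Type*) [Field K] [Algebra ℚ_[q] K] [FiniteDimensional ℚ_[q] K]
  (L : Type*) [Field L] [Algebra ℚ_[q] L] [FiniteDimensional ℚ_[q] L]
  [Algebra K L] [IsScalarTower ℚ_[q] K L]

/-! ### The instance bundle -/

/-- The ring map `𝒪_K → 𝒪_L` induced by `K → L`. -/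
noncomputable def intHom : ↥(𝒪 q K) →+* ↥(𝒪 q L) :=
  RingHom.codRestrict ((algebraMap K L).comp (𝒪 q K).subtype) (𝒪 q L).toSubring
    (fun a => (algebraMap_mem_𝒪_iff q K L (a : K)).mpr a.2)

theorem coe_intHom (a : ↥(𝒪 q K)) : ((intHom q K L a : ↥(𝒪 q L)) : L) = algebraMap K L (a : K) := rfl

/-- The `𝒪_K`-algebra structure on `𝒪_L`.  Not a global instance (diamond when `K = L`);
use `open scoped Fermat.Agent.CFT.Local.TowerInst`. -/
@[instance_reducible]
noncomputable def algebraInt : Algebra ↥(𝒪 q K) ↥(𝒪 q L) := (intHom q K L).toAlgebra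

scoped[Fermat.Agent.CFT.Local.TowerInst] attribute [instance] algebraInt

theorem algebraMap_int_coe (a : ↥(𝒪 q K)) :
    ((algebraMap ↥(𝒪 q K) ↥(𝒪 q L) a : ↥(𝒪 q L)) : L) = algebraMap K L (a : K) := rfl

instance isScalarTower_int_int_top : IsScalarTower ↥(𝒪 q K) ↥(𝒪 q L) L :=
  IsScalarTower.of_algebraMap_eq (fun _ => rfl)

instance isScalarTower_padicInt_int_top : IsScalarTower ℤ_[q] ↥(𝒪 q K) L :=
  IsScalarTower.of_algebraMap_eq (fun a => by
    change algebraMap ℚ_[q] L (a : ℚ_[q]) = algebraMap K L (algebraMap ℚ_[q] K (a : ℚ_[q]))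
    rw [← IsScalarTower.algebraMap_apply])

instance isScalarTower_padicInt_int_int : IsScalarTower ℤ_[q] ↥(𝒪 q K) ↥(𝒪 q L) :=
  IsScalarTower.of_algebraMap_eq (fun a => Subtype.ext (by
    change algebraMap ℚ_[q] L (a : ℚ_[q]) = algebraMap K L (algebraMap ℚ_[q] K (a : ℚ_[q]))
    rw [← IsScalarTower.algebraMap_apply]))

include q in
theorem finiteDimensional_top : FiniteDimensional K L := FiniteDimensional.right ℚ_[q] K L

theorem mem_𝒪_iff_isIntegral_int {x : L} : x ∈ 𝒪 q L ↔ IsIntegral ↥(𝒪 q K) x := by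
  rw [mem_𝒪_iff_isIntegral]
  constructor
  · intro h
    exact h.tower_top
  · intro h
    have : Algebra.IsIntegral ℤ_[q] ↥(𝒪 q K) := IsIntegralClosure.isIntegral_algebra ℤ_[q] K
    exact isIntegral_trans x h

instance isIntegralClosure_int : IsIntegralClosure ↥(𝒪 q L) ↥(𝒪 q K) L where
  algebraMap_injective := Subtype.val_injective
  isIntegral_iff {x} := by
    rw [← mem_𝒪_iff_isIntegral_int]
    exact ⟨fun h => ⟨⟨x, h⟩, rfl⟩, fun ⟨y, hy⟩ => hy ▸ y.2⟩

instance isLocalHom_int : IsLocalHom (algebraMap ↥(𝒪 q K) ↥(𝒪 q L)) := by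
  constructor
  intro a ha
  rw [isUnit_iff_nrm_eq_one] at ha ⊢
  rw [algebraMap_int_coe, nrm_algebraMap_tower] at ha
  exact ha

/-! ### Specialisation of `Tower` -/

theorem moduleFinite_int : Module.Finite ↥(𝒪 q K) ↥(𝒪 q L) :=
  have := charZero_field q K
  have := finiteDimensional_top q K L
  Tower.moduleFinite ↥(𝒪 q K) K ↥(𝒪 q L) L

theorem moduleFree_int : Module.Free ↥(𝒪 q K) ↥(𝒪 q L) :=
  have := charZero_field q K
  have := finiteDimensional_top q K L
  Tower.moduleFree ↥(𝒪 q K) K ↥(𝒪 q L) L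

theorem finrank_int : finrank ↥(𝒪 q K) ↥(𝒪 q L) = finrank K L :=
  have := charZero_field q K
  have := finiteDimensional_top q K L
  Tower.finrank_eq ↥(𝒪 q K) K ↥(𝒪 q L) L

/-- The relative ramification index `e(L/K)`. -/
noncomputable def relRamIdx : ℕ := Tower.ramIdx ↥(𝒪 q K) ↥(𝒪 q L)

/-- The relative residue degree `f(L/K)`. -/
noncomputable def relResDeg : ℕ := Tower.resDeg ↥(𝒪 q K) ↥(𝒪 q L)

theorem relRamIdx_pos : 0 < relRamIdx q K L :=
  have := charZero_field q K
  have := finiteDimensional_top q K L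
  Tower.ramIdx_pos ↥(𝒪 q K) K ↥(𝒪 q L) L

theorem relResDeg_pos : 0 < relResDeg q K L :=
  have := charZero_field q K
  have := finiteDimensional_top q K L
  Tower.resDeg_pos ↥(𝒪 q K) K ↥(𝒪 q L) L

theorem relRamIdx_mul_relResDeg : relRamIdx q K L * relResDeg q K L = finrank K L :=
  have := charZero_field q K
  have := finiteDimensional_top q K L
  Tower.ramIdx_mul_resDeg ↥(𝒪 q K) K ↥(𝒪 q L) L

theorem map_maximalIdeal_int :
    (maximalIdeal ↥(𝒪 q K)).map (algebraMap ↥(𝒪 q K) ↥(𝒪 q L)) =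
      maximalIdeal ↥(𝒪 q L) ^ relRamIdx q K L :=
  have := charZero_field q K
  have := finiteDimensional_top q K L
  Tower.map_maximalIdeal_eq ↥(𝒪 q K) K ↥(𝒪 q L) L

/-! ### Valuations in the tower -/

/-- A uniformizer of `K` has the absolute value of the `e(L/K)`-th power of a uniformizer of
`L`. -/
theorem nrm_ϖu_eq_pow :
    nrm q K (ϖu q K) = nrm q L (ϖu q L) ^ relRamIdx q K L := by
  have h := map_maximalIdeal_int q K L
  rw [maximalIdeal_eq_span_ϖ q K, maximalIdeal_eq_span_ϖ q L, Ideal.map_span, Set.image_singleton,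
    Ideal.span_singleton_pow, Ideal.span_singleton_eq_span_singleton] at h
  obtain ⟨u, hu⟩ := h
  have hu1 := (isUnit_iff_nrm_eq_one q L (u : ↥(𝒪 q L))).mp u.isUnit
  have h2 := congrArg (fun z : ↥(𝒪 q L) => nrm q L (z : L)) hu
  simp only [MulMemClass.coe_mul, nrm_mul, hu1, mul_one, algebraMap_int_coe, nrm_algebraMap_tower,
    SubmonoidClass.coe_pow, nrm_pow, coe_ϖ] at h2
  exact h2

/-- `ord_L (x) = e(L/K) · ord_K (x)` for `x ∈ Kˣ`. -/
theorem ordFun_map (x : Kˣ) :
    ordFun q L (Units.map (algebraMap K L : K →* L) x) = relRamIdx q K L * ordFun q K x := by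
  apply ordFun_eq_of
  rw [Units.coe_map, MonoidHom.coe_coe, nrm_algebraMap_tower, nrm_eq_zpow_ordFun q K x,
    nrm_ϖu_eq_pow q K L, ← zpow_natCast, ← zpow_mul]

/-- Multiplicativity of the absolute ramification index in towers. -/
theorem ramIdx_tower : Model.ramIdx q L = relRamIdx q K L * Model.ramIdx q K := by
  have h := ordFun_map q K L (Units.mk0 (q : K) (q_ne_zero q K))
  have e : Units.map (algebraMap K L : K →* L) (Units.mk0 (q : K) (q_ne_zero q K)) =
      Units.mk0 (q : L) (q_ne_zero q L) := by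
    ext
    simp
  rw [e, ordFun_q, ordFun_q] at h
  exact_mod_cast h

theorem nrm_prod {ι : Type*} (s : Finset ι) (f : ι → L) :
    nrm q L (∏ i ∈ s, f i) = ∏ i ∈ s, nrm q L (f i) := by
  classical
  induction s using Finset.induction_on with
  | empty => simp
  | insert a s ha ih => rw [Finset.prod_insert ha, Finset.prod_insert ha, nrm_mul, ih]

/-- `K`-automorphisms of `L` are isometries. -/
theorem nrm_algEquiv_tower (σ : L ≃ₐ[K] L) (y : L) : nrm q L (σ y) = nrm q L y :=
  nrm_algEquiv q (σ.restrictScalars ℚ_[q]) y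

theorem algEquiv_mem_𝒪_iff (σ : L ≃ₐ[K] L) (y : L) : σ y ∈ 𝒪 q L ↔ y ∈ 𝒪 q L := by
  rw [mem_𝒪_iff, mem_𝒪_iff, nrm_algEquiv_tower]

theorem ordFun_algEquiv (σ : L ≃ₐ[K] L) (y : Lˣ) :
    ordFun q L (Units.map (σ : L →* L) y) = ordFun q L y := by
  apply ordFun_eq_of
  rw [Units.coe_map, MonoidHom.coe_coe, nrm_algEquiv_tower, nrm_eq_zpow_ordFun]

/-- The absolute value of a norm (Galois case). -/
theorem nrm_norm [IsGalois K L] (y : L) :
    nrm q K (Algebra.norm K y) = nrm q L y ^ finrank K L := by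
  have := finiteDimensional_top q K L
  rw [← nrm_algebraMap_tower q K L, Algebra.norm_eq_prod_automorphisms, nrm_prod]
  simp only [nrm_algEquiv_tower, Finset.prod_const, Finset.card_univ]
  rw [← Nat.card_eq_fintype_card, IsGalois.card_aut_eq_finrank]

/-! ### Norms, ramification and the reduction map -/

/-- `ord_K (N_{L/K} y) = f(L/K) · ord_L (y)` (Galois case). -/
theorem ordFun_norm [IsGalois K L] (y : Lˣ) :
    ordFun q K (Units.map (Algebra.norm K : L →* K) y) = relResDeg q K L * ordFun q L y := by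
  apply ordFun_eq_of
  rw [Units.coe_map, nrm_norm, nrm_eq_zpow_ordFun q L y, nrm_ϖu_eq_pow q K L,
    ← relRamIdx_mul_relResDeg q K L, ← zpow_natCast, ← zpow_natCast, ← zpow_mul, ← zpow_mul]
  congr 1
  push_cast
  ring

theorem isUnram_iff_relRamIdx_eq_one :
    Unramified.IsUnram ↥(𝒪 q K) ↥(𝒪 q L) ↔ relRamIdx q K L = 1 :=
  have := charZero_field q K
  have := finiteDimensional_top q K L
  isUnram_iff_ramIdx_eq_one ↥(𝒪 q K) K ↥(𝒪 q L) L

/-- The reduction map `Gal(L/K) → Gal(l/k)`. -/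
noncomputable def redHom :
    (L ≃ₐ[K] L) →*
      (ResidueField ↥(𝒪 q L) ≃ₐ[ResidueField ↥(𝒪 q K)] ResidueField ↥(𝒪 q L)) :=
  haveI := charZero_field q K
  haveI := finiteDimensional_top q K L
  Tower.redHom ↥(𝒪 q K) K ↥(𝒪 q L) L

theorem redHom_surjective [IsGalois K L] : Function.Surjective (redHom q K L) :=
  have := charZero_field q K
  have := finiteDimensional_top q K L
  Tower.redHom_surjective ↥(𝒪 q K) K ↥(𝒪 q L) L

theorem card_ker_redHom [IsGalois K L] :
    Nat.card (redHom q K L).ker = relRamIdx q K L :=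
  have := charZero_field q K
  have := finiteDimensional_top q K L
  Tower.card_ker_redHom ↥(𝒪 q K) K ↥(𝒪 q L) L

theorem card_residueGal :
    Nat.card (ResidueField ↥(𝒪 q L) ≃ₐ[ResidueField ↥(𝒪 q K)] ResidueField ↥(𝒪 q L)) =
      relResDeg q K L :=
  have := charZero_field q K
  have := finiteDimensional_top q K L
  Tower.card_residueGal ↥(𝒪 q K) K ↥(𝒪 q L) L

/-- Restriction of `K`-automorphisms of `L` to the rings of integers (`galRestrict`). -/
noncomputable def intAut : (L ≃ₐ[K] L) ≃* (↥(𝒪 q L) ≃ₐ[↥(𝒪 q K)] ↥(𝒪 q L)) :=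
  haveI := finiteDimensional_top q K L
  galRestrict ↥(𝒪 q K) K L ↥(𝒪 q L)

theorem coe_intAut (σ : L ≃ₐ[K] L) (b : ↥(𝒪 q L)) :
    ((intAut q K L σ b : ↥(𝒪 q L)) : L) = σ (b : L) :=
  have := finiteDimensional_top q K L
  algebraMap_galRestrict_apply ↥(𝒪 q K) σ b

theorem redHom_residue (σ : L ≃ₐ[K] L) (b : ↥(𝒪 q L)) :
    redHom q K L σ (residue ↥(𝒪 q L) b) = residue ↥(𝒪 q L) (intAut q K L σ b) :=
  have := charZero_field q K
  have := finiteDimensional_top q K L
  Tower.redHom_residue ↥(𝒪 q K) K ↥(𝒪 q L) L σ b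

theorem redHom_bijective_of_relRamIdx_eq_one [IsGalois K L] (h : relRamIdx q K L = 1) :
    Function.Bijective (redHom q K L) :=
  have := charZero_field q K
  have := finiteDimensional_top q K L
  Tower.redHom_bijective_of_ramIdx_eq_one ↥(𝒪 q K) K ↥(𝒪 q L) L h

-- bundle test against helper18's Unramified
example [IsGalois K L] (hur : Unramified.IsUnram ↥(𝒪 q K) ↥(𝒪 q L)) :
    have := finiteDimensional_top q K L
    Function.Bijective (Unramified.resHom ↥(𝒪 q K) K ↥(𝒪 q L) L) :=
  have := finiteDimensional_top q K L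
  Unramified.resHom_bijective hur

end Fermat.Agent.CFT.Local.TowerInst
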