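import Mathlib
import Fermat.Agent.CFT.Local.CyclicH2

/-!
# The invariant map of an unramified layer (abstract form)

`G = ⟨σ⟩` cyclic of order `n`, `A : Rep ℤ G` (think `A = Lˣ`, `L/K` unramified of degree `n`,
`σ` the Frobenius), `ord : A →+ ℤ` a `G`-invariant homomorphism (the normalised valuation),
`π : A` a `σ`-invariant element with `ord π = 1` (a uniformiser of `K`), and the hypothesis

* (V0) every `σ`-invariant `u` with `ord u = 0` is a norm

(for local fields: `Ĥ⁰(G, U_L) = 0`, i.e. every unit of `K` is a norm from `L`).  Then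

`inv : H²(G, A) ≃ ZMod n`, `inv [f] = ord (∑_{i<n} f (σ^i, σ)) mod n`,

and the class of the carry cocycle of `π` (the fundamental class) has invariant `1`.
-/

set_option autoImplicit false

namespace Fermat.Agent.CFT.Local.UnramifiedBrauer

open groupCohomology Finset Fermat.Agent.CFT.Local.CyclicH2

variable {G : Type} [Group G] {A : Rep ℤ G} {σ : G} {n : ℕ}

/-- The data of an "unramified layer". -/
structure UnramData (A : Rep ℤ G) (σ : G) (n : ℕ) where
  /-- the order of `σ` is `n` -/
  hord : orderOf σ = n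
  /-- `n` is positive -/
  hn : 0 < n
  /-- `σ` generates `G` -/
  hgen : ∀ g : G, ∃ i : ℕ, σ ^ i = g
  /-- the valuation -/
  ord : A →+ ℤ
  /-- the valuation is invariant -/
  ord_ρ : ∀ (g : G) (a : A), ord (A.ρ g a) = ord a
  /-- a uniformiser of the base -/
  π : A
  /-- it has valuation one -/
  ord_π : ord π = 1
  /-- it is invariant -/
  ρ_π : A.ρ σ π = π
  /-- invariant units are norms -/
  V0 : ∀ u : A, ord u = 0 → A.ρ σ u = u → ∃ v : A, nrm A σ n v = u

namespace UnramData

theorem pow_eq_one (D : UnramData A σ n) : σ ^ n = 1 := pow_n_eq_one D.hord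

variable (D : UnramData A σ n)

theorem ord_nrm (b : A) : D.ord (nrm A σ n b) = n * D.ord b := by
  unfold nrm
  rw [map_sum]
  simp_rw [D.ord_ρ]
  simp

/-- The invariant on cocycles. -/
noncomputable def invCocycle : cocycles₂ A →+ ZMod n where
  toFun f := ((D.ord (trSum A σ n f) : ℤ) : ZMod n)
  map_zero' := by
    have : ((0 : cocycles₂ A) : G × G → A) = 0 := rfl
    rw [this]
    simp [trSum]
  map_add' f g := by
    have : ((f + g : cocycles₂ A) : G × G → A) = (f : G × G → A) + (g : G × G → A) := rfl
    rw [this, trSum_add, map_add, Int.cast_add]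

theorem invCocycle_apply (f : cocycles₂ A) :
    D.invCocycle f = ((D.ord (trSum A σ n f) : ℤ) : ZMod n) := rfl

theorem invCocycle_eq_zero_of_coboundary (f : cocycles₂ A)
    (hf : (f : G × G → A) ∈ coboundaries₂ A) : D.invCocycle f = 0 := by
  obtain ⟨b, hb⟩ := (mem_coboundaries₂_iff D.hord D.hgen f).1 hf
  rw [invCocycle_apply, hb, ord_nrm, Int.cast_mul, Int.cast_natCast, ZMod.natCast_self, zero_mul]

/-- **The invariant map** `H²(G, A) → ℤ/n`. -/
noncomputable def inv : H2 A →+ ZMod n :=
  H2descAdd D.invCocycle D.invCocycle_eq_zero_of_coboundary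

theorem inv_H2π (f : cocycles₂ A) :
    D.inv (H2π A f) = ((D.ord (trSum A σ n f) : ℤ) : ZMod n) :=
  H2descAdd_H2π _ _ f

theorem inv_injective : Function.Injective D.inv := by
  rw [injective_iff_map_eq_zero]
  intro x hx
  induction x using H2_induction_on with
  | h f =>
    rw [inv_H2π, ZMod.intCast_zmod_eq_zero_iff_dvd] at hx
    obtain ⟨c, hc⟩ := hx
    rw [H2π_eq_zero_iff_trSum D.hord D.hgen]
    have hσ := D.pow_eq_one
    -- `u = trSum f - N (c • π)` is an invariant unit
    set u : A := trSum A σ n f - nrm A σ n (c • D.π) with hu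
    have hu0 : D.ord u = 0 := by
      rw [hu, map_sub, hc, ord_nrm, map_zsmul, D.ord_π]
      simp
    have huinv : A.ρ σ u = u := by
      rw [hu, map_sub, trSum_invariant hσ f, nrm_invariant hσ]
    obtain ⟨v, hv⟩ := D.V0 u hu0 huinv
    refine ⟨v + c • D.π, ?_⟩
    rw [nrm_add, hv, hu]
    abel

/-- The fundamental class: the class of the carry cocycle of the uniformiser. -/
noncomputable def fundamentalClass : H2 A :=
  H2π A (stdCocycle D.hord D.hn D.hgen D.ρ_π)

theorem inv_fundamentalClass (h1 : 1 < n) : D.inv D.fundamentalClass = 1 := by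
  rw [fundamentalClass, inv_H2π, trSum_stdCocycle D.hord D.hn D.hgen h1, D.ord_π, Int.cast_one]

theorem inv_surjective : Function.Surjective D.inv := by
  rcases Nat.lt_or_ge 1 n with h1 | h1
  · intro z
    refine ⟨(z.val : ℤ) • D.fundamentalClass, ?_⟩
    have : NeZero n := ⟨D.hn.ne'⟩
    rw [map_zsmul, inv_fundamentalClass D h1]
    simp
  · have hn1 : n = 1 := le_antisymm h1 D.hn
    subst hn1
    intro z
    exact ⟨0, Subsingleton.elim _ _⟩

/-- **The invariant isomorphism** `H²(G, A) ≃ ℤ/n`. -/
noncomputable def invEquiv : H2 A ≃+ ZMod n :=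
  AddEquiv.ofBijective D.inv ⟨D.inv_injective, D.inv_surjective⟩

theorem invEquiv_apply (x : H2 A) : D.invEquiv x = D.inv x := rfl

include D in
theorem card_H2 : Nat.card (H2 A) = n := by
  rw [Nat.card_congr D.invEquiv.toEquiv, Nat.card_zmod]

end UnramData

end Fermat.Agent.CFT.Local.UnramifiedBrauer
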