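import Mathlib
import Fermat.Agent.CFT.Local.UnramifiedBrauer
import Fermat.Agent.CFT.Local.CyclicH2Compat

/-!
# The `ℚ/ℤ`-valued invariant of an unramified layer; inflation and restriction

* `UnramData.invQ : H²(G, A) →+ ℚ/ℤ` (`ℚ/ℤ = AddCircle (1 : ℚ)`),
  `invQ [f] = ord (∑_{i<n} f (σ^i, σ)) / n`;
* `invQ_inflation`: `invQ' (inf x) = invQ x` for a tower of unramified layers;
* `invQ_restriction`: `invQ' (res x) = (r * d) • invQ x` for a base change with ramification
  index `r` and residue degree `d`.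
-/

set_option autoImplicit false

namespace Fermat.Agent.CFT.Local.UnramifiedBrauer

open groupCohomology Finset Fermat.Agent.CFT.Local.CyclicH2

/-- `t ↦ t / n` as a homomorphism `ℤ → ℚ/ℤ`. -/
noncomputable def divHom (n : ℕ) : ℤ →+ AddCircle (1 : ℚ) :=
  (QuotientAddGroup.mk' (AddSubgroup.zmultiples (1 : ℚ))).comp
    ((AddMonoidHom.mulRight ((n : ℚ)⁻¹)).comp (Int.castAddHom ℚ))

theorem divHom_apply (n : ℕ) (t : ℤ) : divHom n t = (((t : ℚ) * (n : ℚ)⁻¹ : ℚ) : AddCircle (1 : ℚ)) :=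
  rfl

theorem divHom_self (n : ℕ) (hn : 0 < n) : divHom n (n : ℤ) = 0 := by
  rw [divHom_apply]
  have hn' : (n : ℚ) ≠ 0 := by exact_mod_cast hn.ne'
  have : ((n : ℤ) : ℚ) * (n : ℚ)⁻¹ = 1 := by
    rw [Int.cast_natCast, mul_inv_cancel₀ hn']
  rw [this]
  exact AddCircle.coe_period 1

/-- `ℤ/n → ℚ/ℤ`, `z ↦ z / n`. -/
noncomputable def zmodToQZ (n : ℕ) (hn : 0 < n) : ZMod n →+ AddCircle (1 : ℚ) :=
  ZMod.lift n ⟨divHom n, divHom_self n hn⟩

theorem zmodToQZ_intCast (n : ℕ) (hn : 0 < n) (t : ℤ) :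
    zmodToQZ n hn (t : ZMod n) = divHom n t :=
  ZMod.lift_coe n _ t

variable {G : Type} [Group G] {A : Rep ℤ G} {σ : G} {n : ℕ}

namespace UnramData

variable (D : UnramData A σ n)

/-- **The `ℚ/ℤ`-valued invariant.** -/
noncomputable def invQ : H2 A →+ AddCircle (1 : ℚ) := (zmodToQZ n D.hn).comp D.inv

theorem invQ_H2π (f : cocycles₂ A) :
    D.invQ (H2π A f) = divHom n (D.ord (trSum A σ n f)) := by
  rw [invQ, AddMonoidHom.comp_apply, inv_H2π, zmodToQZ_intCast]

end UnramData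

/-! ### Inflation -/

section Inflation

variable {G' : Type} [Group G'] {A' : Rep ℤ G'} {σ' : G'} {m : ℕ}

theorem divHom_mul (n m : ℕ) (hm : 0 < m) (t : ℤ) : divHom (n * m) (m * t) = divHom n t := by
  rw [divHom_apply, divHom_apply]
  congr 1
  have hm' : (m : ℚ) ≠ 0 := by exact_mod_cast hm.ne'
  push_cast
  rw [mul_inv]
  field_simp

/-- **Inflation compatibility**: `invQ' (inf x) = invQ x`. -/
theorem invQ_inflation (D : UnramData A σ n) (D' : UnramData A' σ' (n * m))
    (φ : G' →* G) (hφ : φ σ' = σ) (ι : A →+ A') (hord : ∀ a, D'.ord (ι a) = D.ord a)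
    (f : cocycles₂ A) (f' : cocycles₂ A') (hf' : ∀ g h, f' (g, h) = ι (f (φ g, φ h))) :
    D'.invQ (H2π A' f') = D.invQ (H2π A f) := by
  have hm : 0 < m := by
    have := D'.hn
    rcases Nat.eq_zero_or_pos m with h | h
    · rw [h, mul_zero] at this; omega
    · exact h
  rw [UnramData.invQ_H2π, UnramData.invQ_H2π,
    trSum_inflation φ hφ D.pow_eq_one ι (f : G × G → A) (f' : G' × G' → A') hf',
    map_nsmul, hord, nsmul_eq_mul, divHom_mul n m hm]

end Inflation

/-! ### Restriction -/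

section Restriction

variable {H : Type} [Group H] {A' : Rep ℤ H} {τ : H} {d e : ℕ}

theorem divHom_restrict (d e : ℕ) (hd : 0 < d) (he : 0 < e) (r : ℕ) (t : ℤ) :
    divHom e (r * t) = (r * d) • divHom (d * e) t := by
  rw [divHom_apply, divHom_apply, ← AddCircle.coe_nsmul]
  congr 1
  have hd' : (d : ℚ) ≠ 0 := by exact_mod_cast hd.ne'
  have he' : (e : ℚ) ≠ 0 := by exact_mod_cast he.ne'
  push_cast
  rw [nsmul_eq_mul, mul_inv]
  push_cast
  field_simp

/-- **Restriction compatibility**: for the base change to an extension with ramification index `r`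
and residue degree `d` (`n = d * e`): `invQ' (res x) = (r * d) • invQ x`. -/
theorem invQ_restriction (D : UnramData A σ n) (D' : UnramData A' τ e) (hde : n = d * e)
    (φ : H →* G) (hφ : φ τ = σ ^ d) (ι : A →+ A')
    (hι : ∀ (h : H) (a : A), ι (A.ρ (φ h) a) = A'.ρ h (ι a))
    (r : ℕ) (hord : ∀ a, D'.ord (ι a) = r * D.ord a)
    (f : cocycles₂ A) (f' : cocycles₂ A') (hf' : ∀ g h, f' (g, h) = ι (f (φ g, φ h))) :
    D'.invQ (H2π A' f') = (r * d) • D.invQ (H2π A f) := by
  subst hde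
  have he : 0 < e := D'.hn
  have hd : 0 < d := by
    have := D.hn
    rcases Nat.eq_zero_or_pos d with h | h
    · rw [h, zero_mul] at this; omega
    · exact h
  obtain ⟨b', hb'⟩ := trSum_restriction D.hord D.hn D.hgen rfl D'.pow_eq_one φ hφ ι hι f
    (f' : H × H → A') hf'
  rw [UnramData.invQ_H2π, UnramData.invQ_H2π, hb', map_add, UnramData.ord_nrm, hord, map_add]
  have h0 : divHom e ((e : ℤ) * D'.ord b') = 0 := by
    rw [divHom_apply, AddCircle.coe_eq_zero_iff]
    refine ⟨D'.ord b', ?_⟩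
    have he' : (e : ℚ) ≠ 0 := by exact_mod_cast he.ne'
    push_cast
    rw [zsmul_eq_mul, mul_one, mul_comm (e : ℚ), mul_assoc, mul_inv_cancel₀ he', mul_one]
  rw [h0, add_zero]
  exact divHom_restrict d e hd he r _

end Restriction

end Fermat.Agent.CFT.Local.UnramifiedBrauer
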