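import Mathlib
import Fermat.Agent.CFT.Local.UnramifiedCompat

/-!
# The unramified invariant for fields

For a finite Galois extension `L/K` which is cyclic with generator `σ` of order `n`, a
Galois-invariant "valuation" `v : Lˣ →* Multiplicative ℤ`, an element `π : Kˣ` with `v π = 1` and the
hypothesis that every `u : Kˣ` with `v u = 0` is a norm from `L`, we build the abstract
`UnramData` on `Rep.ofAlgebraAutOnUnits K L`, hence

`inv : H²(Gal(L/K), Lˣ) ≃+ ZMod n`.
-/

set_option autoImplicit false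

universe u

namespace Fermat.Agent.CFT.Local.UnramifiedField

open groupCohomology Finset Fermat.Agent.CFT.Local.CyclicH2
  Fermat.Agent.CFT.Local.UnramifiedBrauer

section Generic

variable {k G : Type u} [CommRing k] [Group G] {A : Rep k G} {σ : G} {n : ℕ}

/-- For a cyclic group generated by `σ` of order `n`, the "cyclic" norm is the group norm. -/
theorem nrm_eq_sum_univ [Fintype G] (hord : orderOf σ = n) (hn : 0 < n)
    (hgen : ∀ g : G, ∃ i : ℕ, σ ^ i = g) (a : A) :
    nrm A σ n a = ∑ g : G, A.ρ g a := by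
  unfold nrm
  refine Finset.sum_bij (fun i _ => σ ^ i) (fun _ _ => Finset.mem_univ _) ?_ ?_ (fun _ _ => rfl)
  · intro i hi j hj hij
    have hi' : i < orderOf σ := by rw [hord]; exact Finset.mem_range.1 hi
    have hj' : j < orderOf σ := by rw [hord]; exact Finset.mem_range.1 hj
    exact pow_injOn_Iio_orderOf hi' hj' hij
  · intro g _
    exact ⟨idx hgen n g, Finset.mem_range.2 (idx_lt hn hgen g), pow_idx hord hgen g⟩

/-- The class of the carry cocycle of an invariant `a` vanishes iff `a` is a norm. -/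
theorem H2π_stdCocycle_eq_zero_iff (hord : orderOf σ = n) (hn : 0 < n)
    (hgen : ∀ g : G, ∃ i : ℕ, σ ^ i = g) (h1 : 1 < n) {a : A} (ha : A.ρ σ a = a) :
    H2π A (stdCocycle hord hn hgen ha) = 0 ↔ ∃ b : A, a = nrm A σ n b := by
  rw [H2π_eq_zero_iff_trSum hord hgen, trSum_stdCocycle hord hn hgen h1]

/-- Carry cocycles are additive in the invariant element (on cohomology classes). -/
theorem H2π_stdCocycle_add (hord : orderOf σ = n) (hn : 0 < n)
    (hgen : ∀ g : G, ∃ i : ℕ, σ ^ i = g) {a b : A} (ha : A.ρ σ a = a) (hb : A.ρ σ b = b)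
    (hab : A.ρ σ (a + b) = a + b) :
    H2π A (stdCocycle hord hn hgen hab)
      = H2π A (stdCocycle hord hn hgen ha) + H2π A (stdCocycle hord hn hgen hb) := by
  rw [← map_add]
  congr 1
  apply Subtype.ext
  funext ⟨g, h⟩
  change stdCocycle hord hn hgen hab (g, h)
    = stdCocycle hord hn hgen ha (g, h) + stdCocycle hord hn hgen hb (g, h)
  rw [stdCocycle_apply, stdCocycle_apply, stdCocycle_apply, smul_add]

end Generic

section Abstract

variable {G : Type} [Group G] {A : Rep ℤ G} {σ : G} {n : ℕ} (D : UnramData A σ n)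

/-- **The unramified symbol formula**: the invariant of the carry class of an invariant `a`
is `ord a mod n`. -/
theorem inv_stdCocycle {a : A} (ha : A.ρ σ a = a) :
    D.inv (H2π A (stdCocycle D.hord D.hn D.hgen ha)) = ((D.ord a : ℤ) : ZMod n) := by
  rcases Nat.lt_or_ge 1 n with h1 | h1
  · rw [UnramData.inv_H2π, trSum_stdCocycle D.hord D.hn D.hgen h1]
  · have hn1 : n = 1 := le_antisymm h1 D.hn
    subst hn1
    exact Subsingleton.elim _ _

/-- The `ℚ/ℤ`-valued form of the unramified symbol formula. -/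
theorem invQ_stdCocycle {a : A} (ha : A.ρ σ a = a) :
    D.invQ (H2π A (stdCocycle D.hord D.hn D.hgen ha)) = divHom n (D.ord a) := by
  rw [UnramData.invQ, AddMonoidHom.comp_apply, inv_stdCocycle D ha, zmodToQZ_intCast]

end Abstract

section Field

variable {K L : Type} [Field K] [Field L] [Algebra K L]

/-- The unit underlying an element of `Rep.ofAlgebraAutOnUnits K L`. -/
def toUnit (a : Rep.ofAlgebraAutOnUnits K L) : Lˣ := Additive.toMul (show Additive Lˣ from a)

/-- A unit of `L` as an element of `Rep.ofAlgebraAutOnUnits K L`. -/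
def ofUnit (x : Lˣ) : Rep.ofAlgebraAutOnUnits K L := (Additive.ofMul x : Additive Lˣ)

@[simp] theorem toUnit_ofUnit (x : Lˣ) : toUnit (ofUnit (K := K) x) = x := rfl

@[simp] theorem ofUnit_toUnit (a : Rep.ofAlgebraAutOnUnits K L) : ofUnit (toUnit a) = a := rfl

theorem toUnit_injective : Function.Injective (toUnit (K := K) (L := L)) :=
  fun _ _ h => h

theorem toUnit_zero : toUnit (0 : Rep.ofAlgebraAutOnUnits K L) = 1 := rfl

theorem toUnit_add (a b : Rep.ofAlgebraAutOnUnits K L) :
    toUnit (a + b) = toUnit a * toUnit b := rfl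

theorem toUnit_sum {ι : Type*} (s : Finset ι) (f : ι → Rep.ofAlgebraAutOnUnits K L) :
    toUnit (∑ i ∈ s, f i) = ∏ i ∈ s, toUnit (f i) := by
  classical
  induction s using Finset.induction_on with
  | empty => rw [Finset.sum_empty, Finset.prod_empty]; rfl
  | insert a s ha ih => rw [Finset.sum_insert ha, Finset.prod_insert ha, toUnit_add, ih]

/-- The action of `Gal(L/K)` on `Rep.ofAlgebraAutOnUnits K L`. -/
theorem toUnit_ρ (g : L ≃ₐ[K] L) (a : Rep.ofAlgebraAutOnUnits K L) :
    toUnit ((Rep.ofAlgebraAutOnUnits K L).ρ g a) = Units.map (g : L →* L) (toUnit a) :=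
  rfl

theorem coe_toUnit_ρ (g : L ≃ₐ[K] L) (a : Rep.ofAlgebraAutOnUnits K L) :
    ((toUnit ((Rep.ofAlgebraAutOnUnits K L).ρ g a) : Lˣ) : L) = g ((toUnit a : Lˣ) : L) :=
  rfl

/-- An element of `Kˣ` as an invariant element of the representation. -/
def ofBase (a : Kˣ) : Rep.ofAlgebraAutOnUnits K L :=
  ofUnit (Units.map (algebraMap K L : K →* L) a)

theorem ρ_ofBase (g : L ≃ₐ[K] L) (a : Kˣ) :
    (Rep.ofAlgebraAutOnUnits K L).ρ g (ofBase a) = ofBase a := by
  apply toUnit_injective
  rw [toUnit_ρ]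
  unfold ofBase
  rw [toUnit_ofUnit]
  ext
  simp

/-- Field-level data of an unramified layer. -/
structure UnramFieldData (K L : Type) [Field K] [Field L] [Algebra K L] (σ : L ≃ₐ[K] L)
    (n : ℕ) where
  /-- the order of `σ` is `n` -/
  hord : orderOf σ = n
  /-- `n` is positive -/
  hn : 0 < n
  /-- `σ` generates the Galois group -/
  hgen : ∀ g : L ≃ₐ[K] L, g ∈ Subgroup.zpowers σ
  /-- the normalised valuation of `L` -/
  v : Lˣ →* Multiplicative ℤ
  /-- it is Galois invariant -/
  v_σ : ∀ x : Lˣ, v (Units.map (σ : L →* L) x) = v x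
  /-- a uniformiser of `K` -/
  π : Kˣ
  /-- which is still a uniformiser of `L` -/
  v_π : v (Units.map (algebraMap K L : K →* L) π) = Multiplicative.ofAdd 1
  /-- units of `K` are norms -/
  V0 : ∀ u : Kˣ, v (Units.map (algebraMap K L : K →* L) u) = 1 →
    ∃ b : Lˣ, Algebra.norm K (b : L) = (u : K)

namespace UnramFieldData

variable {σ : L ≃ₐ[K] L} {n : ℕ} (F : UnramFieldData K L σ n)

/-- The valuation as an additive map on the representation. -/
noncomputable def ordA : (Rep.ofAlgebraAutOnUnits K L) →+ ℤ :=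
  show Additive Lˣ →+ ℤ from
    (AddEquiv.additiveMultiplicative ℤ).toAddMonoidHom.comp (MonoidHom.toAdditive F.v)

theorem ordA_apply (a : Rep.ofAlgebraAutOnUnits K L) :
    F.ordA a = (F.v (toUnit a)).toAdd := rfl

theorem ordA_ofUnit (x : Lˣ) : F.ordA (ofUnit x) = (F.v x).toAdd := rfl

include F in
theorem exists_pow (g : L ≃ₐ[K] L) : ∃ i : ℕ, σ ^ i = g := by
  have hfin : IsOfFinOrder σ := by
    rw [← orderOf_pos_iff, F.hord]; exact F.hn
  exact exists_pow_of_mem_zpowers hfin F.hgen g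

theorem v_pow (i : ℕ) (x : Lˣ) : F.v (Units.map ((σ ^ i : L ≃ₐ[K] L) : L →* L) x) = F.v x := by
  induction i generalizing x with
  | zero =>
    have : Units.map ((σ ^ 0 : L ≃ₐ[K] L) : L →* L) x = x := by
      ext
      simp
    rw [this]
  | succ i ih =>
    have : Units.map ((σ ^ (i + 1) : L ≃ₐ[K] L) : L →* L) x
        = Units.map ((σ ^ i : L ≃ₐ[K] L) : L →* L) (Units.map (σ : L →* L) x) := by
      ext
      simp [pow_succ]
    rw [this, ih, F.v_σ]

theorem v_smul (g : L ≃ₐ[K] L) (x : Lˣ) : F.v (Units.map (g : L →* L) x) = F.v x := by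
  obtain ⟨i, rfl⟩ := F.exists_pow g
  exact F.v_pow i x

theorem ordA_ρ (g : L ≃ₐ[K] L) (a : Rep.ofAlgebraAutOnUnits K L) :
    F.ordA ((Rep.ofAlgebraAutOnUnits K L).ρ g a) = F.ordA a := by
  rw [ordA_apply, ordA_apply, toUnit_ρ, F.v_smul]

/-- The uniformiser, as an element of the representation. -/
def πA : Rep.ofAlgebraAutOnUnits K L := ofBase F.π

theorem ordA_πA : F.ordA F.πA = 1 := by
  unfold πA ofBase
  rw [ordA_ofUnit, F.v_π]
  rfl

theorem ρ_πA (g : L ≃ₐ[K] L) : (Rep.ofAlgebraAutOnUnits K L).ρ g F.πA = F.πA :=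
  ρ_ofBase g F.π

include F in
/-- The cyclic norm on the representation is the field norm. -/
theorem coe_toUnit_nrm [FiniteDimensional K L] [IsGalois K L] (b : Rep.ofAlgebraAutOnUnits K L) :
    ((toUnit (nrm (Rep.ofAlgebraAutOnUnits K L) σ n b) : Lˣ) : L)
      = algebraMap K L (Algebra.norm K ((toUnit b : Lˣ) : L)) := by
  classical
  rw [nrm_eq_sum_univ F.hord F.hn F.exists_pow, Algebra.norm_eq_prod_automorphisms, toUnit_sum,
    Units.coe_prod]
  rfl

/-- **The abstract unramified datum attached to field-level data.** -/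
noncomputable def toUnramData [FiniteDimensional K L] [IsGalois K L] :
    UnramData (Rep.ofAlgebraAutOnUnits K L) σ n where
  hord := F.hord
  hn := F.hn
  hgen := F.exists_pow
  ord := F.ordA
  ord_ρ := F.ordA_ρ
  π := F.πA
  ord_π := F.ordA_πA
  ρ_π := F.ρ_πA σ
  V0 := by
    intro u hu hσu
    -- `u` is fixed by the whole Galois group, hence comes from `K`
    have hfix : ∀ g : L ≃ₐ[K] L, (Rep.ofAlgebraAutOnUnits K L).ρ g u = u :=
      fun g => ρ_eq_of_invariant F.exists_pow hσu g
    have hfix' : ∀ g : L ≃ₐ[K] L, g ((toUnit u : Lˣ) : L) = ((toUnit u : Lˣ) : L) := by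
      intro g
      rw [← coe_toUnit_ρ, hfix g]
    obtain ⟨x, hx⟩ := (IsGalois.mem_range_algebraMap_iff_fixed (F := K) (E := L) _).2 hfix'
    have hx0 : x ≠ 0 := by
      rintro rfl
      rw [map_zero] at hx
      exact (Units.ne_zero _ hx.symm)
    let xu : Kˣ := Units.mk0 x hx0
    have hxu : Units.map (algebraMap K L : K →* L) xu = toUnit u := by
      ext
      exact hx
    have hv : F.v (Units.map (algebraMap K L : K →* L) xu) = 1 := by
      rw [hxu]
      have := hu
      rw [ordA_apply] at this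
      exact toAdd_eq_zero.1 this
    obtain ⟨b, hb⟩ := F.V0 xu hv
    refine ⟨ofUnit b, ?_⟩
    apply toUnit_injective
    ext
    rw [F.coe_toUnit_nrm, toUnit_ofUnit, hb, ← hx]
    rfl

section Galois

variable [FiniteDimensional K L] [IsGalois K L]

/-- **The invariant isomorphism** `H²(Gal(L/K), Lˣ) ≃+ ℤ/n` of an unramified layer. -/
noncomputable def invEquiv : H2 (Rep.ofAlgebraAutOnUnits K L) ≃+ ZMod n :=
  F.toUnramData.invEquiv

/-- The `ℚ/ℤ`-valued invariant. -/
noncomputable def invQ : H2 (Rep.ofAlgebraAutOnUnits K L) →+ AddCircle (1 : ℚ) :=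
  F.toUnramData.invQ

include F in
theorem card_H2 : Nat.card (H2 (Rep.ofAlgebraAutOnUnits K L)) = n :=
  F.toUnramData.card_H2

/-- The invariant of the class of a cocycle `f` is the valuation of `∏_{i<n} f (σ^i, σ)`. -/
theorem invEquiv_H2π (f : cocycles₂ (Rep.ofAlgebraAutOnUnits K L)) :
    F.invEquiv (H2π _ f)
      = (((F.v (∏ i ∈ range n, toUnit (f (σ ^ i, σ)))).toAdd : ℤ) : ZMod n) := by
  rw [invEquiv, UnramData.invEquiv_apply, UnramData.inv_H2π]
  change (((F.ordA (trSum _ σ n f) : ℤ)) : ZMod n) = _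
  rw [ordA_apply]
  unfold trSum
  rw [toUnit_sum]

/-- The cyclic-algebra class `(σ, a)` of `a : Kˣ`: the class of the carry cocycle. -/
noncomputable def symbol (a : Kˣ) : H2 (Rep.ofAlgebraAutOnUnits K L) :=
  H2π _ (stdCocycle F.hord F.hn F.exists_pow (ρ_ofBase σ a))

/-- **Unramified symbol formula**: `inv (σ, a) = v(a) mod n`. -/
theorem invEquiv_symbol (a : Kˣ) :
    F.invEquiv (F.symbol a)
      = (((F.v (Units.map (algebraMap K L : K →* L) a)).toAdd : ℤ) : ZMod n) := by
  rw [invEquiv, UnramData.invEquiv_apply, symbol]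
  exact inv_stdCocycle F.toUnramData (ρ_ofBase σ a)

/-- The symbol `(σ, a)` is trivial iff `a` is a norm (for `1 < n`). -/
theorem symbol_eq_zero_iff (h1 : 1 < n) (a : Kˣ) :
    F.symbol a = 0 ↔ ∃ b : Lˣ, Algebra.norm K (b : L) = (a : K) := by
  rw [symbol, H2π_stdCocycle_eq_zero_iff F.hord F.hn F.exists_pow h1]
  constructor
  · rintro ⟨b, hb⟩
    refine ⟨toUnit b, ?_⟩
    have h := congrArg (fun x => ((toUnit x : Lˣ) : L)) hb
    simp only [F.coe_toUnit_nrm] at h
    exact (FaithfulSMul.algebraMap_injective K L h.symm)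
  · rintro ⟨b, hb⟩
    refine ⟨ofUnit b, ?_⟩
    apply toUnit_injective
    ext
    rw [F.coe_toUnit_nrm, toUnit_ofUnit, hb]
    rfl

end Galois

end UnramFieldData

end Field

/-! ### Compatibility with inflation and restriction, at the field level -/

section Compat

variable {K L : Type} [Field K] [Field L] [Algebra K L]
variable {K' L' : Type} [Field K'] [Field L'] [Algebra K' L']

/-- The map `Lˣ → L'ˣ` induced by a ring homomorphism, on the representations. -/
def unitsMapA (j : L →+* L') : Rep.ofAlgebraAutOnUnits K L →+ Rep.ofAlgebraAutOnUnits K' L' :=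
  show Additive Lˣ →+ Additive L'ˣ from MonoidHom.toAdditive (Units.map (j : L →* L'))

theorem toUnit_unitsMapA (j : L →+* L') (a : Rep.ofAlgebraAutOnUnits K L) :
    toUnit (unitsMapA (K := K) (K' := K') j a) = Units.map (j : L →* L') (toUnit a) := rfl

variable [FiniteDimensional K L] [IsGalois K L] [FiniteDimensional K' L'] [IsGalois K' L']

/-- **Inflation**: `K ⊆ L ⊆ L'` (here `K' = K`), `L'/K` and `L/K` unramified with Frobenius
`σ'`, `σ`, `φ σ' = σ` where `φ` is the restriction map; then `inv_{L'/K} (inf x) = inv_{L/K} x`. -/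
theorem invQ_inflation_field {σ : L ≃ₐ[K] L} {σ' : L' ≃ₐ[K'] L'} {n m : ℕ}
    (F : UnramFieldData K L σ n) (F' : UnramFieldData K' L' σ' (n * m))
    (j : L →+* L') (φ : (L' ≃ₐ[K'] L') →* (L ≃ₐ[K] L)) (hφσ : φ σ' = σ)
    (hv : ∀ x : Lˣ, F'.v (Units.map (j : L →* L') x) = F.v x)
    (f : cocycles₂ (Rep.ofAlgebraAutOnUnits K L)) (f' : cocycles₂ (Rep.ofAlgebraAutOnUnits K' L'))
    (hf' : ∀ g h, toUnit (f' (g, h)) = Units.map (j : L →* L') (toUnit (f (φ g, φ h)))) :
    F'.invQ (H2π _ f') = F.invQ (H2π _ f) := by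
  refine invQ_inflation F.toUnramData F'.toUnramData φ hφσ (unitsMapA j) ?_ f f' ?_
  · intro a
    change F'.ordA _ = F.ordA _
    rw [UnramFieldData.ordA_apply, UnramFieldData.ordA_apply, toUnit_unitsMapA, hv]
  · intro g h
    apply toUnit_injective
    rw [hf', toUnit_unitsMapA]

/-- **Restriction**: base change `K → K'`, `L → L'` of an unramified layer `L/K` (Frobenius `σ`,
degree `n = d * e`) to an unramified layer `L'/K'` (Frobenius `τ`, degree `e`), where `τ` restricts
to `σ ^ d` and the valuation of `L'` restricts to `r` times that of `L`: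
`inv_{L'/K'} (res x) = (r * d) • inv_{L/K} x`. -/
theorem invQ_restriction_field {σ : L ≃ₐ[K] L} {τ : L' ≃ₐ[K'] L'} {n d e : ℕ}
    (F : UnramFieldData K L σ n) (F' : UnramFieldData K' L' τ e) (hde : n = d * e)
    (j : L →+* L') (φ : (L' ≃ₐ[K'] L') →* (L ≃ₐ[K] L)) (hφj : ∀ h x, j (φ h x) = h (j x))
    (hφτ : φ τ = σ ^ d) (r : ℕ)
    (hv : ∀ x : Lˣ, F'.v (Units.map (j : L →* L') x) = F.v x ^ r)
    (f : cocycles₂ (Rep.ofAlgebraAutOnUnits K L)) (f' : cocycles₂ (Rep.ofAlgebraAutOnUnits K' L'))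
    (hf' : ∀ g h, toUnit (f' (g, h)) = Units.map (j : L →* L') (toUnit (f (φ g, φ h)))) :
    F'.invQ (H2π _ f') = (r * d) • F.invQ (H2π _ f) := by
  refine invQ_restriction F.toUnramData F'.toUnramData hde φ hφτ (unitsMapA j) ?_ r ?_ f f' ?_
  · intro h a
    apply toUnit_injective
    rw [toUnit_unitsMapA, toUnit_ρ, toUnit_ρ, toUnit_unitsMapA]
    ext
    exact hφj h _
  · intro a
    change F'.ordA _ = r * F.ordA _
    rw [UnramFieldData.ordA_apply, UnramFieldData.ordA_apply, toUnit_unitsMapA, hv, toAdd_pow,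
      nsmul_eq_mul]
  · intro g h
    apply toUnit_injective
    rw [hf', toUnit_unitsMapA]

end Compat

end Fermat.Agent.CFT.Local.UnramifiedField
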