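import Mathlib
import Fermat.Agent.CFT.Local.UnitLattice

/-
Project C, Layer B2 (unramified case): if the residue extension has surjective norm and satisfies
Hilbert 90 (finite fields), then the whole unit group `Rˣ` has vanishing `Ĥ⁰` and `Ĥ¹`:
every `σ`-invariant unit is the norm of a unit, and every unit of norm one is `σ b / b`.
-/

set_option autoImplicit false

namespace Fermat.Agent.CFT.Local

open Fermat.Agent.CFT.Herbrand Fermat.Agent.CFT.Local.CyclicVanish Finset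

section Ext

variable {A : Type*} [AddCommGroup A] (σ : A →+ A) (n : ℕ)

/-- `Ĥ⁰` vanishes on `A` if it vanishes on a subgroup `A'` and on `A / A'`. -/
theorem v0On_top_of_sub (hσ : ∀ a, σ^[n] a = a) (A' : AddSubgroup A) (h0 : V0On σ n A')
    (hgr : ∀ a, σ a = a → ∃ b, a - nrm σ n b ∈ A') : V0On σ n ⊤ := by
  intro a _ hσa
  obtain ⟨b, hb⟩ := hgr a hσa
  have h1 : σ (a - nrm σ n b) = a - nrm σ n b := by
    have := delta_nrm_eq_zero σ n hσ b
    rw [delta_apply, sub_eq_zero] at this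
    rw [map_sub, hσa, this]
  obtain ⟨b', -, hb'⟩ := h0 _ hb h1
  refine ⟨b + b', AddSubgroup.mem_top _, ?_⟩
  rw [map_add, hb']
  abel

/-- `Ĥ¹` vanishes on `A` if it vanishes on a subgroup `A'` and on `A / A'`. -/
theorem v1On_top_of_sub (hσ : ∀ a, σ^[n] a = a) (A' : AddSubgroup A) (h1 : V1On σ n A')
    (hgr : ∀ a, nrm σ n a = 0 → ∃ b, a - (σ b - b) ∈ A') : V1On σ n ⊤ := by
  intro a _ hNa
  obtain ⟨b, hb⟩ := hgr a hNa
  have h2 : nrm σ n (a - (σ b - b)) = 0 := by
    have := nrm_delta_eq_zero σ n hσ b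
    rw [delta_apply] at this
    rw [map_sub, hNa, this, sub_zero]
  obtain ⟨b', -, hb'⟩ := h1 _ hb h2
  refine ⟨b + b', AddSubgroup.mem_top _, ?_⟩
  rw [map_add]
  have : σ b + σ b' - (b + b') = (σ b - b) + (σ b' - b') := by abel
  rw [this, hb']
  abel

end Ext

namespace UnitLattice

variable {R : Type*} [CommRing R] (D : UnitLattice R)

/-- `Ĥ⁰(Rˣ) = 0` from the residue level. -/
theorem v0On_top (r0 : ∀ u : Rˣ, D.σU u = u → ∃ b : Rˣ, u / D.NU b ∈ D.W 1) :
    V0On D.σA D.n ⊤ := by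
  refine v0On_top_of_sub D.σA D.n D.hσA (D.F 0) D.v0On ?_
  intro a hσa
  have h1 : D.σU (Additive.toMul a) = Additive.toMul a := congrArg Additive.toMul hσa
  obtain ⟨b, hb⟩ := r0 _ h1
  refine ⟨Additive.ofMul b, ?_⟩
  rw [mem_F, toMul_sub, nrm_σA, toMul_ofMul, toMul_ofMul]
  exact hb

/-- `Ĥ¹(Rˣ) = 0` from the residue level. -/
theorem v1On_top (r1 : ∀ u : Rˣ, D.NU u = 1 → ∃ b : Rˣ, u / (D.σU b / b) ∈ D.W 1) :
    V1On D.σA D.n ⊤ := by
  refine v1On_top_of_sub D.σA D.n D.hσA (D.F 0) D.v1On ?_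
  intro a hNa
  have h1 : D.NU (Additive.toMul a) = 1 := by
    have := congrArg Additive.toMul hNa
    rw [nrm_σA, toMul_ofMul] at this
    exact this
  obtain ⟨b, hb⟩ := r1 _ h1
  refine ⟨Additive.ofMul b, ?_⟩
  rw [mem_F, toMul_sub, toMul_sub, σA_apply, toMul_ofMul, toMul_ofMul]
  exact hb

/-- The unit group has trivial `Ĥ⁰` and `Ĥ¹` in index form. -/
theorem idx_units_eq_one
    (r0 : ∀ u : Rˣ, D.σU u = u → ∃ b : Rˣ, u / D.NU b ∈ D.W 1)
    (r1 : ∀ u : Rˣ, D.NU u = 1 → ∃ b : Rˣ, u / (D.σU b / b) ∈ D.W 1) :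
    idx (delta D.σA) (nrm D.σA D.n) = 1 ∧ idx (nrm D.σA D.n) (delta D.σA) = 1 := by
  constructor
  · rw [idx_eq_one_iff]
    intro a ha
    rw [delta_apply, sub_eq_zero] at ha
    obtain ⟨b, -, hb⟩ := D.v0On_top r0 a (AddSubgroup.mem_top _) ha
    exact ⟨b, hb⟩
  · rw [idx_eq_one_iff]
    intro a ha
    obtain ⟨b, -, hb⟩ := D.v1On_top r1 a (AddSubgroup.mem_top _) ha
    exact ⟨b, by rw [delta_apply, hb]⟩

/-- The residue data of an unramified extension: `c = 0`, a surjection `red : R → ℓ` onto a field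
with kernel `εR`, and the induced automorphism of `ℓ` with surjective norm and Hilbert 90. -/
structure ResidueData (ℓ : Type*) [Field ℓ] where
  hc0 : D.c = 0
  /-- the reduction map -/
  red : R →+* ℓ
  hred : Function.Surjective red
  hker : ∀ x, red x = 0 → ∃ y, x = D.ε * y
  /-- the induced automorphism of the residue field -/
  σbar : ℓ →+* ℓ
  hσbar : ∀ x, red (D.σ x) = σbar (red x)
  r0 : ∀ z : ℓ, z ≠ 0 → σbar z = z → ∃ w : ℓ, w ≠ 0 ∧ ∏ j ∈ range D.n, σbar^[j] w = z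
  r1 : ∀ z : ℓ, (∏ j ∈ range D.n, σbar^[j] z) = 1 → ∃ w : ℓ, w ≠ 0 ∧ σbar w = z * w

variable {D}
variable {ℓ : Type*} [Field ℓ] (P : D.ResidueData ℓ)

include P in
theorem ResidueData.mem_M (x : R) : x ∈ D.M := by
  have := D.hc x
  rwa [P.hc0, pow_zero, one_mul] at this

include P in
theorem ResidueData.mem_W_zero (u : Rˣ) : u ∈ D.W 0 :=
  ⟨(u : R) - 1, P.mem_M _, by rw [P.hc0, zero_add, pow_zero, one_mul]; ring⟩

theorem ResidueData.red_iter (j : ℕ) (x : R) : P.red (D.σ^[j] x) = P.σbar^[j] (P.red x) := by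
  induction j with
  | zero => rfl
  | succ j ih => rw [Function.iterate_succ_apply', Function.iterate_succ_apply', P.hσbar, ih]

theorem ResidueData.red_NU (u : Rˣ) :
    P.red (D.NU u : R) = ∏ j ∈ range D.n, P.σbar^[j] (P.red u) := by
  rw [D.coe_NU, map_prod]
  exact Finset.prod_congr rfl fun j _ => P.red_iter j _

/-- units of the residue field lift to units -/
theorem ResidueData.exists_unit (w : ℓ) (hw : w ≠ 0) : ∃ b : Rˣ, P.red (b : R) = w := by
  obtain ⟨b₀, hb₀⟩ := P.hred w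
  obtain ⟨b₁, hb₁⟩ := P.hred w⁻¹
  have h0 : P.red (b₀ * b₁ - 1) = 0 := by
    rw [map_sub, map_mul, map_one, hb₀, hb₁, mul_inv_cancel₀ hw, sub_self]
  obtain ⟨y, hy⟩ := P.hker _ h0
  have h1 : IsUnit (b₀ * b₁) := by
    have : b₀ * b₁ = 1 + D.ε * y := by linear_combination hy
    rw [this]
    exact D.hunit y
  exact ⟨(isUnit_of_mul_isUnit_left h1).unit, hb₀⟩

theorem ResidueData.red_unit_ne_zero (u : Rˣ) : P.red (u : R) ≠ 0 :=
  (u.isUnit.map P.red).ne_zero

/-- membership in `1 + εR` from the residue field -/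
theorem ResidueData.div_mem_W_one (u v : Rˣ) (h : P.red (u : R) = P.red (v : R)) :
    u / v ∈ D.W 1 := by
  have h0 : P.red ((u : R) - v) = 0 := by rw [map_sub, h, sub_self]
  obtain ⟨y, hy⟩ := P.hker _ h0
  refine D.div_mem_W (P.mem_W_zero v) (P.mem_M y) ?_
  rw [hy, P.hc0, zero_add, pow_one]

include P in
/-- **Unramified extensions: every invariant unit is a norm and `H¹` of the units vanishes.** -/
theorem ResidueData.idx_units :
    idx (delta D.σA) (nrm D.σA D.n) = 1 ∧ idx (nrm D.σA D.n) (delta D.σA) = 1 := by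
  apply D.idx_units_eq_one
  · intro u hu
    have h1 : P.σbar (P.red u) = P.red u := by
      rw [← P.hσbar, ← D.coe_σU, hu]
    obtain ⟨w, hw, hwz⟩ := P.r0 _ (P.red_unit_ne_zero u) h1
    obtain ⟨b, hb⟩ := P.exists_unit w hw
    refine ⟨b, P.div_mem_W_one _ _ ?_⟩
    rw [P.red_NU, hb, hwz]
  · intro u hu
    have h1 : (∏ j ∈ range D.n, P.σbar^[j] (P.red u)) = 1 := by
      rw [← P.red_NU, hu, Units.val_one, map_one]
    obtain ⟨w, hw, hwz⟩ := P.r1 _ h1
    obtain ⟨b, hb⟩ := P.exists_unit w hw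
    refine ⟨b, ?_⟩
    rw [div_div_eq_mul_div]
    refine P.div_mem_W_one _ _ ?_
    rw [Units.val_mul, map_mul, D.coe_σU, P.hσbar, hb, hwz]

include P in
/-- elementwise form: invariant units are norms of units -/
theorem ResidueData.exists_norm_eq (u : Rˣ) (hu : D.σU u = u) : ∃ b : Rˣ, D.NU b = u := by
  have h := (idx_eq_one_iff _ _).mp P.idx_units.1 (Additive.ofMul u)
    (by rw [delta_apply, sub_eq_zero]; exact congrArg Additive.ofMul hu)
  obtain ⟨b, hb⟩ := h
  refine ⟨Additive.toMul b, ?_⟩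
  have := congrArg Additive.toMul hb
  rwa [D.nrm_σA, toMul_ofMul, toMul_ofMul] at this

include P in
/-- elementwise form: units of norm one are of the form `σ b / b` -/
theorem ResidueData.exists_div_eq (u : Rˣ) (hu : D.NU u = 1) : ∃ b : Rˣ, D.σU b / b = u := by
  have h := (idx_eq_one_iff _ _).mp P.idx_units.2 (Additive.ofMul u)
    (by rw [D.nrm_σA, toMul_ofMul, hu]; rfl)
  obtain ⟨b, hb⟩ := h
  exact ⟨Additive.toMul b, congrArg Additive.toMul hb⟩

end UnitLattice

end Fermat.Agent.CFT.Local
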