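import Mathlib
import Fermat.Agent.CFT.Local.UnramifiedUnits

/-
Project C, Layer B2 (unramified case, finite residue field): if the automorphism induces the
`q`-power Frobenius on a residue field with `q ^ n` elements, the norm of the residue extension is
surjective and Hilbert 90 holds (cyclic group arithmetic in `ℓˣ`), hence `UnitLattice.ResidueData`.
-/

set_option autoImplicit false

namespace Fermat.Agent.CFT.Local

namespace UnramifiedFrobenius

open Finset

/-- In a finite cyclic group of order `a * b`, the elements killed by `a` are the `b`-th powers. -/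
theorem exists_pow_eq_of_pow_eq_one {C : Type*} [Group C] [IsCyclic C] (a b : ℕ) (ha : 0 < a)
    (hcard : Nat.card C = a * b) (z : C) (hz : z ^ a = 1) : ∃ w : C, w ^ b = z := by
  obtain ⟨g, hg⟩ := IsCyclic.exists_generator (α := C)
  obtain ⟨i, rfl⟩ := Subgroup.mem_zpowers_iff.mp (hg z)
  have hord : orderOf g = a * b := by
    rw [orderOf_eq_card_of_forall_mem_zpowers hg, hcard]
  have h1 : g ^ (i * (a : ℤ)) = 1 := by
    rw [zpow_mul, zpow_natCast]
    exact hz
  have h2 : ((a * b : ℕ) : ℤ) ∣ i * a := by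
    rw [← hord]
    exact orderOf_dvd_iff_zpow_eq_one.mpr h1
  have h3 : (b : ℤ) ∣ i := by
    have : (b : ℤ) * a ∣ i * a := by
      have e : ((a * b : ℕ) : ℤ) = (b : ℤ) * a := by push_cast; ring
      rwa [e] at h2
    exact Int.dvd_of_mul_dvd_mul_right (by exact_mod_cast ha.ne') this
  obtain ⟨i', rfl⟩ := h3
  refine ⟨g ^ i', ?_⟩
  rw [← zpow_natCast, ← zpow_mul, mul_comm]

theorem geom_sum_mul_pred (q n : ℕ) (hq : 1 ≤ q) :
    (∑ j ∈ range n, q ^ j) * (q - 1) + 1 = q ^ n := by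
  induction n with
  | zero => simp
  | succ n ih =>
    rw [Finset.sum_range_succ, add_mul, add_right_comm, ih, pow_succ]
    obtain ⟨r, rfl⟩ : ∃ r, q = r + 1 := ⟨q - 1, (Nat.sub_add_cancel hq).symm⟩
    rw [Nat.add_sub_cancel]
    ring

section FiniteField

variable {ℓ : Type*} [Field ℓ] [Finite ℓ] (q n : ℕ)

omit [Finite ℓ] in
theorem iterate_pow_map (τ : ℓ →+* ℓ) (hτ : ∀ z, τ z = z ^ q) (j : ℕ) (x : ℓ) :
    τ^[j] x = x ^ (q ^ j) := by
  induction j with
  | zero => simp
  | succ j ih => rw [Function.iterate_succ_apply', ih, hτ, ← pow_mul, ← pow_succ]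

omit [Finite ℓ] in
theorem prod_iterate_pow_map (τ : ℓ →+* ℓ) (hτ : ∀ z, τ z = z ^ q) (x : ℓ) :
    ∏ j ∈ range n, τ^[j] x = x ^ (∑ j ∈ range n, q ^ j) := by
  rw [← Finset.prod_pow_eq_pow_sum]
  exact Finset.prod_congr rfl fun j _ => iterate_pow_map q τ hτ j x

omit [Finite ℓ] in
theorem card_units_eq (hq : 1 < q) (hcard : Nat.card ℓ = q ^ n) :
    Nat.card ℓˣ = (q - 1) * (∑ j ∈ range n, q ^ j) := by
  have h1 : Nat.card ℓˣ = Nat.card ℓ - 1 := Nat.card_units ℓ
  rw [h1, hcard, ← geom_sum_mul_pred q n hq.le, Nat.add_sub_cancel, mul_comm]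

/-- the norm of a finite field extension is surjective, Frobenius form -/
theorem frobenius_r0 (hq : 1 < q) (hcard : Nat.card ℓ = q ^ n) (τ : ℓ →+* ℓ)
    (hτ : ∀ z, τ z = z ^ q) (z : ℓ) (hz : z ≠ 0) (hfix : τ z = z) :
    ∃ w : ℓ, w ≠ 0 ∧ ∏ j ∈ range n, τ^[j] w = z := by
  have h1 : (Units.mk0 z hz) ^ (q - 1) = 1 := by
    apply Units.ext
    rw [Units.val_pow_eq_pow_val, Units.val_mk0, Units.val_one]
    have h2 : z ^ (q - 1) * z = z := by
      rw [← pow_succ, Nat.sub_add_cancel hq.le, ← hτ, hfix]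
    exact mul_right_cancel₀ hz (by rw [h2, one_mul])
  obtain ⟨w, hw⟩ := exists_pow_eq_of_pow_eq_one (q - 1) (∑ j ∈ range n, q ^ j)
    (Nat.sub_pos_of_lt hq) (card_units_eq q n hq hcard) _ h1
  refine ⟨(w : ℓ), w.ne_zero, ?_⟩
  rw [prod_iterate_pow_map q n τ hτ, ← Units.val_pow_eq_pow_val, hw, Units.val_mk0]

/-- Hilbert 90 for a finite field extension, Frobenius form -/
theorem frobenius_r1 (hq : 1 < q) (hcard : Nat.card ℓ = q ^ n) (τ : ℓ →+* ℓ)
    (hτ : ∀ z, τ z = z ^ q) (z : ℓ) (hN : (∏ j ∈ range n, τ^[j] z) = 1) :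
    ∃ w : ℓ, w ≠ 0 ∧ τ w = z * w := by
  rw [prod_iterate_pow_map q n τ hτ] at hN
  have hz : z ≠ 0 := by
    rintro rfl
    have hpos : (∑ j ∈ range n, q ^ j) ≠ 0 := by
      intro h0
      have := geom_sum_mul_pred q n hq.le
      rw [h0, zero_mul, zero_add] at this
      have hn : n = 0 := by
        by_contra hn
        exact absurd this.symm (Nat.one_lt_pow hn hq).ne'
      subst hn
      rw [pow_zero] at hcard
      have : Nontrivial ℓ := inferInstance
      have := Finite.one_lt_card (α := ℓ)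
      omega
    rw [zero_pow hpos] at hN
    exact zero_ne_one hN
  have h1 : (Units.mk0 z hz) ^ (∑ j ∈ range n, q ^ j) = 1 := by
    apply Units.ext
    rw [Units.val_pow_eq_pow_val, Units.val_mk0, Units.val_one, hN]
  have hc : Nat.card ℓˣ = (∑ j ∈ range n, q ^ j) * (q - 1) := by
    rw [card_units_eq q n hq hcard, mul_comm]
  have hpos : 0 < ∑ j ∈ range n, q ^ j := by
    rcases Nat.eq_zero_or_pos (∑ j ∈ range n, q ^ j) with h0 | h0
    · exfalso
      rw [h0, zero_mul] at hc
      exact (Nat.card_pos (α := ℓˣ)).ne' hc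
    · exact h0
  obtain ⟨w, hw⟩ := exists_pow_eq_of_pow_eq_one (∑ j ∈ range n, q ^ j) (q - 1) hpos hc _ h1
  refine ⟨(w : ℓ), w.ne_zero, ?_⟩
  rw [hτ]
  have : (w : ℓ) ^ q = (w : ℓ) ^ (q - 1) * w := by
    rw [← pow_succ, Nat.sub_add_cancel hq.le]
  rw [this, ← Units.val_pow_eq_pow_val, hw, Units.val_mk0]

end FiniteField

end UnramifiedFrobenius

open Finset UnramifiedFrobenius

namespace UnitLattice

variable {R : Type*} [CommRing R] (D : UnitLattice R) {ℓ : Type*} [Field ℓ] [Finite ℓ]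

/-- The residue data of an unramified extension of local fields: the automorphism induces the
`q`-power map on a residue field with `q ^ n` elements. -/
def ResidueData.ofFrobenius (hc0 : D.c = 0) (red : R →+* ℓ) (hred : Function.Surjective red)
    (hker : ∀ x, red x = 0 → ∃ y, x = D.ε * y) (τ : ℓ →+* ℓ)
    (hτred : ∀ x, red (D.σ x) = τ (red x)) (q : ℕ) (hq : 1 < q)
    (hcard : Nat.card ℓ = q ^ D.n) (hτ : ∀ z, τ z = z ^ q) : D.ResidueData ℓ where
  hc0 := hc0
  red := red
  hred := hred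
  hker := hker
  σbar := τ
  hσbar := hτred
  r0 := frobenius_r0 q D.n hq hcard τ hτ
  r1 := frobenius_r1 q D.n hq hcard τ hτ

end UnitLattice

end Fermat.Agent.CFT.Local
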