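import Mathlib
import Fermat.Agent.CFT.Local.UnramifiedFrobenius

/-!
# Additive cohomology of a finite field extension, Frobenius form

Let `ℓ` be a finite field with `q ^ n` elements and `τ : ℓ →+* ℓ` the `q`-power map.  Then

* `frobenius_a0`: every `τ`-fixed element is a trace `∑_{j<n} τ^j w`;
* `frobenius_a1`: every element of trace zero is of the form `τ w - w` (additive Hilbert 90).

Both are proved by counting roots of the polynomials `X^q - X` and `∑_{j<n} X^(q^j)`.
-/

set_option autoImplicit false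
set_option linter.unusedSectionVars false

namespace Fermat.Agent.CFT.Local.FrobeniusAdditive

open Finset Polynomial Fermat.Agent.CFT.Local.UnramifiedFrobenius

/-- A set of roots of a nonzero polynomial has at most `natDegree` elements. -/
theorem card_le_natDegree_of_forall_root {ℓ : Type*} [Field ℓ] (S : Set ℓ) (p : ℓ[X]) (hp : p ≠ 0)
    (h : ∀ z ∈ S, p.eval z = 0) : Nat.card S ≤ p.natDegree := by
  classical
  have hsub : S ⊆ (p.roots.toFinset : Set ℓ) := by
    intro z hz
    rw [Finset.mem_coe, Multiset.mem_toFinset, mem_roots hp]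
    exact h z hz
  calc Nat.card S = S.ncard := (_root_.Nat.card_coe_set_eq S)
    _ ≤ (p.roots.toFinset : Set ℓ).ncard := Set.ncard_le_ncard hsub (Finset.finite_toSet _)
    _ = p.roots.toFinset.card := Set.ncard_coe_finset _
    _ ≤ p.roots.card := Multiset.toFinset_card_le _
    _ ≤ p.natDegree := card_roots' p

section

variable {ℓ : Type*} [Field ℓ] (q n : ℕ)

/-- the trace polynomial `∑_{j<n} X^(q^j)` -/
noncomputable def trPoly : ℓ[X] := ∑ j ∈ range n, (X : ℓ[X]) ^ (q ^ j)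

theorem eval_trPoly (z : ℓ) : (trPoly (ℓ := ℓ) q n).eval z = ∑ j ∈ range n, z ^ (q ^ j) := by
  simp [trPoly, eval_finsetSum]

theorem natDegree_trPoly_le (hq : 1 < q) (hn : 0 < n) :
    (trPoly (ℓ := ℓ) q n).natDegree ≤ q ^ (n - 1) := by
  unfold trPoly
  refine natDegree_sum_le_of_forall_le _ _ ?_
  intro j hj
  rw [natDegree_X_pow]
  exact Nat.pow_le_pow_right hq.le (by have := Finset.mem_range.1 hj; omega)

theorem trPoly_ne_zero (hq : 1 < q) (hn : 0 < n) : trPoly (ℓ := ℓ) q n ≠ 0 := by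
  intro h0
  have hc : (trPoly (ℓ := ℓ) q n).coeff (q ^ (n - 1)) = 1 := by
    unfold trPoly
    rw [finsetSum_coeff]
    have : ∀ j ∈ range n, ((X : ℓ[X]) ^ (q ^ j)).coeff (q ^ (n - 1))
        = if j = n - 1 then 1 else 0 := by
      intro j _
      rw [coeff_X_pow]
      by_cases hj : j = n - 1
      · rw [if_pos hj, if_pos (by rw [hj])]
      · rw [if_neg hj, if_neg]
        intro heq
        exact hj (Nat.pow_right_injective hq heq).symm
    rw [Finset.sum_congr rfl this, Finset.sum_ite_eq' (range n) (n - 1),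
      if_pos (Finset.mem_range.2 (by omega))]
  rw [h0, coeff_zero] at hc
  exact zero_ne_one hc

end

section FiniteField

variable {ℓ : Type*} [Field ℓ] [Finite ℓ] (q n : ℕ)

/-- the trace as an additive map -/
def trHom (τ : ℓ →+* ℓ) : ℓ →+ ℓ where
  toFun w := ∑ j ∈ range n, τ^[j] w
  map_zero' := by simp [iterate_map_zero]
  map_add' a b := by simp [iterate_map_add, Finset.sum_add_distrib]

omit [Finite ℓ] in
theorem trHom_apply (τ : ℓ →+* ℓ) (w : ℓ) : trHom n τ w = ∑ j ∈ range n, τ^[j] w := rfl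

/-- `τ - 1` as an additive map -/
def subHom (τ : ℓ →+* ℓ) : ℓ →+ ℓ := (τ : ℓ →+ ℓ) - AddMonoidHom.id ℓ

omit [Finite ℓ] in
theorem subHom_apply (τ : ℓ →+* ℓ) (w : ℓ) : subHom τ w = τ w - w := rfl

theorem iterate_n_eq (hcard : Nat.card ℓ = q ^ n) (τ : ℓ →+* ℓ) (hτ : ∀ z, τ z = z ^ q) (w : ℓ) :
    τ^[n] w = w := by
  have := Fintype.ofFinite ℓ
  rw [iterate_pow_map q τ hτ, ← hcard, Nat.card_eq_fintype_card, FiniteField.pow_card]

omit [Finite ℓ] in
theorem trHom_subHom_eq (τ : ℓ →+* ℓ) (w : ℓ) : trHom n τ (subHom τ w) = τ^[n] w - w := by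
  rw [trHom_apply, subHom_apply]
  have : ∀ j ∈ range n, τ^[j] (τ w - w) = τ^[j + 1] w - τ^[j] w := by
    intro j _
    rw [iterate_map_sub, Function.iterate_succ_apply]
  rw [Finset.sum_congr rfl this, Finset.sum_range_sub (fun j => τ^[j] w)]
  rfl

omit [Finite ℓ] in
theorem subHom_trHom_eq (τ : ℓ →+* ℓ) (w : ℓ) : subHom τ (trHom n τ w) = τ^[n] w - w := by
  rw [subHom_apply, trHom_apply, map_sum]
  have : ∀ j ∈ range n, τ (τ^[j] w) = τ^[j + 1] w := by
    intro j _
    rw [Function.iterate_succ_apply']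
  rw [Finset.sum_congr rfl this, ← Finset.sum_sub_distrib, Finset.sum_range_sub (fun j => τ^[j] w)]
  rfl

theorem card_ker_subHom_le (hq : 1 < q) (τ : ℓ →+* ℓ) (hτ : ∀ z, τ z = z ^ q) :
    Nat.card (subHom τ).ker ≤ q := by
  have h := card_le_natDegree_of_forall_root ((subHom τ).ker : Set ℓ) (X ^ q - X : ℓ[X])
    (FiniteField.X_pow_card_sub_X_ne_zero ℓ hq) (by
      intro z hz
      have hz' : τ z - z = 0 := hz
      rw [eval_sub, eval_pow, eval_X, ← hτ]
      exact hz')
  rw [FiniteField.X_pow_card_sub_X_natDegree_eq ℓ hq] at h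
  exact h

theorem card_ker_trHom_le (hq : 1 < q) (hn : 0 < n) (τ : ℓ →+* ℓ) (hτ : ∀ z, τ z = z ^ q) :
    Nat.card (trHom n τ).ker ≤ q ^ (n - 1) := by
  have h := card_le_natDegree_of_forall_root ((trHom n τ).ker : Set ℓ) (trPoly (ℓ := ℓ) q n)
    (trPoly_ne_zero q n hq hn) (by
      intro z hz
      have hz' : ∑ j ∈ range n, τ^[j] z = 0 := hz
      rw [eval_trPoly, ← hz']
      exact Finset.sum_congr rfl fun j _ => (iterate_pow_map q τ hτ j z).symm)
  exact h.trans (natDegree_trPoly_le q n hq hn)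

theorem card_ker_mul_card_range (f : ℓ →+ ℓ) : Nat.card f.ker * Nat.card f.range = Nat.card ℓ := by
  rw [← AddSubgroup.index_ker, AddSubgroup.card_mul_index]

/-- The image of `τ - 1` is the kernel of the trace. -/
theorem range_subHom_eq (hq : 1 < q) (hn : 0 < n) (hcard : Nat.card ℓ = q ^ n) (τ : ℓ →+* ℓ)
    (hτ : ∀ z, τ z = z ^ q) : (subHom τ).range = (trHom n τ).ker := by
  refine AddSubgroup.eq_of_le_of_card_ge ?_ ?_
  · rintro _ ⟨w, rfl⟩
    rw [AddMonoidHom.mem_ker, trHom_subHom_eq, iterate_n_eq q n hcard τ hτ, sub_self]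
  · have h1 := card_ker_mul_card_range (subHom τ)
    have h2 := card_ker_subHom_le q hq τ hτ
    have h3 := card_ker_trHom_le q n hq hn τ hτ
    refine h3.trans ?_
    -- `q ^ n = |ker| * |range| ≤ q * |range|`
    have h4 : q ^ (n - 1) * q ≤ Nat.card (subHom τ).range * q := by
      calc q ^ (n - 1) * q = q ^ n := by rw [← pow_succ, Nat.sub_add_cancel hn]
        _ = Nat.card (subHom τ).ker * Nat.card (subHom τ).range := by rw [h1, hcard]
        _ ≤ q * Nat.card (subHom τ).range := Nat.mul_le_mul_right _ h2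
        _ = Nat.card (subHom τ).range * q := mul_comm _ _
    exact Nat.le_of_mul_le_mul_right h4 (by omega)

/-- The image of the trace is the kernel of `τ - 1`. -/
theorem range_trHom_eq (hq : 1 < q) (hn : 0 < n) (hcard : Nat.card ℓ = q ^ n) (τ : ℓ →+* ℓ)
    (hτ : ∀ z, τ z = z ^ q) : (trHom n τ).range = (subHom τ).ker := by
  refine AddSubgroup.eq_of_le_of_card_ge ?_ ?_
  · rintro _ ⟨w, rfl⟩
    rw [AddMonoidHom.mem_ker, subHom_trHom_eq, iterate_n_eq q n hcard τ hτ, sub_self]
  · have h1 := card_ker_mul_card_range (trHom n τ)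
    have h2 := card_ker_subHom_le q hq τ hτ
    have h3 := card_ker_trHom_le q n hq hn τ hτ
    refine h2.trans ?_
    have hpos : 0 < q ^ (n - 1) := Nat.pow_pos (by omega)
    have h4 : q * q ^ (n - 1) ≤ Nat.card (trHom n τ).range * q ^ (n - 1) := by
      calc q * q ^ (n - 1) = q ^ n := by rw [← pow_succ', Nat.sub_add_cancel hn]
        _ = Nat.card (trHom n τ).ker * Nat.card (trHom n τ).range := by rw [h1, hcard]
        _ ≤ q ^ (n - 1) * Nat.card (trHom n τ).range := Nat.mul_le_mul_right _ h3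
        _ = Nat.card (trHom n τ).range * q ^ (n - 1) := mul_comm _ _
    exact Nat.le_of_mul_le_mul_right h4 hpos

/-- **Surjectivity of the trace**, Frobenius form. -/
theorem frobenius_a0 (hq : 1 < q) (hn : 0 < n) (hcard : Nat.card ℓ = q ^ n) (τ : ℓ →+* ℓ)
    (hτ : ∀ z, τ z = z ^ q) (z : ℓ) (hfix : τ z = z) : ∃ w : ℓ, ∑ j ∈ range n, τ^[j] w = z := by
  have hz : z ∈ (subHom τ).ker := by
    rw [AddMonoidHom.mem_ker, subHom_apply, hfix, sub_self]
  rw [← range_trHom_eq q n hq hn hcard τ hτ] at hz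
  obtain ⟨w, hw⟩ := hz
  exact ⟨w, hw⟩

/-- **Additive Hilbert 90**, Frobenius form. -/
theorem frobenius_a1 (hq : 1 < q) (hn : 0 < n) (hcard : Nat.card ℓ = q ^ n) (τ : ℓ →+* ℓ)
    (hτ : ∀ z, τ z = z ^ q) (z : ℓ) (hT : ∑ j ∈ range n, τ^[j] z = 0) : ∃ w : ℓ, τ w - w = z := by
  have hz : z ∈ (trHom n τ).ker := hT
  rw [← range_subHom_eq q n hq hn hcard τ hτ] at hz
  obtain ⟨w, hw⟩ := hz
  exact ⟨w, hw⟩

end FiniteField

end Fermat.Agent.CFT.Local.FrobeniusAdditive
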