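import Mathlib

/-
Project C, Layer B2 (convenience): the ring-theoretic hypotheses of `UnitLattice` /
`NormalBasisData` (`hunit`, `hε`, `sepR`, `complR`, `hfin`) for an `I`-adically complete ring and an
element `ε ∈ I` generating an open ideal; specialisation to complete discrete valuation rings.
-/

set_option autoImplicit false

namespace Fermat.Agent.CFT.Local.LatticeHelpers

open Finset

section General

variable {R : Type*} [CommRing R] (I : Ideal R) (ε : R)

theorem smodEq_pow_iff (n : ℕ) (x y : R) :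
    x ≡ y [SMOD (I ^ n • ⊤ : Submodule R R)] ↔ x - y ∈ I ^ n := by
  rw [SModEq.sub_mem, smul_eq_mul, Ideal.mul_top]

theorem isUnit_one_add_mul [IsAdicComplete I R] (hε : ε ∈ I) (x : R) : IsUnit (1 + ε * x) := by
  have h := Ideal.mem_jacobson_bot.mp (IsAdicComplete.le_jacobson_bot I hε) x
  rwa [add_comm] at h

theorem pow_mul_mem_pow (hε : ε ∈ I) (m : ℕ) (r : R) : ε ^ m * r ∈ I ^ m :=
  Ideal.mul_mem_right _ _ (Ideal.pow_mem_pow hε m)

theorem sepR_of_isHausdorff [IsHausdorff I R] (hε : ε ∈ I) (r : R)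
    (h : ∀ m : ℕ, ∃ r', r = ε ^ m * r') : r = 0 := by
  apply IsHausdorff.haus ‹IsHausdorff I R› r
  intro n
  rw [smodEq_pow_iff, sub_zero]
  obtain ⟨r', hr'⟩ := h n
  rw [hr']
  exact pow_mul_mem_pow I ε hε n r'

theorem sum_sub_sum_eq (x : ℕ → R) (i N : ℕ) (hiN : i ≤ N) :
    ∑ j ∈ range N, ε ^ j * x j - ∑ j ∈ range i, ε ^ j * x j =
      ε ^ i * ∑ j ∈ range (N - i), ε ^ j * x (i + j) := by
  obtain ⟨l, rfl⟩ := Nat.exists_eq_add_of_le hiN
  rw [Finset.sum_range_add, add_sub_cancel_left, Nat.add_sub_cancel_left, Finset.mul_sum]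
  exact Finset.sum_congr rfl fun j _ => by rw [pow_add, mul_assoc]

theorem complR_of_isPrecomplete [IsPrecomplete I R] (hε : ε ∈ I)
    (hopen : ∀ i : ℕ, ∃ N : ℕ, I ^ N ≤ Ideal.span {ε ^ i}) (x : ℕ → R) :
    ∃ y, ∀ i : ℕ, ∃ r, y - ∑ j ∈ range i, ε ^ j * x j = ε ^ i * r := by
  obtain ⟨L, hL⟩ := IsPrecomplete.prec ‹IsPrecomplete I R›
    (f := fun i => ∑ j ∈ range i, ε ^ j * x j) (by
      intro m n hmn
      rw [smodEq_pow_iff]
      have := sum_sub_sum_eq ε x m n hmn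
      rw [← neg_sub, this]
      exact (I ^ m).neg_mem (pow_mul_mem_pow I ε hε m _))
  refine ⟨L, fun i => ?_⟩
  obtain ⟨N, hN⟩ := hopen i
  have h1 : L - ∑ j ∈ range (max N i), ε ^ j * x j ∈ Ideal.span {ε ^ i} := by
    apply hN
    have := hL (max N i)
    rw [smodEq_pow_iff] at this
    have h2 : I ^ (max N i) ≤ I ^ N := Ideal.pow_le_pow_right (le_max_left N i)
    rw [← neg_sub]
    exact (I ^ N).neg_mem (h2 this)
  obtain ⟨r₁, hr₁⟩ := Ideal.mem_span_singleton'.mp h1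
  have h3 := sum_sub_sum_eq ε x i (max N i) (le_max_right N i)
  refine ⟨r₁ + ∑ j ∈ range (max N i - i), ε ^ j * x (i + j), ?_⟩
  rw [mul_add, ← h3, mul_comm, hr₁]
  ring

end General

section DVR

variable {R : Type*} [CommRing R] [IsDomain R] [IsDiscreteValuationRing R] (ε : R)

theorem exists_pow_le_span (hε0 : ε ≠ 0) (i : ℕ) :
    ∃ N : ℕ, IsLocalRing.maximalIdeal R ^ N ≤ Ideal.span {ε ^ i} := by
  obtain ⟨ϖ, hϖ⟩ := IsDiscreteValuationRing.exists_irreducible R
  have hne : Ideal.span {ε ^ i} ≠ ⊥ := by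
    rw [Ne, Ideal.span_singleton_eq_bot]
    exact pow_ne_zero i hε0
  obtain ⟨N, hN⟩ := IsDiscreteValuationRing.ideal_eq_span_pow_irreducible hne hϖ
  refine ⟨N, ?_⟩
  rw [hN, hϖ.maximalIdeal_eq, Ideal.span_singleton_pow]

theorem finite_quotient_span [Finite (IsLocalRing.ResidueField R)] (a : R) (ha : a ≠ 0) :
    Finite (R ⧸ Ideal.span {a}) := by
  obtain ⟨ϖ, hϖ⟩ := IsDiscreteValuationRing.exists_irreducible R
  have hne : Ideal.span {a} ≠ ⊥ := by
    rw [Ne, Ideal.span_singleton_eq_bot]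
    exact ha
  obtain ⟨N, hN⟩ := IsDiscreteValuationRing.ideal_eq_span_pow_irreducible hne hϖ
  rw [hN, ← Ideal.span_singleton_pow, ← hϖ.maximalIdeal_eq]
  have : Finite (R ⧸ IsLocalRing.maximalIdeal R) := ‹Finite (IsLocalRing.ResidueField R)›
  exact Ideal.finite_quotient_pow (IsNoetherian.noetherian _) N

omit [IsDiscreteValuationRing R] in
theorem mul_eq_zero_imp (hε0 : ε ≠ 0) (x : R) (h : ε * x = 0) : x = 0 :=
  (mul_eq_zero.mp h).resolve_left hε0

end DVR

end Fermat.Agent.CFT.Local.LatticeHelpers
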