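import Mathlib
import Fermat.Agent.CFT.Local.Unramified
import Fermat.Agent.CFT.Local.FrobeniusAdditive
import Fermat.Agent.CFT.Local.LatticeHelpers

/-!
# Units are norms in unramified extensions

(M1)-generic AKLB setting of `Local/Unramified.lean`: `O` a DVR with finite residue field,
`K = Frac O`, `L/K` finite Galois, `B` the integral closure of `O` in `L`, a local domain which is
`𝔪_B`-adically complete, and `L/K` unramified (`hur : IsUnram O B`).

* `unitLattice hur : UnitLattice B` (with `M = ⊤`, `c = 0`, `σ` the Frobenius, `ε` a uniformiser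
  of `O`) and `residueData hur : (unitLattice hur).ResidueData (ResidueField B)`;
* `exists_prod_iterate_eq hur` : every unit of `O` is `∏_{j<n} Frob^j b` for a unit `b` of `B`;
* `exists_unit_norm_eq hur` : every unit of `O` is the norm of a unit of `B`.
-/

set_option autoImplicit false
set_option linter.unusedSectionVars false

namespace Fermat.Agent.CFT.Local.UnramifiedInst

open IsLocalRing Module Finset Fermat.Agent.CFT.Local.Unramified
  Fermat.Agent.CFT.Local.FrobeniusAdditive Fermat.Agent.CFT.Local.LatticeHelpers

variable (O K B L : Type*) [CommRing O] [IsDomain O] [IsDiscreteValuationRing O]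
  [Field K] [Algebra O K] [IsFractionRing O K]
  [CommRing B] [IsDomain B] [IsLocalRing B]
  [Field L] [Algebra B L] [IsFractionRing B L]
  [Algebra O B] [Algebra K L] [Algebra O L] [IsScalarTower O B L] [IsScalarTower O K L]
  [IsIntegralClosure B O L] [FiniteDimensional K L] [IsLocalHom (algebraMap O B)]
  [IsGalois K L] [Finite (ResidueField O)]

/-- A chosen uniformiser of `O`. -/
noncomputable def unif : O := (IsDiscreteValuationRing.exists_irreducible O).choose

theorem unif_irreducible : Irreducible (unif O) :=
  (IsDiscreteValuationRing.exists_irreducible O).choose_spec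

/-- Its image in `B`. -/
noncomputable def eps : B := algebraMap O B (unif O)

variable {O K B L}

/-- The Frobenius as a ring endomorphism of `B`. -/
noncomputable def frobB (hur : IsUnram O B) : B →+* B :=
  ((galRestrict O K L B (frob O K B L hur) : B ≃ₐ[O] B) : B →+* B)

theorem frobB_apply (hur : IsUnram O B) (b : B) :
    frobB (K := K) (L := L) hur b = galRestrict O K L B (frob O K B L hur) b := rfl

theorem algebraMap_frobB (hur : IsUnram O B) (b : B) :
    algebraMap B L (frobB (K := K) (L := L) hur b) = frob O K B L hur (algebraMap B L b) :=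
  algebraMap_galRestrict _ b

theorem frobB_iterate (hur : IsUnram O B) (j : ℕ) (b : B) :
    (frobB (K := K) (L := L) hur)^[j] b
      = galRestrict O K L B (frob O K B L hur ^ j) b := by
  rw [map_pow, AlgEquiv.coe_pow]
  rfl

theorem algebraMap_frobB_iterate (hur : IsUnram O B) (j : ℕ) (b : B) :
    algebraMap B L ((frobB (K := K) (L := L) hur)^[j] b)
      = (frob O K B L hur ^ j) (algebraMap B L b) := by
  rw [frobB_iterate, algebraMap_galRestrict]

theorem frobB_iterate_finrank (hur : IsUnram O B) (b : B) :
    (frobB (K := K) (L := L) hur)^[finrank K L] b = b := by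
  rw [frobB_iterate, ← orderOf_frob hur, pow_orderOf_eq_one, map_one]
  rfl

include K L in
theorem eps_mem (hur : IsUnram O B) : eps O B ∈ maximalIdeal B := by
  rw [hur.maximalIdeal_eq_span (unif_irreducible O)]
  exact Ideal.mem_span_singleton_self _

include K L in
theorem eps_ne_zero : eps O B ≠ 0 := by
  have := faithfulSMul_of_aklb O K B L
  intro h
  have h0 : algebraMap O B (unif O) = algebraMap O B 0 := by rw [map_zero]; exact h
  exact (unif_irreducible O).ne_zero (FaithfulSMul.algebraMap_injective O B h0)

theorem maximalIdeal_eq (hur : IsUnram O B) : maximalIdeal B = Ideal.span {eps O B} :=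
  hur.maximalIdeal_eq_span (unif_irreducible O)

theorem exists_eq_eps_mul (hur : IsUnram O B) (x : B) (hx : residue B x = 0) :
    ∃ y, x = eps O B * y := by
  rw [residue_eq_zero_iff, maximalIdeal_eq hur, Ideal.mem_span_singleton'] at hx
  obtain ⟨a, ha⟩ := hx
  exact ⟨a, by rw [← ha, mul_comm]⟩

/-- the Frobenius of the residue field, as a ring endomorphism -/
noncomputable def frobRes (hur : IsUnram O B) : ResidueField B →+* ResidueField B :=
  ((resHom O K B L (frob O K B L hur) : ResidueField B ≃ₐ[ResidueField O] ResidueField B) :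
    ResidueField B →+* ResidueField B)

theorem frobRes_apply (hur : IsUnram O B) (z : ResidueField B) :
    frobRes (K := K) (L := L) hur z = z ^ Nat.card (ResidueField O) :=
  resHom_frob hur z

theorem frobRes_residue (hur : IsUnram O B) (b : B) :
    residue B (frobB (K := K) (L := L) hur b) = frobRes (K := K) (L := L) hur (residue B b) :=
  (resHom_residue (frob O K B L hur) b).symm

theorem residue_iterate (hur : IsUnram O B) (j : ℕ) (b : B) :
    residue B ((frobB (K := K) (L := L) hur)^[j] b)
      = (frobRes (K := K) (L := L) hur)^[j] (residue B b) := by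
  induction j with
  | zero => rfl
  | succ j ih =>
    rw [Function.iterate_succ_apply', Function.iterate_succ_apply', frobRes_residue, ih]

include K L in
theorem card_residueField (hur : IsUnram O B) :
    Nat.card (ResidueField B) = Nat.card (ResidueField O) ^ finrank K L := by
  have := finite_of_aklb O K B L
  have hfin : Finite (ResidueField B) := ResidueField.finite_of_finite ‹_›
  have : Module.Finite (ResidueField O) (ResidueField B) := Module.Finite.of_finite
  rw [Module.natCard_eq_pow_finrank (K := ResidueField O) (V := ResidueField B),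
    hur.finrank_residueField_eq (K := K) (L := L)]

theorem one_lt_card_residueField : 1 < Nat.card (ResidueField O) := Finite.one_lt_card

section Lattice

variable [IsAdicComplete (maximalIdeal B) B]

/-- trace surjectivity modulo `ε` -/
theorem a0_aux (hur : IsUnram O B) (x : B) (hx : frobB (K := K) (L := L) hur x = x) :
    ∃ y μ : B, x - ∑ j ∈ range (finrank K L), (frobB (K := K) (L := L) hur)^[j] y
      = eps O B * μ := by
  have := finite_of_aklb O K B L
  have hfin : Finite (ResidueField B) := ResidueField.finite_of_finite ‹_›
  have hfix : frobRes (K := K) (L := L) hur (residue B x) = residue B x := by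
    rw [← frobRes_residue, hx]
  obtain ⟨w, hw⟩ := frobenius_a0 (Nat.card (ResidueField O)) (finrank K L)
    one_lt_card_residueField finrank_pos (card_residueField (K := K) (L := L) hur)
    (frobRes (K := K) (L := L) hur) (frobRes_apply hur) (residue B x) hfix
  obtain ⟨y, rfl⟩ := residue_surjective w
  have h0 : residue B (x - ∑ j ∈ range (finrank K L), (frobB (K := K) (L := L) hur)^[j] y) = 0 := by
    rw [map_sub, map_sum, ← hw, sub_eq_zero]
    exact Finset.sum_congr rfl fun j _ => (residue_iterate hur j y).symm
  obtain ⟨μ, hμ⟩ := exists_eq_eps_mul hur _ h0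
  exact ⟨y, μ, hμ⟩

/-- additive Hilbert 90 modulo `ε` -/
theorem a1_aux (hur : IsUnram O B) (x : B)
    (hx : ∃ μ : B, ∑ j ∈ range (finrank K L), (frobB (K := K) (L := L) hur)^[j] x = eps O B * μ) :
    ∃ y μ : B, x - (frobB (K := K) (L := L) hur y - y) = eps O B * μ := by
  have := finite_of_aklb O K B L
  have hfin : Finite (ResidueField B) := ResidueField.finite_of_finite ‹_›
  obtain ⟨μ, hμ⟩ := hx
  have hT : ∑ j ∈ range (finrank K L), (frobRes (K := K) (L := L) hur)^[j] (residue B x) = 0 := by
    have h1 := congrArg (residue B) hμ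
    rw [map_sum, map_mul] at h1
    have h2 : residue B (eps O B) = 0 := by
      rw [residue_eq_zero_iff]
      exact eps_mem (K := K) (L := L) hur
    rw [h2, zero_mul] at h1
    rw [← h1]
    exact Finset.sum_congr rfl fun j _ => (residue_iterate hur j x).symm
  obtain ⟨w, hw⟩ := frobenius_a1 (Nat.card (ResidueField O)) (finrank K L)
    one_lt_card_residueField finrank_pos (card_residueField (K := K) (L := L) hur)
    (frobRes (K := K) (L := L) hur) (frobRes_apply hur) (residue B x) hT
  obtain ⟨y, rfl⟩ := residue_surjective w
  have h0 : residue B (x - (frobB (K := K) (L := L) hur y - y)) = 0 := by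
    rw [map_sub, map_sub, frobRes_residue, hw, sub_self]
  obtain ⟨μ', hμ'⟩ := exists_eq_eps_mul hur _ h0
  exact ⟨y, μ', hμ'⟩

/-- **The unit lattice of an unramified extension**: `M = B`, `c = 0`. -/
noncomputable def unitLattice (hur : IsUnram O B) : UnitLattice B where
  σ := frobB (K := K) (L := L) hur
  n := finrank K L
  hσ := frobB_iterate_finrank hur
  ε := eps O B
  hσε := by
    rw [frobB_apply, eps]
    exact (galRestrict O K L B (frob O K B L hur)).commutes _
  hε := fun x h => (mul_eq_zero.mp h).resolve_left (eps_ne_zero (K := K) (L := L))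
  hunit := isUnit_one_add_mul (maximalIdeal B) (eps O B) (eps_mem (K := K) (L := L) hur)
  M := ⊤
  hσM := fun _ _ => AddSubgroup.mem_top _
  hεM := fun _ _ => AddSubgroup.mem_top _
  c := 0
  hc := fun _ => AddSubgroup.mem_top _
  sepR := sepR_of_isHausdorff (maximalIdeal B) (eps O B) (eps_mem (K := K) (L := L) hur)
  compl := by
    intro x _
    obtain ⟨y, hy⟩ := complR_of_isPrecomplete (maximalIdeal B) (eps O B)
      (eps_mem (K := K) (L := L) hur) (by
        intro i
        refine ⟨i, ?_⟩
        rw [maximalIdeal_eq hur, Ideal.span_singleton_pow]) x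
    refine ⟨y, AddSubgroup.mem_top _, fun i => ?_⟩
    obtain ⟨r, hr⟩ := hy i
    exact ⟨r, AddSubgroup.mem_top _, hr⟩
  a0 := by
    intro x _ hx
    obtain ⟨y, μ, h⟩ := a0_aux hur x hx
    exact ⟨y, AddSubgroup.mem_top _, μ, AddSubgroup.mem_top _, h⟩
  a1 := by
    rintro x _ ⟨μ, _, hμ⟩
    obtain ⟨y, μ', h⟩ := a1_aux hur x ⟨μ, hμ⟩
    exact ⟨y, AddSubgroup.mem_top _, μ', AddSubgroup.mem_top _, h⟩

/-- **The residue data of an unramified extension.** -/
noncomputable def residueData (hur : IsUnram O B) :
    (unitLattice (K := K) (L := L) hur).ResidueData (ResidueField B) :=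
  haveI := finite_of_aklb O K B L
  haveI hfin : Finite (ResidueField B) := ResidueField.finite_of_finite ‹_›
  UnitLattice.ResidueData.ofFrobenius (unitLattice (K := K) (L := L) hur) rfl (residue B)
    residue_surjective (exists_eq_eps_mul hur) (frobRes (K := K) (L := L) hur)
    (frobRes_residue hur) (Nat.card (ResidueField O)) one_lt_card_residueField
    (card_residueField (K := K) (L := L) hur) (frobRes_apply hur)

/-- **Units of `O` are norms of units of `B`**, cyclic-product form. -/
theorem exists_prod_iterate_eq (hur : IsUnram O B) (u : Bˣ)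
    (hu : frobB (K := K) (L := L) hur (u : B) = u) :
    ∃ b : Bˣ, ∏ j ∈ range (finrank K L), (frobB (K := K) (L := L) hur)^[j] (b : B) = (u : B) := by
  obtain ⟨b, hb⟩ := (residueData (K := K) (L := L) hur).exists_norm_eq u (Units.ext hu)
  refine ⟨b, ?_⟩
  have := congrArg (fun x : Bˣ => (x : B)) hb
  simp only [UnitLattice.coe_NU] at this
  exact this

end Lattice

/-! ### The field norm of a cyclic extension as a cyclic product -/

section CyclicNorm

variable {K' L' : Type*} [Field K'] [Field L'] [Algebra K' L'] [FiniteDimensional K' L']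
  [IsGalois K' L']

/-- For a cyclic Galois extension with generator `σ` of order `n`: `N(x) = ∏_{j<n} σ^j x`. -/
theorem algebraMap_norm_eq_prod_pow (σ : L' ≃ₐ[K'] L') (n : ℕ) (hord : orderOf σ = n)
    (hgen : ∀ g : L' ≃ₐ[K'] L', g ∈ Subgroup.zpowers σ) (x : L') :
    algebraMap K' L' (Algebra.norm K' x) = ∏ j ∈ range n, (σ ^ j) x := by
  classical
  rw [Algebra.norm_eq_prod_automorphisms]
  symm
  refine Finset.prod_bij (fun j _ => σ ^ j) (fun _ _ => Finset.mem_univ _) ?_ ?_ (fun _ _ => rfl)
  · intro i hi j hj hij
    have hi' : i < orderOf σ := by rw [hord]; exact Finset.mem_range.1 hi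
    have hj' : j < orderOf σ := by rw [hord]; exact Finset.mem_range.1 hj
    exact pow_injOn_Iio_orderOf hi' hj' hij
  · intro g _
    have hg := (mem_zpowers_iff_mem_range_orderOf (x := σ) (y := g)).1 (hgen g)
    rw [Finset.mem_image] at hg
    obtain ⟨i, hi, hig⟩ := hg
    rw [hord] at hi
    exact ⟨i, hi, hig⟩

end CyclicNorm

section FieldNorm

variable [IsAdicComplete (maximalIdeal B) B]

/-- `N_{L/K}` of (the image of) `b : B` is the cyclic product over the powers of Frobenius. -/
theorem algebraMap_norm_eq (hur : IsUnram O B) (b : B) :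
    algebraMap K L (Algebra.norm K (algebraMap B L b))
      = algebraMap B L (∏ j ∈ range (finrank K L), (frobB (K := K) (L := L) hur)^[j] b) := by
  rw [algebraMap_norm_eq_prod_pow (frob O K B L hur) (finrank K L) (orderOf_frob hur)
    (fun g => by rw [zpowers_frob hur]; exact Subgroup.mem_top g), map_prod]
  exact Finset.prod_congr rfl fun j _ => (algebraMap_frobB_iterate hur j b).symm

/-- **Units of `O` are norms of units of `B`** (`L/K` unramified). -/
theorem exists_unit_norm_eq (hur : IsUnram O B) (u : Oˣ) :
    ∃ b : Bˣ, Algebra.norm K (algebraMap B L (b : B)) = algebraMap O K (u : O) := by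
  have hu : frobB (K := K) (L := L) hur ((Units.map (algebraMap O B : O →* B) u : Bˣ) : B)
      = (Units.map (algebraMap O B : O →* B) u : Bˣ) := by
    rw [frobB_apply]
    exact (galRestrict O K L B (frob O K B L hur)).commutes _
  obtain ⟨b, hb⟩ := exists_prod_iterate_eq (K := K) (L := L) hur _ hu
  refine ⟨b, ?_⟩
  apply FaithfulSMul.algebraMap_injective K L
  rw [algebraMap_norm_eq hur, hb, ← IsScalarTower.algebraMap_apply O K L]
  exact (IsScalarTower.algebraMap_apply O B L _).symm

end FieldNorm

end Fermat.Agent.CFT.Local.UnramifiedInst
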