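import Mathlib
import Fermat.Agent.CFT.Local.UnramifiedNorm
import Fermat.Agent.CFT.Local.UnramifiedField
import Fermat.Agent.CFT.Local.PowIndex

/-!
# The local invariant of an unramified extension, (M1) AKLB form

For `O ⊆ B` discrete valuation rings with fraction fields `K ⊆ L`, `L/K` finite Galois,
`B` the integral closure of `O` in `L`, complete, finite residue field and `L/K` unramified:

* `unramFieldData hur : UnramFieldData K L (frob O K B L hur) (finrank K L)`;
* `invUnram hur : H²(Gal(L/K), Lˣ) ≃+ ZMod [L:K]`.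
-/

set_option autoImplicit false
set_option linter.unusedSectionVars false

namespace Fermat.Agent.CFT.Local.UnramifiedInst

open IsLocalRing Module Finset Fermat.Agent.CFT.Local.Unramified
  Fermat.Agent.CFT.Local.PowIndex Fermat.Agent.CFT.Local.UnramifiedField

/-! ### Generic facts on the normalised valuation of a DVR -/

section DVR

open scoped WithZero

variable (A : Type*) [CommRing A] [IsDomain A] [IsDiscreteValuationRing A]
  (F : Type*) [Field F] [Algebra A F] [IsFractionRing A F]

/-- the image of a nonzero element of `A` in `Fˣ` -/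
noncomputable def toUnitF (a : A) (ha : a ≠ 0) : Fˣ :=
  Units.mk0 (algebraMap A F a) (by
    intro h
    exact ha (IsFractionRing.injective A F (by rw [h, map_zero])))

theorem coe_toUnitF (a : A) (ha : a ≠ 0) : ((toUnitF A F a ha : Fˣ) : F) = algebraMap A F a := rfl

/-- a generator of the maximal ideal has valuation `ofAdd (-1)` -/
theorem ordHom_toUnitF_of_span (ϖ : A) (hϖ0 : ϖ ≠ 0) (hϖ : maximalIdeal A = Ideal.span {ϖ}) :
    ordHom A F (toUnitF A F ϖ hϖ0) = Multiplicative.ofAdd (-1 : ℤ) := by
  apply WithZero.coe_injective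
  rw [coe_ordHom, coe_toUnitF, IsDedekindDomain.HeightOneSpectrum.valuation_of_algebraMap]
  exact IsDedekindDomain.HeightOneSpectrum.intValuation_singleton _ hϖ0 hϖ

theorem ordHom_unitsMap (w : Aˣ) : ordHom A F (Units.map (algebraMap A F : A →* F) w) = 1 := by
  have : Units.map (algebraMap A F : A →* F) w ∈ (ordHom A F).ker := by
    rw [← range_unitsMap]
    exact ⟨w, rfl⟩
  exact this

/-- every element of `Fˣ` is a power of the uniformiser times a unit of `A` -/
theorem exists_zpow_mul_unit (ϖ : A) (hϖ0 : ϖ ≠ 0) (hϖ : maximalIdeal A = Ideal.span {ϖ})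
    (x : Fˣ) : ∃ (k : ℤ) (w : Aˣ),
      x = toUnitF A F ϖ hϖ0 ^ k * Units.map (algebraMap A F : A →* F) w := by
  set k : ℤ := -(Multiplicative.toAdd (ordHom A F x)) with hk
  have h1 : ordHom A F (x / toUnitF A F ϖ hϖ0 ^ k) = 1 := by
    rw [map_div, map_zpow, ordHom_toUnitF_of_span A F ϖ hϖ0 hϖ, div_eq_one, hk]
    apply Multiplicative.toAdd.injective
    rw [toAdd_zpow, toAdd_ofAdd]
    simp
  have h2 : x / toUnitF A F ϖ hϖ0 ^ k ∈ (ordHom A F).ker := h1
  rw [← range_unitsMap] at h2
  obtain ⟨w, hw⟩ := h2
  exact ⟨k, w, by rw [hw]; simp⟩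

theorem ordHom_zpow_mul_unit (ϖ : A) (hϖ0 : ϖ ≠ 0) (hϖ : maximalIdeal A = Ideal.span {ϖ})
    (k : ℤ) (w : Aˣ) :
    ordHom A F (toUnitF A F ϖ hϖ0 ^ k * Units.map (algebraMap A F : A →* F) w)
      = Multiplicative.ofAdd (-k) := by
  rw [map_mul, map_zpow, ordHom_toUnitF_of_span A F ϖ hϖ0 hϖ, ordHom_unitsMap, mul_one,
    ← ofAdd_zsmul]
  simp

end DVR

/-! ### The field data of an unramified extension -/

section AKLB

variable (O : Type*) (K : Type) (B : Type*) (L : Type)
  [CommRing O] [IsDomain O] [IsDiscreteValuationRing O]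
  [Field K] [Algebra O K] [IsFractionRing O K]
  [CommRing B] [IsDomain B] [IsDiscreteValuationRing B]
  [Field L] [Algebra B L] [IsFractionRing B L]
  [Algebra O B] [Algebra K L] [Algebra O L] [IsScalarTower O B L] [IsScalarTower O K L]
  [IsIntegralClosure B O L] [FiniteDimensional K L] [IsLocalHom (algebraMap O B)]
  [IsGalois K L] [Finite (ResidueField O)]

/-- The normalised valuation of `L`, with uniformisers of valuation `ofAdd 1`. -/
noncomputable def vL : Lˣ →* Multiplicative ℤ := (ordHom B L)⁻¹

theorem vL_apply (x : Lˣ) : vL B L x = (ordHom B L x)⁻¹ := rfl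

/-- the chosen uniformiser of `O`, in `Kˣ` -/
noncomputable def piK : Kˣ := toUnitF O K (unif O) (unif_irreducible O).ne_zero

/-- its image in `Lˣ` -/
noncomputable def epsL : Lˣ := toUnitF B L (eps O B) (eps_ne_zero (K := K) (L := L))

theorem map_piK : Units.map (algebraMap K L : K →* L) (piK O K) = epsL O K B L := by
  ext
  change algebraMap K L (algebraMap O K (unif O)) = algebraMap B L (algebraMap O B (unif O))
  rw [← IsScalarTower.algebraMap_apply O K L, ← IsScalarTower.algebraMap_apply O B L]

theorem map_unitsMap (o : Oˣ) :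
    Units.map (algebraMap K L : K →* L) (Units.map (algebraMap O K : O →* K) o)
      = Units.map (algebraMap B L : B →* L) (Units.map (algebraMap O B : O →* B) o) := by
  ext
  change algebraMap K L (algebraMap O K (o : O)) = algebraMap B L (algebraMap O B (o : O))
  rw [← IsScalarTower.algebraMap_apply O K L, ← IsScalarTower.algebraMap_apply O B L]

variable {O K B L}

theorem vL_epsL (hur : IsUnram O B) : vL B L (epsL O K B L) = Multiplicative.ofAdd (1 : ℤ) := by
  rw [vL_apply, epsL, ordHom_toUnitF_of_span B L _ _ (maximalIdeal_eq hur)]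
  rfl

theorem vL_zpow_mul_unit (hur : IsUnram O B) (k : ℤ) (w : Bˣ) :
    vL B L (epsL O K B L ^ k * Units.map (algebraMap B L : B →* L) w)
      = Multiplicative.ofAdd k := by
  rw [vL_apply, epsL, ordHom_zpow_mul_unit B L _ _ (maximalIdeal_eq hur), ← ofAdd_neg, neg_neg]

theorem smul_epsL (g : L ≃ₐ[K] L) :
    Units.map (g : L →* L) (epsL O K B L) = epsL O K B L := by
  rw [← map_piK O K B L]
  ext
  simp

theorem smul_unitsMap (g : L ≃ₐ[K] L) (w : Bˣ) :
    Units.map (g : L →* L) (Units.map (algebraMap B L : B →* L) w)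
      = Units.map (algebraMap B L : B →* L)
          (Units.map ((galRestrict O K L B g : B ≃ₐ[O] B) : B →* B) w) := by
  ext
  exact (algebraMap_galRestrict g (w : B)).symm

/-- The valuation of `L` is Galois invariant. -/
theorem vL_smul (hur : IsUnram O B) (g : L ≃ₐ[K] L) (x : Lˣ) :
    vL B L (Units.map (g : L →* L) x) = vL B L x := by
  obtain ⟨k, w, rfl⟩ := exists_zpow_mul_unit B L (eps O B) (eps_ne_zero (K := K) (L := L))
    (maximalIdeal_eq hur) x
  change vL B L (Units.map (g : L →* L) (epsL O K B L ^ k * _)) = vL B L (epsL O K B L ^ k * _)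
  rw [map_mul, map_zpow, smul_epsL, smul_unitsMap (O := O), vL_zpow_mul_unit hur,
    vL_zpow_mul_unit hur]

variable [IsAdicComplete (maximalIdeal B) B]

/-- **Units of `K` are norms from `L`** (`L/K` unramified). -/
theorem exists_norm_eq_of_vL_eq_one (hur : IsUnram O B) (u : Kˣ)
    (hu : vL B L (Units.map (algebraMap K L : K →* L) u) = 1) :
    ∃ b : Lˣ, Algebra.norm K (b : L) = (u : K) := by
  obtain ⟨k, o, rfl⟩ := exists_zpow_mul_unit O K (unif O) (unif_irreducible O).ne_zero
    (unif_irreducible O).maximalIdeal_eq u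
  have hk : k = 0 := by
    change vL B L (Units.map (algebraMap K L : K →* L) (piK O K ^ k * _)) = 1 at hu
    rw [map_mul, map_zpow, map_piK O K B L, map_unitsMap O K B L, vL_zpow_mul_unit hur] at hu
    exact hu
  subst hk
  obtain ⟨b, hb⟩ := exists_unit_norm_eq (K := K) (L := L) hur o
  refine ⟨Units.map (algebraMap B L : B →* L) b, ?_⟩
  rw [zpow_zero, one_mul]
  exact hb

/-- **The field data of an unramified extension.** -/
noncomputable def unramFieldData (hur : IsUnram O B) :
    UnramFieldData K L (frob O K B L hur) (finrank K L) where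
  hord := orderOf_frob hur
  hn := finrank_pos
  hgen := fun g => by rw [zpowers_frob hur]; exact Subgroup.mem_top g
  v := vL B L
  v_σ := vL_smul hur _
  π := piK O K
  v_π := by rw [map_piK O K B L, vL_epsL hur]
  V0 := exists_norm_eq_of_vL_eq_one hur

theorem unramFieldData_v (hur : IsUnram O B) :
    (unramFieldData (K := K) (L := L) hur).v = vL B L := rfl

theorem unramFieldData_π (hur : IsUnram O B) :
    (unramFieldData (K := K) (L := L) hur).π = piK O K := rfl

/-- **The invariant isomorphism of an unramified extension**: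
`H²(Gal(L/K), Lˣ) ≃+ ℤ/[L:K]`. -/
noncomputable def invUnram (hur : IsUnram O B) :
    groupCohomology.H2 (Rep.ofAlgebraAutOnUnits K L) ≃+ ZMod (finrank K L) :=
  (unramFieldData hur).invEquiv

/-- The `ℚ/ℤ`-valued invariant of an unramified extension. -/
noncomputable def invQUnram (hur : IsUnram O B) :
    groupCohomology.H2 (Rep.ofAlgebraAutOnUnits K L) →+ AddCircle (1 : ℚ) :=
  (unramFieldData hur).invQ

/-- **Unramified symbol formula**: the invariant of the cyclic class `(Frob, a)`, `a ∈ Kˣ`, is the
normalised valuation of `a` modulo `[L:K]`. -/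
theorem invUnram_symbol (hur : IsUnram O B) (a : Kˣ) :
    invUnram hur ((unramFieldData hur).symbol a)
      = (((vL B L (Units.map (algebraMap K L : K →* L) a)).toAdd : ℤ) : ZMod (finrank K L)) :=
  (unramFieldData hur).invEquiv_symbol a

include O B in
theorem card_H2_of_isUnram (hur : IsUnram O B) :
    Nat.card (groupCohomology.H2 (Rep.ofAlgebraAutOnUnits K L)) = finrank K L :=
  (unramFieldData hur).card_H2

end AKLB

end Fermat.Agent.CFT.Local.UnramifiedInst
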