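import Mathlib
import Fermat.Agent.CFT.Local.TowerInst
import Fermat.Agent.CFT.Local.UnramifiedInstance

/-!
# The local invariant of an unramified extension of `q`-adic fields, concrete model (M2)

For `q`-adic local fields `K ⊆ L` (finite over `ℚ_[q]`), `L/K` Galois and unramified
(`IsUnram (𝒪 q K) (𝒪 q L)`): the field data `unramFieldData`, the invariant
`invUnram : H²(Gal(L/K), Lˣ) ≃+ ZMod [L:K]`, and the identification of the valuation used there
with `Model.ord q L`.
-/

set_option autoImplicit false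
set_option linter.unusedSectionVars false

namespace Fermat.Agent.CFT.Local.UnramifiedInvM2

open Fermat.Agent.CFT.Local Fermat.Agent.CFT.Local.Model Fermat.Agent.CFT.Local.Unramified
  Fermat.Agent.CFT.Local.UnramifiedInst Fermat.Agent.CFT.Local.UnramifiedField
  Fermat.Agent.CFT.Local.PowIndex Module
open scoped Fermat.Agent.CFT.Local.TowerInst

section Ord

variable (q : ℕ) [Fact q.Prime] (K : Type) [Field K] [Algebra ℚ_[q] K] [FiniteDimensional ℚ_[q] K]

theorem toUnitF_ϖ : toUnitF ↥(𝒪 q K) K (ϖ q K) (ϖ_ne_zero q K) = ϖu q K := by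
  ext
  rfl

theorem ordFun_unitsMap (w : (↥(𝒪 q K))ˣ) :
    ordFun q K (Units.map (algebraMap ↥(𝒪 q K) K : ↥(𝒪 q K) →* K) w) = 0 := by
  rw [← nrm_eq_one_iff_ordFun]
  exact (isUnit_iff_nrm_eq_one q K (w : ↥(𝒪 q K))).1 w.isUnit

/-- The valuation `vL` of the (M1) instance is helper21's `Model.ord`. -/
theorem vL_eq_ord (x : Kˣ) : vL ↥(𝒪 q K) K x = Model.ord q K x := by
  obtain ⟨k, w, rfl⟩ := exists_zpow_mul_unit ↥(𝒪 q K) K (ϖ q K) (ϖ_ne_zero q K)
    (maximalIdeal_eq_span_ϖ q K) x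
  rw [vL_apply, ordHom_zpow_mul_unit ↥(𝒪 q K) K _ _ (maximalIdeal_eq_span_ϖ q K), ← ofAdd_neg,
    neg_neg, ord_apply, ordFun_mul, ordFun_zpow, toUnitF_ϖ, ordFun_ϖu, ordFun_unitsMap, mul_one,
    add_zero]

theorem toAdd_vL (x : Kˣ) : (vL ↥(𝒪 q K) K x).toAdd = ordFun q K x := by
  rw [vL_eq_ord, ord_apply, toAdd_ofAdd]

end Ord

section Main

variable (q : ℕ) [Fact q.Prime] (K L : Type) [Field K] [Field L] [Algebra K L]
  [Algebra ℚ_[q] K] [Algebra ℚ_[q] L] [IsScalarTower ℚ_[q] K L]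
  [FiniteDimensional ℚ_[q] K] [FiniteDimensional ℚ_[q] L] [IsGalois K L]

/-- **The field data of an unramified extension of `q`-adic fields.** -/
noncomputable def unramFieldData (hur : IsUnram ↥(𝒪 q K) ↥(𝒪 q L)) :
    haveI := TowerInst.finiteDimensional_top q K L
    UnramFieldData K L (frob ↥(𝒪 q K) K ↥(𝒪 q L) L hur) (finrank K L) :=
  haveI := TowerInst.finiteDimensional_top q K L
  UnramifiedInst.unramFieldData hur

/-- **The invariant isomorphism** `H²(Gal(L/K), Lˣ) ≃+ ℤ/[L:K]` of an unramified extension of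
`q`-adic fields. -/
noncomputable def invUnram (hur : IsUnram ↥(𝒪 q K) ↥(𝒪 q L)) :
    groupCohomology.H2 (Rep.ofAlgebraAutOnUnits K L) ≃+ ZMod (finrank K L) :=
  haveI := TowerInst.finiteDimensional_top q K L
  UnramifiedInst.invUnram hur

/-- The `ℚ/ℤ`-valued invariant. -/
noncomputable def invQUnram (hur : IsUnram ↥(𝒪 q K) ↥(𝒪 q L)) :
    groupCohomology.H2 (Rep.ofAlgebraAutOnUnits K L) →+ AddCircle (1 : ℚ) :=
  haveI := TowerInst.finiteDimensional_top q K L
  UnramifiedInst.invQUnram hur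

theorem unramFieldData_v_apply (hur : IsUnram ↥(𝒪 q K) ↥(𝒪 q L)) (x : Lˣ) :
    (unramFieldData q K L hur).v x = Model.ord q L x :=
  vL_eq_ord q L x

/-- **Units of `K` are norms from `L`** for an unramified extension of `q`-adic fields. -/
theorem exists_norm_eq_of_ordFun_eq_zero (hur : IsUnram ↥(𝒪 q K) ↥(𝒪 q L)) (u : Kˣ)
    (hu : ordFun q K u = 0) : ∃ b : Lˣ, Algebra.norm K (b : L) = (u : K) := by
  have := TowerInst.finiteDimensional_top q K L
  refine exists_norm_eq_of_vL_eq_one hur u ?_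
  rw [vL_eq_ord, ord_apply, TowerInst.ordFun_map, hu, mul_zero]
  rfl

end Main

end Fermat.Agent.CFT.Local.UnramifiedInvM2
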