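import Mathlib
import Fermat.Agent.CFT.Local.NormalBasisLattice
import Fermat.Agent.CFT.Local.NormIndex

/-
Project C, Layer B2 (field level): the local norm index theorem for cyclic extensions, from the
abstract data `CyclicLocalData` (to be supplied by Layer B1):
`h(Lˣ) = n`, and with Hilbert 90, `[Kˣ : N Lˣ] = n`.
-/

set_option autoImplicit false

namespace Fermat.Agent.CFT.Local

open Fermat.Agent.CFT.Herbrand Fermat.Agent.CFT.Local.CyclicVanish
  Fermat.Agent.CFT.Local.NormIndex Finset

/-- Everything the proof of the local norm index theorem uses about a cyclic extension `L/K` of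
local fields with rings of integers `B/O`. -/
structure CyclicLocalData (K L O B : Type*) [Field K] [Field L] [Algebra K L]
    [CommRing O] [CommRing B] [Algebra O B] [Algebra B L] where
  /-- the normal basis lattice in the ring of integers of `L` -/
  N : NormalBasisData O B
  /-- the generator of the Galois group -/
  g : L ≃ₐ[K] L
  hg : ∀ x : L, g^[N.k + 1] x = x
  hcompat : ∀ b : B, algebraMap B L (N.σ b) = g (algebraMap B L b)
  hinj : Function.Injective (algebraMap B L)
  /-- the normalised valuation of `L` -/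
  ord : Lˣ →* Multiplicative ℤ
  hord : Function.Surjective ord
  hordg : ∀ u : Lˣ, ord (Units.map (g : L →* L) u) = ord u
  hker : ∀ u : Lˣ, ord u = 1 ↔ ∃ b : Bˣ, algebraMap B L (b : B) = (u : L)
  hfin : Finite (B ⧸ Ideal.span {N.ε ^ (N.c + 1 + N.c)})

namespace CyclicLocalData

variable {K L O B : Type*} [Field K] [Field L] [Algebra K L]
  [CommRing O] [CommRing B] [Algebra O B] [Algebra B L] (C : CyclicLocalData K L O B)

/-- the degree -/
def n : ℕ := C.N.k + 1

/-- the action of the generator on `Lˣ` -/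
def gU : Lˣ →* Lˣ := Units.map (C.g : L →* L)

/-- the action of the generator on `Additive Lˣ` -/
def σL : Additive Lˣ →+ Additive Lˣ := MonoidHom.toAdditive C.gU

/-- the inclusion of the units of the ring of integers -/
def φ (_C : CyclicLocalData K L O B) : Bˣ →* Lˣ := Units.map (algebraMap B L : B →* L)

theorem coe_gU_iter (j : ℕ) (u : Lˣ) : ((C.gU^[j] u : Lˣ) : L) = C.g^[j] (u : L) := by
  induction j with
  | zero => rfl
  | succ j ih =>
    rw [Function.iterate_succ_apply', Function.iterate_succ_apply', ← ih]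
    rfl

theorem gU_iter_n (u : Lˣ) : C.gU^[C.n] u = u :=
  Units.ext (by rw [coe_gU_iter]; exact C.hg _)

theorem φ_injective : Function.Injective C.φ := by
  intro a b hab
  apply Units.ext
  apply C.hinj
  exact congrArg Units.val hab

theorem φ_range : C.φ.range = C.ord.ker := by
  ext u
  rw [MonoidHom.mem_ker, C.hker u]
  constructor
  · rintro ⟨b, rfl⟩
    exact ⟨b, rfl⟩
  · rintro ⟨b, hb⟩
    exact ⟨b, Units.ext hb⟩

theorem φ_σ (u : Bˣ) : C.φ (C.N.toUnitLattice.σU u) = C.gU (C.φ u) :=
  Units.ext (C.hcompat u)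

/-- **`h(Lˣ) = n`**: the Herbrand quotient of the multiplicative group of a cyclic extension of
local fields of degree `n`. -/
theorem hcyc_mult :
    IsDefined (delta C.σL) (nrm C.σL C.n) ∧ hcyc C.σL C.n = C.n := by
  obtain ⟨hU, hU1⟩ := C.N.toUnitLattice.hcyc_units C.hfin
  have h := hcyc_of_val C.φ C.ord C.N.toUnitLattice.σU C.gU C.n (Nat.succ_ne_zero _)
    C.φ_injective C.hord C.φ_range C.φ_σ C.hordg C.gU_iter_n hU
  refine ⟨h.1, ?_⟩
  have h2 := h.2
  have h3 : hcyc (MonoidHom.toAdditive C.N.toUnitLattice.σU) C.n = 1 := hU1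
  rw [h3, one_mul] at h2
  exact h2

/-- **The local norm index theorem**, cohomological form: with Hilbert 90 for `Lˣ`,
`|Ĥ⁰(G, Lˣ)| = n` and `H¹(G, Lˣ) = 0`. -/
theorem idx_mult (h90 : ∀ x : Lˣ, (∏ j ∈ range C.n, C.gU^[j] x) = 1 → ∃ y : Lˣ, C.gU y / y = x) :
    idx (delta C.σL) (nrm C.σL C.n) = C.n ∧ idx (nrm C.σL C.n) (delta C.σL) = 1 := by
  have h1 : idx (nrm C.σL C.n) (delta C.σL) = 1 := by
    apply idx_nrm_delta_eq_one
    intro a ha
    have : (∏ j ∈ range C.n, C.gU^[j] (Additive.toMul a)) = 1 := by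
      have := congrArg Additive.toMul ha
      rw [σL, nrm_toAdditive, toMul_ofMul] at this
      exact this
    obtain ⟨y, hy⟩ := h90 _ this
    exact ⟨Additive.ofMul y, congrArg Additive.ofMul hy⟩
  exact ⟨idx_eq_of_hcyc C.σL C.n h1 C.hcyc_mult.2, h1⟩

end CyclicLocalData

end Fermat.Agent.CFT.Local
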