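import Mathlib
import Fermat.Agent.CFT.HerbrandBridge
import Fermat.Agent.CFT.Local.LocalNormIndex

/-
Project C, Layer B2/B3 (cyclic case, `Rep` level): for a cyclic extension `L/K` of local fields of
degree `n` (data `CyclicLocalData`), `#H²(Gal(L/K), Lˣ) = n` on Mathlib's `groupCohomology`
(`H¹ = 0` is Mathlib's Hilbert 90).
-/

set_option autoImplicit false

namespace Fermat.Agent.CFT.Local

open Fermat.Agent.CFT.Herbrand Fermat.Agent.CFT.HerbrandBridge

namespace CyclicLocalData

variable {K L : Type} [Field K] [Field L] [Algebra K L] [FiniteDimensional K L]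
  {O B : Type*} [CommRing O] [CommRing B] [Algebra O B] [Algebra B L]
  (C : CyclicLocalData K L O B)

attribute [local instance] IsCyclic.commGroup

/-- **`#H²(Gal(L/K), Lˣ) = [L : K]`** for a cyclic extension of local fields. -/
theorem card_H2 [IsCyclic (L ≃ₐ[K] L)] (hgen : ∀ x, x ∈ Subgroup.zpowers C.g)
    (hcard : Nat.card (L ≃ₐ[K] L) = C.n) :
    Nat.card (groupCohomology (Rep.ofAlgebraAutOnUnits K L) 2) = C.n := by
  have hsig : sig (Rep.ofAlgebraAutOnUnits K L) C.g = C.σL := rfl
  have hc : Fintype.card (L ≃ₐ[K] L) = C.n := by rw [← Nat.card_eq_fintype_card, hcard]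
  have hq : hcyc (sig (Rep.ofAlgebraAutOnUnits K L) C.g) (Fintype.card (L ≃ₐ[K] L)) = C.n := by
    rw [hsig, hc]
    exact C.hcyc_mult.2
  have h1 : Subsingleton (groupCohomology (Rep.ofAlgebraAutOnUnits K L) 1) :=
    (groupCohomology.H1ofAutOnUnitsUnique K L).instSubsingleton
  exact card_H2_eq_of_hcyc_eq (Rep.ofAlgebraAutOnUnits K L) C.g hgen hq h1

end CyclicLocalData

end Fermat.Agent.CFT.Local
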