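import Mathlib
import Fermat.Agent.CFT.Local.LocalH2Cyclic
import Fermat.Agent.CFT.Local.LatticeHelpers
import Fermat.Agent.CFT.Local.PowIndex
import Fermat.Agent.CFT.Local.Tower

/-
Project C, Layer B2 (generic instance): the `CyclicLocalData` of a cyclic extension `L/K` of
complete discretely valued fields with finite residue fields, presented by discrete valuation rings
`O ⊆ B` (`B` the integral closure of `O` in `L`), from Mathlib's normal basis theorem.
-/

set_option autoImplicit false
set_option linter.unusedSectionVars false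

namespace Fermat.Agent.CFT.Local.CyclicInstance

open IsLocalRing Module IsDedekindDomain WithZero

/-! ### Automorphisms preserve the valuation -/

section Valuation

variable {B : Type*} [CommRing B] [IsDomain B] [IsDiscreteValuationRing B]

theorem intValuation_ringEquiv (e : B ≃+* B) (b : B) :
    (IsDiscreteValuationRing.maximalIdeal B).intValuation (e b) =
      (IsDiscreteValuationRing.maximalIdeal B).intValuation b := by
  set v := IsDiscreteValuationRing.maximalIdeal B with hv
  have hiff : ∀ (x : B) (m : ℕ), v.intValuation (e x) ≤ exp (-(m : ℤ)) ↔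
      v.intValuation x ≤ exp (-(m : ℤ)) := by
    intro x m
    rw [v.intValuation_le_pow_iff_mem, v.intValuation_le_pow_iff_mem]
    exact Tower.ringEquiv_mem_pow_iff e m x
  by_cases hb : b = 0
  · rw [hb, map_zero]
  have heb : e b ≠ 0 := fun h => hb (by simpa using h)
  have h1 := v.intValuation_if_neg hb
  have h2 := v.intValuation_if_neg heb
  apply le_antisymm
  · rw [h1]
    exact (hiff b _).mpr (le_of_eq h1)
  · rw [h2]
    exact (hiff b _).mp (le_of_eq h2)

variable {L : Type*} [Field L] [Algebra B L] [IsFractionRing B L]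

theorem valuation_map_eq (e : B ≃+* B) (τ : L →+* L)
    (hτ : ∀ b : B, τ (algebraMap B L b) = algebraMap B L (e b)) (x : L) :
    (IsDiscreteValuationRing.maximalIdeal B).valuation L (τ x) =
      (IsDiscreteValuationRing.maximalIdeal B).valuation L x := by
  obtain ⟨a, b, -, rfl⟩ := IsFractionRing.div_surjective (A := B) x
  rw [map_div₀, hτ, hτ, map_div₀, map_div₀, HeightOneSpectrum.valuation_of_algebraMap,
    HeightOneSpectrum.valuation_of_algebraMap, HeightOneSpectrum.valuation_of_algebraMap,
    HeightOneSpectrum.valuation_of_algebraMap, intValuation_ringEquiv, intValuation_ringEquiv]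

theorem ordHom_map_eq (e : B ≃+* B) (τ : L ≃+* L)
    (hτ : ∀ b : B, τ (algebraMap B L b) = algebraMap B L (e b)) (u : Lˣ) :
    PowIndex.ordHom B L (Units.map (τ : L →* L) u) = PowIndex.ordHom B L u := by
  apply WithZero.coe_injective
  rw [PowIndex.coe_ordHom, PowIndex.coe_ordHom]
  exact valuation_map_eq e (τ : L →+* L) hτ (u : L)

end Valuation

/-! ### The normal basis lattice -/

section Lattice

variable (O K B L : Type*) [CommRing O] [IsDomain O] [Field K] [Algebra O K] [IsFractionRing O K]
  [Field L] [Algebra K L] [FiniteDimensional K L] [IsGalois K L]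
  [CommRing B] [Algebra O B] [Algebra B L] [Algebra O L] [IsScalarTower O B L]
  [IsScalarTower O K L] [IsIntegralClosure B O L]

/-- the restriction of a Galois automorphism to the ring of integers -/
noncomputable def resAlgHom (g : L ≃ₐ[K] L) : B →ₐ[O] B :=
  ((galRestrict O K L B g : B ≃ₐ[O] B) : B →ₐ[O] B)

theorem algebraMap_resAlgHom (g : L ≃ₐ[K] L) (b : B) :
    algebraMap B L (resAlgHom O K B L g b) = g (algebraMap B L b) :=
  algebraMap_galRestrict_apply O g b

theorem algebraMap_resAlgHom_iter (g : L ≃ₐ[K] L) (j : ℕ) (b : B) :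
    algebraMap B L ((resAlgHom O K B L g)^[j] b) = (g ^ j) (algebraMap B L b) := by
  induction j with
  | zero => rfl
  | succ j ih =>
    rw [Function.iterate_succ_apply', algebraMap_resAlgHom, ih, pow_succ', AlgEquiv.mul_apply]

theorem algEquiv_iter (g : L ≃ₐ[K] L) (j : ℕ) (x : L) : g^[j] x = (g ^ j) x := by
  induction j with
  | zero => rfl
  | succ j ih => rw [Function.iterate_succ_apply', ih, pow_succ', AlgEquiv.mul_apply]

theorem algebraMap_smul_eq (c : O) (b : B) :
    algebraMap B L (c • b) = (algebraMap O K c) • algebraMap B L b := by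
  rw [Algebra.smul_def, map_mul, ← IsScalarTower.algebraMap_apply O B L,
    IsScalarTower.algebraMap_apply O K L, ← Algebra.smul_def]

/-- the normal basis element of `L/K` -/
noncomputable def x₀ : L := IsGalois.normalBasis K L 1

theorem linearIndependent_x₀ :
    LinearIndependent K (fun τ : L ≃ₐ[K] L => τ (x₀ K L)) := by
  have h := (IsGalois.normalBasis K L).linearIndependent
  have e : (fun τ : L ≃ₐ[K] L => τ (x₀ K L)) = ⇑(IsGalois.normalBasis K L) :=
    funext fun τ => (IsGalois.normalBasis_apply τ).symm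
  rw [e]
  exact h

theorem linearIndependent_pow_x₀ (g : L ≃ₐ[K] L) (k : ℕ) (hk : orderOf g = k + 1) :
    LinearIndependent K (fun j : Fin (k + 1) => (g ^ (j : ℕ)) (x₀ K L)) := by
  have hinj : Function.Injective (fun j : Fin (k + 1) => g ^ (j : ℕ)) := by
    intro i j hij
    apply Fin.ext
    exact pow_injOn_Iio_orderOf (by rw [Set.mem_Iio, hk]; exact i.2)
      (by rw [Set.mem_Iio, hk]; exact j.2) hij
  exact (linearIndependent_x₀ K L).comp _ hinj

/-- There is a nonzero multiple of the normal basis element in the ring of integers. -/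
theorem exists_θ : ∃ (y : O) (θ : B), y ≠ 0 ∧ algebraMap B L θ = (algebraMap O K y) • x₀ K L := by
  have halg : IsAlgebraic O (x₀ K L) :=
    (IsFractionRing.isAlgebraic_iff O K L).mpr (Algebra.IsAlgebraic.isAlgebraic _)
  obtain ⟨y, hy, hint⟩ := halg.exists_integral_multiple
  refine ⟨y, IsIntegralClosure.mk' B (y • x₀ K L) hint, hy, ?_⟩
  rw [IsIntegralClosure.algebraMap_mk', algebraMap_smul]

variable {O K B L}

theorem linearIndependent_θ (g : L ≃ₐ[K] L) (k : ℕ) (hk : orderOf g = k + 1) (y : O) (θ : B)
    (hy : y ≠ 0) (hθ : algebraMap B L θ = (algebraMap O K y) • x₀ K L) :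
    LinearIndependent O (fun j : Fin (k + 1) => (resAlgHom O K B L g)^[(j : ℕ)] θ) := by
  have hK := linearIndependent_pow_x₀ K L g k hk
  rw [Fintype.linearIndependent_iff]
  intro c hc j
  have h1 : ∑ i : Fin (k + 1),
      (algebraMap O K (c i) * algebraMap O K y) • ((g ^ (i : ℕ)) (x₀ K L)) = 0 := by
    have := congrArg (algebraMap B L) hc
    rw [map_sum, map_zero] at this
    rw [← this]
    refine Finset.sum_congr rfl fun i _ => ?_
    rw [algebraMap_smul_eq O K B L, algebraMap_resAlgHom_iter, hθ, map_smul, smul_smul]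
  have h2 := Fintype.linearIndependent_iff.mp hK _ h1 j
  rcases mul_eq_zero.mp h2 with h3 | h3
  · exact (IsFractionRing.injective O K) (by rw [h3, map_zero])
  · exact absurd ((IsFractionRing.injective O K) (by rw [h3, map_zero])) hy

theorem exists_conductor [Module.Finite O B] (g : L ≃ₐ[K] L) (k : ℕ) (hk : orderOf g = k + 1)
    (hcard : Module.finrank K L = k + 1) (y : O) (θ : B)
    (hy : y ≠ 0) (hθ : algebraMap B L θ = (algebraMap O K y) • x₀ K L) :
    ∃ D : O, D ≠ 0 ∧ ∀ r : B, ∃ a : Fin (k + 1) → O,
      D • r = ∑ j : Fin (k + 1), a j • (resAlgHom O K B L g)^[(j : ℕ)] θ := by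
  have hK := linearIndependent_pow_x₀ K L g k hk
  have hspan : Submodule.span K (Set.range fun j : Fin (k + 1) => (g ^ (j : ℕ)) (x₀ K L)) = ⊤ :=
    hK.span_eq_top_of_card_eq_finrank' (by rw [Fintype.card_fin, hcard])
  obtain ⟨m, b, hb⟩ := Module.Finite.exists_fin (R := O) (M := B)
  have hα : ∀ i : Fin m, ∃ α : Fin (k + 1) → K,
      ∑ j, α j • (g ^ (j : ℕ)) (x₀ K L) = algebraMap B L (b i) := by
    intro i
    have : algebraMap B L (b i) ∈
        Submodule.span K (Set.range fun j : Fin (k + 1) => (g ^ (j : ℕ)) (x₀ K L)) := by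
      rw [hspan]; exact Submodule.mem_top
    exact (Submodule.mem_span_range_iff_exists_fun K).mp this
  choose α hα using hα
  obtain ⟨d, hd⟩ := IsLocalization.exist_integer_multiples_of_finite (nonZeroDivisors O)
    (fun p : Fin m × Fin (k + 1) => α p.1 p.2)
  choose β hβ using hd
  have hd0 : (d : O) ≠ 0 := nonZeroDivisors.ne_zero d.2
  refine ⟨(d : O) * y, mul_ne_zero hd0 hy, ?_⟩
  -- the generators
  have hgen : ∀ i : Fin m, ((d : O) * y) • b i =
      ∑ j : Fin (k + 1), β (i, j) • (resAlgHom O K B L g)^[(j : ℕ)] θ := by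
    intro i
    apply IsIntegralClosure.algebraMap_injective B O L
    rw [algebraMap_smul_eq O K B L, map_sum, ← hα i, Finset.smul_sum]
    refine Finset.sum_congr rfl fun j _ => ?_
    rw [algebraMap_smul_eq O K B L, algebraMap_resAlgHom_iter, hθ, map_smul, smul_smul, smul_smul,
      hβ (i, j), map_mul, Algebra.smul_def ((d : O)) (α i j)]
    congr 1
    ring
  intro r
  have hr : r ∈ Submodule.span O (Set.range b) := by rw [hb]; exact Submodule.mem_top
  obtain ⟨t, rfl⟩ := (Submodule.mem_span_range_iff_exists_fun O).mp hr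
  refine ⟨fun j => ∑ i, t i * β (i, j), ?_⟩
  rw [Finset.smul_sum]
  have : ∀ i : Fin m, ((d : O) * y) • t i • b i =
      ∑ j : Fin (k + 1), (t i * β (i, j)) • (resAlgHom O K B L g)^[(j : ℕ)] θ := by
    intro i
    rw [smul_comm, hgen i, Finset.smul_sum]
    exact Finset.sum_congr rfl fun j _ => by rw [smul_smul]
  rw [Finset.sum_congr rfl fun i _ => this i, Finset.sum_comm]
  exact Finset.sum_congr rfl fun j _ => by rw [Finset.sum_smul]

end Lattice

/-! ### Assembly -/

section Assembly

variable (O K B L : Type*) [CommRing O] [IsDomain O] [IsDiscreteValuationRing O]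
  [Field K] [Algebra O K] [IsFractionRing O K] [CharZero K]
  [CommRing B] [IsDomain B] [IsDiscreteValuationRing B]
  [Field L] [Algebra B L] [IsFractionRing B L]
  [Algebra K L] [FiniteDimensional K L] [IsGalois K L]
  [Algebra O B] [Algebra O L] [IsScalarTower O K L] [IsScalarTower O B L]
  [IsIntegralClosure B O L]
  [IsAdicComplete (maximalIdeal B) B] [Finite (ResidueField B)]

theorem orderOf_eq_finrank (g : L ≃ₐ[K] L) (hgen : ∀ x, x ∈ Subgroup.zpowers g) :
    orderOf g = Module.finrank K L := by
  rw [orderOf_eq_card_of_forall_mem_zpowers hgen, IsGalois.card_aut_eq_finrank]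

/-- **The normal basis data of a cyclic extension of local fields.** -/
theorem exists_normalBasisData (g : L ≃ₐ[K] L) (hgen : ∀ x, x ∈ Subgroup.zpowers g) :
    ∃ N : NormalBasisData O B, N.σ = resAlgHom O K B L g ∧ N.k + 1 = Module.finrank K L ∧
      N.ε ≠ 0 := by
  have hord := orderOf_eq_finrank K L g hgen
  have hpos : 0 < Module.finrank K L := Module.finrank_pos
  obtain ⟨k, hk⟩ : ∃ k, Module.finrank K L = k + 1 := ⟨Module.finrank K L - 1, by omega⟩
  have hordk : orderOf g = k + 1 := by rw [hord, hk]
  obtain ⟨ϖ, hϖ⟩ := IsDiscreteValuationRing.exists_irreducible O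
  obtain ⟨y, θ, hy, hθ⟩ := exists_θ O K B L
  have hfinite : Module.Finite O B := Tower.moduleFinite O K B L
  obtain ⟨D, hD0, hD⟩ := exists_conductor g k hordk hk y θ hy hθ
  obtain ⟨c, u, hDu⟩ := IsDiscreteValuationRing.eq_unit_mul_pow_irreducible hD0 hϖ
  have hinjOB : Function.Injective (algebraMap O B) := Tower.algebraMap_injective O K B L
  have hinjBL : Function.Injective (algebraMap B L) := IsIntegralClosure.algebraMap_injective B O L
  have hlocal : IsLocalHom (algebraMap O B) := Tower.isLocalHom_algebraMap O K B L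
  have hε0 : algebraMap O B ϖ ≠ 0 := by
    intro h
    exact hϖ.ne_zero (hinjOB (by rw [h, map_zero]))
  have hεmem : algebraMap O B ϖ ∈ maximalIdeal B := by
    rw [mem_maximalIdeal, mem_nonunits_iff]
    intro h
    exact hϖ.not_isUnit (hlocal.map_nonunit ϖ h)
  have hg1 : g ^ (k + 1) = 1 := by rw [← hordk]; exact pow_orderOf_eq_one g
  refine ⟨{
    σ := resAlgHom O K B L g
    k := k
    hσ := ?_
    ϖ := ϖ
    hε := LatticeHelpers.mul_eq_zero_imp _ hε0
    hunit := LatticeHelpers.isUnit_one_add_mul (maximalIdeal B) _ hεmem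
    θ := θ
    hli := linearIndependent_θ g k hordk y θ hy hθ
    c := c
    hc := ?_
    sepR := LatticeHelpers.sepR_of_isHausdorff (maximalIdeal B) _ hεmem
    complR := LatticeHelpers.complR_of_isPrecomplete (maximalIdeal B) _ hεmem
      (LatticeHelpers.exists_pow_le_span _ hε0) }, rfl, hk.symm, hε0⟩
  · intro r
    apply hinjBL
    rw [algebraMap_resAlgHom_iter, hg1, AlgEquiv.one_apply]
  · intro r
    obtain ⟨a, ha⟩ := hD (((u⁻¹ : Oˣ) : O) • r)
    refine ⟨a, ?_⟩
    rw [← ha, hDu, smul_smul]
    have : (u : O) * ϖ ^ c * ((u⁻¹ : Oˣ) : O) = ϖ ^ c := by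
      rw [mul_comm (u : O), mul_assoc, Units.mul_inv, mul_one]
    rw [this, Algebra.smul_def, map_pow]

/-- **The `CyclicLocalData` of a cyclic extension of local fields.** -/
theorem exists_cyclicLocalData (g : L ≃ₐ[K] L) (hgen : ∀ x, x ∈ Subgroup.zpowers g) :
    ∃ C : CyclicLocalData K L O B, C.g = g ∧ C.n = Module.finrank K L ∧
      C.ord = PowIndex.ordHom B L ∧ C.N.σ = resAlgHom O K B L g := by
  obtain ⟨N, hNσ, hNk, hNε⟩ := exists_normalBasisData O K B L g hgen
  have hord := orderOf_eq_finrank K L g hgen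
  have hg1 : g ^ (N.k + 1) = 1 := by rw [hNk, ← hord]; exact pow_orderOf_eq_one g
  have hinjBL : Function.Injective (algebraMap B L) := IsIntegralClosure.algebraMap_injective B O L
  refine ⟨{
    N := N
    g := g
    hg := ?_
    hcompat := ?_
    hinj := hinjBL
    ord := PowIndex.ordHom B L
    hord := PowIndex.ordHom_surjective B L
    hordg := ?_
    hker := ?_
    hfin := LatticeHelpers.finite_quotient_span _ (pow_ne_zero _ hNε) }, rfl, hNk, rfl, hNσ⟩
  · intro x
    rw [algEquiv_iter, hg1, AlgEquiv.one_apply]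
  · intro b
    rw [hNσ]
    exact algebraMap_resAlgHom O K B L g b
  · intro u
    apply WithZero.coe_injective
    rw [PowIndex.coe_ordHom, PowIndex.coe_ordHom]
    exact valuation_map_eq (galRestrict O K L B g : B ≃+* B) (g : L →+* L)
      (fun b => (algebraMap_galRestrict_apply O g b).symm) (u : L)
  · intro u
    have h := PowIndex.range_unitsMap B L
    have h1 : u ∈ (PowIndex.ordHom B L).ker ↔ PowIndex.ordHom B L u = 1 := MonoidHom.mem_ker
    rw [← h1, ← h]
    constructor
    · rintro ⟨b, rfl⟩
      exact ⟨b, rfl⟩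
    · rintro ⟨b, hb⟩
      exact ⟨b, Units.ext hb⟩

end Assembly

/-! ### The cyclic case of the local fundamental class: `#H² = [L : K]` -/

section Final

open Fermat.Agent.CFT.Herbrand Fermat.Agent.CFT.HerbrandBridge

variable (O : Type*) (K : Type) (B : Type*) (L : Type)
  [CommRing O] [IsDomain O] [IsDiscreteValuationRing O]
  [Field K] [Algebra O K] [IsFractionRing O K] [CharZero K]
  [CommRing B] [IsDomain B] [IsDiscreteValuationRing B]
  [Field L] [Algebra B L] [IsFractionRing B L]
  [Algebra K L] [FiniteDimensional K L] [IsGalois K L]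
  [Algebra O B] [Algebra O L] [IsScalarTower O K L] [IsScalarTower O B L]
  [IsIntegralClosure B O L]
  [IsAdicComplete (maximalIdeal B) B] [Finite (ResidueField B)]

attribute [local instance] IsCyclic.commGroup

include O B in
/-- **`#H²(Gal(L/K), Lˣ) = [L : K]`** for a cyclic extension `L/K` of local fields (complete
discretely valued, finite residue field), on Mathlib's `groupCohomology`. -/
theorem card_H2_of_cyclic [IsCyclic (L ≃ₐ[K] L)] :
    Nat.card (groupCohomology (Rep.ofAlgebraAutOnUnits K L) 2) = Module.finrank K L := by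
  obtain ⟨g, hgen⟩ := IsCyclic.exists_generator (α := L ≃ₐ[K] L)
  obtain ⟨C, hCg, hCn, -, -⟩ := exists_cyclicLocalData O K B L g hgen
  rw [← hCn]
  exact C.card_H2 (by rw [hCg]; exact hgen) (by rw [hCn, IsGalois.card_aut_eq_finrank])

include O B in
/-- **The local norm index theorem**, index form: for a generator `g` of the Galois group of a
cyclic extension `L/K` of local fields of degree `n`, on `Additive Lˣ` with
`σ = toAdditive (Units.map g)`: `[ker (σ - 1) : im N] = n` and `[ker N : im (σ - 1)] = 1`. -/
theorem idx_of_cyclic [IsCyclic (L ≃ₐ[K] L)] (g : L ≃ₐ[K] L)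
    (hgen : ∀ x, x ∈ Subgroup.zpowers g) :
    idx (delta (MonoidHom.toAdditive (Units.map (g : L →* L))))
        (nrm (MonoidHom.toAdditive (Units.map (g : L →* L))) (Module.finrank K L))
      = Module.finrank K L ∧
    idx (nrm (MonoidHom.toAdditive (Units.map (g : L →* L))) (Module.finrank K L))
        (delta (MonoidHom.toAdditive (Units.map (g : L →* L)))) = 1 := by
  obtain ⟨C, hCg, hCn, -, -⟩ := exists_cyclicLocalData O K B L g hgen
  subst hCg
  have hc : Fintype.card (L ≃ₐ[K] L) = Module.finrank K L := by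
    rw [← Nat.card_eq_fintype_card, IsGalois.card_aut_eq_finrank]
  have h1 : idx (nrm C.σL (Module.finrank K L)) (delta C.σL) = 1 := by
    have h := (subsingleton_H1_iff (Rep.ofAlgebraAutOnUnits K L) C.g hgen).mp
      (groupCohomology.H1ofAutOnUnitsUnique K L).instSubsingleton
    rw [hc] at h
    exact h
  have h2 := C.hcyc_mult.2
  rw [hCn] at h2
  exact ⟨NormIndex.idx_eq_of_hcyc C.σL _ h1 h2, h1⟩

end Final

end Fermat.Agent.CFT.Local.CyclicInstance
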