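import Mathlib
import Fermat.Agent.CFT.BrauerUpper

/-!
# Upper bound `|H²(Gal(M/K), Mˣ)| ∣ [M : K]` for local fields, reduced to the cyclic case

(M2) model of local fields: fields finite over `ℚ_[q]`.  `IsM2 K M` is the class of extensions of
such fields; it is closed under `M/K ↦ M/E` and `M/K ↦ E/K`, so `BrauerUpper.card_H2_units_dvd`
reduces the upper bound for all finite Galois extensions to the cyclic (prime degree) case
(`card_H2_units_dvd_of_cyclic`), which is `CyclicInstance.card_H2_of_cyclic` once the AKLB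
instance bundle for `(𝒪 q K, K, 𝒪 q M, M)` is available.
-/

set_option autoImplicit false

namespace Fermat.Agent.CFT.Local.UpperBoundLocal

open Fermat.Agent.CFT.BrauerUpper

/-- The class of extensions `M/K` of fields finite over some `ℚ_[q]` (the (M2) model of local
fields). -/
def IsM2 (K M : Type) [Field K] [Field M] [Algebra K M] : Prop :=
  ∃ (q : ℕ) (_ : Fact q.Prime) (_ : Algebra ℚ_[q] K) (_ : Algebra ℚ_[q] M),
    IsScalarTower ℚ_[q] K M ∧ FiniteDimensional ℚ_[q] M

theorem isM2_of {q : ℕ} [Fact q.Prime] {K M : Type} [Field K] [Field M] [Algebra K M]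
    [Algebra ℚ_[q] K] [Algebra ℚ_[q] M] [IsScalarTower ℚ_[q] K M] [FiniteDimensional ℚ_[q] M] :
    IsM2 K M :=
  ⟨q, ‹_›, ‹_›, ‹_›, ‹_›, ‹_›⟩

theorem isM2_top (K M : Type) [Field K] [Field M] [Algebra K M] (E : IntermediateField K M)
    (h : IsM2 K M) : IsM2 E M := by
  obtain ⟨q, hq, aK, aM, ht, hf⟩ := h
  exact ⟨q, hq, inferInstance, aM, IsScalarTower.of_algebraMap_eq fun _ => rfl, hf⟩

theorem isM2_bot (K M : Type) [Field K] [Field M] [Algebra K M] (E : IntermediateField K M)
    (h : IsM2 K M) : IsM2 K E := by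
  obtain ⟨q, hq, aK, aM, ht, hf⟩ := h
  have : IsScalarTower ℚ_[q] E M := IsScalarTower.of_algebraMap_eq fun _ => rfl
  refine ⟨q, hq, aK, inferInstance, inferInstance, ?_⟩
  exact FiniteDimensional.of_injective (IsScalarTower.toAlgHom ℚ_[q] E M).toLinearMap
    (algebraMap E M).injective


/-- **Upper bound for local fields, reduced to the cyclic case**: if
`|H²(Gal(M/K), Mˣ)| ∣ [M : K]` for all cyclic extensions `M/K` of fields finite over `ℚ_[q]`
then it holds for all finite Galois extensions of such fields. -/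
theorem card_H2_units_dvd_of_cyclic
    (hcyc : ∀ (q : ℕ) [Fact q.Prime] (K M : Type) [Field K] [Field M] [Algebra K M]
      [Algebra ℚ_[q] K] [Algebra ℚ_[q] M] [IsScalarTower ℚ_[q] K M] [FiniteDimensional ℚ_[q] M]
      [FiniteDimensional K M] [IsGalois K M] [IsCyclic (M ≃ₐ[K] M)],
      Nat.card (groupCohomology (Rep.ofAlgebraAutOnUnits K M) 2) ∣ Module.finrank K M)
    (q : ℕ) [Fact q.Prime] (K M : Type) [Field K] [Field M] [Algebra K M]
    [Algebra ℚ_[q] K] [Algebra ℚ_[q] M] [IsScalarTower ℚ_[q] K M] [FiniteDimensional ℚ_[q] M]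
    [IsGalois K M] :
    Nat.card (groupCohomology (Rep.ofAlgebraAutOnUnits K M) 2) ∣ Module.finrank K M := by
  have : FiniteDimensional K M := FiniteDimensional.right ℚ_[q] K M
  refine card_H2_units_dvd (fun K M _ _ _ => IsM2 K M) isM2_top isM2_bot ?_ K M (isM2_of (q := q))
  intro K M _ _ _ _ _ h hp
  obtain ⟨q, hq, aK, aM, ht, hf⟩ := h
  have hcard : Nat.card (M ≃ₐ[K] M) = Module.finrank K M := IsGalois.card_aut_eq_finrank K M
  have : Fact (Module.finrank K M).Prime := ⟨hp⟩
  have : IsCyclic (M ≃ₐ[K] M) := isCyclic_of_prime_card hcard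
  exact hcyc q K M

end Fermat.Agent.CFT.Local.UpperBoundLocal
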