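import Mathlib
import Fermat.Agent.CFT.Local.UpperBoundLocal
import Fermat.Agent.CFT.Local.TowerInst
import Fermat.Agent.CFT.Local.CyclicInstance

set_option autoImplicit false

namespace Fermat.Agent.CFT.Local.UpperBoundM2

open Fermat.Agent.CFT.Local Fermat.Agent.CFT.Local.Model
open scoped Fermat.Agent.CFT.Local.TowerInst Fermat.Agent.CFT.Local.Model

/-- The cyclic case at (M2): `#H²(Gal(M/K), Mˣ) = [M : K]` for a cyclic extension of fields finite
over `ℚ_[q]`. -/
theorem card_H2_of_cyclic (q : ℕ) [Fact q.Prime] (K M : Type) [Field K] [Field M] [Algebra K M]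
    [Algebra ℚ_[q] K] [Algebra ℚ_[q] M] [IsScalarTower ℚ_[q] K M] [FiniteDimensional ℚ_[q] M]
    [FiniteDimensional K M] [IsGalois K M] [IsCyclic (M ≃ₐ[K] M)] :
    Nat.card (groupCohomology (Rep.ofAlgebraAutOnUnits K M) 2) = Module.finrank K M := by
  have : FiniteDimensional ℚ_[q] K :=
    FiniteDimensional.of_injective (IsScalarTower.toAlgHom ℚ_[q] K M).toLinearMap
      (algebraMap K M).injective
  have := charZero_field q K
  exact CyclicInstance.card_H2_of_cyclic ↥(𝒪 q K) K ↥(𝒪 q M) M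

/-- **Upper bound for local fields**: `#H²(Gal(M/K), Mˣ)` divides `[M : K]` for every finite Galois
extension `M/K` of fields finite over `ℚ_[q]`. -/
theorem card_H2_units_dvd (q : ℕ) [Fact q.Prime] (K M : Type) [Field K] [Field M] [Algebra K M]
    [Algebra ℚ_[q] K] [Algebra ℚ_[q] M] [IsScalarTower ℚ_[q] K M] [FiniteDimensional ℚ_[q] M]
    [IsGalois K M] :
    Nat.card (groupCohomology (Rep.ofAlgebraAutOnUnits K M) 2) ∣ Module.finrank K M :=
  UpperBoundLocal.card_H2_units_dvd_of_cyclic
    (fun q _ K M _ _ _ _ _ _ _ _ _ _ => (card_H2_of_cyclic q K M).dvd) q K M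

end Fermat.Agent.CFT.Local.UpperBoundM2
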