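/-
PROJECT C, Layer B, slice B3c (helper13): the canonical local invariant
`invQ q K L : Br K L →+ ℚ/ℤ` for finite Galois extensions of `q`-adic fields, model (M2).

All fields are types finite over `ℚ_[q]`, with the algebra structures and scalar towers as
instance arguments (`Br`, `infBr`, `resBr` from `GaloisDict`).

* `invQUnram_eq_of_split` : independence of the configuration (two unramified splittings of the
  same class have the same unramified invariant);
* `exists_config`         : every finite Galois `L/K` has a splitting configuration `(E, M)` with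
  `E/K` unramified of degree `[L:K]`;
* `invQ q K L`, `invQ_injective`, `exists_invQ_eq` (a class of invariant `1/[L:K]`), `card_Br`,
  `exists_split`, and the CHARACTERISATION `invQ_eq_of_split` (Theorem A);
* `invQ_infBr` (INF), `invQ_resBr` (RES).
-/
import Mathlib
import Fermat.Agent.CFT.Local.BrFunct
import Fermat.Agent.CFT.Local.Compositum
import Fermat.Agent.CFT.Local.H2Compare
import Fermat.Agent.CFT.Local.UpperBoundM2
import Fermat.Agent.CFT.Local.UnramifiedInvM2
import Fermat.Agent.CFT.Local.UnramifiedInvM2Compat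
import Fermat.Agent.CFT.Local.CommonOverfield

set_option autoImplicit false
set_option linter.unusedSectionVars false
set_option linter.style.haveILetI false

noncomputable section

namespace Fermat.Agent.CFT.Local.LocalInv

open Fermat.Agent.CFT.Local Fermat.Agent.CFT.Local.Model Fermat.Agent.CFT.Local.TowerInst
open Fermat.Agent.CFT.Local.Unramified Fermat.Agent.CFT.Local.UnramifiedInvM2
open Fermat.Agent.CFT.Local.UnramifiedInvM2Compat (invQUnram_injective exists_invQUnram_eq
  card_Br_of_isUnram invQUnram_infBr invQUnram_resBr_infBr)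
open Fermat.Agent.CFT.Local.CommonOverfield (exists_common_overfield exists_unram_type)
open Fermat.Agent.CFT.GaloisDict Fermat.Agent.CFT.Local.BrFunct
open Fermat.Agent.CFT.Local.Compositum Module
open scoped Fermat.Agent.CFT.Local.TowerInst Fermat.Agent.CFT.Local.Compositum

/-! ### Algebra structures from algebra homomorphisms -/

section AlgHomTower

theorem isScalarTower_of_algHom {R S N M : Type*} [CommSemiring R] [CommSemiring S]
    [CommSemiring N] [CommSemiring M] [Algebra R S] [Algebra S N] [Algebra R N] [Algebra S M]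
    [Algebra R M] [IsScalarTower R S N] [IsScalarTower R S M] (φ : N →ₐ[S] M) :
    letI := φ.toRingHom.toAlgebra
    IsScalarTower R N M := by
  let _ := φ.toRingHom.toAlgebra
  refine IsScalarTower.of_algebraMap_eq (fun x => ?_)
  change algebraMap R M x = φ (algebraMap R N x)
  rw [IsScalarTower.algebraMap_apply R S N, φ.commutes, ← IsScalarTower.algebraMap_apply]

end AlgHomTower

/-! ### The domination lemma -/

section Domination

variable (q : ℕ) [Fact q.Prime]
  (K L E₁ E₂ M₁ M₂ E' M' : Type)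
  [Field K] [Field L] [Field E₁] [Field E₂] [Field M₁] [Field M₂] [Field E'] [Field M']
  [Algebra ℚ_[q] K] [FiniteDimensional ℚ_[q] K]
  [Algebra ℚ_[q] E₁] [FiniteDimensional ℚ_[q] E₁]
  [Algebra ℚ_[q] E₂] [FiniteDimensional ℚ_[q] E₂]
  [Algebra ℚ_[q] E'] [FiniteDimensional ℚ_[q] E']
  [Algebra K L] [Algebra K E₁] [Algebra K E₂] [Algebra K M₁] [Algebra K M₂] [Algebra K M']
  [Algebra K E']
  [Algebra L M₁] [Algebra L M₂] [Algebra L M']
  [Algebra E₁ M₁] [Algebra E₂ M₂] [Algebra M₁ M'] [Algebra M₂ M'] [Algebra E₁ M'] [Algebra E₂ M']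
  [Algebra E₁ E'] [Algebra E₂ E'] [Algebra E' M']
  [IsScalarTower ℚ_[q] K E₁] [IsScalarTower ℚ_[q] K E₂] [IsScalarTower ℚ_[q] K E']
  [IsScalarTower ℚ_[q] E₁ E'] [IsScalarTower ℚ_[q] E₂ E']
  [IsScalarTower K E₁ M₁] [IsScalarTower K L M₁] [IsScalarTower K E₂ M₂] [IsScalarTower K L M₂]
  [IsScalarTower K E₁ M'] [IsScalarTower K M₁ M'] [IsScalarTower E₁ M₁ M']
  [IsScalarTower K E₂ M'] [IsScalarTower K M₂ M'] [IsScalarTower E₂ M₂ M']
  [IsScalarTower K L M'] [IsScalarTower L M₁ M'] [IsScalarTower L M₂ M']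
  [IsScalarTower K E₁ E'] [IsScalarTower K E₂ E'] [IsScalarTower K E' M']
  [IsScalarTower E₁ E' M'] [IsScalarTower E₂ E' M']
  [Normal K L] [IsGalois K E₁] [IsGalois K E₂] [IsGalois K E'] [Normal K M₁] [Normal K M₂]
  [FiniteDimensional K M'] [IsGalois K M']

include M' in
/-- Two unramified splittings of the same class, dominated by a third configuration, have the
same unramified invariant. -/
theorem invQUnram_eq_of_dominated
    (hur₁ : IsUnram ↥(𝒪 q K) ↥(𝒪 q E₁)) (hur₂ : IsUnram ↥(𝒪 q K) ↥(𝒪 q E₂))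
    (hur' : IsUnram ↥(𝒪 q K) ↥(𝒪 q E'))
    (y : Br K L) (x₁ : Br K E₁) (x₂ : Br K E₂)
    (h₁ : infBr K E₁ M₁ x₁ = infBr K L M₁ y) (h₂ : infBr K E₂ M₂ x₂ = infBr K L M₂ y) :
    invQUnram q K E₁ hur₁ x₁ = invQUnram q K E₂ hur₂ x₂ := by
  have a₁ : infBr K E' M' (infBr K E₁ E' x₁) = infBr K L M' y := by
    rw [infBr_infBr K E₁ M' E', ← infBr_infBr K E₁ M' M₁, h₁, infBr_infBr K L M' M₁]
  have a₂ : infBr K E' M' (infBr K E₂ E' x₂) = infBr K L M' y := by
    rw [infBr_infBr K E₂ M' E', ← infBr_infBr K E₂ M' M₂, h₂, infBr_infBr K L M' M₂]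
  have h := infBr_injective K E' M' (a₁.trans a₂.symm)
  rw [← invQUnram_infBr q K E₁ E' hur₁ hur' x₁, ← invQUnram_infBr q K E₂ E' hur₂ hur' x₂, h]

end Domination

/-! ### Independence of the configuration -/

section Independence

variable (q : ℕ) [Fact q.Prime]
  (K L E₁ E₂ M₁ M₂ : Type)
  [Field K] [Field L] [Field E₁] [Field E₂] [Field M₁] [Field M₂]
  [Algebra ℚ_[q] K] [FiniteDimensional ℚ_[q] K]
  [Algebra ℚ_[q] L] [FiniteDimensional ℚ_[q] L]
  [Algebra ℚ_[q] E₁] [FiniteDimensional ℚ_[q] E₁]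
  [Algebra ℚ_[q] E₂] [FiniteDimensional ℚ_[q] E₂]
  [Algebra ℚ_[q] M₁] [FiniteDimensional ℚ_[q] M₁]
  [Algebra ℚ_[q] M₂] [FiniteDimensional ℚ_[q] M₂]
  [Algebra K L] [Algebra K E₁] [Algebra K E₂] [Algebra K M₁] [Algebra K M₂]
  [Algebra L M₁] [Algebra L M₂] [Algebra E₁ M₁] [Algebra E₂ M₂]
  [IsScalarTower ℚ_[q] K L] [IsScalarTower ℚ_[q] K E₁] [IsScalarTower ℚ_[q] K E₂]
  [IsScalarTower ℚ_[q] K M₁] [IsScalarTower ℚ_[q] K M₂]
  [IsScalarTower ℚ_[q] L M₁] [IsScalarTower ℚ_[q] L M₂]
  [IsScalarTower ℚ_[q] E₁ M₁] [IsScalarTower ℚ_[q] E₂ M₂]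
  [IsScalarTower K L M₁] [IsScalarTower K L M₂] [IsScalarTower K E₁ M₁] [IsScalarTower K E₂ M₂]
  [Normal K L] [IsGalois K E₁] [IsGalois K E₂] [Normal K M₁] [Normal K M₂]

/-- **Independence**: two unramified splittings of the same class of `L/K` have the same
unramified invariant. -/
theorem invQUnram_eq_of_split
    (hur₁ : IsUnram ↥(𝒪 q K) ↥(𝒪 q E₁)) (hur₂ : IsUnram ↥(𝒪 q K) ↥(𝒪 q E₂))
    (y : Br K L) (x₁ : Br K E₁) (x₂ : Br K E₂)
    (h₁ : infBr K E₁ M₁ x₁ = infBr K L M₁ y) (h₂ : infBr K E₂ M₂ x₂ = infBr K L M₂ y) :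
    invQUnram q K E₁ hur₁ x₁ = invQUnram q K E₂ hur₂ x₂ := by
  obtain ⟨M', _, _, _, _, _, _, _, _, _, ⟨φ₁⟩, ⟨φ₂⟩⟩ := exists_common_overfield q K L M₁ M₂
  -- `M₁ → M'`
  letI : Algebra M₁ M' := φ₁.toRingHom.toAlgebra
  haveI : IsScalarTower L M₁ M' := isScalarTower_of_algHom (R := L) φ₁
  haveI : IsScalarTower K M₁ M' := isScalarTower_of_algHom (R := K) φ₁
  haveI : IsScalarTower ℚ_[q] M₁ M' := isScalarTower_of_algHom (R := ℚ_[q]) φ₁
  -- `M₂ → M'`
  letI : Algebra M₂ M' := φ₂.toRingHom.toAlgebra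
  haveI : IsScalarTower L M₂ M' := isScalarTower_of_algHom (R := L) φ₂
  haveI : IsScalarTower K M₂ M' := isScalarTower_of_algHom (R := K) φ₂
  haveI : IsScalarTower ℚ_[q] M₂ M' := isScalarTower_of_algHom (R := ℚ_[q]) φ₂
  -- `E₁ → M'`
  letI : Algebra E₁ M' := ((algebraMap M₁ M').comp (algebraMap E₁ M₁)).toAlgebra
  haveI : IsScalarTower E₁ M₁ M' := IsScalarTower.of_algebraMap_eq (fun _ => rfl)
  haveI : IsScalarTower K E₁ M' := IsScalarTower.of_algebraMap_eq (fun x => by
    change algebraMap K M' x = algebraMap M₁ M' (algebraMap E₁ M₁ (algebraMap K E₁ x))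
    rw [← IsScalarTower.algebraMap_apply K E₁ M₁, ← IsScalarTower.algebraMap_apply K M₁ M'])
  haveI : IsScalarTower ℚ_[q] E₁ M' := IsScalarTower.of_algebraMap_eq (fun x => by
    change algebraMap ℚ_[q] M' x = algebraMap M₁ M' (algebraMap E₁ M₁ (algebraMap ℚ_[q] E₁ x))
    rw [← IsScalarTower.algebraMap_apply ℚ_[q] E₁ M₁, ← IsScalarTower.algebraMap_apply ℚ_[q] M₁ M'])
  -- `E₂ → M'`
  letI : Algebra E₂ M' := ((algebraMap M₂ M').comp (algebraMap E₂ M₂)).toAlgebra
  haveI : IsScalarTower E₂ M₂ M' := IsScalarTower.of_algebraMap_eq (fun _ => rfl)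
  haveI : IsScalarTower K E₂ M' := IsScalarTower.of_algebraMap_eq (fun x => by
    change algebraMap K M' x = algebraMap M₂ M' (algebraMap E₂ M₂ (algebraMap K E₂ x))
    rw [← IsScalarTower.algebraMap_apply K E₂ M₂, ← IsScalarTower.algebraMap_apply K M₂ M'])
  haveI : IsScalarTower ℚ_[q] E₂ M' := IsScalarTower.of_algebraMap_eq (fun x => by
    change algebraMap ℚ_[q] M' x = algebraMap M₂ M' (algebraMap E₂ M₂ (algebraMap ℚ_[q] E₂ x))
    rw [← IsScalarTower.algebraMap_apply ℚ_[q] E₂ M₂, ← IsScalarTower.algebraMap_apply ℚ_[q] M₂ M'])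
  -- the compositum `E' = E₁·E₂ ⊆ M'`
  have hbc := isUnram_comp q K E₂ E₁ M' hur₂
  have hur' : IsUnram ↥(𝒪 q K) ↥(𝒪 q ↥(comp E₁ E₂ M')) := IsUnram.trans hur₁ hbc.1
  haveI : FiniteDimensional K ↥(comp E₁ E₂ M') := finiteDimensional_top q K _
  haveI : IsGalois K ↥(comp E₁ E₂ M') :=
    haveI := charZero_field q K
    hur'.isGalois (O := ↥(𝒪 q K)) (B := ↥(𝒪 q ↥(comp E₁ E₂ M')))
  haveI : FiniteDimensional K M' := finiteDimensional_top q K M'
  exact invQUnram_eq_of_dominated q K L E₁ E₂ M₁ M₂ ↥(comp E₁ E₂ M') M' hur₁ hur₂ hur' y x₁ x₂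
    h₁ h₂

end Independence

/-! ### Common overfields over the base -/

section OverfieldBase

variable (q : ℕ) [Fact q.Prime]
  (K M₁ M₂ : Type) [Field K] [Field M₁] [Field M₂]
  [Algebra ℚ_[q] K] [FiniteDimensional ℚ_[q] K]
  [Algebra ℚ_[q] M₁] [FiniteDimensional ℚ_[q] M₁]
  [Algebra ℚ_[q] M₂] [FiniteDimensional ℚ_[q] M₂]
  [Algebra K M₁] [Algebra K M₂]
  [IsScalarTower ℚ_[q] K M₁] [IsScalarTower ℚ_[q] K M₂]

/-- Two finite extensions of `K` embed into a common finite Galois extension of `K`. -/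
theorem exists_common_overfield_base :
    ∃ (M : Type) (_ : Field M) (_ : Algebra ℚ_[q] M) (_ : FiniteDimensional ℚ_[q] M)
      (_ : Algebra K M) (_ : IsScalarTower ℚ_[q] K M) (_ : IsGalois K M),
      Nonempty (M₁ →ₐ[K] M) ∧ Nonempty (M₂ →ₐ[K] M) := by
  obtain ⟨M, iF, iQ, iFD, iK, iL, t1, t2, t3, iG, h⟩ := exists_common_overfield q K K M₁ M₂
  have e : iK = iL := by
    refine Algebra.algebra_ext _ _ (fun r => ?_)
    have h1 := t3.smul_assoc r (1 : K) (1 : M)
    rw [@Algebra.algebraMap_eq_smul_one K M _ _ iK, @Algebra.algebraMap_eq_smul_one K M _ _ iL]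
    rw [smul_eq_mul, mul_one] at h1
    rw [h1]
    congr 1
    exact (@one_smul K M _ (@Module.toMulActionWithZero K M _ _ (@Algebra.toModule K M _ _ iL)).toMulAction (1 : M)).symm
  subst e
  exact ⟨M, iF, iQ, iFD, iK, t1, iG, h⟩

end OverfieldBase

/-! ### Existence of a splitting configuration -/

section Config

variable (q : ℕ) [Fact q.Prime]
  (K L : Type) [Field K] [Field L]
  [Algebra ℚ_[q] K] [FiniteDimensional ℚ_[q] K]
  [Algebra ℚ_[q] L] [FiniteDimensional ℚ_[q] L]
  [Algebra K L] [IsScalarTower ℚ_[q] K L] [IsGalois K L]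

/-- For every finite Galois extension `L/K` of `q`-adic fields there are an unramified extension
`E/K` of the same degree and a common finite Galois overfield `M` in which every class of `E/K`
dies after restriction to `L`. -/
theorem exists_config :
    ∃ (E M : Type) (_ : Field E) (_ : Field M)
      (_ : Algebra ℚ_[q] E) (_ : FiniteDimensional ℚ_[q] E)
      (_ : Algebra ℚ_[q] M) (_ : FiniteDimensional ℚ_[q] M)
      (_ : Algebra K E) (_ : Algebra K M) (_ : Algebra L M) (_ : Algebra E M)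
      (_ : IsScalarTower ℚ_[q] K E) (_ : IsScalarTower ℚ_[q] K M) (_ : IsScalarTower ℚ_[q] L M)
      (_ : IsScalarTower ℚ_[q] E M) (_ : IsScalarTower K L M) (_ : IsScalarTower K E M)
      (_ : IsGalois K E) (_ : IsGalois K M) (_ : IsUnram ↥(𝒪 q K) ↥(𝒪 q E)),
      finrank K E = finrank K L ∧ ∀ x : Br K E, resBr K L M (infBr K E M x) = 0 := by
  haveI := charZero_field q K
  haveI : FiniteDimensional K L := finiteDimensional_top q K L
  have hn : 0 < finrank K L := Module.finrank_pos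
  obtain ⟨E, iFE, iQE, iFDE, iKE, tQKE, hur, hdeg, -⟩ := exists_unram_type q K (finrank K L) hn
  haveI : FiniteDimensional K E := finiteDimensional_top q K E
  haveI iGE : IsGalois K E := hur.isGalois (O := ↥(𝒪 q K)) (B := ↥(𝒪 q E))
  obtain ⟨M, iFM, iQM, iFDM, iKM, tQKM, iGM, ⟨ψ₁⟩, ⟨ψ₂⟩⟩ := exists_common_overfield_base q K L E
  letI iLM : Algebra L M := ψ₁.toRingHom.toAlgebra
  haveI tKLM : IsScalarTower K L M := isScalarTower_of_algHom (R := K) (S := K) ψ₁
  haveI tQLM : IsScalarTower ℚ_[q] L M := isScalarTower_of_algHom (R := ℚ_[q]) (S := K) ψ₁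
  letI iEM : Algebra E M := ψ₂.toRingHom.toAlgebra
  haveI tKEM : IsScalarTower K E M := isScalarTower_of_algHom (R := K) (S := K) ψ₂
  haveI tQEM : IsScalarTower ℚ_[q] E M := isScalarTower_of_algHom (R := ℚ_[q]) (S := K) ψ₂
  refine ⟨E, M, iFE, iFM, iQE, iFDE, iQM, iFDM, iKE, iKM, iLM, iEM, tQKE, tQKM, tQLM, tQEM, tKLM,
    tKEM, iGE, iGM, hur, hdeg, fun x => ?_⟩
  have hbc := isUnram_comp q K E L M hur
  haveI : IsGalois L ↥(comp L E M) := hbc.2
  have hdvd : relResDeg q K L ∣ finrank K E := by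
    rw [hdeg, ← relRamIdx_mul_relResDeg q K L]
    exact Dvd.intro_left _ rfl
  rw [resBr_infBr_factor K E L ↥(comp L E M) M x]
  have h0 : resBr K L ↥(comp L E M) (infBr K E ↥(comp L E M) x) = 0 := by
    apply invQUnram_injective q L ↥(comp L E M) hbc.1
    rw [map_zero, invQUnram_resBr_infBr q K E L ↥(comp L E M) hur hbc.1
      (adjoin_range_eq_top L E M) hdvd x, ← map_nsmul, ← hdeg, ← card_Br_of_isUnram q K E hur,
      card_nsmul_eq_zero', map_zero]
  rw [h0, map_zero]

/-- The comparison setup attached to a configuration. -/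
def setupOfVanish (E M : Type) [Field E] [Field M]
    [Algebra K E] [Algebra K M] [Algebra L M] [Algebra E M]
    [IsScalarTower K L M] [IsScalarTower K E M] [Normal K E] [FiniteDimensional K M] [IsGalois K M]
    (hv : ∀ x : Br K E, resBr K L M (infBr K E M x) = 0) :
    H2Compare.Setup (Br K E) (Br K L) (Br K M) (Br L M) where
  infE := (infBr K E M).hom.toAddMonoidHom
  infL := (infBr K L M).hom.toAddMonoidHom
  res := (resBr K L M).hom.toAddMonoidHom
  infE_injective := infBr_injective K E M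
  infL_injective := infBr_injective K L M
  exact := fun x hx => (resBr_eq_zero_iff K L M x).1 hx
  vanish := hv

/-- Existence (and characterisation by arbitrary unramified splittings) of the invariant map. -/
theorem exists_invQ :
    ∃ φ : Br K L →+ AddCircle (1 : ℚ), Function.Injective φ ∧
      (∃ u, φ u = (((finrank K L : ℚ)⁻¹ : ℚ) : AddCircle (1 : ℚ))) ∧
      (∀ y : Br K L, ∃ (E M : Type) (_ : Field E) (_ : Field M)
        (_ : Algebra ℚ_[q] E) (_ : FiniteDimensional ℚ_[q] E)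
        (_ : Algebra ℚ_[q] M) (_ : FiniteDimensional ℚ_[q] M)
        (_ : Algebra K E) (_ : Algebra K M) (_ : Algebra L M) (_ : Algebra E M)
        (_ : IsScalarTower ℚ_[q] K E) (_ : IsScalarTower ℚ_[q] K M) (_ : IsScalarTower ℚ_[q] L M)
        (_ : IsScalarTower ℚ_[q] E M) (_ : IsScalarTower K L M) (_ : IsScalarTower K E M)
        (_ : IsGalois K E) (_ : IsGalois K M) (hur : IsUnram ↥(𝒪 q K) ↥(𝒪 q E)) (x : Br K E),
        finrank K E = finrank K L ∧ infBr K E M x = infBr K L M y ∧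
          φ y = invQUnram q K E hur x) ∧
      ∀ (E M : Type) [Field E] [Field M]
        [Algebra ℚ_[q] E] [FiniteDimensional ℚ_[q] E]
        [Algebra ℚ_[q] M] [FiniteDimensional ℚ_[q] M]
        [Algebra K E] [Algebra K M] [Algebra L M] [Algebra E M]
        [IsScalarTower ℚ_[q] K E] [IsScalarTower ℚ_[q] K M] [IsScalarTower ℚ_[q] L M]
        [IsScalarTower ℚ_[q] E M] [IsScalarTower K L M] [IsScalarTower K E M]
        [IsGalois K E] [Normal K M] (hur : IsUnram ↥(𝒪 q K) ↥(𝒪 q E)) (x : Br K E) (y : Br K L),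
        infBr K E M x = infBr K L M y → φ y = invQUnram q K E hur x := by
  obtain ⟨E, M, iFE, iFM, iQE, iFDE, iQM, iFDM, iKE, iKM, iLM, iEM, tQKE, tQKM, tQLM, tQEM, tKLM,
    tKEM, iGE, iGM, hur, hdeg, hv⟩ := exists_config q K L
  haveI : FiniteDimensional K M := finiteDimensional_top q K M
  haveI : FiniteDimensional K L := finiteDimensional_top q K L
  set S := setupOfVanish K L E M hv with hS
  have hcardE : Nat.card (Br K E) = finrank K L := by rw [card_Br_of_isUnram q K E hur, hdeg]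
  have hE : Nat.card (Br K E) ≠ 0 := by
    rw [hcardE]
    exact (Module.finrank_pos (R := K) (M := L)).ne'
  have hU : Nat.card (Br K L) ∣ Nat.card (Br K E) := by
    rw [hcardE]
    exact UpperBoundM2.card_H2_units_dvd q K L
  set c := S.compareEquiv hE hU with hc
  have hsplit : ∀ y : Br K L, infBr K E M (c.symm y) = infBr K L M y :=
    fun y => S.infE_compareEquiv_symm hE hU y
  refine ⟨(invQUnram q K E hur).comp c.symm.toAddMonoidHom, ?_, ?_, ?_, ?_⟩
  · exact (invQUnram_injective q K E hur).comp c.symm.injective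
  · obtain ⟨u₀, hu₀⟩ := exists_invQUnram_eq q K E hur
    refine ⟨c u₀, ?_⟩
    change invQUnram q K E hur (c.symm (c u₀)) = _
    rw [AddEquiv.symm_apply_apply, hu₀, hdeg]
  · intro y
    exact ⟨E, M, iFE, iFM, iQE, iFDE, iQM, iFDM, iKE, iKM, iLM, iEM, tQKE, tQKM, tQLM, tQEM,
      tKLM, tKEM, iGE, iGM, hur, c.symm y, hdeg, hsplit y, rfl⟩
  · intro E₂ M₂ _ _ _ _ _ _ _ _ _ _ _ _ _ _ _ _ _ _ hur₂ x y h
    change invQUnram q K E hur (c.symm y) = _
    exact invQUnram_eq_of_split q K L E E₂ M M₂ hur hur₂ y (c.symm y) x (hsplit y) h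

/-- **The local invariant** `inv_{L/K} : Br(L/K) → ℚ/ℤ` of a finite Galois extension of `q`-adic
fields. -/
def invQ : Br K L →+ AddCircle (1 : ℚ) := Classical.choose (exists_invQ q K L)

theorem invQ_injective : Function.Injective (invQ q K L) :=
  (Classical.choose_spec (exists_invQ q K L)).1

/-- There is a class with invariant `1/[L:K]`. -/
theorem exists_invQ_eq :
    ∃ u, invQ q K L u = (((finrank K L : ℚ)⁻¹ : ℚ) : AddCircle (1 : ℚ)) :=
  (Classical.choose_spec (exists_invQ q K L)).2.1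

/-- Every class of `L/K` is split by an unramified extension of degree `[L:K]`. -/
theorem exists_split (y : Br K L) :
    ∃ (E M : Type) (_ : Field E) (_ : Field M)
      (_ : Algebra ℚ_[q] E) (_ : FiniteDimensional ℚ_[q] E)
      (_ : Algebra ℚ_[q] M) (_ : FiniteDimensional ℚ_[q] M)
      (_ : Algebra K E) (_ : Algebra K M) (_ : Algebra L M) (_ : Algebra E M)
      (_ : IsScalarTower ℚ_[q] K E) (_ : IsScalarTower ℚ_[q] K M) (_ : IsScalarTower ℚ_[q] L M)
      (_ : IsScalarTower ℚ_[q] E M) (_ : IsScalarTower K L M) (_ : IsScalarTower K E M)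
      (_ : IsGalois K E) (_ : IsGalois K M) (hur : IsUnram ↥(𝒪 q K) ↥(𝒪 q E)) (x : Br K E),
      finrank K E = finrank K L ∧ infBr K E M x = infBr K L M y ∧
        invQ q K L y = invQUnram q K E hur x :=
  (Classical.choose_spec (exists_invQ q K L)).2.2.1 y

section Char

variable (E M : Type) [Field E] [Field M]
  [Algebra ℚ_[q] E] [FiniteDimensional ℚ_[q] E]
  [Algebra ℚ_[q] M] [FiniteDimensional ℚ_[q] M]
  [Algebra K E] [Algebra K M] [Algebra L M] [Algebra E M]
  [IsScalarTower ℚ_[q] K E] [IsScalarTower ℚ_[q] K M] [IsScalarTower ℚ_[q] L M]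
  [IsScalarTower ℚ_[q] E M] [IsScalarTower K L M] [IsScalarTower K E M]
  [IsGalois K E] [Normal K M]

/-- **Characterisation of the invariant**: if the class `y` of `L/K` becomes equal, in a common
normal overfield `M`, to the inflation of a class `x` of an unramified extension `E/K` (of any
degree), then `inv y` is the unramified invariant of `x`. -/
theorem invQ_eq_of_split (hur : IsUnram ↥(𝒪 q K) ↥(𝒪 q E)) (x : Br K E) (y : Br K L)
    (h : infBr K E M x = infBr K L M y) : invQ q K L y = invQUnram q K E hur x :=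
  (Classical.choose_spec (exists_invQ q K L)).2.2.2 E M hur x y h

end Char

theorem addOrderOf_of_invQ_eq (u : Br K L)
    (hu : invQ q K L u = (((finrank K L : ℚ)⁻¹ : ℚ) : AddCircle (1 : ℚ))) :
    addOrderOf u = finrank K L := by
  haveI : FiniteDimensional K L := finiteDimensional_top q K L
  have hn : 0 < finrank K L := Module.finrank_pos
  rw [← addOrderOf_injective (invQ q K L) (invQ_injective q K L), hu, ← one_div]
  exact AddCircle.addOrderOf_period_div hn

include q in
/-- `|Br(L/K)| = [L:K]`. -/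
theorem card_Br : Nat.card (Br K L) = finrank K L := by
  apply Nat.dvd_antisymm (UpperBoundM2.card_H2_units_dvd q K L)
  obtain ⟨u, hu⟩ := exists_invQ_eq q K L
  rw [← addOrderOf_of_invQ_eq q K L u hu]
  exact addOrderOf_dvd_natCard u

end Config

/-! ### Inflation and restriction -/

section InfRes

variable (q : ℕ) [Fact q.Prime]
  (K E M : Type) [Field K] [Field E] [Field M]
  [Algebra ℚ_[q] K] [FiniteDimensional ℚ_[q] K]
  [Algebra ℚ_[q] E] [FiniteDimensional ℚ_[q] E]
  [Algebra ℚ_[q] M] [FiniteDimensional ℚ_[q] M]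
  [Algebra K E] [Algebra E M] [Algebra K M]
  [IsScalarTower ℚ_[q] K E] [IsScalarTower ℚ_[q] K M] [IsScalarTower ℚ_[q] E M]
  [IsScalarTower K E M] [IsGalois K M]

/-- **(INF)** `inv_{M/K} (inf y) = inv_{E/K} y` for `K ⊆ E ⊆ M`, both Galois over `K`. -/
theorem invQ_infBr [IsGalois K E] (y : Br K E) :
    invQ q K M (infBr K E M y) = invQ q K E y := by
  obtain ⟨E₀, M₀, iFE, iFM, iQE, iFDE, iQM, iFDM, iKE, iKM, iLM, iEM, tQKE, tQKM, tQLM, tQEM,
    tKLM, tKEM, iGE, iGM, hur, x, -, hsp, hz⟩ := exists_split q K M (infBr K E M y)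
  letI : Algebra E M₀ := ((algebraMap M M₀).comp (algebraMap E M)).toAlgebra
  haveI : IsScalarTower E M M₀ := IsScalarTower.of_algebraMap_eq (fun _ => rfl)
  haveI : IsScalarTower K E M₀ := IsScalarTower.of_algebraMap_eq (fun x => by
    change algebraMap K M₀ x = algebraMap M M₀ (algebraMap E M (algebraMap K E x))
    rw [← IsScalarTower.algebraMap_apply K E M, ← IsScalarTower.algebraMap_apply K M M₀])
  haveI : IsScalarTower ℚ_[q] E M₀ := IsScalarTower.of_algebraMap_eq (fun x => by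
    change algebraMap ℚ_[q] M₀ x = algebraMap M M₀ (algebraMap E M (algebraMap ℚ_[q] E x))
    rw [← IsScalarTower.algebraMap_apply ℚ_[q] E M, ← IsScalarTower.algebraMap_apply ℚ_[q] M M₀])
  rw [hz]
  exact (invQ_eq_of_split q K E E₀ M₀ hur x y (hsp.trans (infBr_infBr K E M₀ M y))).symm

/-- **(RES)** `inv_{M/E} (res y) = [E:K] • inv_{M/K} y` for `K ⊆ E ⊆ M`, `M/K` Galois. -/
theorem invQ_resBr [IsGalois E M] (y : Br K M) :
    invQ q E M (resBr K E M y) = finrank K E • invQ q K M y := by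
  obtain ⟨E₀, M₀, iFE, iFM, iQE, iFDE, iQM, iFDM, iKE, iKM, iLM, iEM, tQKE, tQKM, tQLM, tQEM,
    tKLM, tKEM, iGE, iGM, hur, x, hdeg, hsp, hy⟩ := exists_split q K M y
  letI : Algebra E M₀ := ((algebraMap M M₀).comp (algebraMap E M)).toAlgebra
  haveI : IsScalarTower E M M₀ := IsScalarTower.of_algebraMap_eq (fun _ => rfl)
  haveI : IsScalarTower K E M₀ := IsScalarTower.of_algebraMap_eq (fun x => by
    change algebraMap K M₀ x = algebraMap M M₀ (algebraMap E M (algebraMap K E x))
    rw [← IsScalarTower.algebraMap_apply K E M, ← IsScalarTower.algebraMap_apply K M M₀])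
  haveI : IsScalarTower ℚ_[q] E M₀ := IsScalarTower.of_algebraMap_eq (fun x => by
    change algebraMap ℚ_[q] M₀ x = algebraMap M M₀ (algebraMap E M (algebraMap ℚ_[q] E x))
    rw [← IsScalarTower.algebraMap_apply ℚ_[q] E M, ← IsScalarTower.algebraMap_apply ℚ_[q] M M₀])
  haveI : FiniteDimensional K M₀ := finiteDimensional_top q K M₀
  haveI : IsGalois E M₀ := IsGalois.tower_top_of_isGalois K E M₀
  have hbc := isUnram_comp q K E₀ E M₀ hur
  haveI : IsGalois E ↥(comp E E₀ M₀) := hbc.2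
  have hx' : infBr E ↥(comp E E₀ M₀) M₀ (resBr K E ↥(comp E E₀ M₀) (infBr K E₀ ↥(comp E E₀ M₀) x))
      = infBr E M M₀ (resBr K E M y) := by
    rw [← resBr_infBr_factor K E₀ E ↥(comp E E₀ M₀) M₀ x, hsp, resBr_infBr_comm K E M M₀ y]
  have hdvd : relResDeg q K E ∣ finrank K E₀ := by
    haveI : FiniteDimensional K E := finiteDimensional_top q K E
    haveI : FiniteDimensional E M := finiteDimensional_top q E M
    rw [hdeg, ← Module.finrank_mul_finrank K E M, ← relRamIdx_mul_relResDeg q K E]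
    exact ⟨relRamIdx q K E * finrank E M, by ring⟩
  rw [invQ_eq_of_split q E M ↥(comp E E₀ M₀) M₀ hbc.1 _ _ hx',
    invQUnram_resBr_infBr q K E₀ E ↥(comp E E₀ M₀) hur hbc.1 (adjoin_range_eq_top E E₀ M₀) hdvd x,
    hy]

end InfRes

end Fermat.Agent.CFT.Local.LocalInv
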