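/-
PROJECT C, Layer B, slice B3c-LC (helper21): THE LOCAL CLASS FORMATION in the level-constant model.

`K` a finite extension of `ℚ_[q]`, `Ω/K` a Galois extension (finite or infinite) inside which we
work (`Ω = PadicAlgCl q` for the full local Galois group, `Ω = (ℚ_S)_v` for the decomposition
group).  From the canonical invariant maps `invQ` of B3c (injective, `|Br| = degree`, (INF),
(RES), existence of the fundamental class) we build a `FieldFormation K Ω`, hence a class
formation `A7.ClassFormation 𝒰 (Ωˣ)` for every family of levels `𝒰` made of fixing subgroups of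
finite Galois subextensions - in particular for `levelsLoc q`.
-/
import Mathlib
import Fermat.Agent.CFT.GaloisDict.ClassModule
import Fermat.Agent.CFT.GaloisDict.Formation
import Fermat.Agent.CFT.Local.LocalInv
import Fermat.Agent.CFT.LocalBridge.Levels

set_option autoImplicit false

noncomputable section

namespace Fermat.Agent.CFT.Local.ClassFormationLC

open groupCohomology CategoryTheory Rep Fermat.Agent.CFT.GaloisDict
  Fermat.Agent.CFT.GaloisDict.Infinite Fermat.Agent.CFT.A5.Tate Fermat.Agent.CFT.LC
  Fermat.Agent.CFT.A7 Fermat.Agent.CFT.Local.LocalInv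

variable (q : ℕ) [Fact q.Prime] (K Ω : Type) [Field K] [Field Ω] [Algebra K Ω] [IsGalois K Ω]
  [Algebra ℚ_[q] K] [FiniteDimensional ℚ_[q] K] [Algebra ℚ_[q] Ω] [IsScalarTower ℚ_[q] K Ω]

section Instances

variable {K Ω}

/-- A finite subextension of `Ω/K` is finite over `ℚ_[q]`. -/
theorem finiteDimensional_padic (E : IntermediateField K Ω) [FiniteDimensional K E] :
    FiniteDimensional ℚ_[q] ↥E :=
  FiniteDimensional.trans ℚ_[q] K ↥E

end Instances

section Field

variable {K Ω}
variable (E : IntermediateField K Ω) [FiniteDimensional K E] [Normal K E]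

/-- The fundamental class `u_{E/K}`: the class with invariant `1/[E:K]`. -/
def fundClass : Br K ↥E :=
  haveI := finiteDimensional_padic q E
  haveI : IsGalois K ↥E := ⟨⟩
  (exists_invQ_eq q K ↥E).choose

theorem invQ_fundClass :
    haveI := finiteDimensional_padic q E
    haveI : IsGalois K ↥E := ⟨⟩
    invQ q K ↥E (fundClass q E) =
      (((Module.finrank K ↥E : ℚ)⁻¹ : ℚ) : AddCircle (1 : ℚ)) :=
  haveI := finiteDimensional_padic q E
  haveI : IsGalois K ↥E := ⟨⟩
  (exists_invQ_eq q K ↥E).choose_spec

theorem H2π_surj (A : Rep ℤ (↥E ≃ₐ[K] ↥E)) : Function.Surjective (H2π A).hom :=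
  (ModuleCat.epi_iff_surjective (H2π A)).1 inferInstance

/-- A fundamental `2`-cocycle of `E/K`. -/
def fundCocycle : cocycles₂ (unitsRep K ↥E) :=
  (H2π_surj E (unitsRep K ↥E) (fundClass q E)).choose

theorem H2π_fundCocycle : H2π (unitsRep K ↥E) (fundCocycle q E) = fundClass q E :=
  (H2π_surj E (unitsRep K ↥E) (fundClass q E)).choose_spec

/-- **(L-a)** `(Eˣ, u_{E/K})` is a class module for `Gal(E/K)`. -/
theorem isClassModule_fundCocycle :
    IsClassModule (unitsRep K ↥E) (fundCocycle q E) := by
  haveI := finiteDimensional_padic q E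
  haveI : IsGalois K ↥E := ⟨⟩
  haveI hfd : ∀ E₁ : IntermediateField K ↥E, FiniteDimensional ℚ_[q] ↥E₁ :=
    fun E₁ => FiniteDimensional.trans ℚ_[q] K ↥E₁
  haveI hst : ∀ E₁ : IntermediateField K ↥E, IsScalarTower ℚ_[q] ↥E₁ ↥E :=
    fun E₁ => IsScalarTower.of_algebraMap_eq fun _ => rfl
  refine isClassModule_unitsRep_of_inv (fundCocycle q E) (invQ q K ↥E)
    (fun E₁ => invQ q ↥E₁ ↥E) (fun E₁ => invQ_injective q ↥E₁ ↥E)
    (fun E₁ => card_Br q ↥E₁ ↥E) (fun E₁ x => invQ_resBr q K ↥E₁ ↥E x) ?_
  rw [H2π_fundCocycle]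
  exact invQ_fundClass q E

end Field

section Infl

variable {K Ω}
variable {E E' : IntermediateField K Ω} [FiniteDimensional K E] [Normal K E]
  [FiniteDimensional K E'] [Normal K E'] (hle : E ≤ E')

/-- **(L-b)** `inf u_{E/K} = [E':E] • u_{E'/K}`. -/
theorem infBrIncl_fundClass :
    (infBrIncl hle).hom (fundClass q E) =
      (letI := inclAlgebra hle; Module.finrank ↥E ↥E') • fundClass q E' := by
  letI := inclAlgebra hle
  haveI := isScalarTower_incl hle
  haveI := finiteDimensional_padic q E
  haveI := finiteDimensional_padic q E'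
  haveI : IsGalois K ↥E := ⟨⟩
  haveI : IsGalois K ↥E' := ⟨⟩
  haveI : IsScalarTower ℚ_[q] ↥E ↥E' := IsScalarTower.of_algebraMap_eq fun _ => rfl
  exact infBr_fundamental_of_inv ↥E (invQ q K ↥E) (invQ q K ↥E') (invQ_injective q K ↥E')
    (fun x => invQ_infBr q K ↥E ↥E' x) _ _ (invQ_fundClass q E) (invQ_fundClass q E')

end Infl

/-- **The local field formation**: fundamental cocycles of all finite Galois subextensions of
`Ω/K`, with (L-a) and (L-b). -/
def localFieldFormation : FieldFormation K Ω where
  φ E _ _ := fundCocycle q E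
  isClassModule E _ _ := isClassModule_fundCocycle q E
  infl E E' _ _ _ _ hle := by
    rw [H2π_fundCocycle, H2π_fundCocycle]
    exact infBrIncl_fundClass q hle

/-- **The local class formation** `(Gal(Ω/K), Ωˣ)` in the level-constant model, for any family of
levels consisting of fixing subgroups of finite Galois subextensions. -/
def localClassFormation {𝒰 : Levels (Ω ≃ₐ[K] Ω)} (h𝒰 : IsFieldLevels 𝒰) :
    ClassFormation 𝒰 (unitsRep K Ω) :=
  (localFieldFormation q K Ω).classFormation h𝒰

open Fermat.Agent.CFT.LocalBridge in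
/-- **The class formation of the full local Galois group** `(LocGal q, levelsLoc q, Q̄_qˣ)`. -/
def classFormationLoc :
    ClassFormation (levelsLoc q) (unitsRep ℚ_[q] (PadicAlgCl q)) :=
  localClassFormation q ℚ_[q] (PadicAlgCl q) (fun _ hU => hU)

end Fermat.Agent.CFT.Local.ClassFormationLC
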