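/-
PROJECT C, Layer B → Layer D glue (helper21): the local class formation with coefficients in a
localisation `k` of `ℤ` (e.g. `k = ℤ_(p)`).

* `isSmooth_unitsRep` : for `Ω/K` Galois and a family of levels containing the fixing subgroups of
  all finite normal subextensions, `Ωˣ` is a smooth module;
* `localClassFormationK`, `classFormationLocK` : for ANY model `Y : Rep k G` of `Ωˣ ⊗ k`
  (`A7.BaseChange.IsLocRep M (unitsRep K Ω) Y f`, `k` the localisation of `ℤ` at `M`), the class
  formation `A7.ClassFormation 𝒰 Y` over `k`.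
-/
import Mathlib
import Fermat.Agent.CFT.Local.ClassFormationLC
import Fermat.Agent.CFT.A7.ClassFormationBaseChange

set_option autoImplicit false

noncomputable section

namespace Fermat.Agent.CFT.Local.ClassFormationLC

open groupCohomology CategoryTheory Rep Fermat.Agent.CFT.GaloisDict
  Fermat.Agent.CFT.GaloisDict.Infinite Fermat.Agent.CFT.LC Fermat.Agent.CFT.A7
  Fermat.Agent.CFT.A7.BaseChange Fermat.Agent.CFT.LocalBridge
open scoped IntermediateField

section Smooth

variable {K Ω : Type} [Field K] [Field Ω] [Algebra K Ω] [IsGalois K Ω]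

/-- `Ωˣ` is a smooth `Gal(Ω/K)`-module for any family of levels containing all fixing subgroups of
finite normal subextensions. -/
theorem isSmooth_unitsRep (𝒰 : Levels (Ω ≃ₐ[K] Ω))
    (h𝒰 : ∀ E : IntermediateField K Ω, FiniteDimensional K E → Normal K E →
      E.fixingSubgroup ∈ 𝒰.sets) :
    IsSmooth 𝒰 (unitsRep K Ω) := by
  intro a
  set x : Ω := ((Additive.toMul a : Ωˣ) : Ω) with hx
  have halg : IsIntegral K x := Algebra.IsIntegral.isIntegral x
  haveI : FiniteDimensional K K⟮x⟯ := IntermediateField.adjoin.finiteDimensional halg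
  let E : IntermediateField K Ω := IntermediateField.normalClosure K ↥K⟮x⟯ Ω
  have hxE : x ∈ E :=
    (IntermediateField.le_normalClosure K⟮x⟯) (IntermediateField.mem_adjoin_simple_self K x)
  refine ⟨E.fixingSubgroup, h𝒰 E inferInstance inferInstance, fun σ hσ => ?_⟩
  apply congrArg Additive.ofMul
  apply Units.ext
  exact (IntermediateField.mem_fixingSubgroup_iff E σ).mp hσ x hxE

end Smooth

variable (q : ℕ) [Fact q.Prime]

theorem isSmooth_unitsRep_levelsLoc :
    IsSmooth (levelsLoc q) (unitsRep ℚ_[q] (PadicAlgCl q)) :=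
  isSmooth_unitsRep _ fun E hfd hn => ⟨E, hfd, hn, rfl⟩

variable {k : Type} [CommRing k] [Algebra ℤ k] (M : Submonoid ℤ) [IsLocalization M k]

/-- **The local class formation over `k`** (a localisation of `ℤ`), for any equivariant
localisation `Y` of `Ωˣ`. -/
def localClassFormationK (K Ω : Type) [Field K] [Field Ω] [Algebra K Ω] [IsGalois K Ω]
    [Algebra ℚ_[q] K] [FiniteDimensional ℚ_[q] K] [Algebra ℚ_[q] Ω] [IsScalarTower ℚ_[q] K Ω]
    {𝒰 : Levels (Ω ≃ₐ[K] Ω)} (h𝒰 : IsFieldLevels 𝒰)
    (h𝒰' : ∀ E : IntermediateField K Ω, FiniteDimensional K E → Normal K E →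
      E.fixingSubgroup ∈ 𝒰.sets)
    {Y : Rep.{0} k (Ω ≃ₐ[K] Ω)} {f : (unitsRep K Ω).V →+ Y.V}
    (hf : IsLocRep M (unitsRep K Ω) Y f) : ClassFormation 𝒰 Y :=
  CFBaseChange.baseChange (localClassFormation q K Ω h𝒰) hf (isSmooth_unitsRep 𝒰 h𝒰')

/-- **The class formation of `(LocGal q, Q̄_qˣ ⊗ k)`** over `k`, for any model `Y` of the
localisation. -/
def classFormationLocK {Y : Rep.{0} k (LocGal q)}
    {f : (unitsRep ℚ_[q] (PadicAlgCl q)).V →+ Y.V}
    (hf : IsLocRep M (unitsRep ℚ_[q] (PadicAlgCl q)) Y f) : ClassFormation (levelsLoc q) Y :=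
  CFBaseChange.baseChange (classFormationLoc q) hf (isSmooth_unitsRep_levelsLoc q)

end Fermat.Agent.CFT.Local.ClassFormationLC
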