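/-
PROJECT C, Layer B → Layer D glue (helper21): the field `cfD` of helper8's `D.Main.Datum`.

* `A7.ClassFormation.ofSubfamily` : a class formation restricts to any sub-family of levels;
* `classFormationLevelsOf q hf` : the local class formation over `k` on the prelude's family
  `Bridge.levelsOf (localGaloisToGlobal q)` (a sub-family of `levelsLoc q`);
* `classFormationDloc q hf` : the same for the prelude's group `primeLocalGaloisGroup q`
  (`q : Nat.Primes`) and the family `Bridge.levelsOf (primeLocalToGlobal q)` — verbatim the type of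
  `Datum.cfD`.
-/
import Mathlib
import Fermat.Agent.CFT.Local.ClassFormationLocK

set_option autoImplicit false

noncomputable section

namespace Fermat.Agent.CFT.A7

open Fermat.Agent.CFT.LC

/-- A class formation restricts to any sub-family of levels. -/
def ClassFormation.ofSubfamily {k G : Type} [CommRing k] [Group G] {𝒰 𝒱 : Levels G}
    {C : Rep.{0} k G} (cf : ClassFormation 𝒰 C) (h : 𝒱.sets ⊆ 𝒰.sets) : ClassFormation 𝒱 C where
  finiteIndex U hU := cf.finiteIndex U (h hU)
  φ U _ hU := cf.φ U (h hU)
  isClassModule U _ hU := cf.isClassModule U (h hU)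
  h1 U _ hU := cf.h1 U (h hU)
  hgen U _ hU := cf.hgen U (h hU)
  hord U _ hU := cf.hord U (h hU)
  infl_φ U W _ _ hU hW hle := cf.infl_φ U W (h hU) (h hW) hle

end Fermat.Agent.CFT.A7

namespace Fermat.Agent.CFT.Local.ClassFormationLC

open groupCohomology CategoryTheory Rep Fermat.Agent.CFT.GaloisDict
  Fermat.Agent.CFT.LC Fermat.Agent.CFT.A7 Fermat.Agent.CFT.A7.BaseChange
  Fermat.Agent.CFT.LocalBridge Fermat.Agent.CFT.Bridge ExtCitation

variable {k : Type} [CommRing k] [Algebra ℤ k] (M : Submonoid ℤ) [IsLocalization M k]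

/-- The local class formation over `k` on the prelude's family of levels
`levelsOf (localGaloisToGlobal q)`. -/
def classFormationLevelsOf (q : ℕ) [Fact q.Prime] {Y : Rep.{0} k (LocGal q)}
    {f : (unitsRep ℚ_[q] (PadicAlgCl q)).V →+ Y.V}
    (hf : IsLocRep M (unitsRep ℚ_[q] (PadicAlgCl q)) Y f) :
    ClassFormation (levelsOf (localGaloisToGlobal q)) Y :=
  (classFormationLocK q M hf).ofSubfamily (levelsOf_sets_subset q)

/-- The `Fact` instance used by the prelude for `q : Nat.Primes`. -/
abbrev factPrimes (q : Nat.Primes) : Fact (q : ℕ).Prime := ⟨q.2⟩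

attribute [local instance] factPrimes

/-- **The field `cfD` of `D.Main.Datum`**: the local class formation over `k` for the prelude's
local Galois group at `q : Nat.Primes` and its family of levels, for any model `Y` of
`Q̄_qˣ ⊗ k`. -/
def classFormationDloc (q : Nat.Primes) {Y : Rep.{0} k (primeLocalGaloisGroup q)}
    {f : (unitsRep ℚ_[(q : ℕ)] (PadicAlgCl (q : ℕ))).V →+ Y.V}
    (hf : IsLocRep (G := primeLocalGaloisGroup q) M
      (unitsRep ℚ_[(q : ℕ)] (PadicAlgCl (q : ℕ))) Y f) :
    ClassFormation (levelsOf (primeLocalToGlobal q)) Y :=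
  classFormationLevelsOf (k := k) M (q : ℕ) hf

end Fermat.Agent.CFT.Local.ClassFormationLC
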