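import Mathlib
import Fermat.Agent.CFT.Local.TowerInst
import Fermat.Agent.CFT.Local.CyclicInstance
import Fermat.Agent.CFT.Local.UpperBoundLocal

set_option autoImplicit false

/-!
PROJECT C, Layer B: the cyclic local `H²` and the general upper bound at the concrete model (M2)
(fields finite over `ℚ_[q]`), obtained by feeding the AKLB instance bundle of `TowerInst` into
`CyclicInstance` (helper22) and `UpperBoundLocal` (helper17).
-/

namespace Fermat.Agent.CFT.Local.CyclicM2

open Fermat.Agent.CFT.Local Fermat.Agent.CFT.Local.Model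
open scoped Fermat.Agent.CFT.Local.TowerInst

/-- A subfield `K` of a finite extension `M` of `ℚ_[q]` is finite over `ℚ_[q]`. -/
theorem finiteDimensional_bot (q : ℕ) [Fact q.Prime] (K M : Type*) [Field K] [Field M]
    [Algebra K M] [Algebra ℚ_[q] K] [Algebra ℚ_[q] M] [IsScalarTower ℚ_[q] K M]
    [FiniteDimensional ℚ_[q] M] : FiniteDimensional ℚ_[q] K :=
  FiniteDimensional.of_injective (IsScalarTower.toAlgHom ℚ_[q] K M).toLinearMap
    (algebraMap K M).injective

/-- **`#H²(Gal(M/K), Mˣ) = [M : K]`** for cyclic extensions of `q`-adic local fields (M2). -/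
theorem card_H2_of_cyclic (q : ℕ) [Fact q.Prime] (K M : Type) [Field K] [Field M] [Algebra K M]
    [Algebra ℚ_[q] K] [Algebra ℚ_[q] M] [IsScalarTower ℚ_[q] K M] [FiniteDimensional ℚ_[q] M]
    [IsGalois K M] [IsCyclic (M ≃ₐ[K] M)] :
    Nat.card (groupCohomology (Rep.ofAlgebraAutOnUnits K M) 2) = Module.finrank K M := by
  have : FiniteDimensional ℚ_[q] K := finiteDimensional_bot q K M
  have := charZero_field q K
  have := TowerInst.finiteDimensional_top q K M
  exact CyclicInstance.card_H2_of_cyclic ↥(𝒪 q K) K ↥(𝒪 q M) M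

open Fermat.Agent.CFT.Herbrand in
/-- **The local norm index theorem** at (M2): for a generator `g` of the Galois group of a cyclic
extension `M/K` of `q`-adic local fields of degree `n`, on `Additive Mˣ` with
`σ = toAdditive (Units.map g)`: `[ker (σ - 1) : im N] = n` and `[ker N : im (σ - 1)] = 1`. -/
theorem idx_of_cyclic (q : ℕ) [Fact q.Prime] (K M : Type) [Field K] [Field M] [Algebra K M]
    [Algebra ℚ_[q] K] [Algebra ℚ_[q] M] [IsScalarTower ℚ_[q] K M] [FiniteDimensional ℚ_[q] M]
    [IsGalois K M] [IsCyclic (M ≃ₐ[K] M)] (g : M ≃ₐ[K] M)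
    (hgen : ∀ x, x ∈ Subgroup.zpowers g) :
    idx (delta (MonoidHom.toAdditive (Units.map (g : M →* M))))
        (nrm (MonoidHom.toAdditive (Units.map (g : M →* M))) (Module.finrank K M))
      = Module.finrank K M ∧
    idx (nrm (MonoidHom.toAdditive (Units.map (g : M →* M))) (Module.finrank K M))
        (delta (MonoidHom.toAdditive (Units.map (g : M →* M)))) = 1 := by
  have : FiniteDimensional ℚ_[q] K := finiteDimensional_bot q K M
  have := charZero_field q K
  have := TowerInst.finiteDimensional_top q K M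
  exact CyclicInstance.idx_of_cyclic ↥(𝒪 q K) K ↥(𝒪 q M) M g hgen

/-- **Upper bound** `#H²(Gal(M/K), Mˣ) ∣ [M : K]` for all finite Galois extensions of `q`-adic
local fields (M2). -/
theorem card_H2_dvd (q : ℕ) [Fact q.Prime] (K M : Type) [Field K] [Field M] [Algebra K M]
    [Algebra ℚ_[q] K] [Algebra ℚ_[q] M] [IsScalarTower ℚ_[q] K M] [FiniteDimensional ℚ_[q] M]
    [IsGalois K M] :
    Nat.card (groupCohomology (Rep.ofAlgebraAutOnUnits K M) 2) ∣ Module.finrank K M :=
  UpperBoundLocal.card_H2_units_dvd_of_cyclic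
    (fun q _ K M _ _ _ _ _ _ _ _ _ _ => (card_H2_of_cyclic q K M).dvd) q K M

end Fermat.Agent.CFT.Local.CyclicM2
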