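import Mathlib
import Fermat.Agent.CFT.InfRes2
import Fermat.Agent.CFT.Local.UnramifiedBrauer

/-!
# `H²` of a general finite layer from the unramified layers (abstract form)

`Γ` a (finite) group (think `Γ = Gal(M/K)`, `M = L·K_d`), `A : Rep ℤ Γ` (think `A = Mˣ`),
`N H : Subgroup Γ` normal (`N = Gal(M/K_d)`, `H = Gal(M/L)`), so that `A^N = K_dˣ` with its
`Γ/N = Gal(K_d/K)`-action and `A^H = Lˣ` with its `Γ/H = Gal(L/K)`-action.

We are given "unramified data" (`UnramData`, from `UnramifiedBrauer`) for

* `Γ/N = ⟨σ⟩` acting on `A^N` (order `d`: `K_d/K` unramified of degree `d` with Frobenius `σ`),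
* `H = ⟨τ⟩` acting on `A` (order `m`: `M/L` unramified of degree `m` with Frobenius `τ`),

such that `τ ↦ σ^f` in `Γ/N` with `f * m = d`, and the valuation of the top layer restricted to
`A^N` is `c` times the valuation of the bottom layer with `m ∣ c`
(for local fields: `d = [L:K] = e f`, `m = c = e`).

Then every class of `H²(Γ/N, A^N)` dies in `H²(H, A)`; hence (inflation–restriction) it comes from
`H²(Γ/H, A^H)`.  If moreover `|H²(Γ/H, A^H)|` divides `d` (upper bound, by dévissage), we get
`H²(Γ/H, A^H) ≃ ZMod d`, and the images of the two inflations in `H²(Γ, A)` coincide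
("every class of `L/K` is split by the unramified extension of the same degree").
-/

set_option autoImplicit false

noncomputable section

namespace Fermat.Agent.CFT.Local.GeneralH2

open groupCohomology Rep Finset
open Fermat.Agent.CFT.InfRes2 Fermat.Agent.CFT.Local.CyclicH2
open Fermat.Agent.CFT.Local.UnramifiedBrauer

variable {Γ : Type} [Group Γ] {A : Rep ℤ Γ}

/-- The data of the comparison between an arbitrary layer `L/K` (group `Γ ⧸ H`) and the
unramified layer `K_d/K` (group `Γ ⧸ N`) inside a common layer `M/K` (group `Γ`). -/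
structure SplitData (A : Rep ℤ Γ) (N H : Subgroup Γ) [N.Normal] [H.Normal] where
  /-- the Frobenius of the bottom unramified layer -/
  σ : Γ ⧸ N
  /-- the degree of the bottom unramified layer -/
  d : ℕ
  /-- the bottom unramified layer `K_d/K` -/
  D : UnramData (A.quotientToInvariants N) σ d
  /-- the Frobenius of the top unramified layer -/
  τ : H
  /-- the degree of the top unramified layer -/
  m : ℕ
  /-- the top unramified layer `M/L` -/
  D' : UnramData (res H.subtype A) τ m
  /-- the residue degree -/
  f : ℕ
  /-- the top Frobenius restricts to the `f`-th power of the bottom Frobenius -/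
  hτ : (((τ : Γ) : Γ ⧸ N)) = σ ^ f
  /-- degrees -/
  hfm : f * m = d
  /-- the ramification index of `M/K_d` -/
  c : ℤ
  /-- the top degree divides the ramification index -/
  hc : (m : ℤ) ∣ c
  /-- the top valuation restricted to the bottom layer -/
  hord : ∀ a : A.quotientToInvariants N, D'.ord (a.1 : A) = c * D.ord a

namespace SplitData

variable {N H : Subgroup Γ} [N.Normal] [H.Normal] (S : SplitData A N H)

theorem d_pos : 0 < S.d := S.D.hn

theorem m_pos : 0 < S.m := S.D'.hn

theorem f_pos : 0 < S.f := by
  have := S.d_pos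
  rw [← S.hfm] at this
  exact Nat.pos_of_mul_pos_right this

theorem coe_τ_pow (i : ℕ) : ((((S.τ ^ i : H) : Γ)) : Γ ⧸ N) = S.σ ^ (S.f * i) := by
  rw [Subgroup.coe_pow, QuotientGroup.mk_pow, S.hτ, pow_mul]

/-- The transgression sum (along the top layer) of the restricted inflated carry cocycle of `a` is
`a` again. -/
theorem trSum_res_inf_stdCocycle (h2 : 2 ≤ S.m) {a : A.quotientToInvariants N}
    (ha : (A.quotientToInvariants N).ρ S.σ a = a) :
    trSum (res H.subtype A) S.τ S.m
      (resCocycles₂ A H (infCocycles₂ A N (stdCocycle S.D.hord S.D.hn S.D.hgen ha))) = (a.1 : A) := by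
  have hf := S.f_pos
  have hfm := S.hfm
  have hfd : S.f < S.d := by
    rw [← hfm]
    calc S.f = S.f * 1 := (mul_one _).symm
      _ < S.f * S.m := Nat.mul_lt_mul_of_pos_left (by omega) hf
  unfold trSum
  have hterm : ∀ i ∈ range S.m,
      (resCocycles₂ A H (infCocycles₂ A N (stdCocycle S.D.hord S.D.hn S.D.hgen ha)))
        (S.τ ^ i, S.τ) = if i = S.m - 1 then (a.1 : A) else 0 := by
    intro i hi
    rw [Finset.mem_range] at hi
    rw [resCocycles₂_apply, infCocycles₂_apply, S.coe_τ_pow i, S.hτ, stdCocycle_apply,
      idx_pow S.D.hord S.D.hn S.D.hgen, idx_pow S.D.hord S.D.hn S.D.hgen]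
    have hlt : S.f * i < S.d := by
      rw [← hfm]
      exact Nat.mul_lt_mul_of_pos_left hi hf
    rw [Nat.mod_eq_of_lt hlt, Nat.mod_eq_of_lt hfd]
    by_cases h : i = S.m - 1
    · have hle : S.d ≤ S.f * i + S.f := by
        have : S.f * i + S.f = S.f * S.m := by
          rw [h]
          conv_rhs => rw [show S.m = (S.m - 1) + 1 by omega]
          rw [Nat.mul_succ]
        rw [this, hfm]
      rw [if_pos h, if_pos hle, one_smul]
    · have hlt' : ¬ S.d ≤ S.f * i + S.f := by
        have h1 : i + 1 < S.m := by omega
        have : S.f * i + S.f = S.f * (i + 1) := (Nat.mul_succ _ _).symm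
        rw [this, ← hfm, not_le]
        exact Nat.mul_lt_mul_of_pos_left h1 hf
      rw [if_neg h, if_neg hlt', zero_smul]
      rfl
  rw [Finset.sum_congr rfl hterm, Finset.sum_ite_eq' (range S.m) (S.m - 1)]
  rw [if_pos (Finset.mem_range.mpr (by omega))]

include S in
/-- **Key vanishing**: every class of the bottom unramified layer dies in the top layer. -/
theorem res₂_inf₂_eq_zero (x : groupCohomology (A.quotientToInvariants N) 2) :
    res₂ A H (inf₂ A N x) = 0 := by
  apply S.D'.inv_injective
  rw [map_zero]
  rcases Nat.lt_or_ge S.m 2 with h2 | h2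
  · have hm1 : S.m = 1 := by have := S.m_pos; omega
    have : Subsingleton (ZMod S.m) := by rw [hm1]; infer_instance
    exact Subsingleton.elim _ _
  · have h1 : 1 < S.d := by
      have := S.f_pos
      rw [← S.hfm]
      nlinarith
    obtain ⟨a, ha, rfl⟩ := exists_H2π_stdCocycle S.D.hord S.D.hn S.D.hgen h1 x
    rw [inf₂_H2π, res₂_H2π, UnramData.inv_H2π, S.trSum_res_inf_stdCocycle h2 ha, S.hord]
    obtain ⟨t, ht⟩ := S.hc
    rw [ht, mul_assoc, Int.cast_mul, Int.cast_natCast, ZMod.natCast_self, zero_mul]

include S in
/-- Every class of the bottom unramified layer comes from the layer `Γ ⧸ H`. -/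
theorem exists_inf₂_eq (hH : H1Vanishes A H) (x : groupCohomology (A.quotientToInvariants N) 2) :
    ∃ y : groupCohomology (A.quotientToInvariants H) 2, inf₂ A H y = inf₂ A N x :=
  exists_inf₂_eq_of_res₂_eq_zero hH _ (S.res₂_inf₂_eq_zero x)

/-- The comparison map `H²(Γ ⧸ N, A^N) → H²(Γ ⧸ H, A^H)`, characterised by
`inf ∘ compare = inf`. -/
def compare (hH : H1Vanishes A H) :
    groupCohomology (A.quotientToInvariants N) 2 →+ groupCohomology (A.quotientToInvariants H) 2 where
  toFun x := Classical.choose (S.exists_inf₂_eq hH x)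
  map_zero' := by
    apply inf₂_injective hH
    rw [Classical.choose_spec (S.exists_inf₂_eq hH 0), map_zero, map_zero]
  map_add' x y := by
    apply inf₂_injective hH
    rw [Classical.choose_spec (S.exists_inf₂_eq hH (x + y)), map_add, map_add,
      Classical.choose_spec (S.exists_inf₂_eq hH x), Classical.choose_spec (S.exists_inf₂_eq hH y)]

theorem inf₂_compare (hH : H1Vanishes A H) (x : groupCohomology (A.quotientToInvariants N) 2) :
    inf₂ A H (S.compare hH x) = inf₂ A N x :=
  Classical.choose_spec (S.exists_inf₂_eq hH x)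

theorem compare_eq_iff (hH : H1Vanishes A H) (x : groupCohomology (A.quotientToInvariants N) 2)
    (y : groupCohomology (A.quotientToInvariants H) 2) :
    S.compare hH x = y ↔ inf₂ A N x = inf₂ A H y := by
  constructor
  · rintro rfl
    exact (S.inf₂_compare hH x).symm
  · intro h
    apply inf₂_injective hH
    rw [S.inf₂_compare hH x, h]

theorem compare_injective (hH : H1Vanishes A H) (hN : H1Vanishes A N) :
    Function.Injective (S.compare hH) := by
  intro x y hxy
  apply inf₂_injective hN
  rw [← S.inf₂_compare hH x, ← S.inf₂_compare hH y, hxy]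

include S in
/-- **Lower bound**: `d` divides `|H²(Γ ⧸ H, A^H)|` (when the latter is finite). -/
theorem d_dvd_card (hH : H1Vanishes A H) (hN : H1Vanishes A N) :
    S.d ∣ Nat.card (groupCohomology (A.quotientToInvariants H) 2) := by
  have h1 : Nat.card (S.compare hH).range = S.d := by
    rw [← S.D.card_H2]
    exact (Nat.card_congr (Equiv.ofInjective _ (S.compare_injective hH hN))).symm
  rw [← h1]
  exact AddSubgroup.card_addSubgroup_dvd_card _

section UpperBound

variable (hH : H1Vanishes A H) (hN : H1Vanishes A N)
  (hU : Nat.card (groupCohomology (A.quotientToInvariants H) 2) ∣ S.d)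

include S hH hN hU in
/-- **The order of `H²`** of the general layer. -/
theorem card_H2 : Nat.card (groupCohomology (A.quotientToInvariants H) 2) = S.d :=
  Nat.dvd_antisymm hU (S.d_dvd_card hH hN)

include hN hU in
theorem compare_bijective : Function.Bijective (S.compare hH) := by
  have hfin : Finite (groupCohomology (A.quotientToInvariants H) 2) := by
    apply Nat.finite_of_card_ne_zero
    rw [S.card_H2 hH hN hU]
    exact S.d_pos.ne'
  have hfin' : Finite (groupCohomology (A.quotientToInvariants N) 2) := by
    apply Nat.finite_of_card_ne_zero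
    rw [S.D.card_H2]
    exact S.d_pos.ne'
  refine (Nat.bijective_iff_injective_and_card _).2 ⟨S.compare_injective hH hN, ?_⟩
  rw [S.card_H2 hH hN hU, S.D.card_H2]

/-- The comparison isomorphism. -/
def compareEquiv :
    groupCohomology (A.quotientToInvariants N) 2 ≃+ groupCohomology (A.quotientToInvariants H) 2 :=
  AddEquiv.ofBijective (S.compare hH) (S.compare_bijective hH hN hU)

/-- **The invariant map of the general layer** `H²(Γ ⧸ H, A^H) ≃ ℤ/d`. -/
def invEquiv : groupCohomology (A.quotientToInvariants H) 2 ≃+ ZMod S.d :=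
  (S.compareEquiv hH hN hU).symm.trans S.D.invEquiv

theorem invEquiv_compare (x : groupCohomology (A.quotientToInvariants N) 2) :
    S.invEquiv hH hN hU (S.compare hH x) = S.D.inv x := by
  unfold invEquiv
  rw [AddEquiv.trans_apply]
  have : (S.compareEquiv hH hN hU).symm (S.compare hH x) = x :=
    (S.compareEquiv hH hN hU).symm_apply_apply x
  rw [this]
  rfl

/-- The invariant is characterised by: if `inf y = inf x` in `H²(Γ, A)` then `inv y = inv x`. -/
theorem invEquiv_eq_of_inf₂_eq (y : groupCohomology (A.quotientToInvariants H) 2)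
    (x : groupCohomology (A.quotientToInvariants N) 2) (h : inf₂ A N x = inf₂ A H y) :
    S.invEquiv hH hN hU y = S.D.inv x := by
  rw [← (S.compare_eq_iff hH x y).2 h, S.invEquiv_compare]

/-- The fundamental class of the general layer. -/
def fundamentalClass : groupCohomology (A.quotientToInvariants H) 2 :=
  S.compare hH S.D.fundamentalClass

theorem invEquiv_fundamentalClass (h1 : 1 < S.d) :
    S.invEquiv hH hN hU (S.fundamentalClass hH) = 1 := by
  rw [fundamentalClass, S.invEquiv_compare, S.D.inv_fundamentalClass h1]

include S hH hN hU in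
/-- **Every class of the general layer is split by the unramified layer of the same degree**:
the two inflations have the same image in `H²(Γ, A)`. -/
theorem range_inf₂_eq :
    Set.range (inf₂ A H) = Set.range (inf₂ A N) := by
  ext z
  constructor
  · rintro ⟨y, rfl⟩
    obtain ⟨x, rfl⟩ := (S.compare_bijective hH hN hU).2 y
    exact ⟨x, (S.inf₂_compare hH x).symm⟩
  · rintro ⟨x, rfl⟩
    exact ⟨S.compare hH x, S.inf₂_compare hH x⟩

end UpperBound

end SplitData

end Fermat.Agent.CFT.Local.GeneralH2
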