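import Mathlib
import Fermat.Agent.CFT.Local.GeneralH2
import Fermat.Agent.CFT.Local.H2Compare
import Fermat.Agent.CFT.GaloisDict.Transport

/-!
# `Br(L/K)` from the unramified layers, field form

`K ⊆ E ⊆ M`, `K ⊆ L ⊆ M` towers of fields (`M/K` finite Galois, `E/K`, `L/K` normal), with
unramified-layer data (`UnramData`, e.g. from `UnramFieldData.toUnramData`) for `E/K` (Frobenius
`σ`, degree `d`) and for `M/L` (Frobenius `τ`, degree `m`), such that `τ|_E = σ^f`, `f * m = d`, and
the valuation of `M` restricted to `E` is `c` times that of `E` with `m ∣ c`.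

Then `Br(E/K)` dies in `Br(M/L)`; hence it injects into `Br(L/K)` compatibly with inflation to
`Br(M/K)`, and if `|Br(L/K)|` divides `d` this is an isomorphism: `Br(L/K) ≃ ZMod d`.
-/

set_option autoImplicit false
set_option linter.unusedSectionVars false

noncomputable section

namespace Fermat.Agent.CFT.Local.GeneralH2Field

open groupCohomology CategoryTheory
open Fermat.Agent.CFT.GaloisDict Fermat.Agent.CFT.InfRes2
open Fermat.Agent.CFT.Local.UnramifiedBrauer Fermat.Agent.CFT.Local.GeneralH2
open Fermat.Agent.CFT.Local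

variable (K E L M : Type) [Field K] [Field E] [Field L] [Field M]
  [Algebra K E] [Algebra E M] [Algebra K L] [Algebra L M] [Algebra K M]
  [IsScalarTower K E M] [IsScalarTower K L M]
  [Normal K E] [Normal K L] [FiniteDimensional K M] [IsGalois K M]

/-- Field-level data of the comparison of `L/K` with the unramified `E/K` inside `M/K`. -/
structure FieldSplitData where
  /-- the Frobenius of `E/K` -/
  σ : E ≃ₐ[K] E
  /-- the degree of `E/K` -/
  d : ℕ
  /-- the unramified layer `E/K` -/
  D : UnramData (unitsRep K E) σ d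
  /-- the Frobenius of `M/L` -/
  τ : M ≃ₐ[L] M
  /-- the degree of `M/L` -/
  m : ℕ
  /-- the unramified layer `M/L` -/
  D' : UnramData (unitsRep L M) τ m
  /-- the residue degree of `L/K` -/
  f : ℕ
  /-- the Frobenius of `M/L` restricts to the `f`-th power of the Frobenius of `E/K` -/
  hτ : AlgEquiv.restrictNormalHom E (AlgEquiv.restrictScalarsHom K τ) = σ ^ f
  hfm : f * m = d
  /-- the ramification index of `M/E` -/
  c : ℤ
  hc : (m : ℤ) ∣ c
  hord : ∀ u : Additive Eˣ, D'.ord (unitsMapLin E M u) = c * D.ord u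

variable {K E L M}

namespace FieldSplitData

variable (S : FieldSplitData K E L M)

/-- The abstract comparison data attached to field-level data. -/
def toSplitData : SplitData (unitsRep K M) (fixSub K E M) (fixSub K L M) where
  σ := (quotEquiv K E M).symm S.σ
  d := S.d
  D := unramDataQuot K E M S.D
  τ := fixSubEquiv K L M S.τ
  m := S.m
  D' := unramDataRes K L M S.D'
  f := S.f
  hτ := (mk_eq_quotEquiv_symm_pow_iff K E M _ S.σ S.f).2 S.hτ
  hfm := S.hfm
  c := S.c
  hc := S.hc
  hord := by
    intro a
    obtain ⟨u, rfl⟩ := exists_unitsInvEquiv_eq K E M a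
    rw [unramDataQuot_ord_apply]
    exact S.hord u

include S in
/-- **Key vanishing, field form**: `Br(E/K) → Br(M/K) → Br(M/L)` is zero. -/
theorem resBr_infBr_eq_zero (x₀ : Br K E) : resBr K L M (infBr K E M x₀) = 0 := by
  have h1 := res₂_comp_resDictIso_inv K L M
  have h2 := infDictIso_hom_comp_inf₂ K E M
  rw [← h1, ← h2]
  simp only [ModuleCat.hom_comp, LinearMap.comp_apply]
  rw [S.toSplitData.res₂_inf₂_eq_zero, map_zero]

/-- The comparison setup `Br(E/K) → Br(M/K) ← Br(L/K)`, `Br(M/K) → Br(M/L)`. -/
def setup : H2Compare.Setup (Br K E) (Br K L) (Br K M) (Br L M) where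
  infE := (infBr K E M).hom.toAddMonoidHom
  infL := (infBr K L M).hom.toAddMonoidHom
  res := (resBr K L M).hom.toAddMonoidHom
  infE_injective := infBr_injective K E M
  infL_injective := infBr_injective K L M
  exact := fun x hx => (resBr_eq_zero_iff K L M x).1 hx
  vanish := S.resBr_infBr_eq_zero

/-- The comparison map `Br(E/K) →+ Br(L/K)`. -/
def compare : Br K E →+ Br K L := S.setup.compare

theorem infBr_compare (x₀ : Br K E) : infBr K L M (S.compare x₀) = infBr K E M x₀ :=
  S.setup.infL_compare x₀

theorem compare_eq_iff (x₀ : Br K E) (y : Br K L) :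
    S.compare x₀ = y ↔ infBr K E M x₀ = infBr K L M y :=
  S.setup.compare_eq_iff x₀ y

theorem compare_injective : Function.Injective S.compare := S.setup.compare_injective

include S in
/-- **Lower bound**: `d` divides `|Br(L/K)|`. -/
theorem d_dvd_card : S.d ∣ Nat.card (Br K L) := by
  have h := S.setup.card_dvd
  rwa [S.D.card_H2] at h

section Upper

variable (hU : Nat.card (Br K L) ∣ S.d)

include S hU in
/-- **The order of `Br(L/K)`.** -/
theorem card_Br : Nat.card (Br K L) = S.d :=
  Nat.dvd_antisymm hU S.d_dvd_card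

include S in
theorem card_BrE_ne_zero : Nat.card (Br K E) ≠ 0 := by
  rw [S.D.card_H2]
  exact S.D.hn.ne'

include S hU in
theorem card_dvd' : Nat.card (Br K L) ∣ Nat.card (Br K E) := by
  rw [S.D.card_H2]
  exact hU

/-- The comparison isomorphism `Br(E/K) ≃+ Br(L/K)`. -/
def compareEquiv : Br K E ≃+ Br K L :=
  S.setup.compareEquiv S.card_BrE_ne_zero (S.card_dvd' hU)

theorem compareEquiv_apply (x₀ : Br K E) : S.compareEquiv hU x₀ = S.compare x₀ := rfl

/-- **The invariant map** `Br(L/K) ≃+ ZMod d`. -/
def invEquiv : Br K L ≃+ ZMod S.d :=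
  (S.compareEquiv hU).symm.trans S.D.invEquiv

theorem invEquiv_compare (x₀ : Br K E) : S.invEquiv hU (S.compare x₀) = S.D.inv x₀ := by
  unfold invEquiv
  rw [AddEquiv.trans_apply, ← S.compareEquiv_apply hU, AddEquiv.symm_apply_apply]
  rfl

/-- If `y ∈ Br(L/K)` and `x₀ ∈ Br(E/K)` have the same image in `Br(M/K)` then
`inv y = inv x₀`. -/
theorem invEquiv_eq_of_infBr_eq (y : Br K L) (x₀ : Br K E)
    (h : infBr K E M x₀ = infBr K L M y) : S.invEquiv hU y = S.D.inv x₀ := by
  rw [← (S.compare_eq_iff x₀ y).2 h, S.invEquiv_compare]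

include S hU in
/-- Every class of `L/K` comes from the unramified layer. -/
theorem exists_infBr_eq (y : Br K L) : ∃ x₀ : Br K E, infBr K E M x₀ = infBr K L M y := by
  refine ⟨(S.compareEquiv hU).symm y, ?_⟩
  have := S.infBr_compare ((S.compareEquiv hU).symm y)
  rw [← S.compareEquiv_apply hU, AddEquiv.apply_symm_apply] at this
  exact this.symm

/-- The fundamental class of `L/K`. -/
def fundamentalClass : Br K L := S.compare S.D.fundamentalClass

theorem invEquiv_fundamentalClass (h1 : 1 < S.d) :
    S.invEquiv hU S.fundamentalClass = 1 := by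
  rw [fundamentalClass, S.invEquiv_compare, S.D.inv_fundamentalClass h1]

end Upper

end FieldSplitData

end Fermat.Agent.CFT.Local.GeneralH2Field
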