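/-
PROJECT C, Layer B (helper27): the local class formation at finite level and its packaging as a
`FieldFormation`.

For `K ⊆ M` finite Galois, both finite over `ℚ_[q]`, `LocalInv` provides the canonical invariant
`invQ q K M : Br K M →+ ℚ/ℤ` (injective, `|Br| = [M:K]`, INF, RES, existence of a class of invariant
`1/[M:K]`).  Here:

* `fundCocycle q K M` : a `2`-cocycle whose class has invariant `1/[M:K]`;
* `isClassModule_fundCocycle` (L-a) : `(Mˣ, fundCocycle)` is a class module for `Gal(M/K)`;
* `infBr_fundClass` (L-b) : `inf u_{E/K} = [M:E] • u_{M/K}`;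
* `fieldFormation q K Ω` : the `FieldFormation K Ω` for any Galois extension `Ω/K` (possibly
  infinite) of a finite extension `K` of `ℚ_[q]`.
-/
import Mathlib
import Fermat.Agent.CFT.GaloisDict.ClassModule
import Fermat.Agent.CFT.GaloisDict.Formation
import Fermat.Agent.CFT.Local.LocalInv

set_option autoImplicit false

noncomputable section

namespace Fermat.Agent.CFT.Local.LocalClassModule

open groupCohomology Fermat.Agent.CFT.GaloisDict Fermat.Agent.CFT.Local.LocalInv
  Fermat.Agent.CFT.A5.Tate

/-! ### Instances on intermediate fields -/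

section Inst

variable (q : ℕ) [Fact q.Prime] {K M : Type} [Field K] [Field M] [Algebra K M]
  [Algebra ℚ_[q] K] [Algebra ℚ_[q] M] [IsScalarTower ℚ_[q] K M]

/-- `ℚ_q → E → M` is a scalar tower for an intermediate field `E` of `M/K`. -/
theorem isScalarTower_padic_top (E : IntermediateField K M) : IsScalarTower ℚ_[q] ↥E M :=
  IsScalarTower.of_algebraMap_eq fun _ => rfl

theorem finiteDimensional_padic [FiniteDimensional ℚ_[q] K] (E : IntermediateField K M)
    [FiniteDimensional K ↥E] : FiniteDimensional ℚ_[q] ↥E :=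
  FiniteDimensional.trans ℚ_[q] K ↥E

end Inst

/-! ### Finite level -/

section Finite

variable (q : ℕ) [Fact q.Prime] (K M : Type) [Field K] [Field M] [Algebra K M]
  [Algebra ℚ_[q] K] [Algebra ℚ_[q] M] [IsScalarTower ℚ_[q] K M]
  [FiniteDimensional ℚ_[q] K] [FiniteDimensional ℚ_[q] M] [IsGalois K M]

theorem exists_fundCocycle :
    ∃ φ : cocycles₂ (unitsRep K M), invQ q K M (H2π (unitsRep K M) φ) =
      (((Module.finrank K M : ℚ)⁻¹ : ℚ) : AddCircle (1 : ℚ)) := by
  obtain ⟨u, hu⟩ := exists_invQ_eq q K M
  induction u using H2_induction_on with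
  | h φ => exact ⟨φ, hu⟩

/-- A fundamental `2`-cocycle of `M/K`: its class has invariant `1/[M:K]`. -/
def fundCocycle : cocycles₂ (unitsRep K M) := (exists_fundCocycle q K M).choose

theorem invQ_fundCocycle :
    invQ q K M (H2π (unitsRep K M) (fundCocycle q K M)) =
      (((Module.finrank K M : ℚ)⁻¹ : ℚ) : AddCircle (1 : ℚ)) :=
  (exists_fundCocycle q K M).choose_spec

/-- **(L-a)** `(Mˣ, φ)` is a class module for `Gal(M/K)` as soon as `[φ]` has invariant
`1/[M:K]`. -/
theorem isClassModule_of_invQ (φ : cocycles₂ (unitsRep K M))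
    (hφ : invQ q K M (H2π (unitsRep K M) φ) =
      (((Module.finrank K M : ℚ)⁻¹ : ℚ) : AddCircle (1 : ℚ))) :
    IsClassModule (unitsRep K M) φ := by
  haveI : FiniteDimensional K M := FiniteDimensional.right ℚ_[q] K M
  haveI hT : ∀ E : IntermediateField K M, IsScalarTower ℚ_[q] ↥E M :=
    fun E => isScalarTower_padic_top q E
  haveI hF : ∀ E : IntermediateField K M, FiniteDimensional ℚ_[q] ↥E :=
    fun E => finiteDimensional_padic q E
  refine isClassModule_unitsRep_of_inv φ (invQ q K M) (fun E => invQ q ↥E M)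
    (fun E => invQ_injective q ↥E M) (fun E => card_Br q ↥E M)
    (fun E x => invQ_resBr q K ↥E M x) hφ

theorem isClassModule_fundCocycle : IsClassModule (unitsRep K M) (fundCocycle q K M) :=
  isClassModule_of_invQ q K M _ (invQ_fundCocycle q K M)

end Finite

/-! ### The inflation rule -/

section Tower

variable (q : ℕ) [Fact q.Prime] (K E M : Type) [Field K] [Field E] [Field M]
  [Algebra K E] [Algebra E M] [Algebra K M] [IsScalarTower K E M]
  [Algebra ℚ_[q] K] [Algebra ℚ_[q] E] [Algebra ℚ_[q] M]
  [IsScalarTower ℚ_[q] K E] [IsScalarTower ℚ_[q] E M] [IsScalarTower ℚ_[q] K M]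
  [FiniteDimensional ℚ_[q] K] [FiniteDimensional ℚ_[q] E] [FiniteDimensional ℚ_[q] M]
  [IsGalois K E] [IsGalois K M]

/-- **(L-b)** for arbitrary classes of invariants `1/[E:K]`, `1/[M:K]`. -/
theorem infBr_eq_of_invQ (uE : Br K E) (uM : Br K M)
    (huE : invQ q K E uE = (((Module.finrank K E : ℚ)⁻¹ : ℚ) : AddCircle (1 : ℚ)))
    (huM : invQ q K M uM = (((Module.finrank K M : ℚ)⁻¹ : ℚ) : AddCircle (1 : ℚ))) :
    infBr K E M uE = Module.finrank E M • uM := by
  haveI : FiniteDimensional K M := FiniteDimensional.right ℚ_[q] K M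
  exact infBr_fundamental_of_inv E (invQ q K E) (invQ q K M) (invQ_injective q K M)
    (invQ_infBr q K E M) uE uM huE huM

/-- **(L-b)** `inf u_{E/K} = [M:E] • u_{M/K}` for the fundamental classes. -/
theorem infBr_fundClass :
    infBr K E M (H2π (unitsRep K E) (fundCocycle q K E)) =
      Module.finrank E M • H2π (unitsRep K M) (fundCocycle q K M) :=
  infBr_eq_of_invQ q K E M _ _ (invQ_fundCocycle q K E) (invQ_fundCocycle q K M)

end Tower

/-! ### The field formation of a Galois extension `Ω/K`, `K` finite over `ℚ_q` -/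

section Formation

open Fermat.Agent.CFT.GaloisDict.Infinite

variable (q : ℕ) [Fact q.Prime] (K Ω : Type) [Field K] [Field Ω] [Algebra K Ω]
  [Algebra ℚ_[q] K] [Algebra ℚ_[q] Ω] [IsScalarTower ℚ_[q] K Ω]
  [FiniteDimensional ℚ_[q] K] [IsGalois K Ω]

omit [Fact q.Prime] [Algebra ℚ_[q] K] [Algebra ℚ_[q] Ω] [IsScalarTower ℚ_[q] K Ω]
  [FiniteDimensional ℚ_[q] K] in
theorem isGalois_layer (E : IntermediateField K Ω) [Normal K ↥E] : IsGalois K ↥E :=
  haveI : Algebra.IsSeparable K ↥E := Algebra.isSeparable_tower_bot_of_isSeparable K ↥E Ω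
  ⟨⟩

omit [FiniteDimensional ℚ_[q] K] [IsGalois K Ω] in
theorem isScalarTower_padic_incl {E E' : IntermediateField K Ω} (hle : E ≤ E') :
    letI := inclAlgebra hle
    IsScalarTower ℚ_[q] ↥E ↥E' :=
  letI := inclAlgebra hle
  IsScalarTower.of_algebraMap_eq fun _ => rfl

/-- The fundamental cocycle of a finite Galois layer `E/K` of `Ω/K`. -/
def layerCocycle (E : IntermediateField K Ω) [FiniteDimensional K ↥E] [Normal K ↥E] :
    cocycles₂ (unitsRep K ↥E) :=
  haveI := finiteDimensional_padic q E
  haveI := isGalois_layer K Ω E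
  fundCocycle q K ↥E

/-- **The local class formation at field level**: for `K` finite over `ℚ_q` and `Ω/K` any Galois
extension, the fundamental cocycles of the finite Galois layers form a `FieldFormation`. -/
def fieldFormation : FieldFormation K Ω where
  φ E _ _ := layerCocycle q K Ω E
  isClassModule E _ _ := by
    haveI := finiteDimensional_padic q E
    haveI := isGalois_layer K Ω E
    exact isClassModule_fundCocycle q K ↥E
  infl E E' _ _ _ _ hle := by
    haveI := finiteDimensional_padic q E
    haveI := isGalois_layer K Ω E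
    haveI := finiteDimensional_padic q E'
    haveI := isGalois_layer K Ω E'
    letI := inclAlgebra hle
    haveI := isScalarTower_incl hle
    haveI : IsScalarTower ℚ_[q] ↥E ↥E' := isScalarTower_padic_incl q K Ω hle
    exact infBr_fundClass q K ↥E ↥E'

/-- **The local class formation in the level-constant model**: for any family of levels `𝒰` of
`Gal(Ω/K)` consisting of fixing subgroups of finite Galois subextensions. -/
def classFormation {𝒰 : Fermat.Agent.CFT.LC.Levels (Ω ≃ₐ[K] Ω)} (h𝒰 : IsFieldLevels 𝒰) :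
    Fermat.Agent.CFT.A7.ClassFormation 𝒰 (unitsRep K Ω) :=
  (fieldFormation q K Ω).classFormation h𝒰

end Formation

end Fermat.Agent.CFT.Local.LocalClassModule
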