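import Mathlib
import Fermat.Agent.CFT.Local.CyclicInstance

/-
Project C, Layer B2 (classical form): for a cyclic extension `L/K` of local fields,
`[Kˣ : N_{L/K} Lˣ] = [L : K]`, as the index of the range of `Units.map (Algebra.norm K)`.
-/

set_option autoImplicit false
set_option linter.unusedSectionVars false

namespace Fermat.Agent.CFT.Local.NormIndexClassical

open Fermat.Agent.CFT.Herbrand Finset IsLocalRing

section Galois

variable {K L : Type*} [Field K] [Field L] [Algebra K L] [FiniteDimensional K L] [IsGalois K L]
  (g : L ≃ₐ[K] L) (hgen : ∀ x, x ∈ Subgroup.zpowers g)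

variable (K L) in
/-- the inclusion `Kˣ → Lˣ` -/
def ι : Kˣ →* Lˣ := Units.map (algebraMap K L : K →* L)

variable (K L) in
/-- the norm `Lˣ → Kˣ` -/
noncomputable def normU : Lˣ →* Kˣ := Units.map (Algebra.norm K : L →* K)

variable (K L) in
theorem ι_injective : Function.Injective (ι K L) := by
  intro a b hab
  apply Units.ext
  apply (algebraMap K L).injective
  exact congrArg Units.val hab

include hgen in
/-- the product over the powers of a generator is the norm -/
theorem prod_pow_eq_norm (x : L) :
    ∏ j ∈ range (Module.finrank K L), (g ^ j) x = algebraMap K L (Algebra.norm K x) := by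
  classical
  rw [Algebra.norm_eq_prod_automorphisms]
  have hord : orderOf g = Module.finrank K L := by
    rw [orderOf_eq_card_of_forall_mem_zpowers hgen, IsGalois.card_aut_eq_finrank]
  rw [← hord, ← IsCyclic.image_range_orderOf hgen, Finset.prod_image]
  intro i hi j hj hij
  exact pow_injOn_Iio_orderOf (by simpa using hi) (by simpa using hj) hij

include hgen in
theorem fixed_iff (x : L) : g x = x ↔ x ∈ Set.range (algebraMap K L) := by
  rw [IsGalois.mem_range_algebraMap_iff_fixed]
  constructor
  · intro h τ
    obtain ⟨i, rfl⟩ := Subgroup.mem_zpowers_iff.mp (hgen τ)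
    have hfix : ∀ n : ℕ, (g ^ n) x = x := by
      intro n
      induction n with
      | zero => rfl
      | succ n ih => rw [pow_succ', AlgEquiv.mul_apply, ih, h]
    rcases Int.eq_nat_or_neg i with ⟨n, rfl | rfl⟩
    · rw [zpow_natCast]; exact hfix n
    · rw [zpow_neg, zpow_natCast]
      have := hfix n
      calc (g ^ n)⁻¹ x = (g ^ n)⁻¹ ((g ^ n) x) := by rw [this]
        _ = x := by rw [← AlgEquiv.mul_apply, inv_mul_cancel, AlgEquiv.one_apply]
  · intro h
    exact h g

/-- the action of `g` on `Additive Lˣ` -/
def σL : Additive Lˣ →+ Additive Lˣ := MonoidHom.toAdditive (Units.map (g : L →* L))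

include hgen in
theorem ker_delta :
    (delta (σL g)).ker = Subgroup.toAddSubgroup ((⊤ : Subgroup Kˣ).map (ι K L)) := by
  ext a
  rw [AddMonoidHom.mem_ker, delta_apply, sub_eq_zero]
  constructor
  · intro h
    have h1 : g ((Additive.toMul a : Lˣ) : L) = ((Additive.toMul a : Lˣ) : L) :=
      congrArg (fun u : Additive Lˣ => ((Additive.toMul u : Lˣ) : L)) h
    obtain ⟨y, hy⟩ := (fixed_iff g hgen _).mp h1
    have hy0 : y ≠ 0 := by
      rintro rfl
      rw [map_zero] at hy
      exact (Additive.toMul a).ne_zero hy.symm
    exact ⟨Units.mk0 y hy0, Subgroup.mem_top _, Units.ext hy⟩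
  · rintro ⟨y, -, hy⟩
    have h2 : Additive.toMul a = ι K L y := hy.symm
    have h3 : Units.map (g : L →* L) (ι K L y) = ι K L y := Units.ext (g.commutes (y : K))
    show Additive.ofMul (Units.map (g : L →* L) (Additive.toMul a)) = a
    rw [h2, h3, ← h2]
    rfl

include hgen in
theorem range_nrm :
    (nrm (σL g) (Module.finrank K L)).range =
      Subgroup.toAddSubgroup ((normU K L).range.map (ι K L)) := by
  have key : ∀ u : Lˣ, nrm (σL g) (Module.finrank K L) (Additive.ofMul u) =
      Additive.ofMul (ι K L (normU K L u)) := by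
    intro u
    rw [σL, NormIndex.nrm_toAdditive]
    congr 1
    apply Units.ext
    rw [Units.coe_prod]
    have : ((ι K L (normU K L u) : Lˣ) : L) = algebraMap K L (Algebra.norm K (u : L)) := rfl
    rw [this, ← prod_pow_eq_norm g hgen]
    refine Finset.prod_congr rfl fun j _ => ?_
    have hit : ∀ (j : ℕ) (w : Lˣ), (((Units.map (g : L →* L))^[j] w : Lˣ) : L) = (g ^ j) (w : L) := by
      intro j
      induction j with
      | zero => intro w; rfl
      | succ j ih =>
        intro w
        rw [Function.iterate_succ_apply', pow_succ', AlgEquiv.mul_apply, ← ih]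
        rfl
    exact hit j _
  ext a
  constructor
  · rintro ⟨b, rfl⟩
    exact ⟨normU K L (Additive.toMul b), ⟨_, rfl⟩, (key (Additive.toMul b)).symm⟩
  · rintro ⟨y, ⟨u, rfl⟩, hy⟩
    exact ⟨Additive.ofMul u, (key u).trans hy⟩

include hgen in
/-- the Herbrand index `[ker (σ - 1) : im N]` is the classical norm index -/
theorem idx_eq_index :
    idx (delta (σL g)) (nrm (σL g) (Module.finrank K L)) =
      (normU K L).range.index := by
  rw [idx, ker_delta g hgen, range_nrm g hgen, Subgroup.relIndex_toAddSubgroup,
    Subgroup.relIndex_map_map_of_injective _ _ (ι_injective K L), Subgroup.relIndex_top_right]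

end Galois

section Local

variable (O : Type*) (K : Type) (B : Type*) (L : Type)
  [CommRing O] [IsDomain O] [IsDiscreteValuationRing O]
  [Field K] [Algebra O K] [IsFractionRing O K] [CharZero K]
  [CommRing B] [IsDomain B] [IsDiscreteValuationRing B]
  [Field L] [Algebra B L] [IsFractionRing B L]
  [Algebra K L] [FiniteDimensional K L] [IsGalois K L]
  [Algebra O B] [Algebra O L] [IsScalarTower O K L] [IsScalarTower O B L]
  [IsIntegralClosure B O L]
  [IsAdicComplete (maximalIdeal B) B] [Finite (ResidueField B)]

include O B in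
/-- **The local norm index theorem**, classical form: `[Kˣ : N_{L/K} Lˣ] = [L : K]` for a cyclic
extension of local fields. -/
theorem norm_index_of_cyclic [IsCyclic (L ≃ₐ[K] L)] :
    (Units.map (Algebra.norm K : L →* K)).range.index = Module.finrank K L := by
  obtain ⟨g, hgen⟩ := IsCyclic.exists_generator (α := L ≃ₐ[K] L)
  have h := (CyclicInstance.idx_of_cyclic O K B L g hgen).1
  rw [← h]
  exact (idx_eq_index g hgen).symm

end Local

end Fermat.Agent.CFT.Local.NormIndexClassical
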