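import Mathlib
import Fermat.Agent.CFT.Local.UnramifiedInvM2
import Fermat.Agent.CFT.Local.UnramifiedM2
import Fermat.Agent.CFT.GaloisDict.InfRes

/-!
# Compatibilities of the unramified invariant of `q`-adic fields

* `invQUnram_injective`, `exists_invQUnram_eq`, `card_Br_of_isUnram`;
* `invQUnram_infBr` (INF-ur): for a tower `K ⊆ E ⊆ E'` of unramified extensions,
  `inv_{E'/K} (inf x) = inv_{E/K} x`;
* `invQUnram_resBr_infBr` (BC-ur): for a square `K ⊆ E, L ⊆ M = L·E` with `E/K` unramified,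
  `inv_{M/L} (res (inf x)) = [L:K] • inv_{E/K} x`.
-/

set_option autoImplicit false
set_option linter.unusedSectionVars false

namespace Fermat.Agent.CFT.Local.UnramifiedInvM2Compat

open groupCohomology Fermat.Agent.CFT.Local Fermat.Agent.CFT.Local.Model
  Fermat.Agent.CFT.Local.Unramified Fermat.Agent.CFT.Local.UnramifiedInst
  Fermat.Agent.CFT.Local.UnramifiedField Fermat.Agent.CFT.Local.UnramifiedBrauer
  Fermat.Agent.CFT.Local.CyclicH2 Fermat.Agent.CFT.Local.UnramifiedInvM2
  Fermat.Agent.CFT.GaloisDict Module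
open scoped Fermat.Agent.CFT.Local.TowerInst

/-! ### Generic facts on `invQ` -/

section Generic

theorem zmodToQZ_injective (n : ℕ) (hn : 0 < n) : Function.Injective (zmodToQZ n hn) := by
  rw [injective_iff_map_eq_zero]
  intro z hz
  obtain ⟨t, rfl⟩ := ZMod.intCast_surjective z
  rw [zmodToQZ_intCast, divHom_apply, AddCircle.coe_eq_zero_iff] at hz
  obtain ⟨m, hm⟩ := hz
  have hn' : (n : ℚ) ≠ 0 := by exact_mod_cast hn.ne'
  rw [zsmul_eq_mul, mul_one] at hm
  have h2 : (t : ℚ) = m * n := by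
    rw [hm, mul_assoc, inv_mul_cancel₀ hn', mul_one]
  have h3 : t = m * n := by exact_mod_cast h2
  rw [h3]
  simp

variable {G : Type} [Group G] {A : Rep ℤ G} {σ : G} {n : ℕ} (D : UnramData A σ n)

theorem invQ_injective : Function.Injective D.invQ := by
  unfold UnramData.invQ
  exact (zmodToQZ_injective n D.hn).comp D.inv_injective

theorem exists_invQ_eq : ∃ u : H2 A, D.invQ u = (((n : ℚ)⁻¹ : ℚ) : AddCircle (1 : ℚ)) := by
  obtain ⟨u, hu⟩ := D.inv_surjective ((1 : ℤ) : ZMod n)
  refine ⟨u, ?_⟩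
  unfold UnramData.invQ
  rw [AddMonoidHom.comp_apply, hu, zmodToQZ_intCast, divHom_apply, Int.cast_one, one_mul]

/-- `invQ_inflation` with the degree of the top layer given up to a propositional equality. -/
theorem invQ_inflation' {G' : Type} [Group G'] {A' : Rep ℤ G'} {σ' : G'} {n' m : ℕ}
    (D' : UnramData A' σ' n') (hnm : n' = n * m)
    (φ : G' →* G) (hφ : φ σ' = σ) (ι : A →+ A') (hord : ∀ a, D'.ord (ι a) = D.ord a)
    (f : cocycles₂ A) (f' : cocycles₂ A') (hf' : ∀ g h, f' (g, h) = ι (f (φ g, φ h))) :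
    D'.invQ (H2π A' f') = D.invQ (H2π A f) := by
  subst hnm
  exact invQ_inflation D D' φ hφ ι hord f f' hf'

/-- `invQ_restriction` with the degree of the bottom layer given up to a propositional equality,
and the Frobenius relation in the form `φ τ = σ ^ d`. -/
theorem invQ_restriction' {H : Type} [Group H] {A' : Rep ℤ H} {τ : H} {d e : ℕ}
    (D' : UnramData A' τ e) (hde : n = d * e)
    (φ : H →* G) (hφ : φ τ = σ ^ d) (ι : A →+ A')
    (hι : ∀ (h : H) (a : A), ι (A.ρ (φ h) a) = A'.ρ h (ι a))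
    (r : ℕ) (hord : ∀ a, D'.ord (ι a) = r * D.ord a)
    (f : cocycles₂ A) (f' : cocycles₂ A') (hf' : ∀ g h, f' (g, h) = ι (f (φ g, φ h))) :
    D'.invQ (H2π A' f') = (r * d) • D.invQ (H2π A f) :=
  invQ_restriction D D' hde φ hφ ι hι r hord f f' hf'

end Generic

/-! ### (A1), (A2): injectivity and the fundamental class -/

section M2

variable (q : ℕ) [Fact q.Prime] (K E : Type) [Field K] [Field E] [Algebra K E]
  [Algebra ℚ_[q] K] [Algebra ℚ_[q] E] [IsScalarTower ℚ_[q] K E]
  [FiniteDimensional ℚ_[q] K] [FiniteDimensional ℚ_[q] E] [IsGalois K E]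

/-- The abstract unramified datum of an unramified extension of `q`-adic fields. -/
noncomputable def uData (hur : IsUnram ↥(𝒪 q K) ↥(𝒪 q E)) :
    haveI := TowerInst.finiteDimensional_top q K E
    UnramData (Rep.ofAlgebraAutOnUnits K E) (frob ↥(𝒪 q K) K ↥(𝒪 q E) E hur) (finrank K E) :=
  haveI := TowerInst.finiteDimensional_top q K E
  (UnramifiedInvM2.unramFieldData q K E hur).toUnramData

theorem invQUnram_eq (hur : IsUnram ↥(𝒪 q K) ↥(𝒪 q E)) :
    invQUnram q K E hur = (uData q K E hur).invQ := rfl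

theorem uData_ord_apply (hur : IsUnram ↥(𝒪 q K) ↥(𝒪 q E)) (a : Rep.ofAlgebraAutOnUnits K E) :
    (uData q K E hur).ord a = ordFun q E (toUnit a) := by
  change ((UnramifiedInvM2.unramFieldData q K E hur).v (toUnit a)).toAdd = _
  rw [unramFieldData_v_apply, ord_apply, toAdd_ofAdd]

/-- (A1) the unramified invariant is injective. -/
theorem invQUnram_injective (hur : IsUnram ↥(𝒪 q K) ↥(𝒪 q E)) :
    Function.Injective (invQUnram q K E hur) :=
  invQ_injective (uData q K E hur)

/-- (A2) there is a class of invariant `1/[E:K]`. -/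
theorem exists_invQUnram_eq (hur : IsUnram ↥(𝒪 q K) ↥(𝒪 q E)) :
    ∃ u : Br K E, invQUnram q K E hur u = (((finrank K E : ℚ)⁻¹ : ℚ) : AddCircle (1 : ℚ)) :=
  exists_invQ_eq (uData q K E hur)

include q in
theorem card_Br_of_isUnram (hur : IsUnram ↥(𝒪 q K) ↥(𝒪 q E)) :
    Nat.card (Br K E) = finrank K E :=
  (uData q K E hur).card_H2

end M2

/-! ### (A3) INF-ur -/

section InfUr

variable (q : ℕ) [Fact q.Prime] (K E E' : Type) [Field K] [Field E] [Field E']
  [Algebra K E] [Algebra E E'] [Algebra K E'] [IsScalarTower K E E']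
  [Algebra ℚ_[q] K] [Algebra ℚ_[q] E] [Algebra ℚ_[q] E']
  [IsScalarTower ℚ_[q] K E] [IsScalarTower ℚ_[q] K E'] [IsScalarTower ℚ_[q] E E']
  [FiniteDimensional ℚ_[q] K] [FiniteDimensional ℚ_[q] E] [FiniteDimensional ℚ_[q] E']
  [IsGalois K E] [IsGalois K E']

/-- In a tower `K ⊆ E ⊆ E'` with `E'/K` unramified, `E'/E` is unramified: `e(E'/E) = 1`. -/
theorem relRamIdx_eq_one_of_isUnram (hur' : IsUnram ↥(𝒪 q K) ↥(𝒪 q E')) :
    TowerInst.relRamIdx q E E' = 1 := by
  have h1 := TowerInst.ramIdx_tower q K E'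
  have h2 := TowerInst.ramIdx_tower q K E
  have h3 := TowerInst.ramIdx_tower q E E'
  rw [(TowerInst.isUnram_iff_relRamIdx_eq_one q K E').1 hur', one_mul] at h1
  have hK := Model.ramIdx_pos q K
  have hE := TowerInst.relRamIdx_pos q K E
  have hE' := TowerInst.relRamIdx_pos q E E'
  rw [h1, h2] at h3
  -- `e_K = e(E'/E) * (e(E/K) * e_K)`
  have h4 : TowerInst.relRamIdx q E E' * TowerInst.relRamIdx q K E = 1 := by
    have : Model.ramIdx q K * 1
        = Model.ramIdx q K * (TowerInst.relRamIdx q E E' * TowerInst.relRamIdx q K E) := by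
      rw [mul_one]
      calc Model.ramIdx q K
          = TowerInst.relRamIdx q E E' * (TowerInst.relRamIdx q K E * Model.ramIdx q K) := h3
        _ = Model.ramIdx q K * (TowerInst.relRamIdx q E E' * TowerInst.relRamIdx q K E) := by ring
    exact (Nat.eq_of_mul_eq_mul_left hK this).symm
  exact Nat.eq_one_of_mul_eq_one_right h4

/-- In a tower `K ⊆ E ⊆ E'` of unramified extensions, Frobenius restricts to Frobenius. -/
theorem restrictNormalHom_frob_tower (hur : IsUnram ↥(𝒪 q K) ↥(𝒪 q E))
    (hur' : IsUnram ↥(𝒪 q K) ↥(𝒪 q E')) :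
    haveI := TowerInst.finiteDimensional_top q K E
    haveI := TowerInst.finiteDimensional_top q K E'
    AlgEquiv.restrictNormalHom E (frob ↥(𝒪 q K) K ↥(𝒪 q E') E' hur')
      = frob ↥(𝒪 q K) K ↥(𝒪 q E) E hur := by
  have := TowerInst.finiteDimensional_top q K E
  have := TowerInst.finiteDimensional_top q K E'
  have h := frob_restrict (O := ↥(𝒪 q K)) (K := K) (B := ↥(𝒪 q E)) (E := E)
    (O' := ↥(𝒪 q K)) (K' := K) (B' := ↥(𝒪 q E')) (E' := E') hur hur'
    (algebraMap E E') (algebraMap ↥(𝒪 q E) ↥(𝒪 q E')) (fun b => rfl) 1 (pow_one _).symm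
    (AlgEquiv.restrictNormalHom E (frob ↥(𝒪 q K) K ↥(𝒪 q E') E' hur'))
    (fun x => AlgEquiv.restrictNormal_commutes _ E x)
  rw [h, pow_one]

/-- **(A3) INF-ur**: in a tower `K ⊆ E ⊆ E'` of unramified extensions of `q`-adic fields,
`inv_{E'/K} (inf x) = inv_{E/K} x`. -/
theorem invQUnram_infBr (hur : IsUnram ↥(𝒪 q K) ↥(𝒪 q E))
    (hur' : IsUnram ↥(𝒪 q K) ↥(𝒪 q E')) (x : Br K E) :
    invQUnram q K E' hur' (infBr K E E' x) = invQUnram q K E hur x := by
  have := TowerInst.finiteDimensional_top q K E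
  have := TowerInst.finiteDimensional_top q K E'
  have := TowerInst.finiteDimensional_top q E E'
  induction x using H2_induction_on with
  | h f =>
    rw [infBr_H2π, invQUnram_eq, invQUnram_eq]
    refine invQ_inflation' (uData q K E hur) (uData q K E' hur')
      (m := finrank E E') (finrank_mul_finrank K E E').symm
      (AlgEquiv.restrictNormalHom E) (restrictNormalHom_frob_tower q K E E' hur hur')
      (unitsMapLin E E').toAddMonoidHom ?_ f _ (fun g h => rfl)
    intro a
    rw [uData_ord_apply, uData_ord_apply]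
    change ordFun q E' (Units.map (algebraMap E E' : E →* E') (toUnit a)) = _
    rw [TowerInst.ordFun_map, relRamIdx_eq_one_of_isUnram q K E E' hur', Nat.cast_one, one_mul]

end InfUr

/-! ### (A4) BC-ur -/

section BCUr

open Fermat.Agent.CFT.Local.UnramifiedM2

variable (q : ℕ) [Fact q.Prime] (K E L M : Type) [Field K] [Field E] [Field L] [Field M]
  [Algebra ℚ_[q] K] [FiniteDimensional ℚ_[q] K]
  [Algebra ℚ_[q] E] [FiniteDimensional ℚ_[q] E]
  [Algebra ℚ_[q] L] [FiniteDimensional ℚ_[q] L]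
  [Algebra ℚ_[q] M] [FiniteDimensional ℚ_[q] M]
  [Algebra K E] [Algebra K L] [Algebra E M] [Algebra L M] [Algebra K M]
  [IsScalarTower ℚ_[q] K E] [IsScalarTower ℚ_[q] K L] [IsScalarTower ℚ_[q] E M]
  [IsScalarTower ℚ_[q] L M] [IsScalarTower ℚ_[q] K M]
  [IsScalarTower K E M] [IsScalarTower K L M]
  [IsGalois K E] [IsGalois L M]

/-- **(A4) BC-ur**: base change of an unramified class.  For a square `K ⊆ E, L ⊆ M = L·E` of
`q`-adic fields with `E/K` unramified (hence `M/L` unramified) and `f(L/K) ∣ [E:K]`: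
`inv_{M/L} (res_L (inf_M x)) = [L:K] • inv_{E/K} x`. -/
theorem invQUnram_resBr_infBr (hur : IsUnram ↥(𝒪 q K) ↥(𝒪 q E))
    (hurM : IsUnram ↥(𝒪 q L) ↥(𝒪 q M))
    (hgen : IntermediateField.adjoin L (Set.range (algebraMap E M)) = ⊤)
    (hdvd : TowerInst.relResDeg q K L ∣ finrank K E) (x : Br K E) :
    invQUnram q L M hurM (resBr K L M (infBr K E M x))
      = finrank K L • invQUnram q K E hur x := by
  have := TowerInst.finiteDimensional_top q K E
  have := TowerInst.finiteDimensional_top q L M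
  have := TowerInst.finiteDimensional_top q K L
  induction x using H2_induction_on with
  | h f =>
    rw [infBr_H2π, resBr_H2π, invQUnram_eq, invQUnram_eq,
      ← TowerInst.relRamIdx_mul_relResDeg q K L]
    have hfr := finrank_baseChange_int q K E L M hur hurM hgen
    rw [Nat.gcd_eq_right hdvd] at hfr
    have hde : finrank K E = TowerInst.relResDeg q K L * finrank L M := by
      rw [hfr, Nat.mul_div_cancel' hdvd]
    refine invQ_restriction' (uData q K E hur) (uData q L M hurM) hde
      (resGal (K := K) (E := E) (L := L) (M := M)) (resGal_frob q K E L M hur hurM)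
      (unitsMapLin E M).toAddMonoidHom ?_ (TowerInst.relRamIdx q K L) ?_ f _ (fun g h => rfl)
    · intro h a
      apply toUnit_injective
      ext
      exact (resGal_commutes (K := K) h _)
    · intro a
      rw [uData_ord_apply, uData_ord_apply]
      change ordFun q M (Units.map (algebraMap E M : E →* M) (toUnit a)) = _
      rw [TowerInst.ordFun_map, relRamIdx_square q K E L M hur hurM]

end BCUr

end Fermat.Agent.CFT.Local.UnramifiedInvM2Compat
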