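import Fermat.Agent.CFT.Local.UnramifiedM2

/-
PROJECT C, Layer B, slice B1b (part 5): towers and composita of unramified extensions at (M2).

For fields finite over `ℚ_[q]` with rings of integers `𝒪 q _`:
* `isUnram_bot`, `isUnram_top`, `isUnram_trans`, `isUnram_tower_iff` : (T1) `K ⊆ E ⊆ M`,
  `M/K` unramified ⟺ `E/K` and `M/E` unramified;
* `relResDeg_eq_finrank`   : unramified ⟹ `f(E/K) = [E:K]`;
* `restrictNormalHom_frob_tower` : (T2a) `Frob_{M/K}|_E = Frob_{E/K}`;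
* `restrictScalars_frob_tower`   : (T2b) `Frob_{M/E} = Frob_{M/K} ^ f(E/K)`;
* `isUnram_sup`, `finrank_sup`   : (T3) the compositum of two unramified extensions inside `Ω`
  is unramified, of degree the lcm;
* `isUnram_sup_right`            : (T4) `(F ⊔ L)/L` is unramified Galois for `F/K` unramified;
* `le_iff_finrank_dvd`           : (T5) `F ≤ F' ⟺ [F:K] ∣ [F':K]` for unramified `F, F' ≤ Ω`;
* `isGalois_of_isUnram`, `isCyclic_of_isUnram` : (M2) wrappers.
-/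

set_option linter.unusedSectionVars false

namespace Fermat.Agent.CFT.Local.UnramifiedM2Tower

open Fermat.Agent.CFT.Local Fermat.Agent.CFT.Local.Model Fermat.Agent.CFT.Local.TowerInst
open Fermat.Agent.CFT.Local.Unramified Fermat.Agent.CFT.Local.UnramifiedM2
open IsLocalRing Module Polynomial
open scoped IntermediateField Fermat.Agent.CFT.Local.TowerInst

variable (q : ℕ) [Fact q.Prime]

section Tower

variable (K E M : Type*) [Field K] [Field E] [Field M]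
  [Algebra ℚ_[q] K] [FiniteDimensional ℚ_[q] K]
  [Algebra ℚ_[q] E] [FiniteDimensional ℚ_[q] E]
  [Algebra ℚ_[q] M] [FiniteDimensional ℚ_[q] M]
  [Algebra K E] [Algebra E M] [Algebra K M]
  [IsScalarTower ℚ_[q] K E] [IsScalarTower ℚ_[q] E M] [IsScalarTower ℚ_[q] K M]
  [IsScalarTower K E M]

theorem algebraMap_int_injective : Function.Injective (algebraMap ↥(𝒪 q K) ↥(𝒪 q E)) := by
  intro a b h
  apply Subtype.ext
  apply (algebraMap K E).injective
  exact congrArg Subtype.val h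

/-- (T1) `M/K` unramified ⟹ `E/K` unramified. -/
theorem isUnram_bot (h : IsUnram ↥(𝒪 q K) ↥(𝒪 q M)) : IsUnram ↥(𝒪 q K) ↥(𝒪 q E) :=
  h.of_bot (B := ↥(𝒪 q E)) (algebraMap_int_injective q K E)

/-- (T1) `M/K` unramified ⟹ `M/E` unramified. -/
theorem isUnram_top (h : IsUnram ↥(𝒪 q K) ↥(𝒪 q M)) : IsUnram ↥(𝒪 q E) ↥(𝒪 q M) :=
  h.of_top (B := ↥(𝒪 q E))

/-- (T1) transitivity. -/
theorem isUnram_trans (h1 : IsUnram ↥(𝒪 q K) ↥(𝒪 q E)) (h2 : IsUnram ↥(𝒪 q E) ↥(𝒪 q M)) :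
    IsUnram ↥(𝒪 q K) ↥(𝒪 q M) :=
  h1.trans h2

theorem isUnram_tower_iff :
    IsUnram ↥(𝒪 q K) ↥(𝒪 q M) ↔ IsUnram ↥(𝒪 q K) ↥(𝒪 q E) ∧ IsUnram ↥(𝒪 q E) ↥(𝒪 q M) :=
  ⟨fun h => ⟨isUnram_bot q K E M h, isUnram_top q K E M h⟩,
    fun h => isUnram_trans q K E M h.1 h.2⟩

/-- unramified ⟹ `e = 1` and `f = [E:K]` -/
theorem relResDeg_eq_finrank (h : IsUnram ↥(𝒪 q K) ↥(𝒪 q E)) : relResDeg q K E = finrank K E := by
  have h1 := relRamIdx_mul_relResDeg q K E
  rwa [(isUnram_iff_relRamIdx_eq_one q K E).mp h, one_mul] at h1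

/-- (T2a) FROBENIUS IN TOWERS: `Frob_{M/K}|_E = Frob_{E/K}`. -/
theorem restrictNormalHom_frob_tower
    [FiniteDimensional K E] [FiniteDimensional K M] [IsGalois K E] [IsGalois K M]
    (hKE : IsUnram ↥(𝒪 q K) ↥(𝒪 q E)) (hKM : IsUnram ↥(𝒪 q K) ↥(𝒪 q M)) :
    AlgEquiv.restrictNormalHom E (frob ↥(𝒪 q K) K ↥(𝒪 q M) M hKM) =
      frob ↥(𝒪 q K) K ↥(𝒪 q E) E hKE := by
  have hcard : Nat.card (ResidueField ↥(𝒪 q K)) = Nat.card (ResidueField ↥(𝒪 q K)) ^ 1 :=
    (pow_one _).symm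
  have hj : ∀ b : ↥(𝒪 q E), algebraMap ↥(𝒪 q M) M (algebraMap ↥(𝒪 q E) ↥(𝒪 q M) b) =
      algebraMap E M (algebraMap ↥(𝒪 q E) E b) := fun b => rfl
  have hτ : ∀ x : E, algebraMap E M
      (AlgEquiv.restrictNormalHom E (frob ↥(𝒪 q K) K ↥(𝒪 q M) M hKM) x) =
      frob ↥(𝒪 q K) K ↥(𝒪 q M) M hKM (algebraMap E M x) :=
    fun x => AlgEquiv.restrictNormal_commutes _ E x
  have := frob_restrict (O := ↥(𝒪 q K)) (K := K) (B := ↥(𝒪 q E)) (E := E)
    (O' := ↥(𝒪 q K)) (K' := K) (B' := ↥(𝒪 q M)) (E' := M) hKE hKM (algebraMap E M)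
    (algebraMap ↥(𝒪 q E) ↥(𝒪 q M)) hj 1 hcard _ hτ
  rwa [pow_one] at this

/-- (T2b) FROBENIUS IN TOWERS: `Frob_{M/E} = Frob_{M/K} ^ f(E/K)` in `Gal(M/K)`. -/
theorem restrictScalars_frob_tower
    [FiniteDimensional K M] [FiniteDimensional E M] [IsGalois K M] [IsGalois E M]
    (hKM : IsUnram ↥(𝒪 q K) ↥(𝒪 q M)) (hEM : IsUnram ↥(𝒪 q E) ↥(𝒪 q M)) :
    (frob ↥(𝒪 q E) E ↥(𝒪 q M) M hEM).restrictScalars K =
      frob ↥(𝒪 q K) K ↥(𝒪 q M) M hKM ^ relResDeg q K E :=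
by
  have hj : ∀ b : ↥(𝒪 q M), algebraMap ↥(𝒪 q M) M (RingHom.id ↥(𝒪 q M) b) =
      RingHom.id M (algebraMap ↥(𝒪 q M) M b) := fun b => rfl
  have hτ : ∀ x : M, RingHom.id M
      ((frob ↥(𝒪 q E) E ↥(𝒪 q M) M hEM).restrictScalars K x) =
      frob ↥(𝒪 q E) E ↥(𝒪 q M) M hEM (RingHom.id M x) := fun x => rfl
  exact frob_restrict (O := ↥(𝒪 q K)) (K := K) (B := ↥(𝒪 q M)) (E := M)
    (O' := ↥(𝒪 q E)) (K' := E) (B' := ↥(𝒪 q M)) (E' := M) hKM hEM (RingHom.id M)
    (RingHom.id ↥(𝒪 q M)) hj (relResDeg q K E) (card_residueField_int q K E) _ hτ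

end Tower

section Sup

variable (K : Type*) [Field K] [Algebra ℚ_[q] K] [FiniteDimensional ℚ_[q] K]
  {Ω : Type*} [Field Ω] [Algebra ℚ_[q] Ω] [Algebra K Ω] [IsScalarTower ℚ_[q] K Ω]

/-- `F ⊔ F'` is finite over `ℚ_q` when `F`, `F'` are. -/
theorem finiteDimensional_sup (F F' : IntermediateField K Ω)
    [FiniteDimensional ℚ_[q] ↥F] [FiniteDimensional ℚ_[q] ↥F'] :
    FiniteDimensional ℚ_[q] ↥(F ⊔ F') := by
  have h1 : FiniteDimensional K ↥F := finiteDimensional_top q K ↥F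
  have h2 : FiniteDimensional K ↥F' := finiteDimensional_top q K ↥F'
  exact FiniteDimensional.trans ℚ_[q] K ↥(F ⊔ F')

/-- pure field theory: a square `K ⊆ E, L ⊆ M` in which `M` is generated over `K` by the images
of `E` and `L` is generated over `L` by the image of `E`. -/
theorem adjoin_range_eq_top_of_adjoin_union {K E L M : Type*} [Field K] [Field E] [Field L]
    [Field M] [Algebra K E] [Algebra K L] [Algebra E M] [Algebra L M] [Algebra K M]
    [IsScalarTower K E M] [IsScalarTower K L M]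
    (h : IntermediateField.adjoin K
      (Set.range (algebraMap E M) ∪ Set.range (algebraMap L M)) = ⊤) :
    IntermediateField.adjoin L (Set.range (algebraMap E M)) = ⊤ := by
  apply IntermediateField.restrictScalars_injective K
  rw [IntermediateField.restrictScalars_top, eq_top_iff, ← h, IntermediateField.adjoin_le_iff]
  rintro x (hx | ⟨y, rfl⟩)
  · exact IntermediateField.subset_adjoin L _ hx
  · exact (IntermediateField.adjoin L (Set.range (algebraMap E M))).algebraMap_mem y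

/-- pure field theory: inside `F ⊔ F'`, the field is generated over `F'` by `F`. -/
theorem adjoin_range_inclusion_eq_top {K Ω : Type*} [Field K] [Field Ω] [Algebra K Ω]
    (F F' : IntermediateField K Ω) :
    letI : Algebra ↥F ↥(F ⊔ F') := (IntermediateField.inclusion le_sup_left).toRingHom.toAlgebra
    letI : Algebra ↥F' ↥(F ⊔ F') :=
      (IntermediateField.inclusion le_sup_right).toRingHom.toAlgebra
    IntermediateField.adjoin ↥F' (Set.range (algebraMap ↥F ↥(F ⊔ F'))) = ⊤ := by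
  let : Algebra ↥F ↥(F ⊔ F') := (IntermediateField.inclusion le_sup_left).toRingHom.toAlgebra
  let : Algebra ↥F' ↥(F ⊔ F') := (IntermediateField.inclusion le_sup_right).toRingHom.toAlgebra
  have : IsScalarTower K ↥F ↥(F ⊔ F') := IsScalarTower.of_algebraMap_eq fun _ => rfl
  have : IsScalarTower K ↥F' ↥(F ⊔ F') := IsScalarTower.of_algebraMap_eq fun _ => rfl
  apply adjoin_range_eq_top_of_adjoin_union (K := K)
  apply IntermediateField.lift_injective (F ⊔ F')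
  rw [IntermediateField.lift_adjoin, IntermediateField.lift_top, Set.image_union,
    IntermediateField.adjoin_union]
  have h1 : Subtype.val '' Set.range (algebraMap ↥F ↥(F ⊔ F')) = (F : Set Ω) := by
    ext x
    constructor
    · rintro ⟨_, ⟨y, rfl⟩, rfl⟩
      exact y.2
    · intro hx
      exact ⟨_, ⟨⟨x, hx⟩, rfl⟩, rfl⟩
  have h2 : Subtype.val '' Set.range (algebraMap ↥F' ↥(F ⊔ F')) = (F' : Set Ω) := by
    ext x
    constructor
    · rintro ⟨_, ⟨y, rfl⟩, rfl⟩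
      exact y.2
    · intro hx
      exact ⟨_, ⟨⟨x, hx⟩, rfl⟩, rfl⟩
  rw [h1, h2, IntermediateField.adjoin_self, IntermediateField.adjoin_self]

/-- (T4) BASE CHANGE TO A COMPOSITUM: `F/K` unramified, `L/K` arbitrary ⟹ `(F ⊔ L)/L` is
unramified and Galois (the `L`-algebra structure on `F ⊔ L` is the inclusion). -/
theorem isUnram_sup_right (F L : IntermediateField K Ω)
    [FiniteDimensional ℚ_[q] ↥F] [FiniteDimensional ℚ_[q] ↥L]
    [FiniteDimensional ℚ_[q] ↥(F ⊔ L)]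
    (hur : IsUnram ↥(𝒪 q K) ↥(𝒪 q ↥F)) :
    letI : Algebra ↥L ↥(F ⊔ L) := (IntermediateField.inclusion le_sup_right).toRingHom.toAlgebra
    haveI : IsScalarTower ℚ_[q] ↥L ↥(F ⊔ L) := IsScalarTower.of_algebraMap_eq fun _ => rfl
    IsUnram ↥(𝒪 q ↥L) ↥(𝒪 q ↥(F ⊔ L)) ∧ IsGalois ↥L ↥(F ⊔ L) := by
  let : Algebra ↥F ↥(F ⊔ L) := (IntermediateField.inclusion le_sup_left).toRingHom.toAlgebra
  let : Algebra ↥L ↥(F ⊔ L) := (IntermediateField.inclusion le_sup_right).toRingHom.toAlgebra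
  have : IsScalarTower K ↥F ↥(F ⊔ L) := IsScalarTower.of_algebraMap_eq fun _ => rfl
  have : IsScalarTower K ↥L ↥(F ⊔ L) := IsScalarTower.of_algebraMap_eq fun _ => rfl
  have : IsScalarTower ℚ_[q] ↥F ↥(F ⊔ L) := IsScalarTower.of_algebraMap_eq fun _ => rfl
  have : IsScalarTower ℚ_[q] ↥L ↥(F ⊔ L) := IsScalarTower.of_algebraMap_eq fun _ => rfl
  exact isUnram_baseChange q K ↥F ↥L ↥(F ⊔ L) hur (adjoin_range_inclusion_eq_top F L)

/-- (T3) COMPOSITUM: the compositum of two unramified extensions of `K` inside `Ω` is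
unramified over `K` (and over each of them). -/
theorem isUnram_sup (F F' : IntermediateField K Ω)
    [FiniteDimensional ℚ_[q] ↥F] [FiniteDimensional ℚ_[q] ↥F']
    [FiniteDimensional ℚ_[q] ↥(F ⊔ F')]
    (hur : IsUnram ↥(𝒪 q K) ↥(𝒪 q ↥F)) (hur' : IsUnram ↥(𝒪 q K) ↥(𝒪 q ↥F')) :
    IsUnram ↥(𝒪 q K) ↥(𝒪 q ↥(F ⊔ F')) := by
  let : Algebra ↥F ↥(F ⊔ F') := (IntermediateField.inclusion le_sup_left).toRingHom.toAlgebra
  let : Algebra ↥F' ↥(F ⊔ F') := (IntermediateField.inclusion le_sup_right).toRingHom.toAlgebra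
  have : IsScalarTower K ↥F ↥(F ⊔ F') := IsScalarTower.of_algebraMap_eq fun _ => rfl
  have : IsScalarTower K ↥F' ↥(F ⊔ F') := IsScalarTower.of_algebraMap_eq fun _ => rfl
  have : IsScalarTower ℚ_[q] ↥F ↥(F ⊔ F') := IsScalarTower.of_algebraMap_eq fun _ => rfl
  have : IsScalarTower ℚ_[q] ↥F' ↥(F ⊔ F') := IsScalarTower.of_algebraMap_eq fun _ => rfl
  obtain ⟨h1, -⟩ := isUnram_baseChange q K ↥F ↥F' ↥(F ⊔ F') hur
    (adjoin_range_inclusion_eq_top F F')
  exact hur'.trans h1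

/-- (M2) wrapper: unramified extensions of `q`-adic fields are Galois. -/
theorem isGalois_of_isUnram (E : Type*) [Field E] [Algebra ℚ_[q] E] [FiniteDimensional ℚ_[q] E]
    [Algebra K E] [IsScalarTower ℚ_[q] K E] (hur : IsUnram ↥(𝒪 q K) ↥(𝒪 q E)) : IsGalois K E := by
  have := charZero_field q K
  have := finiteDimensional_top q K E
  exact hur.isGalois (O := ↥(𝒪 q K)) (B := ↥(𝒪 q E))

/-- (M2) wrapper: unramified extensions of `q`-adic fields are cyclic. -/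
theorem isCyclic_of_isUnram (E : Type*) [Field E] [Algebra ℚ_[q] E] [FiniteDimensional ℚ_[q] E]
    [Algebra K E] [IsScalarTower ℚ_[q] K E] (hur : IsUnram ↥(𝒪 q K) ↥(𝒪 q E)) :
    IsCyclic (E ≃ₐ[K] E) := by
  have := charZero_field q K
  have := finiteDimensional_top q K E
  have := isGalois_of_isUnram q K E hur
  exact Unramified.isCyclic_of_isUnram (O := ↥(𝒪 q K)) (K := K) (B := ↥(𝒪 q E)) (L := E) hur

/-- (T3') the degree of the compositum of two unramified extensions is the lcm. -/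
theorem finrank_sup (F F' : IntermediateField K Ω)
    [FiniteDimensional ℚ_[q] ↥F] [FiniteDimensional ℚ_[q] ↥F']
    [FiniteDimensional ℚ_[q] ↥(F ⊔ F')]
    (hur : IsUnram ↥(𝒪 q K) ↥(𝒪 q ↥F)) (hur' : IsUnram ↥(𝒪 q K) ↥(𝒪 q ↥F')) :
    finrank K ↥(F ⊔ F') = Nat.lcm (finrank K ↥F) (finrank K ↥F') := by
  let : Algebra ↥F ↥(F ⊔ F') := (IntermediateField.inclusion le_sup_left).toRingHom.toAlgebra
  let : Algebra ↥F' ↥(F ⊔ F') := (IntermediateField.inclusion le_sup_right).toRingHom.toAlgebra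
  have : IsScalarTower K ↥F ↥(F ⊔ F') := IsScalarTower.of_algebraMap_eq fun _ => rfl
  have : IsScalarTower K ↥F' ↥(F ⊔ F') := IsScalarTower.of_algebraMap_eq fun _ => rfl
  have : IsScalarTower ℚ_[q] ↥F ↥(F ⊔ F') := IsScalarTower.of_algebraMap_eq fun _ => rfl
  have : IsScalarTower ℚ_[q] ↥F' ↥(F ⊔ F') := IsScalarTower.of_algebraMap_eq fun _ => rfl
  have hgen := adjoin_range_inclusion_eq_top F F'
  obtain ⟨h1, hG1⟩ := isUnram_baseChange q K ↥F ↥F' ↥(F ⊔ F') hur hgen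
  have := finiteDimensional_top q K ↥F
  have := finiteDimensional_top q K ↥F'
  have := finiteDimensional_top q ↥F' ↥(F ⊔ F')
  have := isGalois_of_isUnram q K ↥F hur
  have h2 := finrank_baseChange_int q K ↥F ↥F' ↥(F ⊔ F') hur h1 hgen
  rw [relResDeg_eq_finrank q K ↥F' hur'] at h2
  rw [← finrank_mul_finrank K ↥F' ↥(F ⊔ F'), h2, Nat.lcm,
    ← Nat.mul_div_assoc _ (Nat.gcd_dvd_left _ _), mul_comm]

/-- (T5) unramified extensions inside `Ω` are ordered by divisibility of degrees. -/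
theorem le_iff_finrank_dvd (F F' : IntermediateField K Ω)
    [FiniteDimensional ℚ_[q] ↥F] [FiniteDimensional ℚ_[q] ↥F']
    (hur : IsUnram ↥(𝒪 q K) ↥(𝒪 q ↥F)) (hur' : IsUnram ↥(𝒪 q K) ↥(𝒪 q ↥F')) :
    F ≤ F' ↔ finrank K ↥F ∣ finrank K ↥F' := by
  have := finiteDimensional_top q K ↥F
  have := finiteDimensional_top q K ↥F'
  constructor
  · intro h
    let : Algebra ↥F ↥F' := (IntermediateField.inclusion h).toRingHom.toAlgebra
    have : IsScalarTower K ↥F ↥F' := IsScalarTower.of_algebraMap_eq fun _ => rfl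
    exact ⟨_, (finrank_mul_finrank K ↥F ↥F').symm⟩
  · intro h
    apply le_of_isUnram_of_finrank_dvd q K F F' hur
    rwa [relResDeg_eq_finrank q K ↥F' hur']

end Sup

end Fermat.Agent.CFT.Local.UnramifiedM2Tower
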